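import Fermat.Agent.ToricRows.Modular
import Fermat.Agent.XHLite.Glue.GenusCount

/-!
# Every glued pair of `X₀(M w)` at `w` is of thickness one when `X₀(M)` has no elliptic points

At each pair the local ring contains parameters of the two branches whose product is `w`.
-/

set_option autoImplicit false
set_option linter.unusedSectionVars false

noncomputable section

open IsLocalRing AlgebraicCurve ModularCurve Fermat.Agent.FunctionFieldRR
  Fermat.Agent.Reduction Fermat.Agent.SemistableRed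

namespace Fermat.Agent.LevelP

variable {p : ℕ} [hp : Fact p.Prime] {F : Type*} [Field F] {k G : Type*} [Field k] [Field G]
  [Algebra k G]

namespace PrePair

variable [CharP G p] {D : GlueData p F k G} {W : Subring F} {P Q : DVPoint k G} {w : F} {kw : ℕ}

/-- `PrePair.exists_pairData`, remembering the ring. -/
theorem exists_pairData_ring (S : PrePair D W P Q w kw) (hF : (p : F) ≠ 0)
    (hw0 : w ∈ D.Int 0 ∧ D.redF 0 w ≠ 0)
    (hw1 : w * ((p : F) ^ kw)⁻¹ ∈ D.Int 1 ∧ D.redF 1 (w * ((p : F) ^ kw)⁻¹) ≠ 0)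
    (hkw : 0 < kw) {a b : F} (ha : a ∈ S.A) (hb : b ∈ S.A)
    (hP : P.IsUnif (D.redF 0 a)) (ha1 : D.redF 1 a = 0)
    (hQ : Q.IsUnif (D.redF 1 b)) (hb0 : D.redF 0 b = 0) :
    ∃ T : PairData D W P Q w kw, T.A = S.A := by
  by_contra hne
  have step : ∀ n, ∃ a ∈ S.A, ∃ b ∈ S.A, ∃ g ∈ S.A, P.IsUnif (D.redF 0 a) ∧ D.redF 1 a = 0 ∧
      Q.IsUnif (D.redF 1 b) ∧ D.redF 0 b = 0 ∧ a * b = (p : F) ^ (n + 1) * g := by
    intro n
    induction n with
    | zero =>
      obtain ⟨g, hg, hg'⟩ := S.ker (a * b) (mul_mem ha hb)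
        (by rw [D.redF_mul (S.le 0 ha) (S.le 0 hb), hb0, mul_zero])
        (by rw [D.redF_mul (S.le 1 ha) (S.le 1 hb), ha1, zero_mul])
      exact ⟨a, ha, b, hb, g, hg, hP, ha1, hQ, hb0, by rw [hg', zero_add, pow_one]⟩
    | succ n ih =>
      obtain ⟨a, ha, b, hb, g, hg, hP, ha1, hQ, hb0, hab⟩ := ih
      by_cases hv : P.evF (D.redF 0 g) = 0
      · obtain ⟨g1, hg1, g2, hg2, g3, hg3, hdec⟩ := S.exists_decomp ha hb hg hP ha1 hQ hb0 hv
        have hred : ∀ i x z, x ∈ S.A → z ∈ S.A →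
            D.redF i (x - (p : F) ^ (n + 1) * z) = D.redF i x := by
          intro i x z hx hz
          have hm : (p : F) ^ n * z ∈ D.Int i := mul_mem (pow_mem (natCast_mem _ p) _) (S.le i hz)
          rw [show x - (p : F) ^ (n + 1) * z = x + (p : F) * (-((p : F) ^ n * z)) by ring,
            D.redF_add (S.le i hx) (mul_mem (natCast_mem _ p) (neg_mem hm)),
            D.redF_p_mul (neg_mem hm), add_zero]
        have hpm : ∀ z ∈ S.A, (p : F) ^ (n + 1) * z ∈ S.A :=
          fun z hz => mul_mem (pow_mem (natCast_mem _ p) _) hz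
        refine ⟨a - (p : F) ^ (n + 1) * g2, sub_mem ha (hpm g2 hg2),
          b - (p : F) ^ (n + 1) * g1, sub_mem hb (hpm g1 hg1),
          g3 + (p : F) ^ n * (g1 * g2), add_mem hg3 (mul_mem (pow_mem (natCast_mem _ p) _)
            (mul_mem hg1 hg2)), ?_, ?_, ?_, ?_, ?_⟩
        · rw [hred 0 a g2 ha hg2]; exact hP
        · rw [hred 1 a g2 ha hg2]; exact ha1
        · rw [hred 1 b g1 hb hg1]; exact hQ
        · rw [hred 0 b g1 hb hg1]; exact hb0
        · rw [hdec] at hab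
          linear_combination hab
      · exfalso
        have hgi := S.inv_mem g hg hv
        have hg0 : g ≠ 0 := fun h => hv (by rw [h, D.redF_zero, P.evF_zero])
        refine hne ⟨{ S with
          e := n + 1, e_pos := n.succ_pos, a := a * g⁻¹, b := b, a_mem := mul_mem ha hgi,
          b_mem := hb, a_mul_b := ?_, red0_a := ?_, red1_a := ?_, red0_b := hb0, red1_b := hQ }, rfl⟩
        · rw [mul_right_comm, hab, mul_assoc, mul_inv_cancel₀ hg0, mul_one]
        · rw [D.redF_mul (S.le 0 ha) (S.le 0 hgi)]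
          refine hP.mul_unit (S.red0_mem _ hgi) fun h => ?_
          have := congrArg P.evF ((D.redF_mul (S.le 0 hg) (S.le 0 hgi)).symm.trans
            (by rw [mul_inv_cancel₀ hg0, D.redF_one]))
          rw [P.evF_mul (S.red0_mem _ hg) (S.red0_mem _ hgi), h, mul_zero,
            ← map_one (algebraMap k G), P.evF_algebraMap] at this
          exact zero_ne_one this
        · rw [D.redF_mul (S.le 1 ha) (S.le 1 hgi), ha1, zero_mul]
  obtain ⟨a, ha, b, hb, g, hg, hP, ha1, hQ, hb0, hab⟩ := step kw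
  have := S.exponent_le hF hw0 hw1 hkw ha hb hg hP ha1 hQ hb0 hab
  omega


end PrePair

namespace Descent

variable {L : Type*} [Field L] {A : ValuationSubring L} {k : Type*} [Field k] [IsAlgClosed k]
  {π : A →+* k} {F : Type*} [Field F] [Algebra L F] [IsAlgClosed L] [IsFunctionField L F]
  {G : Type*} [Field G] [Algebra k G] [IsFunctionField k G]
  {S : SplitModel A π F G} {p : ℕ} [Fact p.Prime] [CharP G p] {Δ : Descent S p}
  {x : Place k G × Place k G}

/-- `Descent.nonempty_pairData`, remembering the ring. -/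
theorem exists_pairData_pairRing (hx : x ∈ S.pairs) {w : Δ.F₀} {kw m : ℕ} (hkw : 0 < kw)
    (hw : Δ.InLat m w) (hw' : Δ.InLat m ((p : F) ^ kw * (w : F)⁻¹))
    (hw0 : S.red 0 (w : F) ≠ 0)
    (hw1 : w * ((p : Δ.F₀) ^ kw)⁻¹ ∈ Δ.glueData.Int 1 ∧
      Δ.glueData.redF 1 (w * ((p : Δ.F₀) ^ kw)⁻¹) ≠ 0) :
    ∃ T : PairData Δ.glueData Δ.W (DVPoint.ofPlace x.1) (DVPoint.ofPlace x.2) w kw,
      T.A = Δ.pairRing hx := by
  set P := DVPoint.ofPlace x.1
  set Q := DVPoint.ofPlace x.2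
  let T := Δ.prePair hx hw hw'
  have hu : ∀ R : DVPoint k G, R.IsUnif R.unif := fun R =>
    ⟨1, by rw [map_one]; exact one_ne_zero, by simp⟩
  obtain ⟨a, ha, ha0, ha1⟩ := T.surj P.unif P.unif_mem 0 (zero_mem _)
    (by rw [(hu P).evF_eq_zero, Q.evF_zero])
  obtain ⟨b, hb, hb0, hb1⟩ := T.surj 0 (zero_mem _) Q.unif Q.unif_mem
    (by rw [(hu Q).evF_eq_zero, P.evF_zero])
  exact T.exists_pairData_ring (fun h => Δ.natCast_F_ne (congrArg Subtype.val h))
    ⟨hw.2.1 0, by rw [Δ.glueData_redF (hw.2.1 0)]; exact hw0⟩ hw1 hkw ha hb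
    (ha0 ▸ hu P) ha1 (hb1 ▸ hu Q) hb0

/-- Parameters from pair data of exponent one. -/
theorem pairRing_params (hx : x ∈ S.pairs) {w : Δ.F₀} {kw : ℕ}
    (T : PairData Δ.glueData Δ.W (DVPoint.ofPlace x.1) (DVPoint.ofPlace x.2) w kw)
    (hT : T.A = Δ.pairRing hx) (he : T.e = 1) :
    ∃ a ∈ Δ.pairRing hx, ∃ b ∈ Δ.pairRing hx, a * b = (p : Δ.F₀) ∧
      x.1.ord (Δ.glueData.redF 0 a) = 1 ∧ Δ.glueData.redF 1 a = 0 ∧
      Δ.glueData.redF 0 b = 0 ∧ x.2.ord (Δ.glueData.redF 1 b) = 1 :=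
  ⟨T.a, hT ▸ T.a_mem, T.b, hT ▸ T.b_mem, by rw [T.a_mul_b, he, pow_one],
    by rw [← ofPlace_ord]; exact T.red0_a.ord_eq_one, T.red1_a, T.red0_b,
    by rw [← ofPlace_ord]; exact T.red1_b.ord_eq_one⟩

end Descent

end Fermat.Agent.LevelP

namespace Fermat.Agent.SquareOld.Geom

local notation "Qbar" => AlgebraicClosure ℚ

theorem nu_mul_eq_zero {M : ℕ} (w : ℕ) (hν : nuTwo M = 0 ∧ nuThree M = 0) :
    nuTwo (M * w) = 0 ∧ nuThree (M * w) = 0 := by
  have hd : M ∣ M * w := dvd_mul_right _ _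
  rcases Nat.eq_zero_or_pos M with rfl | hM
  · rwa [zero_mul]
  have : NeZero M := ⟨hM.ne'⟩
  constructor
  · rw [nuTwo, Nat.card_eq_zero]
    refine Or.inl ⟨fun x => ?_⟩
    have h := (Nat.card_eq_zero.mp hν.1).resolve_right (not_infinite_iff_finite.mpr inferInstance)
    refine h.elim ⟨ZMod.castHom hd (ZMod M) x.1, ?_⟩
    have h1 := congrArg (ZMod.castHom hd (ZMod M)) x.2
    rwa [map_add, map_pow, map_one, map_zero] at h1
  · rw [nuThree, Nat.card_eq_zero]
    refine Or.inl ⟨fun x => ?_⟩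
    have h := (Nat.card_eq_zero.mp hν.2).resolve_right (not_infinite_iff_finite.mpr inferInstance)
    refine h.elim ⟨ZMod.castHom hd (ZMod M) x.1, ?_⟩
    have h1 := congrArg (ZMod.castHom hd (ZMod M)) x.2
    rwa [map_add, map_add, map_pow, map_one, map_zero] at h1

/-- Without elliptic points `12` times the number of supersingular points is `(w - 1) ψ(M)`. -/
theorem twelve_mul_count {M w : ℕ} [NeZero M] [NeZero w] (hw : w.Prime) (hwM : ¬ w ∣ M)
    (hν : nuTwo M = 0 ∧ nuThree M = 0) :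
    12 * ((genus0 (M * w) : ℤ) + 1 - 2 * genus0 M) = ((w : ℤ) - 1) * dedekindPsi M := by
  obtain ⟨h2, h3⟩ := nu_mul_eq_zero w hν
  have key : (12 : ℚ) * ((genus0 (M * w) : ℚ) + 1 - 2 * genus0 M) =
      ((w : ℚ) - 1) * dedekindPsi M := by
    rw [XHLite.genus0_eq qbarToComplex, XHLite.genus0_eq qbarToComplex, genusFormula, genusFormula,
      hν.1, hν.2, h2, h3, XHLite.cuspCount_mul_prime hw hwM,
      Igusa.dedekindPsi_mul_prime_of_not_dvd hw hwM]
    push_cast
    ring
  rw [← Int.cast_inj (α := ℚ)]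
  push_cast
  exact key

variable {A : ValuationSubring (AlgebraicClosure ℚ)} {M w : ℕ} [NeZero M] [NeZero w]
  [Fact w.Prime] [CharP (ResidueField A) w] [IsAlgClosed (ResidueField A)] (S : Setting A M w)
  [IsFunctionField Qbar (modularFunctionFieldBar (M * w))]
  [IsFunctionField (ResidueField A) (modularFunctionFieldFullC (ResidueField A) M)]
  [CharP (modularFunctionFieldFullC (ResidueField A) M) w]

/-- **Thickness one**: parameters of the branches with product `w`. -/
theorem exists_pair_params (hν : nuTwo M = 0 ∧ nuThree M = 0) {x} (hx : x ∈ S.splitModel.pairs) :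
    ∃ a ∈ (LevelP.descent S).pairRing hx, ∃ b ∈ (LevelP.descent S).pairRing hx,
      a * b = (w : (LevelP.descent S).F₀) ∧
      x.1.ord ((LevelP.descent S).glueData.redF 0 a) = 1 ∧
      (LevelP.descent S).glueData.redF 1 a = 0 ∧
      (LevelP.descent S).glueData.redF 0 b = 0 ∧
      x.2.ord ((LevelP.descent S).glueData.redF 1 b) = 1 := by
  obtain ⟨U⟩ := LevelP.nonempty_levelUnit S
  obtain ⟨h1, h2⟩ := LevelP.unit_inLat S U
  set Δ := LevelP.descent S with hΔ
  have hint : S.splitModel.Int 1 (((⟨U.w, LevelP.unit_mem_fixed S U⟩ : Δ.F₀) *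
      ((w : Δ.F₀) ^ 12)⁻¹ : Δ.F₀) : modularFunctionFieldBar (M * w)) := by
    push_cast; exact U.int1_div
  obtain ⟨T, hT⟩ := LevelP.Descent.exists_pairData_pairRing (Δ := Δ) hx
    (w := ⟨U.w, LevelP.unit_mem_fixed S U⟩) (by norm_num) h1 h2 U.red0_ne ⟨hint, by
      rw [Δ.glueData_redF hint]
      push_cast
      exact U.red1_div_ne⟩
  exact LevelP.Descent.pairRing_params hx T hT
    (ToricRows.pairData_e_eq_one S (twelve_mul_count S.prime S.not_dvd hν) U hx T)

end Fermat.Agent.SquareOld.Geom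

end
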