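import Fermat.Agent.SquareOld.Geom.ThetaSeries
import Fermat.Agent.LevelP.Inst.Unit

/-!
# The derivative of `j` at the cusps

`(θ j / j) ^ (w - 1)` has order zero at every pole of `j̄`.
-/

set_option autoImplicit false

noncomputable section

open IsLocalRing ModularCurve AlgebraicCurve Fermat.Agent.Reduction Fermat.Agent.SemistableRed
  Fermat.Agent.FunctionFieldRR

namespace Fermat.Agent.SquareOld.Geom

open LevelP (theta)
open XHLite (kSer unitSer deltaUnit)

variable {A : ValuationSubring (AlgebraicClosure ℚ)} {M w : ℕ} [NeZero M] [NeZero w]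
  [Fact w.Prime] [CharP (ResidueField A) w] [IsAlgClosed (ResidueField A)] (S : Setting A M w)

local notation "GG" => modularFunctionFieldFullC (ResidueField A) M
local notation "kS" => LaurentSeries (ResidueField A)

omit [IsAlgClosed (ResidueField A)] in
/-- The series of the unit inverts the power of `Δ̄`. -/
theorem kSer_unitSer_mul :
    kSer A (unitSer w) * kSer A deltaUnit ^ (w - 1) = 1 := by
  have hne : kSer A deltaUnit ≠ 0 :=
    (deltaUnit.isUnit.map (coeffMap (Int.castRingHom (ResidueField A)))).ne_zero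
  have h : kSer A (unitSer w) * kSer A deltaUnit ^ w = kSer A deltaUnit := by
    rw [kSer, kSer, ← XHLite.coeffMap_expandUnit_char, ← map_mul, ← Units.val_mul, unitSer,
      inv_mul_cancel_right]
  refine mul_right_cancel₀ hne ?_
  rw [one_mul, mul_assoc, ← pow_succ, Nat.sub_add_cancel (NeZero.pos w)]
  exact h

/-- The power of the derivative of `j̄`, against the unit. -/
theorem theta_pow_mul_unit :
    theta (jqModC (ResidueField A)) ^ (6 * (w - 1)) * kSer A (unitSer w) =
      (jqModC (ResidueField A) ^ 4 * (jqModC (ResidueField A) - 1728) ^ 3) ^ (w - 1) := by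
  rw [pow_mul, thetaJ_identity_ring, mul_pow, mul_assoc]
  show _ * (kSer A deltaUnit ^ (w - 1) * _) = _
  rw [mul_comm (kSer A deltaUnit ^ (w - 1)), kSer_unitSer_mul, mul_one]

/-- **At a cusp `(θ j̄ / j̄) ^ (w - 1)` has order zero.** -/
theorem ord_theta_cusp [IsFunctionField (ResidueField A) ↥GG]
    (P : Place (ResidueField A) ↥GG) (hC : 0 < S.polesC P) (h : ↥GG)
    (hh : (h : kS) = (theta (jqModC (ResidueField A)) / jqModC (ResidueField A)) ^ (w - 1)) :
    h ≠ 0 ∧ P.ord h = 0 := by
  have ho := S.ord_jbar_neg hC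
  obtain ⟨U⟩ := LevelP.nonempty_levelUnit S
  set a : ↥GG := S.splitModel.red 0 U.w
  have hj0 : jbar (ResidueField A) M ≠ 0 := fun e => by rw [e, P.ord_zero] at ho; omega
  have hj0' : jqModC (ResidueField A) ≠ 0 := jqModC_ne_zero_of_nontrivial _
  have hs := ord_sub_algebraMap_of_neg P ho (1728 : ResidueField A)
  have hs0 : jbar (ResidueField A) M - algebraMap _ ↥GG (1728 : ResidueField A) ≠ 0 := fun e => by
    rw [e, P.ord_zero] at hs; omega
  have key : h ^ 6 * a * jbar (ResidueField A) M ^ (4 * (w - 1)) * jbar (ResidueField A) M ^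
      (2 * (w - 1)) = jbar (ResidueField A) M ^ (4 * (w - 1)) *
      (jbar (ResidueField A) M - algebraMap _ ↥GG (1728 : ResidueField A)) ^ (3 * (w - 1)) := by
    refine Subtype.ext ?_
    simp only [MulMemClass.coe_mul, SubmonoidClass.coe_pow, AddSubgroupClass.coe_sub, map_ofNat]
    rw [hh, show ((a : ↥GG) : kS) = kSer A (unitSer w) from U.red0,
      show ((jbar (ResidueField A) M : ↥GG) : kS) = jqModC (ResidueField A) from rfl,
      show (((1728 : ↥GG)) : kS) = 1728 from map_ofNat (GG).val 1728, ← pow_mul, div_pow,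
      show (w - 1) * 6 = 4 * (w - 1) + 2 * (w - 1) by ring, pow_add,
      div_mul_eq_mul_div, div_mul_eq_mul_div, div_mul_eq_mul_div, mul_assoc _ (_ ^ (4 * (w - 1))),
      mul_div_assoc, ← pow_add (jqModC (ResidueField A)), div_self (pow_ne_zero _ hj0'), mul_one,
      ← pow_add, show 4 * (w - 1) + 2 * (w - 1) = 6 * (w - 1) by ring, theta_pow_mul_unit,
      mul_pow, ← pow_mul, ← pow_mul]
  have hh0 : h ≠ 0 := fun e => by
    rw [e, zero_pow (by norm_num), zero_mul, zero_mul, zero_mul] at key
    exact mul_ne_zero (pow_ne_zero _ hj0) (pow_ne_zero _ hs0) key.symm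
  refine ⟨hh0, ?_⟩
  have ha : a ≠ 0 := U.red0_ne
  have h1 := congrArg P.ord key
  rw [P.ord_mul (mul_ne_zero (mul_ne_zero (pow_ne_zero _ hh0) ha) (pow_ne_zero _ hj0))
      (pow_ne_zero _ hj0), P.ord_mul (mul_ne_zero (pow_ne_zero _ hh0) ha) (pow_ne_zero _ hj0),
    P.ord_mul (pow_ne_zero _ hh0) ha, P.ord_mul (pow_ne_zero _ hj0) (pow_ne_zero _ hs0),
    ord_pow, ord_pow, ord_pow, ord_pow, hs, U.ord_red0 P ho] at h1
  push_cast [Nat.cast_sub (NeZero.one_le : 1 ≤ w)] at h1
  linarith

end Fermat.Agent.SquareOld.Geom
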