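import Fermat.Agent.X0Analytic.Genus
import Fermat.Agent.MazurPrinciple.TDiv

/-!
# Ramification of `j̄` over `0` and `1728` when `X₀(M)` has no elliptic points

The divisor of `j - a` specialises to that of `j̄ - ā`, and poles go to poles.
-/

set_option autoImplicit false
set_option linter.unusedSectionVars false

noncomputable section

open IsLocalRing ModularCurve AlgebraicCurve Fermat.Agent.FunctionFieldRR Fermat.Agent.Reduction
  Fermat.Agent.SemistableRed

namespace Fermat.Agent.SquareOld.Geom

local notation "Qbar" => AlgebraicClosure ℚ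

theorem dvd_ord_zero_of_nuThree {N : ℕ} [NeZero N] (h : nuThree N = 0)
    (P : Place Qbar ↥(modularFunctionFieldBar N))
    (hP : 0 < P.ord (Reduction.jBar N - algebraMap Qbar ↥(modularFunctionFieldBar N) 0)) :
    (3 : ℤ) ∣ P.ord (Reduction.jBar N - algebraMap Qbar ↥(modularFunctionFieldBar N) 0) := by
  rw [← SemistableRed.jEl_eq_jBar N] at hP ⊢
  obtain ⟨pl, hpl⟩ := X0Analytic.exists_places_zero (N := N) (L := Qbar) qbarToComplex
  obtain ⟨s, rfl⟩ := hpl.2.2.2.2 P hP
  refine dvd_of_eq ?_
  rw [hpl.2.1 s]
  rcases (Nat.dvd_prime Nat.prime_three).mp (X0Analytic.period_dvd X0Analytic.ST_pow_three s)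
    with he | he
  · have hfix : (ModularGroup.S * ModularGroup.T) • s = s := by
      simpa [X0Analytic.cosetPerm_apply, Function.IsFixedPt] using
        Function.minimalPeriod_eq_one_iff_isFixedPt.mp he
    rw [← Gamma0Count.card_fixedBy_ST, Nat.card_eq_zero] at h
    exact ((h.resolve_right (not_infinite_iff_finite.mpr inferInstance)).false ⟨s, hfix⟩).elim
  · rw [he]; rfl

theorem dvd_ord_1728_of_nuTwo {N : ℕ} [NeZero N] (h : nuTwo N = 0)
    (P : Place Qbar ↥(modularFunctionFieldBar N))
    (hP : 0 < P.ord (Reduction.jBar N - algebraMap Qbar ↥(modularFunctionFieldBar N) 1728)) :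
    (2 : ℤ) ∣ P.ord (Reduction.jBar N - algebraMap Qbar ↥(modularFunctionFieldBar N) 1728) := by
  rw [← SemistableRed.jEl_eq_jBar N] at hP ⊢
  obtain ⟨pl, hpl⟩ := X0Analytic.exists_places_1728 (N := N) (L := Qbar) qbarToComplex
  obtain ⟨s, rfl⟩ := hpl.2.2.2.2 P hP
  refine dvd_of_eq ?_
  rw [hpl.2.1 s]
  rcases (Nat.dvd_prime Nat.prime_two).mp (X0Analytic.period_dvd X0Analytic.S_pow_two s)
    with he | he
  · have hfix : ModularGroup.S • s = s := by
      simpa [X0Analytic.cosetPerm_apply, Function.IsFixedPt] using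
        Function.minimalPeriod_eq_one_iff_isFixedPt.mp he
    rw [← Gamma0Count.card_fixedBy_S, Nat.card_eq_zero] at h
    exact ((h.resolve_right (not_infinite_iff_finite.mpr inferInstance)).false ⟨s, hfix⟩).elim
  · rw [he]; rfl

variable {A : ValuationSubring (AlgebraicClosure ℚ)} {M w : ℕ} [NeZero M] [NeZero w]
  [Fact w.Prime] [CharP (ResidueField A) w] [IsAlgClosed (ResidueField A)] (S : Setting A M w)
  [IsFunctionField (ResidueField A) (modularFunctionFieldFullC (ResidueField A) M)]

local notation "GG" => modularFunctionFieldFullC (ResidueField A) M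

include S in
theorem jbar_sub_ne (c : ResidueField A) :
    jbar (ResidueField A) M - algebraMap (ResidueField A) ↥GG c ≠ 0 := fun h => by
  have ht : Transcendental (ResidueField A) (jbar (ResidueField A) M) :=
    transcendental_jC (ResidueField A) M
  exact ht (sub_eq_zero.mp h ▸ isAlgebraic_algebraMap c)

include S in
/-- Multiples are preserved by specialisation of the fibres of `j`. -/
theorem fibre_dvd (a : A) (e : ℤ)
    (h : ∀ P : Place Qbar ↥(modularFunctionFieldBar M),
      0 < P.ord (Reduction.jBar M - algebraMap Qbar ↥(modularFunctionFieldBar M) (a : Qbar)) →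
        e ∣ P.ord (Reduction.jBar M - algebraMap Qbar ↥(modularFunctionFieldBar M) (a : Qbar)))
    (Q : Place (ResidueField A) ↥GG)
    (hQ : 0 < Q.ord (jbar (ResidueField A) M - algebraMap (ResidueField A) ↥GG (residue A a))) :
    e ∣ Q.ord (jbar (ResidueField A) M - algebraMap (ResidueField A) ↥GG (residue A a)) := by
  classical
  have := isFunctionField_level M
  have := finiteDimensional_jBar M
  have : HasPrincipalDivisors Qbar (modularFunctionFieldBar M) := hasPrincipalDivisors
  have : HasPrincipalDivisors (ResidueField A) GG := hasPrincipalDivisors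
  obtain ⟨R⟩ := MazurPrinciple.exists_redMap S
  set j := Reduction.jBar M
  set x := j - algebraMap Qbar ↥(modularFunctionFieldBar M) (a : Qbar) with hx
  set jb := jbar (ResidueField A) M
  set y := jb - algebraMap (ResidueField A) ↥GG (residue A a) with hy
  obtain ⟨hxi, hxr⟩ := S.model.isInt_sub S.isInt_jBar.1 (S.model.isInt_const a.2).1
  rw [S.isInt_jBar.2, (S.model.isInt_const a.2).2] at hxr
  have hy0 : y ≠ 0 := jbar_sub_ne S _
  have hspec := R.spec x hxi (by rw [hxr]; exact hy0)
  rw [hxr] at hspec
  set D := polarDivisor (K := Qbar) j with hD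
  set E := polarDivisor (K := ResidueField A) jb with hE
  have hpolx : ∀ P, D P = max (-P.ord x) 0 := fun P => by
    rw [hD, polarDivisor_apply]
    rcases lt_or_ge (P.ord j) 0 with hn | hn
    · rw [hx, ord_sub_algebraMap_of_neg P hn]
    · have := ord_sub_algebraMap_nonneg P hn (a : Qbar)
      rw [← hx] at this
      omega
  have hpoly : ∀ P, E P = max (-P.ord y) 0 := fun P => by
    rw [hE, polarDivisor_apply]
    rcases lt_or_ge (P.ord jb) 0 with hn | hn
    · rw [hy, ord_sub_algebraMap_of_neg P hn]
    · have := ord_sub_algebraMap_nonneg P hn (residue A a)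
      rw [← hy] at this
      omega
  let Z : Divisor Qbar ↥(modularFunctionFieldBar M) := dvs (K := Qbar) x + D
  have hZ : ∀ P, Z P = max (P.ord x) 0 := fun P => by
    show (dvs (K := Qbar) x + D) P = _
    rw [Finsupp.add_apply, dvs_apply, hpolx]
    omega
  have hnn : ∀ (D' : Divisor Qbar ↥(modularFunctionFieldBar M)), (∀ P, 0 ≤ D' P) →
      ∀ P', 0 ≤ Finsupp.mapDomain R.toFun D' P' := fun D' hD' P' => by
    rw [Finsupp.mapDomain, Finsupp.sum_apply]
    refine Finsupp.sum_nonneg fun P _ => ?_
    rw [Finsupp.single_apply]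
    split_ifs
    · exact hD' P
    · exact le_rfl
  have hmap : Finsupp.mapDomain R.toFun Z =
      dvs (K := ResidueField A) y + Finsupp.mapDomain R.toFun D := by
    rw [show Z = dvs (K := Qbar) x + D from rfl, Finsupp.mapDomain_add, hspec]
  have hX : Finsupp.mapDomain R.toFun D - E = 0 := by
    refine Reduction.eq_zero_of_degree_eq_zero (Finsupp.le_def.mpr fun P => ?_) ?_
    · rw [Finsupp.zero_apply, Finsupp.sub_apply, hpoly]
      have h1 := hnn Z (fun P => by rw [hZ]; exact le_max_right _ _) P
      have h2 := hnn D (fun P => by rw [hpolx]; exact le_max_right _ _) P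
      rw [hmap, Finsupp.add_apply, dvs_apply] at h1
      omega
    · rw [map_sub, GoodModel.ReductionMap.degree_map, hD, degree_polarDivisor (transcendental_jBar M),
        hE, S.degree_polar_jbar]
      erw [finrank_jBar]
      exact sub_self _
  have hQv : Finsupp.mapDomain R.toFun Z Q = Q.ord y := by
    rw [hmap, sub_eq_zero.mp hX, Finsupp.add_apply, dvs_apply, hpoly]
    omega
  let Z' : Divisor Qbar ↥(modularFunctionFieldBar M) := Z.mapRange (· / e) (Int.zero_ediv _)
  have hZe : Z = e • Z' := Finsupp.ext fun P => by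
    rw [Finsupp.smul_apply, smul_eq_mul, show Z' P = Z P / e from rfl, Int.mul_ediv_cancel']
    rw [hZ]
    rcases le_or_gt (P.ord x) 0 with h0 | h0
    · rw [max_eq_right h0]; exact dvd_zero _
    · rw [max_eq_left h0.le]; exact h P h0
  rw [← hQv, hZe, Finsupp.mapDomain_smul, Finsupp.smul_apply, smul_eq_mul]
  exact dvd_mul_right _ _

include S in
/-- Over `0`. -/
theorem three_dvd_ord_jbar (hν : nuThree M = 0) (Q : Place (ResidueField A) ↥GG)
    (hQ : 0 < Q.ord (jbar (ResidueField A) M)) : (3 : ℤ) ∣ Q.ord (jbar (ResidueField A) M) := by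
  have e : jbar (ResidueField A) M - algebraMap (ResidueField A) ↥GG (residue A 0) =
      jbar (ResidueField A) M := by simp
  rw [← e] at hQ ⊢
  exact fibre_dvd S 0 3 (by simpa using dvd_ord_zero_of_nuThree hν) Q hQ

include S in
/-- Over `1728`. -/
theorem two_dvd_ord_jbar_sub (hν : nuTwo M = 0) (Q : Place (ResidueField A) ↥GG)
    (hQ : 0 < Q.ord (jbar (ResidueField A) M - 1728)) :
    (2 : ℤ) ∣ Q.ord (jbar (ResidueField A) M - 1728) := by
  have e : jbar (ResidueField A) M - algebraMap (ResidueField A) ↥GG (residue A (1728 : A)) =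
      jbar (ResidueField A) M - 1728 := by rw [map_ofNat, map_ofNat]
  rw [← e] at hQ ⊢
  refine fibre_dvd S 1728 2 ?_ Q hQ
  have hc : (((1728 : A)) : Qbar) = 1728 := map_ofNat A.subtype 1728
  simpa [hc] using dvd_ord_1728_of_nuTwo hν

end Fermat.Agent.SquareOld.Geom

end
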