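import Fermat.Agent.SquareOld.Geom.ThetaSeries
import Fermat.Agent.SquareOld.Geom.FibreMult
import Fermat.Agent.MazurPrinciple.Component

/-!
# The order of `(θ g) ^ (w - 1)` on the component when `X₀(M)` has no elliptic points

With `v` the reduced unit, `((θ j̄) ^ (w - 1)) ^ 6 v = j̄ ^ (4 (w - 1)) (j̄ - 1728) ^ (3 (w - 1))`.
Away from the supersingular places `v` is a unit, so `(θ g) ^ (w - 1)` is a unit for a
uniformiser `g`. (At a pole of `j̄` see `Geom/ThetaCusp`.)
-/

set_option autoImplicit false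
set_option linter.unusedSectionVars false

noncomputable section

open IsLocalRing ModularCurve AlgebraicCurve Fermat.Agent.FunctionFieldRR Fermat.Agent.Reduction
  Fermat.Agent.SemistableRed

namespace Fermat.Agent.SquareOld.Geom

open LevelP (theta theta_mul theta_one theta_single_zero)

local notation "Qbar" => AlgebraicClosure ℚ

theorem theta_pow_succ {R : Type*} [CommRing R] (x : LaurentSeries R) (n : ℕ) :
    theta (x ^ (n + 1)) = ((n + 1 : ℕ) : LaurentSeries R) * x ^ n * theta x := by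
  induction n with
  | zero => simp
  | succ n ih => rw [pow_succ x (n + 1), theta_mul, ih]; push_cast; ring

variable {A : ValuationSubring (AlgebraicClosure ℚ)} {M w : ℕ} [NeZero M] [NeZero w]
  [Fact w.Prime] [CharP (ResidueField A) w] [IsAlgClosed (ResidueField A)] (S : Setting A M w)

local notation "kS" => LaurentSeries (ResidueField A)
local notation "GG" => modularFunctionFieldFullC (ResidueField A) M
local notation "jb" => jbar (ResidueField A) M

theorem coe_jbar' : ((jb : ↥GG) : kS) = jqModC (ResidueField A) := rfl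

theorem coe_algebraMap_single (c : ResidueField A) :
    ((algebraMap (ResidueField A) ↥GG c : ↥GG) : kS) = HahnSeries.single 0 c := by
  rw [IntermediateField.coe_algebraMap_apply, algebraMap_laurentSeries_eq_single]

/-- The identity for the reduced unit. -/
theorem coe_unit_identity (U : LevelP.LevelUnit S) :
    (theta (jqModC (ResidueField A)) ^ (w - 1)) ^ 6 *
        (S.splitModel.red 0 U.w : kS) =
      (((jb : ↥GG) ^ (4 * (w - 1)) * (jb - 1728) ^ (3 * (w - 1)) : ↥GG) : kS) := by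
  have hw : w = (w - 1) + 1 := (Nat.sub_add_cancel (Fact.out : w.Prime).one_le).symm
  set d : kS := coeffMap (Int.castRingHom (ResidueField A)) (XHLite.deltaUnit : LaurentSeries ℤ)
  have hd : d ≠ 0 := (XHLite.deltaUnit.isUnit.map _).ne_zero
  have hv : XHLite.kSer A (XHLite.unitSer w) * d ^ w = d := by
    simp only [XHLite.kSer, d]
    rw [← XHLite.coeffMap_expandUnit_char, ← map_mul, ← Units.val_mul, XHLite.unitSer,
      inv_mul_cancel_right]
  have hv1 : XHLite.kSer A (XHLite.unitSer w) * d ^ (w - 1) = 1 := by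
    refine mul_right_cancel₀ hd ?_
    rw [one_mul, mul_assoc, ← pow_succ, ← hw]
    exact hv
  rw [U.red0, MulMemClass.coe_mul, SubmonoidClass.coe_pow, SubmonoidClass.coe_pow,
    AddSubgroupClass.coe_sub, coe_jbar', ← pow_mul, mul_comm (w - 1) 6, pow_mul,
    thetaJ_identity_ring, mul_pow, mul_pow, ← pow_mul, ← pow_mul]
  rw [show (((1728 : ↥GG)) : kS) = 1728 from map_ofNat (IntermediateField.val GG) 1728]
  linear_combination (jqModC (ResidueField A) ^ (4 * (w - 1)) *
    (jqModC (ResidueField A) - 1728) ^ (3 * (w - 1))) * hv1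

/-- In characteristics `2` and `3` the reduced unit is a power of `j̄`. -/
theorem coe_unit_small (U : LevelP.LevelUnit S) (h : (240 : ResidueField A) = 0) :
    (S.splitModel.red 0 U.w : kS) = (((jb : ↥GG) ^ (w - 1) : ↥GG) : kS) := by
  have hw : w = (w - 1) + 1 := (Nat.sub_add_cancel (Fact.out : w.Prime).one_le).symm
  set d : kS := coeffMap (Int.castRingHom (ResidueField A)) (XHLite.deltaUnit : LaurentSeries ℤ)
  have hd : d ≠ 0 := (XHLite.deltaUnit.isUnit.map _).ne_zero
  have hv : XHLite.kSer A (XHLite.unitSer w) * d ^ w = d := by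
    simp only [XHLite.kSer, d]
    rw [← XHLite.coeffMap_expandUnit_char, ← map_mul, ← Units.val_mul, XHLite.unitSer,
      inv_mul_cancel_right]
  have hjd : jqModC (ResidueField A) * d = 1 := jq_mul_delta _ h
  rw [U.red0, SubmonoidClass.coe_pow, coe_jbar']
  refine mul_right_cancel₀ (pow_ne_zero w hd) ?_
  rw [hv]
  calc d = (jqModC (ResidueField A) * d) ^ (w - 1) * d := by rw [hjd, one_pow, one_mul]
    _ = _ := by rw [mul_pow, mul_assoc, ← pow_succ, ← hw]

include S in
theorem natCast_1728_ne (hw5 : 5 ≤ w) : (1728 : ResidueField A) ≠ 0 := by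
  intro h
  have hdvd : w ∣ 2 ^ 6 * 3 ^ 3 := (CharP.cast_eq_zero_iff (ResidueField A) w _).mp
    (by push_cast; exact h)
  rcases S.prime.dvd_mul.mp hdvd with h2 | h3
  · have := (Nat.prime_dvd_prime_iff_eq S.prime Nat.prime_two).mp (S.prime.dvd_of_dvd_pow h2)
    omega
  · have := (Nat.prime_dvd_prime_iff_eq S.prime Nat.prime_three).mp (S.prime.dvd_of_dvd_pow h3)
    omega

variable [IsFunctionField (ResidueField A) (modularFunctionFieldFullC (ResidueField A) M)]
  [HasPrincipalDivisors (ResidueField A) (modularFunctionFieldFullC (ResidueField A) M)]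
  [CharP (modularFunctionFieldFullC (ResidueField A) M) w]

/-- The order of `(θ j̄) ^ (w - 1)`. -/
theorem ord_theta_jbar (U : LevelP.LevelUnit S) {h : ↥GG}
    (hh : (h : kS) = theta (jqModC (ResidueField A)) ^ (w - 1))
    (P : Place (ResidueField A) ↥GG) (h1728 : (jb - 1728 : ↥GG) ≠ 0) :
    h ≠ 0 ∧ 6 * P.ord h + P.ord (S.splitModel.red 0 U.w) =
      ((w - 1 : ℕ) : ℤ) * (4 * P.ord jb + 3 * P.ord (jb - 1728)) := by
  have e : h ^ 6 * S.splitModel.red 0 U.w = jb ^ (4 * (w - 1)) * (jb - 1728) ^ (3 * (w - 1)) :=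
    Subtype.ext (by rw [MulMemClass.coe_mul, SubmonoidClass.coe_pow, hh, coe_unit_identity S U])
  have hj : (jb : ↥GG) ≠ 0 := by simpa using jbar_sub_ne S (M := M) 0
  have hne : h ≠ 0 := fun h0 => by
    rw [h0, zero_pow (by decide), zero_mul] at e
    exact mul_ne_zero (pow_ne_zero _ hj) (pow_ne_zero _ h1728) e.symm
  refine ⟨hne, ?_⟩
  have := congrArg P.ord e
  rw [P.ord_mul (pow_ne_zero _ hne) U.red0_ne, P.ord_mul (pow_ne_zero _ hj) (pow_ne_zero _ h1728),
    ord_pow, ord_pow, ord_pow] at this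
  push_cast at this
  linarith

set_option maxHeartbeats 1600000 in
/-- **At a place away from the supersingular ones `(θ g) ^ (w - 1)` is a unit for a
uniformiser `g`.** -/
theorem ord_theta_unif (hν : nuTwo M = 0 ∧ nuThree M = 0) (P : Place (ResidueField A) ↥GG)
    (hC : S.polesC P = 0) (hP : P ∉ LevelP.Descent.pairPoints S.splitModel 0)
    (hdiv : ∀ z z' : ↥GG, theta (z' : kS) ≠ 0 → theta (z : kS) / theta (z' : kS) ∈ GG)
    (hpow : ∀ z : ↥GG, 0 ≤ P.ord z →
      ∃ h : ↥GG, (h : kS) = theta (z : kS) ^ (w - 1) ∧ 0 ≤ P.ord h)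
    (g h : ↥GG) (hg : P.ord g = 1) (hh : (h : kS) = theta (g : kS) ^ (w - 1)) :
    h ≠ 0 ∧ P.ord h = 0 := by
  obtain ⟨U⟩ := LevelP.nonempty_levelUnit S
  have hv : P.ord (S.splitModel.red 0 U.w) = 0 := MazurPrinciple.ord_unit_smooth U hP hC
  have hj0 : 0 ≤ P.ord jb := S.ord_jbar_nonneg hC
  obtain ⟨cv, hcv⟩ := exists_residue P ((ord_nonneg_iff P _).mp hj0)
  set c : ↥GG := jb - algebraMap (ResidueField A) ↥GG cv with hc
  have hc0 : c ≠ 0 := jbar_sub_ne S cv
  have hepos : 1 ≤ P.ord c := hcv.resolve_left hc0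
  obtain ⟨n, hn⟩ : ∃ n : ℕ, P.ord c = ((n + 1 : ℕ) : ℤ) := ⟨(P.ord c).toNat - 1, by omega⟩
  have hg0 : g ≠ 0 := fun e => by rw [e, P.ord_zero] at hg; omega
  set u : ↥GG := c / g ^ (n + 1) with hu
  have hu0 : u ≠ 0 := div_ne_zero hc0 (pow_ne_zero _ hg0)
  have hou : P.ord u = 0 := by
    rw [hu, ord_div _ hc0 (pow_ne_zero _ hg0), ord_pow, hg, hn]; ring
  have hcu : c = g ^ (n + 1) * u := by
    rw [hu, mul_div_cancel₀ _ (pow_ne_zero _ hg0)]
  -- the derivative of `c`
  have hθc : theta (c : kS) = theta (jqModC (ResidueField A)) := by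
    rw [hc, AddSubgroupClass.coe_sub, map_sub, coe_algebraMap_single, theta_single_zero, sub_zero,
      coe_jbar']
  have hθ : theta (c : kS) = (((n + 1 : ℕ) : ↥GG) * g ^ n * u : ↥GG) * theta (g : kS) +
      (g : kS) ^ (n + 1) * theta (u : kS) := by
    rw [hcu, MulMemClass.coe_mul, SubmonoidClass.coe_pow, theta_mul, theta_pow_succ]
    push_cast
    ring
  obtain ⟨hcf, hhc, hhc0⟩ := hpow c (by omega)
  obtain ⟨huf, hhu, hhu0⟩ := hpow u hou.ge
  obtain ⟨h', hh', hh'0⟩ := hpow g (by omega)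
  obtain rfl : h' = h := Subtype.ext (hh'.trans hh.symm)
  -- the right side of the identity
  have hw1 : 1 ≤ w - 1 := by have := S.prime.two_le; omega
  have hw1' : (0 : ℤ) < ((w - 1 : ℕ) : ℤ) := by exact_mod_cast hw1
  obtain ⟨N, h28, hNeq, hcase⟩ : ∃ N : ℤ, (jb - 1728 : ↥GG) ≠ 0 ∧
      N = 4 * P.ord jb + 3 * P.ord (jb - 1728) ∧
      (N = 0 ∨ (N = 4 * (n + 1) ∧ 3 ≤ n + 1) ∨ (N = 3 * (n + 1) ∧ 2 ≤ n + 1)) := by
    have h28 : (jb - 1728 : ↥GG) ≠ 0 := by
      simpa only [map_ofNat] using jbar_sub_ne S (M := M) 1728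
    have hne : ∀ b, cv ≠ b → P.ord (jb - algebraMap (ResidueField A) ↥GG b) = 0 := by
      intro b hb
      have e : jb - algebraMap (ResidueField A) ↥GG b =
          algebraMap (ResidueField A) ↥GG (cv - b) + c := by rw [hc, map_sub]; ring
      rw [e, ord_add_eq_of_lt ((map_ne_zero _).mpr (sub_ne_zero.mpr hb))
        (by rw [ord_algebraMap]; omega), ord_algebraMap]
    refine ⟨_, h28, rfl, ?_⟩
    rcases eq_or_ne cv 0 with h0 | h0
    · rcases eq_or_ne (1728 : ResidueField A) 0 with hz | hz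
      · -- characteristic two or three: a supersingular place
        exfalso
        have h240 : (240 : ResidueField A) = 0 := by
          have hw5 : ¬ 5 ≤ w := fun h5 => natCast_1728_ne S h5 hz
          have : w = 2 ∨ w = 3 := by
            have := S.prime.two_le
            have : w ≠ 4 := fun e => by have := S.prime; rw [e] at this; norm_num at this
            omega
          have hd : w ∣ 240 := by rcases this with rfl | rfl <;> norm_num
          exact_mod_cast (CharP.cast_eq_zero_iff (ResidueField A) w 240).mpr hd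
        have e : S.splitModel.red 0 U.w = (jb : ↥GG) ^ (w - 1) :=
          Subtype.ext (coe_unit_small S U h240)
        rw [e, ord_pow, ← sub_zero (jb : ↥GG), ← map_zero (algebraMap (ResidueField A) ↥GG),
          ← h0, ← hc, hn] at hv
        rcases mul_eq_zero.mp hv with h' | h' <;> omega
      have e1 : P.ord jb = ((n + 1 : ℕ) : ℤ) := by rw [← hn, hc, h0, map_zero, sub_zero]
      have e2 : P.ord (jb - 1728) = 0 := by
        simpa only [map_ofNat] using hne 1728 (by rw [h0]; exact hz.symm)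
      have h3 := three_dvd_ord_jbar S hν.2 P (by omega)
      refine Or.inr (Or.inl ⟨by rw [e1, e2]; push_cast; ring, ?_⟩)
      rw [e1] at h3
      have := Int.le_of_dvd (by omega) h3
      omega
    have e1 : P.ord jb = 0 := by simpa using hne 0 h0
    rcases eq_or_ne cv 1728 with h1 | h1
    · have e2 : P.ord (jb - 1728) = ((n + 1 : ℕ) : ℤ) := by
        rw [← hn, hc, h1, map_ofNat]
      have h2 := two_dvd_ord_jbar_sub S hν.1 P (by omega)
      refine Or.inr (Or.inr ⟨by rw [e1, e2]; push_cast; ring, ?_⟩)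
      rw [e2] at h2
      have := Int.le_of_dvd (by omega) h2
      omega
    · have e2 : P.ord (jb - 1728) = 0 := by simpa only [map_ofNat] using hne 1728 h1
      exact Or.inl (by rw [e1, e2]; ring)
  obtain ⟨hcne, hord⟩ := ord_theta_jbar S U (h := hcf) (by rw [hhc, hθc]) P h28
  rw [hv, add_zero, ← hNeq] at hord
  have hNle : N < 6 * (n + 1) := by omega
  by_cases hθg : theta (g : kS) = 0
  · exfalso
    have e : hcf = g ^ ((n + 1) * (w - 1)) * huf := Subtype.ext (by
      rw [hhc, hθ, hθg, mul_zero, zero_add, mul_pow, MulMemClass.coe_mul, SubmonoidClass.coe_pow,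
        hhu, pow_mul])
    have hu' : huf ≠ 0 := fun e0 => hcne (by rw [e, e0, mul_zero])
    rw [e, P.ord_mul (pow_ne_zero _ hg0) hu', ord_pow, hg] at hord
    push_cast at hord
    nlinarith
  have hne : h' ≠ 0 := fun e0 => by
    rw [e0, ZeroMemClass.coe_zero] at hh
    exact pow_ne_zero _ hθg hh.symm
  refine ⟨hne, le_antisymm ?_ hh'0⟩
  set r : ↥GG := ⟨_, hdiv c g hθg⟩ with hr
  set s : ↥GG := ⟨_, hdiv u g hθg⟩ with hs
  set t : ↥GG := ((n + 1 : ℕ) : ↥GG) * g ^ n * u with ht
  have hrs : r = t + g ^ (n + 1) * s := Subtype.ext (by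
    show theta (c : kS) / theta (g : kS) =
      (t : kS) + (g : kS) ^ (n + 1) * (theta (u : kS) / theta (g : kS))
    rw [hθ, add_div, mul_div_assoc, div_self hθg, mul_one, mul_div_assoc])
  have hc' : hcf = h' * r ^ (w - 1) := Subtype.ext (by
    rw [hhc, MulMemClass.coe_mul, SubmonoidClass.coe_pow, hh, hr, ← mul_pow,
      mul_div_cancel₀ _ hθg])
  have hu' : huf = h' * s ^ (w - 1) := Subtype.ext (by
    rw [hhu, MulMemClass.coe_mul, SubmonoidClass.coe_pow, hh, hs, ← mul_pow,
      mul_div_cancel₀ _ hθg])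
  have hr0 : r ≠ 0 := fun e0 => hcne (by rw [hc', e0, zero_pow (by omega), mul_zero])
  rw [hc', P.ord_mul hne (pow_ne_zero _ hr0), ord_pow] at hord
  -- the lower bound for `r`
  have hto : t = 0 ∨ P.ord t = (n : ℤ) := by
    rcases eq_or_ne ((n + 1 : ℕ) : ResidueField A) 0 with hz | hz
    · exact Or.inl (by rw [ht, ← map_natCast (algebraMap (ResidueField A) ↥GG), hz, map_zero,
        zero_mul, zero_mul])
    · refine Or.inr ?_
      rw [ht, ← map_natCast (algebraMap (ResidueField A) ↥GG),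
        P.ord_mul (mul_ne_zero ((map_ne_zero _).mpr hz) (pow_ne_zero _ hg0)) hu0,
        P.ord_mul ((map_ne_zero _).mpr hz) (pow_ne_zero _ hg0), ord_algebraMap, ord_pow, hg, hou]
      ring
  have hbound : (n : ℤ) ≤ P.ord r ∨
      (s ≠ 0 ∧ ((n + 1 : ℕ) : ℤ) + P.ord s ≤ P.ord r) := by
    rcases eq_or_ne s 0 with h0 | h0
    · rw [h0, mul_zero, add_zero] at hrs
      exact Or.inl (by rw [hrs, hto.resolve_left (hrs ▸ hr0)])
    have hsec : P.ord (g ^ (n + 1) * s) = ((n + 1 : ℕ) : ℤ) + P.ord s := by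
      rw [P.ord_mul (pow_ne_zero _ hg0) h0, ord_pow, hg, mul_one]
    rcases hto with h1 | h1
    · exact Or.inr ⟨h0, by rw [hrs, h1, zero_add, hsec]⟩
    rcases le_total (n : ℤ) (((n + 1 : ℕ) : ℤ) + P.ord s) with h2 | h2
    · exact Or.inl (hrs ▸ le_ord_add (hrs ▸ hr0) h1.ge (hsec ▸ h2))
    · exact Or.inr ⟨h0, hrs ▸ le_ord_add (hrs ▸ hr0) (h2.trans h1.ge) hsec.ge⟩
  rcases hbound with hb | ⟨hs0, hb⟩
  · have h6 : ((w - 1 : ℕ) : ℤ) * (n : ℤ) ≤ ((w - 1 : ℕ) : ℤ) * P.ord r :=
      mul_le_mul_of_nonneg_left hb hw1'.le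
    have h7 : N ≤ 6 * (n : ℤ) := by omega
    have h8 : ((w - 1 : ℕ) : ℤ) * N ≤ ((w - 1 : ℕ) : ℤ) * (6 * (n : ℤ)) :=
      mul_le_mul_of_nonneg_left h7 hw1'.le
    linarith
  · exfalso
    have hho : 0 ≤ P.ord h' + ((w - 1 : ℕ) : ℤ) * P.ord s := by
      have := hhu0
      rwa [hu', P.ord_mul hne (pow_ne_zero _ hs0), ord_pow] at this
    have h6 : ((w - 1 : ℕ) : ℤ) * (((n + 1 : ℕ) : ℤ) + P.ord s) ≤ ((w - 1 : ℕ) : ℤ) * P.ord r :=
      mul_le_mul_of_nonneg_left hb hw1'.le
    push_cast at h6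
    nlinarith

end Fermat.Agent.SquareOld.Geom

end
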