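import Fermat.Agent.SquareOld.Geom.Level
import Fermat.Agent.SemistableRed.Toric
import Fermat.Agent.HeckeJ0.Inputs
import Fermat.Agent.X0Analytic.Degree
import Fermat.Agent.Gamma0Count.Index

/-!
# The norms from level `M w²` to level `M w`

Along `α` the conjugates of the expansion are itself and the `w - 1` middle ones; along `β` they
are the twists by the `w`-th roots of unity.
-/

set_option autoImplicit false
set_option linter.unusedSectionVars false

noncomputable section

open ModularCurve AlgebraicCurve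

namespace Fermat.Agent.SquareOld.Geom

open Fermat.Agent.X0Analytic Fermat.Agent.Congruence Fermat.Agent.SemistableRed

local notation "Qbar" => AlgebraicClosure ℚ
local notation "Ser" => LaurentSeries (AlgebraicClosure ℚ)

variable {M w : ℕ} [NeZero M] [NeZero w] (hw : w.Prime) (hwM : ¬ w ∣ M)

include hw in
theorem finrankAlong_alpha_eq :
    finrankAlong Qbar (heckeAlphaBar Qbar (M * w) w) = w := by
  set α : ↥(FLevel Qbar (M * w)) →ₐ[Qbar] ↥(FLevel Qbar (M * w * w)) :=
    heckeAlphaBar Qbar (M * w) w with hα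
  have h1 : IntermediateField.relfinrank (jField Qbar (M * w * w)) α.fieldRange =
      dedekindPsi (M * w) := by
    have hmap : (jField Qbar (M * w)).map α = jField Qbar (M * w * w) := by
      rw [jField, IntermediateField.adjoin_map, Set.image_singleton, hα, heckeAlphaBar_jEl]
    rw [← hmap, AlgHom.fieldRange_eq_map, IntermediateField.relfinrank_map_map,
      IntermediateField.relfinrank_top_right, finrank_jField qbarToComplex]
  have h2 : finrankAlong Qbar (heckeAlphaBar Qbar (M * w) w) =
      IntermediateField.relfinrank α.fieldRange ⊤ := by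
    rw [IntermediateField.relfinrank_top_right]
    let := algebraAlong (heckeAlphaBar Qbar (M * w) w)
    exact Algebra.finrank_eq_of_equiv_equiv (AlgEquiv.ofInjectiveField α).toRingEquiv
      (RingEquiv.refl _) (by ext x; rfl)
  have hle : jField Qbar (M * w * w) ≤ α.fieldRange := by
    rw [jField, IntermediateField.adjoin_simple_le_iff]
    exact ⟨jEl Qbar (M * w), heckeAlphaBar_jEl⟩
  have h3 := IntermediateField.relfinrank_mul_relfinrank hle (le_top : α.fieldRange ≤ ⊤)
  rw [h1, IntermediateField.relfinrank_top_right (jField Qbar (M * w * w)),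
    finrank_jField qbarToComplex, Gamma0Count.dedekindPsi_mul_prime (NeZero.ne (M * w)) hw,
    if_pos (dvd_mul_left w M), mul_comm] at h3
  rw [h2]
  exact mul_right_cancel₀ (fun h0 => by
    have := Gamma0Count.card_cosetSpace (M * w)
    rw [h0] at this
    exact Nat.card_pos.ne' this) h3

include hw hwM in
theorem finrankAlong_beta_eq : finrankAlong Qbar (heckeBetaBar Qbar (M * w) w) = w := by
  refine Eq.trans ?_ (finrankAlong_alpha_eq (M := M) hw)
  let a1 := algebraAlong (heckeBetaBar Qbar (M * w) w)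
  let a2 := algebraAlong (heckeAlphaBar Qbar (M * w) w)
  exact @Algebra.finrank_eq_of_equiv_equiv _ _ _ _ a1 _ _ _ _ a2 (wq hw hwM).toRingEquiv
    (sw hw hwM).toRingEquiv (RingHom.ext fun x => (sw_beta hw hwM x).symm)

/-- Transport of a norm along a pair of isomorphisms. -/
theorem normAlong_transport {F F' : Type*} [Field F] [Field F'] [Algebra Qbar F] [Algebra Qbar F']
    (ψ φ : F →ₐ[Qbar] F') (e₁ : F ≃+* F) (e₂ : F' ≃+* F') (h : ∀ x, φ (e₁ x) = e₂ (ψ x)) (z : F') :
    normAlong φ (e₂ z) = e₁ (normAlong ψ z) := by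
  have h' := @Algebra.norm_eq_of_equiv_equiv F F' F F' _ _ _ _ (algebraAlong ψ) (algebraAlong φ)
    e₁ e₂ (RingHom.ext h) z
  show (let := algebraAlong φ; Algebra.norm F (e₂ z)) = e₁ (let := algebraAlong ψ; Algebra.norm F z)
  rw [h', RingEquiv.apply_symm_apply]

/-- A norm is a product over a full family of conjugates. -/
theorem hom_normAlong {F F' K : Type*} [Field F] [Field F'] [Field K] [Algebra Qbar F]
    [Algebra Qbar F'] [CharZero F] (ψ : F →ₐ[Qbar] F') {ι : Type*} [Fintype ι] (g : F →+* K)
    (e : ι → F' →+* K) (he : ∀ i x, e i (ψ x) = g x) (hinj : Function.Injective e) {n : ℕ}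
    (hn : 0 < n) (hcard : Fintype.card ι = n) (hdeg : finrankAlong Qbar ψ = n) (y : F') :
    g (normAlong ψ y) = ∏ i, e i y := by
  let := algebraAlong ψ
  have : Module.Finite F F' :=
    Module.finite_of_finrank_pos (by rw [show Module.finrank _ _ = n from hdeg]; exact hn)
  exact map_norm_eq_prod g e he hinj (hcard.trans hdeg.symm) y

/-- The norm along `β` is the one along `α`, conjugated. -/
theorem normBeta_eq (f : ↥(modularFunctionFieldBar (M * w * w))) :
    normAlong (heckeBetaBar Qbar (M * w) w) f =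
      wq hw hwM (normAlong (heckeAlphaBar Qbar (M * w) w) (sw hw hwM f)) := by
  have := normAlong_transport (heckeAlphaBar Qbar (M * w) w) (heckeBetaBar Qbar (M * w) w)
    (wq hw hwM).toRingEquiv (sw hw hwM).toRingEquiv (fun x => (sw_alpha hw hwM x).symm)
    (sw hw hwM f)
  simpa [sw_sw] using this

theorem normAlong_galois_alpha' (σ : Qbar ≃ₐ[ℚ] Qbar)
    (f : ↥(modularFunctionFieldBar (M * w * w))) :
    normAlong (heckeAlphaBar Qbar (M * w) w)
        (arithmeticGalois (modularFunctionFieldFull (M * w * w)) σ • f) =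
      arithmeticGalois (modularFunctionFieldFull (M * w)) σ •
        normAlong (heckeAlphaBar Qbar (M * w) w) f :=
  normAlong_transport _ _ (SemilinearAut.toRingAut (arithmeticGalois _ σ))
    (SemilinearAut.toRingAut (arithmeticGalois _ σ))
    (fun x => (HeckeJ0.intertwines_heckeAlphaBar (M * w) w σ x).symm) f

theorem normAlong_galois_beta' (σ : Qbar ≃ₐ[ℚ] Qbar)
    (f : ↥(modularFunctionFieldBar (M * w * w))) :
    normAlong (heckeBetaBar Qbar (M * w) w)
        (arithmeticGalois (modularFunctionFieldFull (M * w * w)) σ • f) =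
      arithmeticGalois (modularFunctionFieldFull (M * w)) σ •
        normAlong (heckeBetaBar Qbar (M * w) w) f :=
  normAlong_transport _ _ (SemilinearAut.toRingAut (arithmeticGalois _ σ))
    (SemilinearAut.toRingAut (arithmeticGalois _ σ))
    (fun x => (HeckeJ0.intertwines_heckeBetaBar (M * w) w σ x).symm) f

/-- The residues prime to `w`. -/
abbrev MidIdx (w : ℕ) : Type := {t : Fin w // ¬ w ∣ (t : ℕ)}

theorem card_midIdx (hw : w.Prime) : Fintype.card (MidIdx w) = w - 1 := by
  classical
  have : NeZero w := ⟨hw.ne_zero⟩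
  have h : ∀ t : Fin w, (¬ w ∣ (t : ℕ)) ↔ t ≠ 0 := fun t => by
    constructor
    · exact fun h e => h (by rw [e]; simp)
    · exact fun h e => h (Fin.ext (by simpa using Nat.eq_zero_of_dvd_of_lt e t.isLt))
  rw [Fintype.card_congr (Equiv.subtypeEquivRight h), Fintype.card_subtype_compl,
    Fintype.card_subtype_eq, Fintype.card_fin]

theorem jSer_coeff_neg (d : ℕ) [NeZero d] : (jSer d).coeff (-(d : ℤ)) = 1 := by
  rw [jSer_eq, jL, coeffEmb, coeffMap_qExpand, show -(d : ℤ) = (d : ℤ) * (-1) by ring,
    qExpand_coeff_mul, coeffMap_coeff, coeff_jq_neg_one, map_one]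

theorem jSer_coeff_of_not_dvd (d : ℕ) [NeZero d] {n : ℤ} (hn : ¬ (d : ℤ) ∣ n) :
    (jSer d).coeff n = 0 := by
  rw [jSer_eq, jL, coeffEmb, coeffMap_qExpand, qExpand_coeff_of_not_dvd d _ hn]

theorem coe_jAt' (N d : ℕ) [NeZero N] [NeZero d] (hd : d ∣ N) :
    (jAt N d hd : Ser) = jSer d := by rw [coe_jAt, jSer_eq]

theorem not_dvd_neg_one {n : ℕ} (hn : 1 < n) : ¬ (n : ℤ) ∣ -1 := fun h => by
  rw [Int.dvd_neg] at h
  have := Int.le_of_dvd one_pos h
  omega

/-- **The norm along `α`.** -/
theorem coe_normAlpha (f : ↥(modularFunctionFieldBar (M * w * w))) :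
    ((normAlong (heckeAlphaBar Qbar (M * w) w) f : ↥(modularFunctionFieldBar (M * w))) : Ser) =
      (f : Ser) * ∏ t : MidIdx w, mid hw hwM t.1 t.2 f := by
  classical
  have : CharZero ↥(modularFunctionFieldBar (M * w)) :=
    charZero_of_injective_algebraMap (algebraMap Qbar _).injective
  let e : Option (MidIdx w) → ↥(modularFunctionFieldBar (M * w * w)) →+* Ser := fun o =>
    o.elim (modularFunctionFieldBar (M * w * w)).val.toRingHom fun t => mid hw hwM t.1 t.2
  have hn : 1 < w * w := by nlinarith [hw.two_le]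
  have hd2 : 1 * w * w ∣ M * w * w := dvd_top2 (one_dvd M)
  have hnone : (e none (jAt _ _ hd2)).coeff (-1 : ℤ) = 0 := by
    show (jAt _ _ hd2 : Ser).coeff _ = 0
    rw [coe_jAt', jSer_coeff_of_not_dvd]
    exact not_dvd_neg_one (by simpa using hn)
  have hsome : ∀ t : MidIdx w, (e (some t) (jAt _ _ hd2)).coeff (-1 : ℤ) =
      ((zeta w ^ (t.1 : ℕ))⁻¹ : (Qbar)ˣ) := fun t => by
    show (mid hw hwM t.1 t.2 (jAt _ _ hd2)).coeff _ = _
    rw [(mid_gen hw hwM t.2 1 (one_dvd M)).2.2, twist_coeff,
      show (-1 : ℤ) = -((1 : ℕ) : ℤ) by simp, jSer_coeff_neg]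
    simp
  have hinj : Function.Injective e := by
    intro o o' h
    have h1 := congrArg (fun φ : _ →+* Ser => (φ (jAt _ _ hd2)).coeff (-1 : ℤ)) h
    rcases o with _ | t <;> rcases o' with _ | t' <;> simp only [hnone, hsome] at h1
    · rfl
    · exact absurd h1.symm (Units.ne_zero _)
    · exact absurd h1 (Units.ne_zero _)
    · rw [← Units.ext_iff, inv_inj, Units.ext_iff] at h1
      simp only [Units.val_pow_eq_pow_val] at h1
      exact congrArg some (Subtype.ext (Fin.ext ((zeta_prim w).pow_inj t.1.isLt t'.1.isLt h1)))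
  have hhe : ∀ o x, e o (heckeAlphaBar Qbar (M * w) w x) =
      (modularFunctionFieldBar (M * w)).val.toRingHom x := fun o x => by
    cases o with
    | none => exact coe_heckeAlphaBar (M * w) w x
    | some t => exact mid_alpha hw hwM t.2 x
  have h := hom_normAlong (heckeAlphaBar Qbar (M * w) w)
    (modularFunctionFieldBar (M * w)).val.toRingHom e hhe hinj hw.pos
    (by rw [Fintype.card_option, card_midIdx hw]; have := hw.pos; omega)
    (finrankAlong_alpha_eq (M := M) hw) f
  rw [Fintype.prod_option] at h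
  exact h

include hw hwM in
/-- **The norm along `β`.** -/
theorem qExpand_normBeta (f : ↥(modularFunctionFieldBar (M * w * w))) :
    qExpand Qbar w
        ((normAlong (heckeBetaBar Qbar (M * w) w) f : ↥(modularFunctionFieldBar (M * w))) : Ser) =
      ∏ b : Fin w, twist (zeta w ^ (b : ℕ)) (f : Ser) := by
  classical
  have : CharZero ↥(modularFunctionFieldBar (M * w)) :=
    charZero_of_injective_algebraMap (algebraMap Qbar _).injective
  let e : Fin w → ↥(modularFunctionFieldBar (M * w * w)) →+* Ser := fun b =>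
    (twist (zeta w ^ (b : ℕ))).comp (modularFunctionFieldBar (M * w * w)).val.toRingHom
  have hd0 : 1 ∣ M * w * w := dvd_top0 (one_dvd M)
  have hinj : Function.Injective e := by
    intro b b' h
    have h1 := congrArg (fun φ : _ →+* Ser => (φ (jAt _ _ hd0)).coeff (-1 : ℤ)) h
    have hc : ∀ b : Fin w, (e b (jAt _ _ hd0)).coeff (-1 : ℤ) =
        ((zeta w ^ (b : ℕ))⁻¹ : (Qbar)ˣ) := fun b => by
      show (twist (zeta w ^ (b : ℕ)) (jAt _ _ hd0 : Ser)).coeff _ = _
      rw [twist_coeff, coe_jAt', show (-1 : ℤ) = -((1 : ℕ) : ℤ) by simp, jSer_coeff_neg]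
      simp
    simp only [hc] at h1
    rw [← Units.ext_iff, inv_inj, Units.ext_iff] at h1
    simp only [Units.val_pow_eq_pow_val] at h1
    exact Fin.ext ((zeta_prim w).pow_inj b.isLt b'.isLt h1)
  exact hom_normAlong (heckeBetaBar Qbar (M * w) w)
    ((qExpand Qbar w).comp (modularFunctionFieldBar (M * w)).val.toRingHom) e
    (fun b x => by
      show twist (zeta w ^ (b : ℕ)) (heckeBetaBar Qbar (M * w) w x : Ser) = qExpand Qbar w (x : Ser)
      rw [coe_heckeBetaBar, twist_qExpand_of_pow_eq_one]
      rw [← pow_mul, mul_comm, pow_mul, zeta_pow_self, one_pow])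
    hinj hw.pos (Fintype.card_fin w) (finrankAlong_beta_eq hw hwM) f

end Fermat.Agent.SquareOld.Geom
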