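import Fermat.Agent.SquareOld.Geom.Branch
import Fermat.Agent.SquareOld.Bridge
import Fermat.Agent.SemistableRed.AllFacts

/-!
# The level data from the local fields

Everything but the three local statements at closed points is filled in.
-/

set_option autoImplicit false
set_option linter.unusedSectionVars false

noncomputable section

open IsLocalRing ModularCurve AlgebraicCurve Fermat.Agent.Reduction Fermat.Agent.SemistableRed
  Fermat.Agent.FunctionFieldRR

namespace Fermat.Agent.SquareOld.Geom

open LevelP (descent)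

local notation "Qbar" => AlgebraicClosure ℚ

variable {A : ValuationSubring (AlgebraicClosure ℚ)} {M w : ℕ} [NeZero M] [NeZero w]
  [Fact w.Prime] [CharP (ResidueField A) w] [IsAlgClosed (ResidueField A)] (S : Setting A M w)

local notation "kk" => ResidueField A
local notation "GG" => modularFunctionFieldFullC (ResidueField A) M

/-- What remains to be shown at closed points. -/
structure LocalFields : Prop where
  loc : ∀ (b : Bool) (Q : Ideal ((chart S).R b)), (chart S).ClosedPoint b Q →
    ∀ n : ℕ, (n : kk) ≠ 0 → ∀ u : ↥(FixF A M w), u ≠ 0 → (chart S).HorizPow n u →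
      (∀ i, (n : ℤ) ∣ (comps S i).ord u) →
      ∃ h, h ≠ 0 ∧ (chart S).LocalUnit b Q (h ^ n * u ^ 1)
  points : ∀ (b : Bool) (Q : Ideal ((chart S).R b)), (chart S).ClosedPoint b Q →
    (∀ i i' O O', (chart S).Centred b Q i O → (chart S).Centred b Q i' O' → i = i' ∧ O = O') ∨
      ∃ O, (chart S).IsPair b Q O
  glue : ∀ (b : Bool) (Q : Ideal ((chart S).R b)) O, (chart S).ClosedPoint b Q →
    (chart S).IsPair b Q O →
    ∀ n : ℕ, (n : kk) ≠ 0 → ∀ (ε f : ↥(FixF A M w)) (c : Fin 3 → kk),
      (chart S).LocalUnit b Q ε →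
      (∀ i, (comps S i).Unit f ∧ c i ≠ 0 ∧ (chart S).HasValue i (O i) f (c i)) →
      ∀ (t : Fin 2) (y : ↥(descent S).F₀) (ζ : Fin 2 → kk), y ^ n = nm S t ε →
        (∀ j, (low S j).redF y = algebraMap kk ↥GG (ζ j) * (low S j).redF (nm S t f)) →
        (t = 0 → ζ 0 * (c 0 * c 1 ^ (w - 1)) = ζ 1 * c 2 ^ w) ∧
          (t = 1 → ζ 0 * c 0 ^ w = ζ 1 * (c 2 * c 1 ^ (w - 1)))

/-- The data of level `M w²`. -/
def data (L : LocalFields S) : Data kk ↥(FixF A M w) ↥GG ↥(descent S).F₀ where
  toChart := chart S
  B₀ := 1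
  B₀_pos := Nat.one_pos
  loc := L.loc
  points := L.points
  res _b _Q hQ _i _O hO _x hx := res S hQ hO hx
  low := low S
  ιE := ιEc S
  low_const := low_const S
  low_w := low_w S
  Nm := nm S
  φ := piG kk M w
  Nm_w := nm_w S
  ord_norm _x hx := ord_norm S hx
  red_norm _x hx := red_norm S hx
  glue := L.glue

theorem isLevelData (L : LocalFields S) :
    IsLevelData (M := M) (w := w) A (data S L) where
  w_eq := rfl
  B₀_eq := rfl
  const_mem c hc hcA := by
    refine ⟨⟨c, mem_Afix.mpr ⟨hcA, ?_⟩⟩, Subtype.ext rfl⟩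
    exact LevelP.const_mem_fixed_iff.mp hc
  mem_const x := by
    obtain ⟨c, rfl⟩ := (eW A M w).surjective x
    refine ⟨(c : Qbar), rfl, ?_⟩
    show ((ιEc S (eW A M w c) : ↥(descent S).F₀) : ↥(modularFunctionFieldBar (M * w))) = _
    rw [ιEc_eW]
    rfl
  norm_eq t u := by fin_cases t <;> rfl

/-- **The level data**, given the local statements. -/
theorem hasLevelData_of_local {M w : ℕ} [NeZero M] [NeZero w] [Fact w.Prime] (hwM : ¬ w ∣ M)
    (h : ∀ (A : ValuationSubring (AlgebraicClosure ℚ)) [CharP (ResidueField A) w]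
      [IsAlgClosed (ResidueField A)] (S : Setting A M w), LocalFields S) :
    HasLevelData M w := fun A hA => by
  have := charP_residueField hA
  have : IsAlgClosed (ResidueField A) := isAlgClosed_residueField
  let S : Setting A M w := ⟨hwM, hA, goodReductionFacts M w hwM A hA⟩
  exact ⟨_, inferInstance, inferInstance, data S (h A S), isLevelData S (h A S)⟩

end Fermat.Agent.SquareOld.Geom
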