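import Fermat.Agent.SquareOld.Geom.Chart
import Fermat.Agent.LevelP.Inst.Places

/-!
# Branches at closed points are places

A branch is a proper valuation ring of the residue field, so a place, with constant residues.
-/

set_option autoImplicit false
set_option linter.unusedSectionVars false
set_option linter.unusedVariables false

noncomputable section

open IsLocalRing ModularCurve AlgebraicCurve Fermat.Agent.Reduction Fermat.Agent.SemistableRed
  Fermat.Agent.FunctionFieldRR

namespace Fermat.Agent.SquareOld.Geom

open LevelP (descent)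

local notation "Qbar" => AlgebraicClosure ℚ

variable {A : ValuationSubring (AlgebraicClosure ℚ)} {M w : ℕ} [NeZero M] [NeZero w]
  [Fact w.Prime] [CharP (ResidueField A) w] [IsAlgClosed (ResidueField A)] (S : Setting A M w)

local notation "GG" => modularFunctionFieldFullC (ResidueField A) M

theorem jqF_mem : S.jqF ∈ (descent S).F₀ := by
  rintro _ ⟨σ, -, rfl⟩
  exact (S.galois_jF σ).2

theorem transcendental_Tbar : Transcendental (ResidueField A) (Tbar A M w) :=
  transcendental_iff.mpr fun p hp => by_contra fun h => aeval_Tbar_ne h hp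

theorem par_red (b : Bool) (i : Fin 3) :
    (comps S i).redF ((chart S).par b) = if b then (Tbar A M w)⁻¹ else Tbar A M w := by
  rw [← (comps_Tp S i).2]
  exact Chart.red_par (chart S) b i

theorem eq_zero_of_mem_nonunits_top {G : Type*} [Field G] {z : G}
    (hz : z ∈ (⊤ : ValuationSubring G).nonunits) : z = 0 := by
  by_contra hz0
  rw [ValuationSubring.mem_nonunits_iff] at hz
  have h2 : (⊤ : ValuationSubring G).valuation z⁻¹ ≤ 1 :=
    (ValuationSubring.valuation_le_one_iff _ _).mpr (ValuationSubring.mem_top _)
  have h3 : (⊤ : ValuationSubring G).valuation (z * z⁻¹) < 1 := by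
    rw [map_mul]
    exact lt_of_le_of_lt (mul_le_of_le_one_right' h2) hz
  rw [mul_inv_cancel₀ hz0, map_one] at h3
  exact lt_irrefl _ h3

/-- A branch at a closed point is proper. -/
theorem branch_ne_top {b : Bool} {Q : Ideal ((chart S).R b)} (hQ : (chart S).ClosedPoint b Q)
    {i : Fin 3} {O : ValuationSubring ↥GG} (h : (chart S).Centred b Q i O) : O ≠ ⊤ := by
  rintro rfl
  have := S.isFunctionField_C
  set t : ↥GG := if b then (Tbar A M w)⁻¹ else Tbar A M w with ht
  have htr : Transcendental (ResidueField A) t := by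
    rw [ht]
    split_ifs
    · exact fun h' => transcendental_Tbar (A := A) (M := M) (w := w) (by simpa using h'.inv)
    · exact transcendental_Tbar
  have htr1 : Transcendental (ResidueField A) (t - 1) := fun h' =>
    htr (by simpa using h'.add isAlgebraic_one)
  obtain ⟨R, hR⟩ := exists_ord_pos (K := ResidueField A) htr1
  have hR1 : VanishesTo R 1 (t - 1) := Or.inr hR
  have htR : t ∈ R.toValuationSubring := by
    simpa using add_mem ((ord_nonneg_iff R _).mp hR.le) (one_mem _)
  have hV : ∀ x : (chart S).R b, (x : ↥(FixF A M w)) ∈ (comps S i).V := h.2.1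
  set p : (chart S).R b := ⟨_, (chart S).par_mem_R b⟩
  have hp : (comps S i).redF ((p - 1 : (chart S).R b) : ↥(FixF A M w)) = t - 1 := by
    push_cast
    rw [Comp.redF_sub (hV p) (one_mem _), Comp.redF_one, par_red]
  have hpQ : p - 1 ∉ Q := fun hmem => by
    have h1 := eq_zero_of_mem_nonunits_top ((h.2.2.2 _).mp hmem)
    refine htr1 ?_
    rw [← hp, show (comps S i).redF _ = 0 from h1]
    exact isAlgebraic_zero
  obtain ⟨r, q, hq, e⟩ := hQ.1.exists_inv hpQ
  have hrR : (comps S i).redF (r : ↥(FixF A M w)) ∈ R.toValuationSubring :=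
    Chart.red_R_mem (X := chart S) R.algebraMap_mem'
      (by show (comps S i).redF ((chart S).par b) ∈ _; rw [par_red]; exact htR) r.2
  have hq0 := eq_zero_of_mem_nonunits_top ((h.2.2.2 q).mp hq)
  have h1 := congrArg (fun z : (chart S).R b => (comps S i).redF (z : ↥(FixF A M w))) e
  simp only [AddMemClass.coe_add, MulMemClass.coe_mul, OneMemClass.coe_one] at h1
  rw [Comp.redF_add (mul_mem (hV r) (hV (p - 1))) (hV q),
    Comp.redF_mul (hV r) (hV (p - 1)), Comp.redF_one, hp,
    show (comps S i).redF (q : ↥(FixF A M w)) = 0 from hq0, add_zero] at h1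
  have h2 := ((vanishesTo_zero_iff R).mpr hrR).mul hR1
  rw [h1, zero_add] at h2
  exact not_vanishesTo_one h2

/-- A branch at a closed point is a place. -/
theorem branch_place {b : Bool} {Q : Ideal ((chart S).R b)} (hQ : (chart S).ClosedPoint b Q)
    {i : Fin 3} {O : ValuationSubring ↥GG} (h : (chart S).Centred b Q i O) :
    ∃ P : Place (ResidueField A) ↥GG, P.toValuationSubring = O := by
  have := S.isFunctionField_C
  exact ⟨placeOfValuationSubring O h.1 (branch_ne_top S hQ h), rfl⟩

theorem mem_nonunits_iff_vanishes {K G : Type*} [Field K] [Field G] [Algebra K G]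
    (P : Place K G) {z : G} : z ∈ P.toValuationSubring.nonunits ↔ VanishesTo P 1 z := by
  rcases eq_or_ne z 0 with rfl | hz
  · exact iff_of_true (P.toValuationSubring.nonunits.zero_mem) VanishesTo.zero
  · rw [ValuationSubring.mem_nonunits_iff_or, or_iff_right hz, ← ord_nonneg_iff, P.ord_inv,
      VanishesTo, or_iff_right hz]
    omega

/-- **Residues at branches are constants.** -/
theorem res {b : Bool} {Q : Ideal ((chart S).R b)} (hQ : (chart S).ClosedPoint b Q)
    {i : Fin 3} {O : ValuationSubring ↥GG} (h : (chart S).Centred b Q i O) {x : ↥GG}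
    (hx : x ∈ O) : ∃ c, x - algebraMap (ResidueField A) ↥GG c ∈ O.nonunits := by
  have := S.isFunctionField_C
  obtain ⟨P, rfl⟩ := branch_place S hQ h
  obtain ⟨c, hc⟩ := exists_residue P hx
  exact ⟨c, (mem_nonunits_iff_vanishes P).mpr hc⟩

end Fermat.Agent.SquareOld.Geom
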