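import Fermat.Agent.SquareOld.Geom.ExtGauss
import Fermat.Agent.SquareOld.Factorial

/-!
# The chart of level `M w²`, and places of the generic fibre
-/

set_option autoImplicit false
set_option linter.unusedSectionVars false
set_option linter.unusedVariables false
set_option synthInstance.maxHeartbeats 400000

noncomputable section

open IsLocalRing ModularCurve AlgebraicCurve Fermat.Agent.Reduction Fermat.Agent.SemistableRed
  Fermat.Agent.FunctionFieldRR

namespace Fermat.Agent.SquareOld.Geom

open LevelP (descent)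

local notation "Qbar" => AlgebraicClosure ℚ

variable {A : ValuationSubring (AlgebraicClosure ℚ)} {M w : ℕ} [NeZero M] [NeZero w]
  [Fact w.Prime] [CharP (ResidueField A) w] [IsAlgClosed (ResidueField A)] (S : Setting A M w)

local notation "GG" => modularFunctionFieldFullC (ResidueField A) M
local notation "FB" => modularFunctionFieldBar (M * w * w)

/-- The chart. -/
def chart : Chart (ResidueField A) ↥(FixF A M w) ↥GG where
  W := Wc A M w
  w := w
  w_prime := S.prime
  w_ne := w_ne_fix S
  W_isDVR := Wc_isDVR S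
  W_maximal := Wc_maximal S
  T := Tp S
  T_transcendental := Tp_transcendental S
  finite := finite_K0 S
  resW := resWc A M w
  resW_surjective := resWc_surjective S
  root := root S
  comp := comps S
  W_le i x hx := by
    obtain ⟨c, hc⟩ := (eW A M w).surjective ⟨x, hx⟩
    rw [show x = cW A M w c from (congrArg Subtype.val hc).symm]
    exact (comps_rep_const S i c).1
  red_W i x := by
    obtain ⟨c, rfl⟩ := (eW A M w).surjective x
    rw [resWc_eW, coe_eW]
    exact (comps_rep_const S i c).2
  T_mem i := (comps_Tp S i).1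
  ord_w := comps_w S
  gauss := gauss_Tp S
  ext_gauss := ext_gauss S
  approx := approx S
  indep := indep S

theorem chart_w : (chart S).w = w := rfl

include S in
/-- A valuation ring containing the fixed constants and `1/w` contains all constants. -/
theorem const_mem_valuation (V : ValuationSubring ↥FB)
    (hW : ∀ c : Afix A, algebraMap Qbar ↥FB (c : Qbar) ∈ V)
    (hw : algebraMap Qbar ↥FB (w : Qbar)⁻¹ ∈ V) (c : Qbar) : algebraMap Qbar ↥FB c ∈ V := by
  have hnat : ∀ m : ℕ, m ≠ 0 → algebraMap Qbar ↥FB (m : Qbar)⁻¹ ∈ V := by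
    intro m hm
    obtain ⟨a, m', hm', rfl⟩ := Nat.exists_eq_pow_mul_and_not_dvd hm w S.prime.ne_one
    have hu : IsUnit ((m' : ℕ) : Afix A) := by
      rw [Afix_isUnit S, map_natCast]
      exact natCast_residue_ne_zero S.above hm'
    obtain ⟨d, hd⟩ := hu.exists_right_inv
    have hd' : (m' : Qbar) * (d : Qbar) = 1 := by
      have := congrArg Subtype.val hd
      simpa using this
    rw [Nat.cast_mul, Nat.cast_pow, mul_inv, ← inv_pow, map_mul, map_pow,
      inv_eq_of_mul_eq_one_right hd']
    exact mul_mem (pow_mem hw a) (hW d)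
  have hrat : ∀ q : ℚ, algebraMap Qbar ↥FB (q : Qbar) ∈ V := fun q => by
    rw [Rat.cast_def, div_eq_mul_inv, map_mul, map_intCast]
    exact mul_mem (intCast_mem _ _) (hnat _ q.den_nz)
  obtain ⟨p, hp, hpc⟩ : IsIntegral ℚ c :=
    (AlgebraicClosure.isAlgebraic ℚ).isAlgebraic c |>.isIntegral
  refine mem_of_monic_relation V (d := p.natDegree)
    (fun i => algebraMap Qbar ↥FB ((p.coeff i : ℚ) : Qbar)) (fun i _ => hrat _) ?_
  have h := congrArg (algebraMap Qbar ↥FB) hpc
  rw [hp.as_sum, Polynomial.eval₂_add, Polynomial.eval₂_pow, Polynomial.eval₂_X,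
    Polynomial.eval₂_finsetSum, map_add, map_pow, map_sum, map_zero] at h
  refine Eq.trans ?_ h
  refine congrArg _ (Finset.sum_congr rfl fun i _ => ?_)
  rw [Polynomial.eval₂_mul, Polynomial.eval₂_C, Polynomial.eval₂_pow, Polynomial.eval₂_X, map_mul,
    map_pow, eq_ratCast]

/-- A valuation ring containing the constants is everything or a place. -/
theorem eq_top_or_place {N : ℕ} [NeZero N] (V : ValuationSubring ↥(modularFunctionFieldBar N))
    (hK : ∀ c : Qbar, algebraMap Qbar ↥(modularFunctionFieldBar N) c ∈ V) :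
    V = ⊤ ∨ ∃ P : Place Qbar ↥(modularFunctionFieldBar N), P.toValuationSubring = V := by
  have := SemistableRed.isFunctionField_level N
  by_cases h : V = ⊤
  · exact Or.inl h
  · exact Or.inr ⟨placeOfValuationSubring V hK h, rfl⟩

/-- Regularity on the generic fibre of a chart from regularity at its places. -/
theorem horiz_of_places (b : Bool) {x : ↥(FixF A M w)}
    (hx : ∀ P : Place Qbar ↥FB, 0 ≤ P.ord (((chart S).par b : ↥(FixF A M w)) : ↥FB) →
      0 ≤ P.ord (x : ↥FB)) :
    (chart S).Horiz b x := by
  classical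
  intro V hW hpar hwV
  set ι := (FixF A M w).subtype
  set s : Set ↥(FixF A M w) := (Wc A M w : Set ↥(FixF A M w)) ∪ {(chart S).par b, ((w : ℕ) : ↥(FixF A M w))⁻¹}
  have hint : IsIntegral (Subring.closure (ι '' s)) (x : ↥FB) := by
    refine Chart.isIntegral_closure fun V' hV' => ?_
    have hin : ∀ y ∈ s, ι y ∈ V' := fun y hy => hV' ⟨y, hy, rfl⟩
    have hK : ∀ c : Qbar, algebraMap Qbar ↥FB c ∈ V' := fun c => by
      refine const_mem_valuation S V' (fun d => hin (cW A M w d) (Or.inl ⟨d, rfl⟩)) ?_ c
      have := hin _ (Or.inr (Or.inr rfl))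
      rw [map_inv₀, map_natCast] at this
      rwa [map_inv₀, map_natCast]
    rcases eq_top_or_place V' hK with rfl | ⟨P, rfl⟩
    · exact ValuationSubring.mem_top _
    · exact (ord_nonneg_iff P _).mp (hx P ((ord_nonneg_iff P _).mpr
        (hin _ (Or.inr (Or.inl rfl)))))
  obtain ⟨d, c, hc, hrel⟩ := Chart.exists_relation hint
  rw [← RingHom.map_closure] at hc
  choose c' hc' hcc using fun i : Fin d => hc i i.2
  refine mem_of_monic_relation V (d := d) (fun i => if h : i < d then c' ⟨i, h⟩ else 0)
    (fun i hi => ?_) (Subtype.ext ?_)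
  · simp only [dif_pos hi]
    refine (Subring.closure_le.mpr (Set.union_subset hW ?_) :
      Subring.closure s ≤ V.toSubring) (hc' _)
    rintro y (rfl | rfl)
    · exact hpar
    · exact hwV
  · rw [ZeroMemClass.coe_zero, ← hrel]
    push_cast
    refine congrArg _ (Finset.sum_congr rfl fun i hi => ?_)
    rw [dif_pos (Finset.mem_range.mp hi)]
    exact congrArg (· * _) (hcc ⟨i, Finset.mem_range.mp hi⟩)

/-- Chart elements are regular where the parameter is. -/
theorem ord_nonneg_of_mem_R {b : Bool} {x : ↥(FixF A M w)} (hx : x ∈ (chart S).R b)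
    (P : Place Qbar ↥FB) (hP : 0 ≤ P.ord (((chart S).par b : ↥(FixF A M w)) : ↥FB)) :
    0 ≤ P.ord (x : ↥FB) := by
  rw [ord_nonneg_iff] at hP ⊢
  refine (chart S).mem_R.mp hx (P.toValuationSubring.comap (FixF A M w).subtype) (fun y hy => ?_) hP
  obtain ⟨c, hc⟩ := (eW A M w).surjective ⟨y, hy⟩
  rw [show y = cW A M w c from (congrArg Subtype.val hc).symm]
  exact P.algebraMap_mem' _

/-- Membership in a chart ring from the components and the places. -/
theorem mem_R_of_places (b : Bool) {x : ↥(FixF A M w)} (hc : ∀ i, x ∈ (comps S i).V)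
    (hx : ∀ P : Place Qbar ↥FB, 0 ≤ P.ord (((chart S).par b : ↥(FixF A M w)) : ↥FB) →
      0 ≤ P.ord (x : ↥FB)) : x ∈ (chart S).R b :=
  (chart S).mem_R_of_horiz hc (horiz_of_places S b hx)

end Fermat.Agent.SquareOld.Geom
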