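import Fermat.Agent.SquareOld.Basic
import Fermat.Agent.SemistableRed.GaussPair
import Fermat.Agent.SemistableRed.SeriesRep

/-!
# Valuations read off from a family of expansions

`Rep f m v` says that `π_t ^ (-m) e_t f` reduces to `v` for every `t`.  When every element has such
a representation with `v ≠ 0`, this is a discrete valuation.
-/

set_option autoImplicit false
set_option linter.unusedSectionVars false

noncomputable section

open IsLocalRing ModularCurve Fermat.Agent.Reduction Fermat.Agent.SemistableRed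

namespace Fermat.Agent.SquareOld.Geom

variable {L : Type*} [Field L] {A : ValuationSubring L}

/-- A family of expansions, each with a uniformiser. -/
structure RepFamily (A : ValuationSubring L) (F : Type*) [Field F] (ι : Type*) where
  e : ι → F →+* LaurentSeries L
  π : ι → L
  π_ne : ∀ t, π t ≠ 0
  π_mem : ∀ t, π t ∈ A
  π_res : ∀ t, residue A ⟨π t, π_mem t⟩ = 0

namespace RepFamily

variable {F : Type*} [Field F] {ι : Type*} [Nonempty ι] (R : RepFamily A F ι)

/-- `f` has order at least `m` and reduces to `v` there. -/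
def Rep (f : F) (m : ℤ) (v : LaurentSeries (ResidueField A)) : Prop :=
  ∀ t, SRep ((R.π t ^ m)⁻¹ • R.e t f) v

variable {R} {f g : F} {m m' : ℤ} {v v' : LaurentSeries (ResidueField A)}

theorem Rep.unique (h : R.Rep f m v) (h' : R.Rep f m v') : v = v' :=
  (h (Classical.arbitrary ι)).unique (h' _)

theorem rep_one : R.Rep 1 0 1 := fun t => by
  rw [zpow_zero, inv_one, one_smul, map_one]; exact SRep.one

theorem rep_zero (m : ℤ) : R.Rep 0 m 0 := fun t => by
  rw [map_zero, smul_zero]; exact SRep.zero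

theorem smul_mul_smul' (a b : L) (x y : LaurentSeries L) :
    (a • x) * (b • y) = (a * b) • (x * y) := by
  rw [smul_eq_algebraMap_mul, smul_eq_algebraMap_mul, smul_eq_algebraMap_mul, map_mul]
  ring

theorem Rep.mul (h : R.Rep f m v) (h' : R.Rep g m' v') : R.Rep (f * g) (m + m') (v * v') :=
  fun t => by
    have := (h t).mul (h' t)
    rwa [smul_mul_smul', ← map_mul, ← mul_inv, ← zpow_add₀ (R.π_ne t)] at this

theorem Rep.pow (h : R.Rep f m v) (n : ℕ) : R.Rep (f ^ n) (n * m) (v ^ n) := by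
  induction n with
  | zero => simpa using (rep_one : R.Rep 1 0 1)
  | succ n ih =>
    rw [pow_succ, pow_succ, show ((n + 1 : ℕ) : ℤ) * m = (n : ℤ) * m + m by push_cast; ring]
    exact ih.mul h

theorem Rep.add (h : R.Rep f m v) (h' : R.Rep g m v') : R.Rep (f + g) m (v + v') := fun t => by
  rw [map_add, smul_add]; exact (h t).add (h' t)

theorem Rep.neg (h : R.Rep f m v) : R.Rep (-f) m (-v) := fun t => by
  rw [map_neg, smul_neg]; exact (h t).neg

theorem Rep.sub (h : R.Rep f m v) (h' : R.Rep g m v') : R.Rep (f - g) m (v - v') := by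
  rw [sub_eq_add_neg, sub_eq_add_neg]; exact h.add h'.neg

theorem rep_sum {J : Type*} (s : Finset J) {f : J → F} {v : J → LaurentSeries (ResidueField A)}
    (h : ∀ j ∈ s, R.Rep (f j) m (v j)) : R.Rep (∑ j ∈ s, f j) m (∑ j ∈ s, v j) := fun t => by
  rw [map_sum, Finset.smul_sum]
  exact SRep.sum s fun j hj => h j hj t

theorem Rep.inv (h : R.Rep f m v) (hv : v ≠ 0) : R.Rep f⁻¹ (-m) v⁻¹ := fun t => by
  have := (h t).inv hv
  rw [map_inv₀, zpow_neg, inv_inv]
  rwa [smul_eq_algebraMap_mul, mul_inv, ← map_inv₀, inv_inv, ← smul_eq_algebraMap_mul] at this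

theorem Rep.ne_zero (h : R.Rep f m v) (hv : v ≠ 0) : f ≠ 0 := fun e =>
  hv (h.unique (e ▸ rep_zero m))

theorem Rep.mono (h : R.Rep f m v) (hm : m' < m) : R.Rep f m' 0 := fun t => by
  obtain ⟨j, hj⟩ : ∃ j : ℕ, m = m' + (j + 1 : ℕ) := ⟨(m - m' - 1).toNat, by omega⟩
  have h1 := (h t).smul (pow_mem (R.π_mem t) (j + 1))
  rw [show residue A ⟨R.π t ^ (j + 1), pow_mem (R.π_mem t) (j + 1)⟩ = 0 by
    rw [show (⟨R.π t ^ (j + 1), pow_mem (R.π_mem t) (j + 1)⟩ : A) = ⟨R.π t, R.π_mem t⟩ ^ (j + 1)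
      from Subtype.ext (by simp), map_pow, R.π_res, zero_pow j.succ_ne_zero],
    zero_smul, smul_smul] at h1
  have hp := R.π_ne t
  rwa [show R.π t ^ (j + 1) * (R.π t ^ m)⁻¹ = (R.π t ^ m')⁻¹ by
    rw [hj, zpow_add₀ hp, zpow_natCast]; field_simp] at h1

theorem Rep.mono_exists (h : R.Rep f m v) (hm : m' ≤ m) : ∃ v', R.Rep f m' v' := by
  rcases eq_or_lt_of_le hm with rfl | hlt
  exacts [⟨v, h⟩, ⟨0, h.mono hlt⟩]

theorem Rep.le_of_ne (h : R.Rep f m v) (hv : v ≠ 0) (h' : R.Rep f m' v') : m' ≤ m := by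
  by_contra hlt
  exact hv (h.unique (h'.mono (not_le.mp hlt)))

theorem Rep.order_unique (h : R.Rep f m v) (hv : v ≠ 0) (h' : R.Rep f m' v') (hv' : v' ≠ 0) :
    m = m' := le_antisymm (h'.le_of_ne hv' h) (h.le_of_ne hv h')

variable (R)

/-- What is needed to make a component out of a family. -/
structure Facts (G : IntermediateField (ResidueField A) (LaurentSeries (ResidueField A))) :
    Prop where
  exists_rep : ∀ f : F, f ≠ 0 → ∃ m v, v ≠ 0 ∧ R.Rep f m v
  mem : ∀ (f : F) v, R.Rep f 0 v → v ∈ G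
  exists_one : ∃ (x : F) (v : LaurentSeries (ResidueField A)), v ≠ 0 ∧ R.Rep x 1 v
  lift : ∀ z : G, ∃ f : F, R.Rep f 0 (z : LaurentSeries (ResidueField A))

variable {R} {G : IntermediateField (ResidueField A) (LaurentSeries (ResidueField A))}
  (H : R.Facts G)

/-- The order. -/
def ordF (H : R.Facts G) (f : F) : ℤ :=
  open Classical in if h : f = 0 then 0 else (H.exists_rep f h).choose

include H in
theorem ordF_spec (hf : f ≠ 0) : ∃ v, v ≠ 0 ∧ R.Rep f (ordF H f) v := by
  rw [ordF, dif_neg hf]; exact (H.exists_rep f hf).choose_spec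

theorem ordF_eq (h : R.Rep f m v) (hv : v ≠ 0) : ordF H f = m := by
  obtain ⟨v', hv', h'⟩ := ordF_spec H (h.ne_zero hv)
  exact h'.order_unique hv' h hv

include H in
theorem exists_rep0_iff (hf : f ≠ 0) : (∃ v, R.Rep f 0 v) ↔ 0 ≤ ordF H f := by
  obtain ⟨v', hv', h'⟩ := ordF_spec H hf
  exact ⟨fun ⟨v, h⟩ => h'.le_of_ne hv' h, fun hle => h'.mono_exists hle⟩

/-- The valuation ring. -/
def valRing (H : R.Facts G) : ValuationSubring F where
  carrier := {f | ∃ v, R.Rep f 0 v}
  mul_mem' := fun ⟨v, h⟩ ⟨v', h'⟩ => ⟨_, by simpa using h.mul h'⟩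
  one_mem' := ⟨1, rep_one⟩
  add_mem' := fun ⟨v, h⟩ ⟨v', h'⟩ => ⟨_, h.add h'⟩
  zero_mem' := ⟨0, rep_zero 0⟩
  neg_mem' := fun ⟨v, h⟩ => ⟨_, h.neg⟩
  mem_or_inv_mem' f := by
    rcases eq_or_ne f 0 with rfl | hf
    · exact Or.inl ⟨0, rep_zero 0⟩
    obtain ⟨v, hv, h⟩ := ordF_spec H hf
    rcases le_or_gt 0 (ordF H f) with hle | hgt
    · exact Or.inl (h.mono_exists hle)
    · exact Or.inr ((h.inv hv).mono_exists (by omega))

/-- The residue map. -/
def resMap (H : R.Facts G) : valRing H →+* G where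
  toFun x := ⟨x.2.choose, H.mem _ _ x.2.choose_spec⟩
  map_one' := Subtype.ext
    ((((valRing H).toSubring.one_mem : _)).choose_spec.unique rep_one)
  map_mul' x y := Subtype.ext <| by
    refine (x * y).2.choose_spec.unique ?_
    simpa using x.2.choose_spec.mul y.2.choose_spec
  map_zero' := Subtype.ext
    ((((valRing H).toSubring.zero_mem : _)).choose_spec.unique (rep_zero 0))
  map_add' x y := Subtype.ext <| (x + y).2.choose_spec.unique
    (x.2.choose_spec.add y.2.choose_spec)

theorem resMap_eq (h : R.Rep f 0 v) :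
    (resMap H ⟨f, ⟨v, h⟩⟩ : LaurentSeries (ResidueField A)) = v :=
  (show ∃ v, R.Rep f 0 v from ⟨v, h⟩).choose_spec.unique h

/-- The component of a family. -/
def toComp (H : R.Facts G) : Comp F G where
  V := valRing H
  ord := ordF H
  ord_mul x y hx hy := by
    obtain ⟨v, hv, h⟩ := ordF_spec H hx
    obtain ⟨v', hv', h'⟩ := ordF_spec H hy
    exact ordF_eq H (h.mul h') (mul_ne_zero hv hv')
  mem_iff x hx := exists_rep0_iff H hx
  exists_ord_one := by
    obtain ⟨x, v, hv, h⟩ := H.exists_one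
    exact ⟨x, h.ne_zero hv, ordF_eq H h hv⟩
  red := resMap H
  red_surjective z := by
    obtain ⟨f, hf⟩ := H.lift z
    exact ⟨⟨f, ⟨_, hf⟩⟩, Subtype.ext (resMap_eq H hf)⟩
  red_eq_zero := by
    rintro ⟨x, v, h⟩
    constructor
    · intro h0
      have hv : v = 0 := by rw [← resMap_eq H h, h0]; rfl
      rcases eq_or_ne x 0 with hx | hx
      · exact Or.inl hx
      obtain ⟨v', hv', h'⟩ := ordF_spec H hx
      refine Or.inr (lt_of_le_of_ne (h'.le_of_ne hv' h) fun e => hv' ?_)
      dsimp only at e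
      rw [← e] at h'
      rw [h'.unique h, hv]
    · rintro h0
      refine Subtype.ext ((resMap_eq H h).trans ?_)
      rcases h0 with h0 | h0
      · exact h.unique (by dsimp only at h0; rw [h0]; exact rep_zero 0)
      · dsimp only at h0
        have hx : x ≠ 0 := fun e => by rw [ordF, dif_pos e] at h0; exact lt_irrefl _ h0
        obtain ⟨v', hv', h'⟩ := ordF_spec H hx
        exact h.unique (h'.mono h0)

theorem toComp_mem (h : R.Rep f 0 v) : f ∈ (toComp H).V := ⟨v, h⟩

theorem toComp_redF (h : R.Rep f 0 v) :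
    ((toComp H).redF f : LaurentSeries (ResidueField A)) = v := by
  rw [Comp.redF_of_mem (toComp_mem H h)]; exact resMap_eq H h

theorem toComp_ord (h : R.Rep f m v) (hv : v ≠ 0) : (toComp H).ord f = m := ordF_eq H h hv

theorem toComp_rep (hf : f ∈ (toComp H).V) :
    R.Rep f 0 ((toComp H).redF f : LaurentSeries (ResidueField A)) := by
  obtain ⟨v, h⟩ := hf
  rw [toComp_redF H h]; exact h

theorem toComp_rep_ord (hf : f ≠ 0) : ∃ v, v ≠ 0 ∧ R.Rep f ((toComp H).ord f) v :=
  ordF_spec H hf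

end RepFamily

end Fermat.Agent.SquareOld.Geom
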