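import Fermat.Agent.SquareOld.Geom.Gens
import Fermat.Agent.SquareOld.Geom.Rep

/-!
# The three valuations of the fixed field of level `M w²`

In the basis of `Gens` the orders along the middle expansions are separated, so the order of a
combination is read off from its coordinates.
-/

set_option autoImplicit false
set_option linter.unusedSectionVars false

noncomputable section

open IsLocalRing ModularCurve AlgebraicCurve Fermat.Agent.Reduction Fermat.Agent.SemistableRed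

namespace Fermat.Agent.SquareOld.Geom

open Fermat.Agent.Congruence (twist twist_coeff)
open LevelP (InertiaFixedSeries descent theta)

local notation "Qbar" => AlgebraicClosure ℚ
local notation "Ser" => LaurentSeries (AlgebraicClosure ℚ)

variable {A : ValuationSubring (AlgebraicClosure ℚ)} {M w : ℕ} [NeZero M] [NeZero w]
  [Fact w.Prime] [CharP (ResidueField A) w] [IsAlgClosed (ResidueField A)] (S : Setting A M w)

local notation "kS" => LaurentSeries (ResidueField A)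
local notation "GG" => modularFunctionFieldFullC (ResidueField A) M

instance : Nonempty (MidIdx w) :=
  ⟨⟨⟨1, (Fact.out : w.Prime).one_lt⟩, (Fact.out : w.Prime).not_dvd_one⟩⟩

/-- The involution on fixed functions. -/
def swF : ↥(FixF A M w) ≃+* ↥(FixF A M w) where
  toFun f := ⟨sw S.prime S.not_dvd f, fixed_sw S f.2⟩
  invFun f := ⟨sw S.prime S.not_dvd f, fixed_sw S f.2⟩
  left_inv _f := Subtype.ext (sw_sw _ _ _)
  right_inv _f := Subtype.ext (sw_sw _ _ _)
  map_mul' _f _g := Subtype.ext (map_mul (sw S.prime S.not_dvd) _ _)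
  map_add' _f _g := Subtype.ext (map_add (sw S.prime S.not_dvd) _ _)

theorem swF_swF (f : ↥(FixF A M w)) : swF S (swF S f) = f := Subtype.ext (sw_sw _ _ _)

/-- The expansion at `∞`. -/
def fam0 : RepFamily A ↥(FixF A M w) Unit where
  e _ := (modularFunctionFieldBar (M * w * w)).val.toRingHom.comp (FixF A M w).subtype
  π _ := (w : Qbar)
  π_ne _ := Nat.cast_ne_zero.mpr (NeZero.ne w)
  π_mem _ := natCast_mem A w
  π_res _ := by
    rw [show (⟨(w : Qbar), natCast_mem A w⟩ : A) = (w : A) from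
      Subtype.ext (map_natCast A.subtype w).symm, map_natCast]
    exact residue_natCast_eq_zero S.above

/-- The middle expansions. -/
def fam1 : RepFamily A ↥(FixF A M w) (MidIdx w) where
  e t := (mid S.prime S.not_dvd t.1 t.2).comp (FixF A M w).subtype
  π t := pw w t.1
  π_ne t := pw_ne t.2
  π_mem t := pw_mem t.1
  π_res t := residue_pw t.1

/-- The expansion at `∞` after the involution. -/
def fam2 : RepFamily A ↥(FixF A M w) Unit :=
  { fam0 S with e := fun i => ((fam0 S).e i).comp (swF S).toRingHom }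

theorem rep2_iff {f : ↥(FixF A M w)} {m : ℤ} {v : kS} :
    (fam2 S).Rep f m v ↔ (fam0 S).Rep (swF S f) m v := Iff.rfl

/-- A fixed function of level `M w`, along `α`. -/
def alphaF : ↥(descent S).F₀ →+* ↥(FixF A M w) :=
  ((heckeAlphaBar Qbar (M * w) w).toRingHom.comp (descent S).F₀.subtype).codRestrict _
    fun a => (fixed_alpha S).mpr a.2

/-- `u`. -/
def uF (_S : Setting A M w) : ↥(FixF A M w) := ⟨uFun M w, fixed_uFun⟩

/-- `c - u`. -/
def dF : ↥(FixF A M w) := ⟨cFun S, fixed_cFun S⟩ - (uF S)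

theorem coe_alphaF (a : ↥(descent S).F₀) :
    (alphaF S a : ↥(modularFunctionFieldBar (M * w * w))) =
      heckeAlphaBar Qbar (M * w) w (a : ↥(modularFunctionFieldBar (M * w))) := rfl

theorem fam0_e (u : Unit) (f : ↥(FixF A M w)) :
    (fam0 S).e u f = ((f : ↥(modularFunctionFieldBar (M * w * w))) : Ser) := rfl

theorem fam1_e (t : MidIdx w) (f : ↥(FixF A M w)) :
    (fam1 S).e t f = mid S.prime S.not_dvd t.1 t.2 (f : ↥(modularFunctionFieldBar (M * w * w))) :=
  rfl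

theorem fam0_pi (u : Unit) : (fam0 S).π u = (w : Qbar) := rfl

theorem fam1_pi (t : MidIdx w) : (fam1 S).π t = pw w t.1 := rfl

theorem e_alpha (u : Unit) (a : ↥(descent S).F₀) :
    (fam0 S).e u (alphaF S a) = ((a : ↥(modularFunctionFieldBar (M * w))) : Ser) := by
  rw [fam0_e, coe_alphaF, coe_heckeAlphaBar]

theorem srep_zpow_const {r : A} (hr : residue A r ≠ 0) (m : ℤ) :
    SRep (A := A) (algebraMap Qbar Ser ((r : Qbar) ^ m))
      (algebraMap (ResidueField A) kS (residue A r ^ m)) := by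
  rcases m with n | n
  · rw [Int.ofNat_eq_natCast, zpow_natCast, zpow_natCast, map_pow, map_pow]
    exact (SRep.const r).pow n
  · rw [zpow_negSucc, zpow_negSucc, map_inv₀, map_inv₀, map_pow, map_pow]
    refine ((SRep.const r).pow (n + 1)).inv (pow_ne_zero _ ?_)
    exact (map_ne_zero _).mpr hr

variable (A M w) in
/-- The factor between the two uniformisers, in `Ḡ`. -/
def kapG (m : ℤ) : ↥GG := algebraMap (ResidueField A) ↥GG (kappa A w ^ m)

theorem kapG_ne (m : ℤ) : kapG A M w m ≠ 0 :=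
  (map_ne_zero _).mpr (zpow_ne_zero _ kappa_ne)

theorem rep1_alpha {a : ↥(descent S).F₀} {m : ℤ} {v : ↥GG}
    (h : (fam0 S).Rep (alphaF S a) m (v : kS)) :
    (fam1 S).Rep (alphaF S a) (((w - 1 : ℕ) : ℤ) * m) ((kapG A M w m * v : ↥GG) : kS) := by
  intro t
  obtain ⟨r, hr, hrk⟩ := exists_w_ratio (A := A) t.2
  have h0 := h ()
  have hc := srep_zpow_const (A := A) (r := r) (by rw [hrk]; exact kappa_ne) m
  have := hc.mul h0
  rw [hrk] at this
  rw [fam1_pi, fam1_e, coe_alphaF, mid_alpha]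
  rw [fam0_pi, e_alpha, smul_eq_algebraMap_mul] at this
  rw [smul_eq_algebraMap_mul]
  rw [show (pw w t.1 ^ (((w - 1 : ℕ) : ℤ) * m))⁻¹ =
      (r : Qbar) ^ m * (((w : Qbar)) ^ m)⁻¹ by
    have hp := pw_ne (w := w) t.2
    have hr0 : (r : Qbar) ≠ 0 := fun e0 => kappa_ne (A := A) (w := w) (by
      rw [← hrk, show r = 0 from Subtype.ext e0, map_zero])
    rw [← hr, mul_zpow, zpow_mul, zpow_natCast, mul_inv, ← mul_assoc,
      mul_inv_cancel₀ (zpow_ne_zero _ hr0), one_mul], map_mul, mul_assoc]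
  exact this

theorem exists_rep0_alpha {a : ↥(descent S).F₀} (ha : a ≠ 0) :
    ∃ (m : ℤ) (v : ↥GG), v ≠ 0 ∧ (fam0 S).Rep (alphaF S a) m (v : kS) := by
  obtain ⟨m, hm, hm0⟩ := LevelP.exists_fixed_normalise S 0 (LevelP.mem_fixed_iff.mp a.2)
    fun e => ha (Subtype.ext e)
  refine ⟨-m, _, hm0, fun _ => ?_⟩
  have h := S.srep_red hm
  rw [S.side_smul, S.side_zero] at h
  rw [fam0_pi, e_alpha, zpow_neg, inv_inv]
  exact h

theorem exists_coord_level (a : Fin w → ↥(descent S).F₀) (ha : ∃ i, a i ≠ 0) :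
    ∃ (m : ℤ) (v : Fin w → ↥GG), (∃ i, v i ≠ 0) ∧
      ∀ i, (fam0 S).Rep (alphaF S (a i)) m (v i : kS) ∧
        (v i = 0 → ∃ u : ↥GG, (fam0 S).Rep (alphaF S (a i)) (m + 1) (u : kS)) := by
  classical
  choose m v hv hm using fun i : {i // a i ≠ 0} => exists_rep0_alpha S i.2
  obtain ⟨i0, hi0⟩ := ha
  obtain ⟨j, -, hj⟩ := Finset.exists_min_image (Finset.univ : Finset {i // a i ≠ 0}) m
    ⟨⟨i0, hi0⟩, Finset.mem_univ _⟩
  have hz : ∀ i, a i = 0 → ∀ n : ℤ, (fam0 S).Rep (alphaF S (a i)) n ((0 : ↥GG) : kS) :=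
    fun i hi n => by rw [hi, map_zero]; exact RepFamily.rep_zero n
  refine ⟨m j, fun i => if h : a i ≠ 0 then (if m ⟨i, h⟩ = m j then v ⟨i, h⟩ else 0) else 0,
    ⟨j.1, by simp [j.2, hv j]⟩, fun i => ?_⟩
  by_cases h : a i ≠ 0
  · simp only [dif_pos h]
    rcases (hj ⟨i, h⟩ (Finset.mem_univ _)).eq_or_lt with e | hlt
    · rw [if_pos e.symm]
      exact ⟨e ▸ hm ⟨i, h⟩, fun e0 => absurd e0 (hv ⟨i, h⟩)⟩
    · rw [if_neg hlt.ne']
      refine ⟨(hm ⟨i, h⟩).mono hlt, fun _ => ?_⟩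
      rcases eq_or_lt_of_le (show m j + 1 ≤ m ⟨i, h⟩ by omega) with e | hlt'
      · exact ⟨_, e ▸ hm ⟨i, h⟩⟩
      · exact ⟨0, (hm ⟨i, h⟩).mono hlt'⟩
  · simp only [dif_neg h]
    exact ⟨hz i (not_not.mp h) _, fun _ => ⟨0, hz i (not_not.mp h) _⟩⟩

theorem srep_jSer_one : SRep (A := A) (jSer 1) (jqModC (ResidueField A)) := by
  have h := SRep.series (A := A) (jqModC A)
  rwa [show redS A (jqModC A) = jqModC (ResidueField A) from coeffMap_jqModC _,
    show ιS A (jqModC A) = jqModC Qbar from coeffMap_jqModC _, ← jSer_one] at h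

theorem coe_neg_hb : (((-S.hb : ↥GG)) : kS) =
    qExpand _ w (qExpand _ w (jqModC (ResidueField A))) - jqModC (ResidueField A) := by
  have e : (-S.hb : ↥GG) = piG (ResidueField A) M w (piG (ResidueField A) M w
      (jbar (ResidueField A) M)) - jbar (ResidueField A) M := by
    rw [piG_jbar, map_pow, piG_jbar, Setting.hb, neg_sub]
  rw [e]; rfl

theorem rep0_uF : (fam0 S).Rep (uF S) 0 ((-S.hb : ↥GG) : kS) := fun _ => by
  rw [zpow_zero, inv_one, one_smul, coe_neg_hb]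
  show SRep (A := A) ((uFun M w : Ser)) _
  rw [coe_uFun, jSer_ww]
  exact ((srep_jSer_one.qExpand w).qExpand w).sub srep_jSer_one

theorem rep1_uF : (fam1 S).Rep (uF S) 1 (theta (jqModC (ResidueField A))) := fun t => by
  rw [zpow_one]
  show SRep ((pw w t.1)⁻¹ • mid S.prime S.not_dvd t.1 t.2 (uFun M w)) _
  rw [mid_uFun S t.2]
  exact SRep_twist_sub srep_jSer_one t.2

theorem theta_jq_ne : theta (jqModC (ResidueField A)) ≠ 0 := fun h => by
  have h1 := congrArg (fun z : kS => z.coeff (-1)) h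
  rw [LevelP.theta_coeff, coeff_jqModC_neg_one, HahnSeries.coeff_zero] at h1
  simp at h1

theorem rep0_cF :
    (fam0 S).Rep ⟨cFun S, fixed_cFun S⟩ 0 ((-S.hb : ↥GG) : kS) := fun _ => by
  rw [zpow_zero, inv_one, one_smul]
  show SRep (((cFun S : ↥(modularFunctionFieldBar (M * w * w))) : Ser)) _
  rw [cFun, NegMemClass.coe_neg, NegMemClass.coe_neg, coe_heckeAlphaBar]
  exact (S.srep_hFun 0).neg

theorem rep1_cF :
    (fam1 S).Rep ⟨cFun S, fixed_cFun S⟩ 0 ((-S.hb : ↥GG) : kS) := fun t => by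
  rw [zpow_zero, inv_one, one_smul]
  show SRep (mid S.prime S.not_dvd t.1 t.2 (cFun S)) _
  rw [cFun, map_neg, NegMemClass.coe_neg, mid_alpha]
  exact (S.srep_hFun 0).neg

theorem rep0_dF : (fam0 S).Rep (dF S) 0 0 := by
  simpa [dF] using (rep0_cF S).sub (rep0_uF S)

theorem rep1_dF : (fam1 S).Rep (dF S) 0 ((-S.hb : ↥GG) : kS) := by
  simpa [dF] using (rep1_cF S).sub ((rep1_uF S).mono zero_lt_one)

theorem neg_hb_ne : ((-S.hb : ↥GG) : kS) ≠ 0 := fun h =>
  neg_ne_zero.mpr S.hb_ne (Subtype.ext h)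

/-- A basis element as a fixed function. -/
def bF (i : Fin w) : ↥(FixF A M w) := ⟨bFun S i, fixed_bFun S i⟩

theorem bF_last {i : Fin w} (h : (i : ℕ) = w - 1) : bF S i = (uF S) ^ (i : ℕ) :=
  Subtype.ext (by simp [bF, bFun, h, uF])

theorem bF_of_ne {i : Fin w} (h : (i : ℕ) ≠ w - 1) : bF S i = (uF S) ^ (i : ℕ) * dF S :=
  Subtype.ext (by simp [bF, bFun, h, uF, dF])

theorem coord_eq (f : ↥(FixF A M w)) :
    ∃ a : Fin w → ↥(descent S).F₀, f = ∑ i, alphaF S (a i) * bF S i := by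
  obtain ⟨a, ha⟩ := exists_coord S f
  exact ⟨a, Subtype.ext (by rw [ha]; push_cast; rfl)⟩

/-- What the coordinates say about the orders. -/
theorem comb {f : ↥(FixF A M w)} (hf : f ≠ 0) :
    ∃ (m : ℤ) (v0 : ↥GG), (fam0 S).Rep f m (v0 : kS) ∧
      ((∃ i : ℕ, i < w - 1 ∧ ∃ v : kS, v ≠ 0 ∧
          (fam1 S).Rep f (((w - 1 : ℕ) : ℤ) * m + i) v ∧ (i = 0 → v ∈ GG)) ∨
        (v0 ≠ 0 ∧ (fam1 S).Rep f (((w - 1 : ℕ) : ℤ) * m) 0)) := by
  classical
  have h2 := (Fact.out : w.Prime).two_le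
  obtain ⟨a, rfl⟩ := coord_eq S f
  obtain ⟨m, v, ⟨i₁, hi₁⟩, hv⟩ := exists_coord_level S a (by
    by_contra h
    push Not at h
    exact hf (Finset.sum_eq_zero fun i _ => by rw [h i, map_zero, zero_mul]))
  set l : Fin w := ⟨w - 1, by omega⟩ with hl
  refine ⟨m, v l * (-S.hb) ^ (w - 1), ?_, ?_⟩
  · rw [MulMemClass.coe_mul, SubmonoidClass.coe_pow,
      ← Finset.sum_eq_single (s := (Finset.univ : Finset (Fin w))) (f := fun i : Fin w =>
        if i = l then (v l : kS) * ((-S.hb : ↥GG) : kS) ^ (w - 1) else 0) l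
        (fun i _ hi => if_neg hi) (fun h => absurd (Finset.mem_univ l) h) |>.trans (if_pos rfl)]
    refine RepFamily.rep_sum _ fun i _ => ?_
    split_ifs with hil
    · rw [hil, bF_last S (i := l) rfl]
      simpa using (hv l).1.mul ((rep0_uF S).pow (w - 1))
    · have hi' : (i : ℕ) ≠ w - 1 := fun e => hil (Fin.ext e)
      rw [bF_of_ne S hi']
      simpa using (hv i).1.mul (((rep0_uF S).pow (i : ℕ)).mul (rep0_dF S))
  -- the terms along the middle
  have hb : ∀ i : Fin w, ∃ b : kS, (fam1 S).Rep (bF S i) (i : ℕ) b ∧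
      ((i : ℕ) ≠ w - 1 → b = theta (jqModC _) ^ (i : ℕ) * ((-S.hb : ↥GG) : kS)) := fun i => by
    by_cases h : (i : ℕ) = w - 1
    · exact ⟨_, by simpa [bF_last S h] using (rep1_uF S).pow (i : ℕ), fun h' => absurd h h'⟩
    · exact ⟨_, by simpa [bF_of_ne S h] using ((rep1_uF S).pow (i : ℕ)).mul (rep1_dF S),
        fun _ => rfl⟩
  choose b hb hb' using hb
  have hzero : ∀ i : Fin w, ∀ n : ℤ, n < ((w - 1 : ℕ) : ℤ) * m + (i : ℕ) →
      (fam1 S).Rep (alphaF S (a i) * bF S i) n 0 := fun i n hn =>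
    ((rep1_alpha S (hv i).1).mul (hb i)).mono hn
  have hsmall : ∀ i : Fin w, v i = 0 → ∀ n : ℤ, n < ((w - 1 : ℕ) : ℤ) * (m + 1) + (i : ℕ) →
      (fam1 S).Rep (alphaF S (a i) * bF S i) n 0 := fun i hi n hn => by
    obtain ⟨u, hu⟩ := (hv i).2 hi
    exact ((rep1_alpha S hu).mul (hb i)).mono hn
  have hw1 : (1 : ℤ) ≤ ((w - 1 : ℕ) : ℤ) := by omega
  by_cases hlow : ∃ i : ℕ, ∃ h : i < w - 1, v ⟨i, by omega⟩ ≠ 0
  · obtain ⟨hlt, hne⟩ := Nat.find_spec hlow
    set i₀ := Nat.find hlow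
    set j : Fin w := ⟨i₀, by omega⟩
    left
    refine ⟨i₀, hlt, ((kapG A M w m * v j : ↥GG) : kS) * b j, ?_, ?_, fun h0 => ?_⟩
    · refine mul_ne_zero (fun e => mul_ne_zero (kapG_ne m) hne (Subtype.ext e)) ?_
      rw [hb' j hlt.ne]
      exact mul_ne_zero (pow_ne_zero _ theta_jq_ne) (neg_hb_ne S)
    · rw [← Finset.sum_eq_single (s := (Finset.univ : Finset (Fin w))) (f := fun i : Fin w =>
        if i = j then ((kapG A M w m * v j : ↥GG) : kS) * b j else 0) j
        (fun i _ hi => if_neg hi) (fun h => absurd (Finset.mem_univ j) h) |>.trans (if_pos rfl)]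
      refine RepFamily.rep_sum _ fun i _ => ?_
      split_ifs with hij
      · subst hij
        exact (rep1_alpha S (hv j).1).mul (hb j)
      · rcases lt_trichotomy (i : ℕ) i₀ with hlt' | he | hgt
        · have hvi : v i = 0 := by
            by_contra hne'
            exact Nat.find_min hlow hlt' ⟨by omega, hne'⟩
          refine hsmall i hvi _ ?_
          rw [mul_add, mul_one]
          have : (i₀ : ℤ) < ((w - 1 : ℕ) : ℤ) := by exact_mod_cast hlt
          omega
        · exact absurd (Fin.ext he) hij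
        · exact hzero i _ (by omega)
    · rw [hb' j hlt.ne, show (j : ℕ) = 0 from h0, pow_zero, one_mul]
      exact mul_mem (SetLike.coe_mem _) (SetLike.coe_mem _)
  · push Not at hlow
    have hil : i₁ = l := by
      by_contra hne
      have : (i₁ : ℕ) ≠ w - 1 := fun e => hne (Fin.ext e)
      exact hi₁ (hlow i₁ (by omega))
    right
    refine ⟨mul_ne_zero (hil ▸ hi₁) (pow_ne_zero _ (neg_ne_zero.mpr S.hb_ne)), ?_⟩
    rw [← Finset.sum_const_zero (s := (Finset.univ : Finset (Fin w)))]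
    refine RepFamily.rep_sum _ fun i _ => ?_
    by_cases hi : (i : ℕ) = w - 1
    · exact hzero i _ (by omega)
    · refine hsmall i (hlow i (by omega)) _ ?_
      rw [mul_add, mul_one]
      omega

/-- Finite order along the expansion at `∞`. -/
theorem exists_rep0 {f : ↥(FixF A M w)} (hf : f ≠ 0) :
    ∃ (m : ℤ) (v : kS), v ≠ 0 ∧ (fam0 S).Rep f m v := by
  have hfix := fixed_iff.mp f.2
  obtain ⟨P, Q, hPQ, hQ0, hP, hQ, hbP, hbQ⟩ := LevelP.exists_fixed_quotient f.1.2 hfix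
  have hne : ((f : ↥(modularFunctionFieldBar (M * w * w))) : Ser) ≠ 0 :=
    fun e => hf (Subtype.ext (Subtype.ext e))
  obtain ⟨a, P', hP', hPr⟩ := LevelP.exists_primitive_of_fixed S.prime S.above S.nilModulo' hbP hP
    (hPQ ▸ mul_ne_zero hne hQ0)
  obtain ⟨b, Q', hQ', hQr⟩ := LevelP.exists_primitive_of_fixed S.prime S.above S.nilModulo' hbQ hQ
    hQ0
  refine ⟨b - a, redS A P' / redS A Q', div_ne_zero hPr hQr, fun _ => ⟨P', Q', ?_, hQr, rfl⟩⟩
  show ιS A Q' * (((w : Qbar) ^ (b - a))⁻¹ • ((f : ↥(modularFunctionFieldBar (M * w * w))) : Ser))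
    = _
  rw [← zpow_neg, neg_sub, smul_eq_algebraMap_mul, algebraMap_laurentSeries_eq_single, hP', hQ',
    ← hPQ, show (w : Qbar) ^ a = (w : Qbar) ^ b * (w : Qbar) ^ (a - b) by
      rw [← zpow_add₀ (Nat.cast_ne_zero.mpr (NeZero.ne w))]; congr 1; ring,
    ← zero_add (0 : ℤ), ← HahnSeries.single_mul_single, zero_add]
  ring

/-- The middle order is finite; at order zero the residue lies in `Ḡ`. -/
theorem exists_rep1 {f : ↥(FixF A M w)} (hf : f ≠ 0) :
    ∃ (m : ℤ) (v : kS), v ≠ 0 ∧ (fam1 S).Rep f m v ∧ (m = 0 → v ∈ GG) := by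
  have hd : dF S ≠ 0 := (rep1_dF S).ne_zero (neg_hb_ne S)
  by_contra hno
  obtain ⟨μ, v, hv, hμ⟩ := exists_rep0 S hf
  obtain ⟨e, ve, hve, he⟩ := exists_rep0 S hd
  have he1 : (1 : ℤ) ≤ e := by
    rcases (he.le_of_ne hve (rep0_dF S)).eq_or_lt with h | h
    · subst h; exact absurd (he.unique (rep0_dF S)) hve
    · omega
  obtain ⟨d1, hd1⟩ := he.mono_exists he1
  -- a lower bound for `f⁻¹`
  obtain ⟨L, u, hL⟩ : ∃ L u, (fam1 S).Rep f⁻¹ L u := by
    obtain ⟨m, v0, -, ⟨i, -, x, -, hx, -⟩ | ⟨-, hx⟩⟩ := comb S (inv_ne_zero hf) <;>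
      exact ⟨_, _, hx⟩
  obtain ⟨N, hN⟩ : ∃ N : ℕ, 0 < L + ((w - 1 : ℕ) : ℤ) * (μ + N) := by
    refine ⟨(-L).toNat + (-μ).toNat + 1, ?_⟩
    have h2 := (Fact.out : w.Prime).two_le
    have h3 := le_mul_of_one_le_left (show 0 ≤ μ + (((-L).toNat + (-μ).toNat + 1 : ℕ) : ℤ) by omega)
      (show (1 : ℤ) ≤ ((w - 1 : ℕ) : ℤ) by omega)
    push_cast at h3 ⊢
    omega
  have hg : f * dF S ^ N ≠ 0 := mul_ne_zero hf (pow_ne_zero _ hd)
  have hcancel : f = f * dF S ^ N * (dF S ^ N)⁻¹ := by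
    exact (mul_inv_cancel_right₀ (pow_ne_zero _ hd) f).symm
  have hinv := ((rep1_dF S).pow N).inv (pow_ne_zero _ (neg_hb_ne S))
  simp only [mul_zero, neg_zero] at hinv
  obtain ⟨m, v0, hm, ⟨i, hi, x, hx0, hx, hxG⟩ | ⟨hv0, hx⟩⟩ := comb S hg
  · have h2 := hx.mul hinv
    rw [← hcancel, add_zero] at h2
    refine hno ⟨_, _, mul_ne_zero hx0 (inv_ne_zero (pow_ne_zero _ (neg_hb_ne S))), h2, fun h0 => ?_⟩
    refine mul_mem (hxG ?_) (inv_mem (pow_mem (SetLike.coe_mem _) N))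
    rcases lt_trichotomy m 0 with hm0 | rfl | hm0
    · nlinarith
    · omega
    · nlinarith
  · have h1 := hμ.mul (hd1.pow N)
    rw [mul_one] at h1
    have hle : μ + N ≤ m := hm.le_of_ne (fun e => hv0 (Subtype.ext e)) h1
    have h2 := hx.mul hinv
    rw [← hcancel, add_zero] at h2
    obtain ⟨x', hx'⟩ := h2.mono_exists
      (show ((w - 1 : ℕ) : ℤ) * (μ + N) ≤ ((w - 1 : ℕ) : ℤ) * m by gcongr)
    have h3 := hL.mul hx'
    rw [inv_mul_cancel₀ hf] at h3
    have := (RepFamily.rep_one (R := fam1 S)).le_of_ne one_ne_zero h3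
    omega

/-- Residues along the expansion at `∞` lie in `Ḡ`. -/
theorem rep0_mem {f : ↥(FixF A M w)} {v : kS} (h : (fam0 S).Rep f 0 v) : v ∈ GG := by
  rcases eq_or_ne v 0 with rfl | hv
  · exact zero_mem _
  have hf := h.ne_zero hv
  have hu : uF S ≠ 0 := (rep0_uF S).ne_zero (neg_hb_ne S)
  obtain ⟨ν, x, hx, hν, -⟩ := exists_rep1 S hf
  set N : ℕ := (-ν).toNat with hN
  have hg : f * (uF S) ^ N ≠ 0 := mul_ne_zero hf (pow_ne_zero _ hu)
  have h0 := h.mul ((rep0_uF S).pow N)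
  simp only [mul_zero, add_zero] at h0
  obtain ⟨m, v0, hm, halt⟩ := comb S hg
  have hv' : v * ((-S.hb : ↥GG) : kS) ^ N ≠ 0 := mul_ne_zero hv (pow_ne_zero _ (neg_hb_ne S))
  rcases eq_or_ne v0 0 with hv0 | hv0
  · exfalso
    rcases halt with ⟨i, hi, y, hy, hy1, -⟩ | ⟨hne, -⟩
    · have hle := h0.le_of_ne hv' hm
      have hlt : m < 0 := lt_of_le_of_ne hle fun e => hv' (by
        subst e; rw [h0.unique hm, hv0]; rfl)
      have h1 := hν.mul ((rep1_uF S).pow N)
      have := h1.order_unique (mul_ne_zero hx (pow_ne_zero _ theta_jq_ne)) hy1 hy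
      nlinarith [Int.self_le_toNat (-ν)]
    · exact hne hv0
  · have e := hm.order_unique (fun e => hv0 (Subtype.ext e)) h0 hv'
    subst e
    have hmem : v * ((-S.hb : ↥GG) : kS) ^ N ∈ GG := h0.unique hm ▸ SetLike.coe_mem _
    rw [← mul_inv_cancel_right₀ (pow_ne_zero N (neg_hb_ne S)) v]
    exact mul_mem hmem (inv_mem (pow_mem (SetLike.coe_mem _) N))

theorem exists_alpha_red (z : Fin 2 → ↥GG) : ∃ a : ↥(descent S).F₀,
    ∀ i, SRep (S.side i (a : ↥(modularFunctionFieldBar (M * w)))) (z i : kS) := by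
  have := isFunctionField_level (M * w)
  have := S.isFunctionField_C
  have : CharP ↥GG w := charP_of_injective_algebraMap (algebraMap (ResidueField A) _).injective w
  obtain ⟨a, ha⟩ := (descent S).exists_red_eq z
  refine ⟨a, fun i => ?_⟩
  obtain ⟨h1, h2⟩ := ha i
  rw [← h2, (descent S).glueData_redF h1]
  exact S.srep_red h1

theorem rep0_alpha_of_srep {a : ↥(descent S).F₀} {v : kS}
    (h : SRep (S.side 0 (a : ↥(modularFunctionFieldBar (M * w)))) v) :
    (fam0 S).Rep (alphaF S a) 0 v := fun _ => by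
  rw [zpow_zero, inv_one, one_smul, e_alpha]
  rw [S.side_zero] at h
  exact h

theorem facts0 : (fam0 S).Facts GG where
  exists_rep _ hf := exists_rep0 S hf
  mem _ _ h := rep0_mem S h
  exists_one := ⟨(w : ↥(FixF A M w)), 1, one_ne_zero, fun _ => by
    show SRep (((w : Qbar) ^ (1 : ℤ))⁻¹ • _) _
    rw [map_natCast, zpow_one, smul_eq_algebraMap_mul, map_inv₀, map_natCast,
      inv_mul_cancel₀ (fun e => Nat.cast_ne_zero.mpr (NeZero.ne w) ((algebraMap Qbar Ser).injective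
        (a₁ := (w : Qbar)) (a₂ := 0) (by rw [map_natCast, e, map_zero])))]
    exact SRep.one⟩
  lift z := by
    obtain ⟨a, ha⟩ := exists_alpha_red S ![z, 0]
    exact ⟨_, rep0_alpha_of_srep S (ha 0)⟩

theorem facts1 : (fam1 S).Facts GG where
  exists_rep _ hf := by
    obtain ⟨m, v, hv, h, -⟩ := exists_rep1 S hf
    exact ⟨m, v, hv, h⟩
  mem f v h := by
    rcases eq_or_ne v 0 with rfl | hv
    · exact zero_mem _
    obtain ⟨m, v', hv', h', hG⟩ := exists_rep1 S (h.ne_zero hv)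
    have e := h'.order_unique hv' h hv
    subst e
    rw [h.unique h']; exact hG rfl
  exists_one := ⟨(uF S), _, theta_jq_ne, rep1_uF S⟩
  lift z := by
    obtain ⟨a, ha⟩ := exists_alpha_red S ![z, 0]
    refine ⟨alphaF S a, ?_⟩
    simpa [kapG] using rep1_alpha S (v := z) (m := 0) (rep0_alpha_of_srep S (ha 0))

/-- The expansion after the involution gives a valuation with residue field `F̄_M`. -/
theorem facts2 : (fam2 S).Facts GG where
  exists_rep f hf := exists_rep0 S ((map_ne_zero_iff _ (swF S).injective).mpr hf)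
  mem _ _ h := rep0_mem S h
  exists_one := by
    obtain ⟨x, v, hv, h⟩ := (facts0 S).exists_one
    exact ⟨swF S x, v, hv, (rep2_iff S).mpr (by rwa [swF_swF])⟩
  lift z := by
    obtain ⟨f, hf⟩ := (facts0 S).lift z
    exact ⟨swF S f, (rep2_iff S).mpr (by rwa [swF_swF])⟩

/-- The three components. -/
def comps : Fin 3 → Comp ↥(FixF A M w) ↥GG :=
  ![RepFamily.toComp (facts0 S), RepFamily.toComp (facts1 S), RepFamily.toComp (facts2 S)]

end Fermat.Agent.SquareOld.Geom
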