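import Fermat.Agent.SquareOld.Geom.LowNorm
import Fermat.Agent.MultRed.Galois
import Mathlib.RingTheory.DiscreteValuationRing.Basic

/-!
# The fixed constants and the parameter `T = j(w τ)`
-/

set_option autoImplicit false
set_option linter.unusedSectionVars false
set_option linter.unusedVariables false

noncomputable section

open IsLocalRing ModularCurve AlgebraicCurve Fermat.Agent.Reduction Fermat.Agent.SemistableRed

namespace Fermat.Agent.SquareOld.Geom

open LevelP (descent inertiaField)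

set_option maxHeartbeats 2000000

local notation "Qbar" => AlgebraicClosure ℚ
local notation "Ser" => LaurentSeries (AlgebraicClosure ℚ)

variable {A : ValuationSubring (AlgebraicClosure ℚ)} {M w : ℕ} [NeZero M] [NeZero w]
  [Fact w.Prime] [CharP (ResidueField A) w] [IsAlgClosed (ResidueField A)] (S : Setting A M w)

local notation "kS" => LaurentSeries (ResidueField A)
local notation "GG" => modularFunctionFieldFullC (ResidueField A) M

variable (A) in
/-- The elements of `A` fixed by inertia. -/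
def Afix : Subring Qbar := A.toSubring ⊓ (inertiaField A).toSubfield.toSubring

theorem mem_Afix {c : Qbar} :
    c ∈ Afix A ↔ c ∈ A ∧ ∀ σ ∈ A.inertiaSubgroupIn ℚ, σ c = c :=
  ⟨fun h => ⟨h.1, fun σ hσ => h.2 ⟨σ, hσ⟩⟩, fun h => ⟨h.1, fun σ => h.2 σ.1 σ.2⟩⟩

variable (A) in
/-- The residue of a fixed constant. -/
def resA : Afix A →+* ResidueField A :=
  (residue A).comp ((Afix A).subtype.codRestrict A.toSubring fun c => c.2.1)

theorem resA_apply (c : Afix A) : resA A c = residue A ⟨(c : Qbar), c.2.1⟩ := rfl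

include S in
theorem Afix_isUnit {c : Afix A} : IsUnit c ↔ resA A c ≠ 0 := by
  refine ⟨fun h => (h.map (resA A)).ne_zero, fun h => ?_⟩
  rw [resA_apply, Ne, residue_eq_zero_iff, mem_maximalIdeal, mem_nonunits_iff, not_not] at h
  obtain ⟨u, hu⟩ := h
  have h1 : (c : Qbar) * ((↑u⁻¹ : A) : Qbar) = 1 := by
    rw [show (c : Qbar) = ((u : A) : Qbar) from (congrArg Subtype.val hu).symm]
    exact congrArg Subtype.val u.mul_inv
  refine IsUnit.of_mul_eq_one ⟨((↑u⁻¹ : A) : Qbar), mem_Afix.mpr ⟨SetLike.coe_mem _, ?_⟩⟩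
    (Subtype.ext h1)
  intro σ hσ
  rw [eq_inv_of_mul_eq_one_right h1, map_inv₀, (mem_Afix.mp c.2).2 σ hσ]

include S in
theorem Afix_div_w {c : Afix A} (h : resA A c = 0) :
    ∃ d : Afix A, c = (w : Afix A) * d := by
  refine ⟨⟨(c : Qbar) / w, mem_Afix.mpr ⟨LevelP.div_natCast_mem_of_fixed S.prime S.above c.2.1 h
    (mem_Afix.mp c.2).2, fun σ hσ => ?_⟩⟩, Subtype.ext ?_⟩
  · rw [map_div₀, (mem_Afix.mp c.2).2 σ hσ, map_natCast]
  · push_cast
    rw [mul_div_cancel₀ _ (Nat.cast_ne_zero.mpr (NeZero.ne w))]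

include S in
theorem resA_w : resA A (w : Afix A) = 0 := by
  rw [map_natCast]; exact residue_natCast_eq_zero S.above

include S in
theorem Afix_maximal {c : Afix A} : ¬ IsUnit c ↔ ∃ d, c = (w : Afix A) * d := by
  rw [Afix_isUnit S, not_not]
  exact ⟨Afix_div_w S, fun ⟨d, hd⟩ => by rw [hd, map_mul, resA_w S, zero_mul]⟩

include S in
theorem Afix_factor {c : Afix A} (hc : c ≠ 0) :
    ∃ (n : ℕ) (u : (Afix A)ˣ), c = (w : Afix A) ^ n * u := by
  have hw0 : (w : Qbar) ≠ 0 := Nat.cast_ne_zero.mpr (NeZero.ne w)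
  have hc0 : (c : Qbar) ≠ 0 := fun e => hc (Subtype.ext e)
  obtain ⟨k, hk⟩ := FlatJ0.exists_valuation_eq_zpow_of_fixed S.prime S.above hc0
    (mem_Afix.mp c.2).2
  have hlt : A.valuation (w : Qbar) < 1 := S.above
  have hpos : 0 < A.valuation (w : Qbar) := A.valuation.pos_iff.mpr hw0
  have hk0 : 0 ≤ k := by
    by_contra hk0
    have h1 : A.valuation (c : Qbar) ≤ 1 := (A.valuation_le_one_iff _).mpr c.2.1
    exact absurd (one_lt_zpow_of_neg₀ hpos hlt (not_le.mp hk0)) (not_lt.mpr (hk ▸ h1))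
  obtain ⟨n, rfl⟩ := Int.eq_ofNat_of_zero_le hk0
  set d : Qbar := (c : Qbar) / (w : Qbar) ^ n
  have hd : A.valuation d = 1 := by
    rw [map_div₀, hk, zpow_natCast, map_pow, div_self (pow_ne_zero _ hpos.ne')]
  have hdA : d ∈ Afix A := mem_Afix.mpr ⟨(A.valuation_le_one_iff _).mp hd.le, fun σ hσ => by
    rw [map_div₀, (mem_Afix.mp c.2).2 σ hσ, map_pow, map_natCast]⟩
  have hu : IsUnit (⟨d, hdA⟩ : Afix A) := by
    rw [Afix_isUnit S]
    intro h
    rw [resA_apply, residue_eq_zero_iff, ← ValuationSubring.coe_mem_nonunits_iff] at h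
    exact (show A.valuation d < 1 from h).ne hd
  refine ⟨n, hu.unit, Subtype.ext ?_⟩
  rw [IsUnit.unit_spec]
  push_cast
  rw [mul_div_cancel₀ _ (pow_ne_zero _ hw0)]

include S in
theorem Afix_isDVR : IsDiscreteValuationRing (Afix A) := by
  refine IsDiscreteValuationRing.ofHasUnitMulPowIrreducibleFactorization
    ⟨(w : Afix A), ⟨fun h => (Afix_isUnit S).mp h (resA_w S), fun a b hab => ?_⟩, fun {c} hc => ?_⟩
  · by_contra h
    push Not at h
    obtain ⟨a', rfl⟩ := (Afix_maximal S).mp h.1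
    obtain ⟨b', rfl⟩ := (Afix_maximal S).mp h.2
    have hw : (w : Afix A) ≠ 0 := fun e => (Nat.cast_ne_zero.mpr (NeZero.ne w) : (w : Qbar) ≠ 0)
      (by simpa using congrArg Subtype.val e)
    refine (Afix_isUnit S).mp (IsUnit.of_mul_eq_one (a' * b') ?_) (resA_w S)
    refine mul_left_cancel₀ hw ?_
    rw [mul_one]
    linear_combination -hab
  · obtain ⟨n, u, rfl⟩ := Afix_factor S hc
    exact ⟨n, u, rfl⟩

variable (A M w) in
/-- Fixed constants as functions. -/
def cW : Afix A →+* ↥(FixF A M w) :=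
  ((algebraMap Qbar ↥(modularFunctionFieldBar (M * w * w))).comp (Afix A).subtype).codRestrict _
    fun c => LevelP.const_mem_fixed_iff.mpr (mem_Afix.mp c.2).2

theorem cW_injective : Function.Injective (cW A M w) := fun a b h =>
  Subtype.ext ((algebraMap Qbar ↥(modularFunctionFieldBar (M * w * w))).injective
    (congrArg Subtype.val h))

variable (A M w) in
/-- The constants. -/
def Wc : Subring ↥(FixF A M w) := (cW A M w).range

variable (A M w) in
/-- The constants as a ring. -/
def eW : Afix A ≃+* Wc A M w :=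
  RingEquiv.ofBijective (cW A M w).rangeRestrict
    ⟨fun a b h => cW_injective (congrArg Subtype.val h), (cW A M w).rangeRestrict_surjective⟩

theorem coe_eW (c : Afix A) : ((eW A M w c : Wc A M w) : ↥(FixF A M w)) = cW A M w c := rfl

include S in
theorem Wc_isDVR : IsDiscreteValuationRing (Wc A M w) :=
  have := Afix_isDVR S
  IsDiscreteValuationRing.RingEquivClass.isDiscreteValuationRing (eW A M w)

include S in
theorem Wc_maximal (x : Wc A M w) : ¬ IsUnit x ↔ ∃ y : Wc A M w, x = w * y := by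
  obtain ⟨c, rfl⟩ := (eW A M w).surjective x
  rw [MulEquiv.isUnit_map (eW A M w), Afix_maximal S]
  constructor
  · rintro ⟨d, rfl⟩
    exact ⟨eW A M w d, by rw [map_mul, map_natCast]⟩
  · rintro ⟨y, hy⟩
    refine ⟨(eW A M w).symm y, (eW A M w).injective ?_⟩
    rw [hy, map_mul, map_natCast, RingEquiv.apply_symm_apply]

variable (A M w) in
/-- The residue map of the constants. -/
def resWc : Wc A M w →+* ResidueField A := (resA A).comp (eW A M w).symm.toRingHom

theorem resWc_eW (c : Afix A) : resWc A M w (eW A M w c) = resA A c := by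
  simp [resWc]

include S in
theorem resWc_surjective : Function.Surjective (resWc A M w) := fun y => by
  obtain ⟨r, hr, hry⟩ := FlatJ0.IsOver.exists_fixed_lift ⟨S.prime, S.above⟩ y
  exact ⟨eW A M w ⟨(r : Qbar), mem_Afix.mpr ⟨r.2, hr.2⟩⟩, by rw [resWc_eW]; exact hry⟩

include S in
theorem root (n : ℕ) (c : Wc A M w) (hn : (n : ResidueField A) ≠ 0) (hc : IsUnit c) :
    ∃ d : Wc A M w, IsUnit d ∧ d ^ n = c := by
  obtain ⟨c, rfl⟩ := (eW A M w).surjective c
  rw [MulEquiv.isUnit_map (eW A M w), Afix_isUnit S] at hc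
  have hn0 : n ≠ 0 := fun e => hn (by rw [e, Nat.cast_zero])
  obtain ⟨d, hd⟩ := IsAlgClosed.exists_pow_nat_eq (c : Qbar) (Nat.pos_of_ne_zero hn0)
  have hdA : d ∈ A := by
    rcases A.mem_or_inv_mem d with h | h
    · exact h
    · by_contra hne
      have h1 : A.valuation d ^ n ≤ 1 := by
        rw [← map_pow, hd]; exact (A.valuation_le_one_iff _).mpr c.2.1
      exact hne ((A.valuation_le_one_iff _).mp ((pow_le_one_iff hn0).mp h1))
  have hdne : residue A ⟨d, hdA⟩ ≠ 0 := fun e => hc (by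
    rw [resA_apply, show (⟨(c : Qbar), c.2.1⟩ : A) = ⟨d, hdA⟩ ^ n from
      Subtype.ext (by push_cast; exact hd.symm), map_pow, e, zero_pow hn0])
  have hd0 : d ≠ 0 := fun e => hdne (by
    rw [show (⟨d, hdA⟩ : A) = 0 from Subtype.ext e, map_zero])
  have hfix : ∀ σ ∈ A.inertiaSubgroupIn ℚ, σ d = d := fun σ hσ => by
    have hσdA : σ d ∈ A := by
      have h := MultRed.inertia_residue hσ d ((A.valuation_le_one_iff _).mpr hdA)
      have h' : σ d - d ∈ A := (A.valuation_le_one_iff _).mp h.le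
      simpa using A.add_mem _ _ h' hdA
    have hres : residue A ⟨σ d, hσdA⟩ = residue A ⟨d, hdA⟩ := by
      rw [← sub_eq_zero, ← map_sub, residue_eq_zero_iff, ← ValuationSubring.coe_mem_nonunits_iff]
      exact MultRed.inertia_residue hσ d ((A.valuation_le_one_iff _).mpr hdA)
    set x : A := ⟨σ d, hσdA⟩ with hx
    set y : A := ⟨d, hdA⟩ with hy
    have hpow : x ^ n = y ^ n := Subtype.ext (by
      push_cast [hx, hy]
      rw [← map_pow, hd, (mem_Afix.mp c.2).2 σ hσ])
    have hsum : residue A (∑ i ∈ Finset.range n, x ^ i * y ^ (n - 1 - i)) ≠ 0 := by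
      rw [map_sum, Finset.sum_congr rfl (g := fun _ => residue A y ^ (n - 1)) fun i hi => by
        rw [map_mul, map_pow, map_pow, hres, ← pow_add]
        rw [Finset.mem_range] at hi
        congr 1; omega, Finset.sum_const, Finset.card_range, nsmul_eq_mul]
      exact mul_ne_zero hn (pow_ne_zero _ hdne)
    have h := geom_sum₂_mul x y n
    rw [hpow, sub_self, mul_eq_zero] at h
    rcases h with h | h
    · rw [h, map_zero] at hsum; exact absurd rfl hsum
    · exact congrArg Subtype.val (sub_eq_zero.mp h)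
  refine ⟨eW A M w ⟨d, mem_Afix.mpr ⟨hdA, hfix⟩⟩, (Afix_isUnit S).mpr hdne |>.map _, ?_⟩
  rw [← map_pow]
  exact congrArg _ (Subtype.ext (by push_cast; exact hd))

/-- A constant as an element of level `M w`. -/
def lowC : Afix A →+* ↥(descent S).F₀ :=
  ((algebraMap Qbar ↥(modularFunctionFieldBar (M * w))).comp (Afix A).subtype).codRestrict _
    fun c => LevelP.const_mem_fixed_iff.mpr (mem_Afix.mp c.2).2

/-- The constants in level `M w`. -/
def ιEc : Wc A M w →+* ↥(descent S).F₀ := (lowC S).comp (eW A M w).symm.toRingHom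

theorem ιEc_eW (c : Afix A) : ιEc S (eW A M w c) = lowC S c := by simp [ιEc]

theorem alphaF_lowC (c : Afix A) : alphaF S (lowC S c) = cW A M w c :=
  Subtype.ext ((heckeAlphaBar Qbar (M * w) w).commutes _)

theorem srep_side_const (j : Fin 2) (c : Afix A) :
    SRep (S.side j (algebraMap Qbar ↥(modularFunctionFieldBar (M * w)) (c : Qbar)))
      ((algebraMap (ResidueField A) ↥GG (resA A c) : ↥GG) : kS) := by
  rw [AlgHom.commutes]
  exact SRep.const ⟨(c : Qbar), c.2.1⟩

theorem comps_rep_const (i : Fin 3) (c : Afix A) :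
    cW A M w c ∈ (comps S i).V ∧
      (comps S i).redF (cW A M w c) = algebraMap (ResidueField A) ↥GG (resA A c) := by
  have h0 := rep0_alpha_of_srep S (a := lowC S c) (srep_side_const S 0 c)
  have h1 := rep1_alpha S (v := algebraMap (ResidueField A) ↥GG (resA A c)) h0
  rw [kapG, zpow_zero, map_one, one_mul, mul_zero, alphaF_lowC] at h1
  rw [alphaF_lowC] at h0
  have e : swF S (cW A M w c) = cW A M w c :=
    Subtype.ext ((sw S.prime S.not_dvd).commutes _)
  have h2 : (fam2 S).Rep (cW A M w c) 0 _ := (rep2_iff S).mpr (e.symm ▸ h0)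
  fin_cases i
  · exact ⟨RepFamily.toComp_mem _ h0, Subtype.ext (RepFamily.toComp_redF (facts0 S) h0)⟩
  · exact ⟨RepFamily.toComp_mem _ h1, Subtype.ext (RepFamily.toComp_redF (facts1 S) h1)⟩
  · exact ⟨RepFamily.toComp_mem _ h2, Subtype.ext (RepFamily.toComp_redF (facts2 S) h2)⟩

theorem low_const (j : Fin 2) (x : Wc A M w) :
    ιEc S x ∈ (low S j).V ∧
      (low S j).redF (ιEc S x) = algebraMap (ResidueField A) ↥GG (resWc A M w x) := by
  obtain ⟨c, rfl⟩ := (eW A M w).surjective x
  rw [ιEc_eW, resWc_eW]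
  have h : (lfam S j).Rep (lowC S c) 0 _ := fun u => by
    rw [zpow_zero, inv_one, one_smul, lfam_e]
    exact srep_side_const S j c
  exact ⟨RepFamily.toComp_mem _ h, Subtype.ext (RepFamily.toComp_redF (lfacts S j) h)⟩

theorem low_w (j : Fin 2) : (low S j).ord (w : ↥(descent S).F₀) = 1 := by
  refine RepFamily.toComp_ord (lfacts S j) (v := 1) (fun u => ?_) one_ne_zero
  rw [map_natCast, show (lfam S j).π u = (w : Qbar) from rfl, zpow_one, smul_eq_algebraMap_mul,
    ← map_natCast (algebraMap Qbar Ser), ← map_mul,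
    inv_mul_cancel₀ (Nat.cast_ne_zero.mpr (NeZero.ne w)), map_one]
  exact SRep.one

theorem comps_w (i : Fin 3) : 0 < (comps S i).ord (w : ↥(FixF A M w)) := by
  have hw : (w : ↥(FixF A M w)) ≠ 0 := fun e => by
    have h1 : (w : ↥(modularFunctionFieldBar (M * w * w))) = 0 := by
      simpa using congrArg Subtype.val e
    rw [← map_natCast (algebraMap Qbar ↥(modularFunctionFieldBar (M * w * w))), map_eq_zero] at h1
    exact (Nat.cast_ne_zero.mpr (NeZero.ne w)) h1
  obtain ⟨hm, hr⟩ := comps_rep_const S i (w : Afix A)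
  rw [map_natCast] at hm hr
  rw [resA_w S, map_zero] at hr
  rcases (Comp.redF_eq_zero hm).mp hr with h | h
  · exact absurd h hw
  · omega

/-- `j(w τ)`. -/
def Tp : ↥(FixF A M w) := alphaF S ⟨S.jqF, by
  rintro _ ⟨σ, -, rfl⟩
  exact (S.galois_jF σ).2⟩

theorem coe_Tp : ((Tp S : ↥(FixF A M w)) : ↥(modularFunctionFieldBar (M * w * w))) =
    jAt _ (1 * w) (dvd_top1 (one_dvd M)) := by
  refine Subtype.ext ?_
  show ((heckeAlphaBar Qbar (M * w) w S.jqF : ↥(modularFunctionFieldBar (M * w * w))) : Ser) = _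
  rw [coe_heckeAlphaBar, coe_jAt', Setting.jqF, coe_heckeBetaBar, jSer_mul, jSer_one]
  rfl

theorem swF_Tp : swF S (Tp S) = Tp S := by
  refine Subtype.ext ?_
  show sw S.prime S.not_dvd ((Tp S : ↥(FixF A M w)) : ↥(modularFunctionFieldBar (M * w * w))) = _
  rw [coe_Tp]
  exact (swRing_gen S.prime S.not_dvd 1 (one_dvd M)).2.1

variable (A M w) in
/-- The reduction of `T`. -/
def Tbar : ↥GG := piG (ResidueField A) M w (jbar (ResidueField A) M)

theorem comps_Tp (i : Fin 3) :
    Tp S ∈ (comps S i).V ∧ (comps S i).redF (Tp S) = Tbar A M w := by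
  have hs : SRep (S.side 0 S.jqF) (Tbar A M w : kS) := S.srep_jqF 0
  have h0 : (fam0 S).Rep (Tp S) 0 (Tbar A M w : kS) := rep0_alpha_of_srep S hs
  have h1 := rep1_alpha S (v := Tbar A M w) (m := 0) h0
  rw [kapG, zpow_zero, map_one, one_mul, mul_zero] at h1
  have h2 : (fam2 S).Rep (Tp S) 0 (Tbar A M w : kS) := (rep2_iff S).mpr (by rw [swF_Tp]; exact h0)
  fin_cases i
  · exact ⟨RepFamily.toComp_mem _ h0, Subtype.ext (RepFamily.toComp_redF (facts0 S) h0)⟩
  · exact ⟨RepFamily.toComp_mem _ h1, Subtype.ext (RepFamily.toComp_redF (facts1 S) h1)⟩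
  · exact ⟨RepFamily.toComp_mem _ h2, Subtype.ext (RepFamily.toComp_redF (facts2 S) h2)⟩

theorem aeval_Tbar_ne {p : Polynomial (ResidueField A)} (hp : p ≠ 0) :
    Polynomial.aeval (Tbar A M w) p ≠ 0 := by
  rw [Tbar, piG_jbar]
  intro h
  have hT : Transcendental (ResidueField A) (jbar (ResidueField A) M ^ w) := by
    exact (transcendental_jC (ResidueField A) M).pow (NeZero.pos w)
  exact hp (transcendental_iff.mp hT p h)

theorem eval_mem_red (i : Fin 3) (P : Polynomial (Wc A M w)) :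
    P.eval₂ (Wc A M w).subtype (Tp S) ∈ (comps S i).V ∧
      (comps S i).redF (P.eval₂ (Wc A M w).subtype (Tp S)) =
        Polynomial.aeval (Tbar A M w) (P.map (resWc A M w)) := by
  have hW : ∀ x : Wc A M w, ((x : ↥(FixF A M w)) ∈ (comps S i).V ∧
      (comps S i).redF (x : ↥(FixF A M w)) = algebraMap _ ↥GG (resWc A M w x)) := fun x => by
    obtain ⟨c, rfl⟩ := (eW A M w).surjective x
    rw [resWc_eW, coe_eW]; exact comps_rep_const S i c
  obtain ⟨hT, hTr⟩ := comps_Tp S i
  induction P using Polynomial.induction_on' with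
  | add p q hp hq =>
    rw [Polynomial.eval₂_add, Polynomial.map_add, map_add]
    exact ⟨add_mem hp.1 hq.1, by rw [Comp.redF_add hp.1 hq.1, hp.2, hq.2]⟩
  | monomial n a =>
    rw [Polynomial.eval₂_monomial, Polynomial.map_monomial, Polynomial.aeval_monomial,
      Subring.subtype_apply]
    exact ⟨mul_mem (hW a).1 (pow_mem hT n), by
      rw [Comp.redF_mul (hW a).1 (pow_mem hT n), Comp.redF_pow hT, (hW a).2, hTr]⟩

/-- The valuations restrict to the Gauss valuation of the constants. -/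
theorem gauss_Tp (i : Fin 3) (P : Polynomial (Wc A M w)) (h : ∃ l, IsUnit (P.coeff l)) :
    (comps S i).Unit (P.eval₂ (Wc A M w).subtype (Tp S)) := by
  obtain ⟨l, hl⟩ := h
  obtain ⟨hm, hr⟩ := eval_mem_red S i P
  refine Comp.unit_of_redF_ne hm (hr ▸ aeval_Tbar_ne fun e => ?_)
  have := congrArg (fun p => Polynomial.coeff p l) e
  simp only [Polynomial.coeff_map, Polynomial.coeff_zero] at this
  exact (hl.map (resWc A M w)).ne_zero this

include S in
theorem Wc_factor {x : Wc A M w} (hx : x ≠ 0) :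
    ∃ (n : ℕ) (u : Wc A M w), IsUnit u ∧ x = (w : Wc A M w) ^ n * u := by
  obtain ⟨c, rfl⟩ := (eW A M w).surjective x
  obtain ⟨n, u, rfl⟩ := Afix_factor S (c := c) fun e => hx (by rw [e, map_zero])
  exact ⟨n, _, u.isUnit.map _, by rw [map_mul, map_pow, map_natCast]⟩

include S in
/-- A nonzero polynomial over the constants is a power of `w` times a primitive one. -/
theorem exists_primitive {P : Polynomial (Wc A M w)} (hP : P ≠ 0) :
    ∃ (n : ℕ) (Q : Polynomial (Wc A M w)), (∃ l, IsUnit (Q.coeff l)) ∧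
      P = Polynomial.C ((w : Wc A M w) ^ n) * Q := by
  classical
  have key : ∀ l, P.coeff l ≠ 0 → ∃ (n : ℕ) (u : Wc A M w), IsUnit u ∧
      P.coeff l = (w : Wc A M w) ^ n * u := fun l h => Wc_factor S h
  choose n u hu he using key
  obtain ⟨l0, -, hmin⟩ := Finset.exists_min_image (Finset.univ : Finset P.support)
    (fun l => n l.1 (Polynomial.mem_support_iff.mp l.2))
    (by obtain ⟨l, hl⟩ := Polynomial.support_nonempty.mpr hP; exact ⟨⟨l, hl⟩, Finset.mem_univ _⟩)
  set n0 := n l0.1 (Polynomial.mem_support_iff.mp l0.2)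
  have hdvd : ∀ l, (w : Wc A M w) ^ n0 ∣ P.coeff l := fun l => by
    by_cases h : P.coeff l = 0
    · rw [h]; exact dvd_zero _
    · rw [he l h]
      exact dvd_mul_of_dvd_left (pow_dvd_pow _ (hmin ⟨l, Polynomial.mem_support_iff.mpr h⟩
        (Finset.mem_univ _))) _
  obtain ⟨Q, hQ⟩ := (Polynomial.C_dvd_iff_dvd_coeff _ _).mpr hdvd
  refine ⟨n0, Q, ⟨l0.1, ?_⟩, hQ⟩
  have hw0 : ((w : Wc A M w)) ^ n0 ≠ 0 := by
    refine pow_ne_zero _ fun e => ?_
    have : (w : Afix A) = 0 := (eW A M w).injective (by rw [map_natCast, e, map_zero])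
    exact (Nat.cast_ne_zero.mpr (NeZero.ne w) : (w : Qbar) ≠ 0)
      (by simpa using congrArg Subtype.val this)
  have h1 := congrArg (fun p => Polynomial.coeff p l0.1) hQ
  simp only [Polynomial.coeff_C_mul] at h1
  rw [he l0.1 (Polynomial.mem_support_iff.mp l0.2)] at h1
  rw [← mul_left_cancel₀ hw0 h1]
  exact hu _ _

theorem Tp_transcendental (P : Polynomial (Wc A M w))
    (h : P.eval₂ (Wc A M w).subtype (Tp S) = 0) : P = 0 := by
  by_contra hP
  obtain ⟨n, Q, hQ, rfl⟩ := exists_primitive S hP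
  rw [Polynomial.eval₂_mul, Polynomial.eval₂_C, mul_eq_zero, map_pow, map_natCast] at h
  rcases h with h | h
  · have hw := comps_w S 0
    rw [pow_eq_zero_iff'] at h
    rw [h.1] at hw
    exact lt_irrefl _ ((show (comps S 0).ord 0 = 0 from dif_pos rfl) ▸ hw)
  · exact (gauss_Tp S 0 Q hQ).1 h

end Fermat.Agent.SquareOld.Geom
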