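import Fermat.Agent.SquareOld.Geom.Lifts

/-!
# The degree of the fixed field of level `M w²` over the constants and `T`
-/

set_option autoImplicit false
set_option linter.unusedSectionVars false

noncomputable section

open IsLocalRing ModularCurve AlgebraicCurve Fermat.Agent.Reduction Fermat.Agent.SemistableRed
  Fermat.Agent.X0Analytic

namespace Fermat.Agent.SquareOld.Geom

open LevelP (descent)
open Fermat.Agent.Congruence

local notation "Qbar" => AlgebraicClosure ℚ

variable {A : ValuationSubring (AlgebraicClosure ℚ)} {M w : ℕ} [NeZero M] [NeZero w]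
  [Fact w.Prime] [CharP (ResidueField A) w] [IsAlgClosed (ResidueField A)] (S : Setting A M w)

/-- `ℚ̄ (T)`. -/
abbrev barT : IntermediateField Qbar ↥(modularFunctionFieldBar (M * w * w)) :=
  IntermediateField.adjoin Qbar {((Tp S : ↥(FixF A M w)) : ↥(modularFunctionFieldBar (M * w * w)))}

/-- The degree of the function field of level `M w²` over the constants and `T = j(w τ)`. -/
theorem finrank_adjoin_Tp :
    Module.finrank (barT S) ↥(modularFunctionFieldBar (M * w * w)) = w * ((w + 1) * dedekindPsi M) := by
  set α : ↥(FLevel Qbar (M * w)) →ₐ[Qbar] ↥(FLevel Qbar (M * w * w)) :=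
    heckeAlphaBar Qbar (M * w) w with hα
  have hT : ((Tp S : ↥(FixF A M w)) : ↥(modularFunctionFieldBar (M * w * w))) =
      α (S.w (jBar (M * w))) := by
    rw [← S.jF_eq, S.w_jF]; rfl
  have hq : (jField Qbar (M * w)).map S.w.toAlgHom =
      IntermediateField.adjoin Qbar ({S.w (jBar (M * w))} :
        Set ↥(modularFunctionFieldBar (M * w))) := by
    rw [jField, jEl_eq_jBar, IntermediateField.adjoin_map, Set.image_singleton]
    rfl
  have hdeg : Module.finrank (IntermediateField.adjoin Qbar ({S.w (jBar (M * w))} :
        Set ↥(modularFunctionFieldBar (M * w)))) ↥(modularFunctionFieldBar (M * w)) =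
      (w + 1) * dedekindPsi M := by
    rw [← IntermediateField.relfinrank_top_right, ← hq,
      show (⊤ : IntermediateField Qbar ↥(modularFunctionFieldBar (M * w))) =
        (⊤ : IntermediateField Qbar ↥(modularFunctionFieldBar (M * w))).map S.w.toAlgHom by
          rw [← AlgHom.fieldRange_eq_map]
          exact (AlgHom.fieldRange_eq_top.mpr S.w.surjective).symm,
      IntermediateField.relfinrank_map_map, IntermediateField.relfinrank_top_right,
      finrank_jField qbarToComplex, S.dedekindPsi_mul]
  have hmap : (IntermediateField.adjoin Qbar ({S.w (jBar (M * w))} :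
      Set ↥(FLevel Qbar (M * w)))).map α = (barT S) := by
    rw [IntermediateField.adjoin_map, Set.image_singleton, barT, hT]
  have h1 : IntermediateField.relfinrank (barT S) α.fieldRange = (w + 1) * dedekindPsi M := by
    rw [← hmap, AlgHom.fieldRange_eq_map, IntermediateField.relfinrank_map_map,
      IntermediateField.relfinrank_top_right]
    exact hdeg
  have hle : (barT S) ≤ α.fieldRange := by
    rw [IntermediateField.adjoin_simple_le_iff]
    exact ⟨_, hT.symm⟩
  have h2 : IntermediateField.relfinrank α.fieldRange ⊤ = w := by
    refine Eq.trans ?_ (finrankAlong_alpha_eq (M := M) S.prime)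
    rw [IntermediateField.relfinrank_top_right]
    let := algebraAlong (heckeAlphaBar Qbar (M * w) w)
    exact (Algebra.finrank_eq_of_equiv_equiv (AlgEquiv.ofInjectiveField α).toRingEquiv
      (RingEquiv.refl _) (by ext x; rfl)).symm
  have h3 := IntermediateField.relfinrank_mul_relfinrank hle (le_top : α.fieldRange ≤ ⊤)
  rw [h1, h2, IntermediateField.relfinrank_top_right] at h3
  rw [mul_comm w]
  exact h3.symm

end Fermat.Agent.SquareOld.Geom
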