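import Fermat.Agent.Congruence.LevelData
import Fermat.Agent.SemistableRed.AtkinLehner

/-!
# Conjugate expansions of the functions of level `M w²`

Besides the expansion at `∞` there are the one after the involution `τ ↦ γ (w² τ)` and, for
`s` prime to `w`, the ones with `(j, j_w, j_(w²)) ↦ (j(q), j(q ^ w), j(ζ ^ s q))`.
-/

set_option autoImplicit false
set_option linter.unusedSectionVars false

noncomputable section

open UpperHalfPlane CongruenceSubgroup ModularCurve
open scoped MatrixGroups Manifold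

namespace Fermat.Agent.SquareOld.Geom

open Fermat.Agent.X0Analytic Fermat.Agent.Congruence

variable {L : Type} [Field L] [Algebra ℚ L] {N : ℕ} [NeZero N]

variable (L) in
/-- The generator attached to a divisor. -/
def genDiv (d : {d : ℕ // d ∣ N}) : ↥(algGen L N) :=
  ⟨jL L d, Algebra.subset_adjoin ⟨d, inferInstance, d.2, rfl⟩⟩

theorem genDiv_surjective :
    Function.Surjective (MvPolynomial.aeval (R := L) (genDiv (N := N) L)) := by
  rintro ⟨x, hx⟩
  have h : x ∈ ((MvPolynomial.aeval (R := L) (genDiv (N := N) L)).range).map (algGen L N).val := by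
    refine Algebra.adjoin_le ?_ hx
    rintro y ⟨e, he0, he, rfl⟩
    exact ⟨genDiv L ⟨e, he⟩, ⟨MvPolynomial.X ⟨e, he⟩, MvPolynomial.aeval_X _ _⟩, rfl⟩
  obtain ⟨z, ⟨p, rfl⟩, hz⟩ := h
  exact ⟨p, Subtype.ext hz⟩

/-- A substitution of `ℍ` which turns the generators into periodic functions with known series
gives a homomorphism of the function field into series. -/
theorem exists_hom (φ : L →+* ℂ) (g : ℍ → ℍ) (hg : Function.Surjective g)
    (s : {d : ℕ // d ∣ N} → LaurentSeries L)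
    (hs : ∀ d : {d : ℕ // d ∣ N}, ∃ f : ↥(perMero 1),
      (∀ τ, (f : ℍ → ℂ) τ = scaledJ d (g τ)) ∧ qSer 1 f = coeffMap φ (s d)) :
    ∃ h : ↥(FLevel L N) →+* LaurentSeries L,
      (∀ c : L, h (algebraMap L _ c) = algebraMap L _ c) ∧
        ∀ d, h (algToField L N (genDiv L d)) = s d := by
  choose f hf hfs using hs
  let Θ : MvPolynomial {d : ℕ // d ∣ N} L →+* ↥(algGen L N) :=
    (MvPolynomial.aeval (R := L) (genDiv L)).toRingHom
  let Ψ : MvPolynomial {d : ℕ // d ∣ N} L →+* LaurentSeries L :=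
    (MvPolynomial.aeval (R := L) s).toRingHom
  let ev : ℍ → (↥(perMero 1) →+* ℂ) := fun τ =>
    (Pi.evalRingHom (fun _ : ℍ => ℂ) τ).comp (perMero 1).val.toRingHom
  let ev' : ℍ → (↥(modFun N) →+* ℂ) := fun τ =>
    (Pi.evalRingHom (fun _ : ℍ => ℂ) τ).comp (modFun N).val.toRingHom
  let Φ : MvPolynomial {d : ℕ // d ∣ N} L →+* ↥(perMero 1) :=
    MvPolynomial.eval₂Hom ((algebraMap ℂ ↥(perMero 1)).comp φ) f
  have h1 : (qSer 1).comp Φ = (coeffMap φ).comp Ψ := by
    refine MvPolynomial.ringHom_ext (fun c => ?_) fun d => ?_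
    · simp [Φ, Ψ, qSer_algebraMap, algebraMap_laurentSeries_eq_single, coeffMap_single]
    · simp [Φ, Ψ, hfs]
  have h2 : ∀ τ, (ev τ).comp Φ = ((ev' (g τ)).comp (toModFun φ)).comp Θ := by
    intro τ
    refine MvPolynomial.ringHom_ext (fun c => ?_) fun d => ?_
    · simp only [RingHom.comp_apply, Φ, MvPolynomial.eval₂Hom_C, Θ, AlgHom.toRingHom_eq_coe,
        RingHom.coe_coe, MvPolynomial.aeval_C, toModFun_algebraMap]
      rfl
    · simp only [RingHom.comp_apply, Φ, MvPolynomial.eval₂Hom_X', Θ, AlgHom.toRingHom_eq_coe,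
        RingHom.coe_coe, MvPolynomial.aeval_X, genDiv, toModFun_jL φ d.2]
      exact hf d τ
  have hzero : ∀ p, Θ p = 0 ↔ Ψ p = 0 := by
    intro p
    constructor <;> intro hp
    · have h3 : Φ p = 0 := Subtype.ext (funext fun τ => by
        have := RingHom.congr_fun (h2 τ) p
        simp only [RingHom.comp_apply, hp, map_zero] at this
        exact this)
      have h4 := RingHom.congr_fun h1 p
      simp only [RingHom.comp_apply, h3, map_zero] at h4
      exact (map_eq_zero_iff _ (X0Analytic.coeffMap_injective φ.injective)).mp h4.symm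
    · have h4 := RingHom.congr_fun h1 p
      simp only [RingHom.comp_apply, hp, map_zero] at h4
      have h3 : Φ p = 0 := (map_eq_zero_iff _ qSer_injective).mp h4
      refine (map_eq_zero_iff _ (toModFun_injective φ)).mp (Subtype.ext (funext fun τ' => ?_))
      obtain ⟨τ, rfl⟩ := hg τ'
      have := RingHom.congr_fun (h2 τ) p
      simp only [RingHom.comp_apply, h3, map_zero] at this
      exact this.symm
  let hA : ↥(algGen L N) →+* LaurentSeries L :=
    RingHom.liftOfSurjective Θ genDiv_surjective ⟨Ψ, fun p hp => (hzero p).mp hp⟩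
  have hAΘ : ∀ p, hA (Θ p) = Ψ p := fun p =>
    Θ.liftOfSurjective_comp_apply genDiv_surjective _ p
  have hinj : Function.Injective hA := by
    rw [injective_iff_map_eq_zero]
    intro a ha
    obtain ⟨p, rfl⟩ := genDiv_surjective (L := L) a
    exact (hzero p).mpr ((hAΘ p).symm.trans ha)
  refine ⟨IsFractionRing.lift (A := ↥(algGen L N)) (g := hA) hinj, fun c => ?_, fun d => ?_⟩
  · rw [← (algToField L N).commutes c]
    refine (IsFractionRing.lift_algebraMap hinj _).trans ?_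
    have := hAΘ (MvPolynomial.C c)
    simpa [Θ, Ψ] using this
  · refine (IsFractionRing.lift_algebraMap hinj _).trans ?_
    have := hAΘ (MvPolynomial.X d)
    simpa [Θ, Ψ] using this

section Square

variable {M w : ℕ} [NeZero M] [NeZero w]

theorem dvd_cases (hw : w.Prime) (hwM : ¬ w ∣ M) {d : ℕ} (hd : d ∣ M * w * w) :
    ∃ e, e ∣ M ∧ (d = e ∨ d = e * w ∨ d = e * w * w) := by
  obtain ⟨a, b, ha, hb, rfl⟩ := exists_dvd_and_dvd_of_dvd_mul hd
  obtain ⟨a', b', ha', hb', rfl⟩ := exists_dvd_and_dvd_of_dvd_mul ha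
  rcases (Nat.dvd_prime hw).mp hb with rfl | rfl <;>
    rcases (Nat.dvd_prime hw).mp hb' with h | h <;> subst h
  · exact ⟨a', ha', Or.inl (by ring)⟩
  · exact ⟨a', ha', Or.inr (Or.inl (by ring))⟩
  · exact ⟨a', ha', Or.inr (Or.inl (by ring))⟩
  · exact ⟨a', ha', Or.inr (Or.inr (by ring))⟩

theorem not_dvd_of_dvd (hwM : ¬ w ∣ M) {e : ℕ} (he : e ∣ M) : ¬ w ∣ e := fun h => hwM (h.trans he)

theorem exists_square_swap (hw : w.Prime) (hwM : ¬ w ∣ M) :
    ∃ g : ℍ → ℍ, Function.Surjective g ∧ ∀ (d : ℕ) [NeZero d], d ∣ M → ∀ τ : ℍ,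
      scaledJ d (g τ) = scaledJ (d * w * w) τ ∧ scaledJ (d * w) (g τ) = scaledJ (d * w) τ ∧
        scaledJ (d * w * w) (g τ) = scaledJ d τ := by
  obtain ⟨u, v, huv⟩ : IsCoprime ((w : ℤ) * w) (M : ℤ) := by
    have := Nat.isCoprime_iff_coprime.mpr (hw.coprime_iff_not_dvd.mpr hwM)
    exact this.mul_left this
  let γ : SL(2, ℤ) := ⟨!![1, -v; (M : ℤ), (w : ℤ) * w * u], by
    rw [Matrix.det_fin_two_of]; linear_combination huv⟩
  let γ₁ : SL(2, ℤ) := ⟨!![(w : ℤ), -v; (M : ℤ), (w : ℤ) * u], by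
    rw [Matrix.det_fin_two_of]; linear_combination huv⟩
  let γ₂ : SL(2, ℤ) := ⟨!![(w : ℤ) * w, -v; (M : ℤ), u], by
    rw [Matrix.det_fin_two_of]; linear_combination huv⟩
  have hγ : γ ∈ Gamma0 M := by rw [Gamma0_mem]; simp [γ]
  have hγ₁ : γ₁ ∈ Gamma0 M := by rw [Gamma0_mem]; simp [γ₁]
  have hγ₂ : γ₂ ∈ Gamma0 M := by rw [Gamma0_mem]; simp [γ₂]
  have hwc : (w : ℂ) ≠ 0 := Nat.cast_ne_zero.mpr (NeZero.ne w)
  refine ⟨fun τ => γ • (scaleGL (w * w) • τ),
    (MulAction.surjective γ).comp (MulAction.surjective (scaleGL (w * w))),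
    fun d _ hd τ => ⟨?_, ?_, ?_⟩⟩
  · rw [scaledJ_smul_of_mem hd hγ, scaledJ_scaleGL]
    congr 1
    ring
  · rw [← scaledJ_scaleGL]
    have key : scaleGL w • (γ • (scaleGL (w * w) • τ)) = γ₁ • (scaleGL w • τ) := by
      apply UpperHalfPlane.ext
      rw [coe_scaleGL_smul, UpperHalfPlane.coe_specialLinearGroup_apply,
        UpperHalfPlane.coe_specialLinearGroup_apply]
      simp [coe_scaleGL_smul, γ, γ₁]
      rw [← mul_div_assoc, show (M : ℂ) * ((w : ℂ) * w * τ) + w * w * u =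
        (w : ℂ) * (M * (w * τ) + w * u) by ring, mul_div_mul_left _ _ hwc]
      ring
    rw [key, scaledJ_smul_of_mem hd hγ₁, scaledJ_scaleGL]
  · simp only [mul_assoc]
    rw [← scaledJ_scaleGL]
    have key : scaleGL (w * w) • (γ • (scaleGL (w * w) • τ)) = γ₂ • τ := by
      apply UpperHalfPlane.ext
      rw [coe_scaleGL_smul, UpperHalfPlane.coe_specialLinearGroup_apply,
        UpperHalfPlane.coe_specialLinearGroup_apply]
      simp [coe_scaleGL_smul, γ, γ₂]
      rw [← mul_div_assoc, show (M : ℂ) * ((w : ℂ) * w * τ) + w * w * u =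
        (w : ℂ) * w * (M * τ + u) by ring, mul_div_mul_left _ _ (mul_ne_zero hwc hwc)]
    rw [key, scaledJ_smul_of_mem hd hγ₂]

/-- For `s` prime to `w` there is a middle expansion: `j_d` and `j_(d w)` are kept, `j_(d w²)` becomes `j_d` at `(w τ + s) / w`. -/
theorem exists_middle (hw : w.Prime) (hwM : ¬ w ∣ M) {s : ℕ} (hs : ¬ w ∣ s) :
    ∃ g : ℍ → ℍ, Function.Surjective g ∧ ∀ (d : ℕ) [NeZero d], d ∣ M → ∀ τ : ℍ,
      scaledJ d (g τ) = scaledJ d τ ∧ scaledJ (d * w) (g τ) = scaledJ (d * w) τ ∧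
        scaledJ (d * w * w) (g τ) = scaledJ d (upperGL w s w • τ) := by
  obtain ⟨u, v, huv⟩ : IsCoprime (M : ℤ) (w : ℤ) :=
    (Nat.isCoprime_iff_coprime.mpr (hw.coprime_iff_not_dvd.mpr hwM)).symm
  set e : ℤ := 1 + u * M * ((M : ℤ) * s - 1) with he
  have hew : e - (M : ℤ) * s = (w : ℤ) * (v * (1 - (M : ℤ) * s)) := by
    rw [he]; linear_combination ((M : ℤ) * s - 1) * huv
  obtain ⟨a, b, hab⟩ : IsCoprime e ((M : ℤ) * w) := by
    refine IsCoprime.mul_right ⟨1, -(u * ((M : ℤ) * s - 1)), by rw [he]; ring⟩ ?_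
    have h := Nat.isCoprime_iff_coprime.mpr
      ((Nat.Coprime.mul_left (hw.coprime_iff_not_dvd.mpr hwM).symm
        (hw.coprime_iff_not_dvd.mpr hs).symm) : Nat.Coprime (M * s) w)
    push_cast at h
    rw [show e = (M : ℤ) * s + (w : ℤ) * (v * (1 - (M : ℤ) * s)) by rw [← hew]; ring]
    exact h.add_mul_left_left _
  let γ : SL(2, ℤ) := ⟨!![a, -b; (M : ℤ) * w, e], by
    rw [Matrix.det_fin_two_of]; linear_combination hab⟩
  let δ : SL(2, ℤ) := ⟨!![(w : ℤ) * a, -((w : ℤ) * b) - a * s; (M : ℤ), v * (1 - (M : ℤ) * s)],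
    by rw [Matrix.det_fin_two_of]; linear_combination hab - a * hew⟩
  have hγ : γ ∈ Gamma0 (M * w) := by
    rw [Gamma0_mem, ZMod.intCast_zmod_eq_zero_iff_dvd]
    exact ⟨1, by simp [γ]⟩
  have hδ : δ ∈ Gamma0 M := by rw [Gamma0_mem]; simp [δ]
  have hwc : (w : ℂ) ≠ 0 := Nat.cast_ne_zero.mpr (NeZero.ne w)
  refine ⟨fun τ => γ • τ, MulAction.surjective γ, fun d _ hd τ => ⟨?_, ?_, ?_⟩⟩
  · exact scaledJ_smul_of_mem (hd.mul_right w) hγ τ
  · exact scaledJ_smul_of_mem (Nat.mul_dvd_mul_right hd w) hγ τ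
  · simp only [mul_assoc]
    rw [← scaledJ_scaleGL]
    have hewc : (e : ℂ) = (M : ℂ) * s + (w : ℂ) * (v * (1 - (M : ℂ) * s)) := by
      have h := congrArg (fun x : ℤ => (x : ℂ)) hew
      push_cast at h
      linear_combination h
    have key : scaleGL (w * w) • (γ • τ) = δ • (upperGL w s w • τ) := by
      apply UpperHalfPlane.ext
      rw [coe_scaleGL_smul, UpperHalfPlane.coe_specialLinearGroup_apply,
        UpperHalfPlane.coe_specialLinearGroup_apply, coe_upperGL_smul]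
      simp [γ, δ]
      rw [hewc]
      field_simp
      ring
    rw [key, scaledJ_smul_of_mem hd hδ]

end Square

end Fermat.Agent.SquareOld.Geom
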