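import Fermat.Agent.SquareOld.Geom.Degree
import Fermat.Agent.SquareOld.Data

/-!
# The extensions of the Gauss valuation

The ring of functions integral at the three components is free over the local ring of the Gauss
valuation of `W[T]`, of rank the degree of the field, so every valuation over that ring dominates
one of the components.
-/

set_option autoImplicit false
set_option linter.unusedSectionVars false
set_option linter.unusedVariables false
set_option maxHeartbeats 1000000

noncomputable section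

open IsLocalRing ModularCurve AlgebraicCurve Fermat.Agent.Reduction Fermat.Agent.SemistableRed

namespace Fermat.Agent.SquareOld.Geom

open LevelP (descent)
open Polynomial

local notation "Qbar" => AlgebraicClosure ℚ

variable {A : ValuationSubring (AlgebraicClosure ℚ)} {M w : ℕ} [NeZero M] [NeZero w]
  [Fact w.Prime] [CharP (ResidueField A) w] [IsAlgClosed (ResidueField A)] (S : Setting A M w)

local notation "kS" => LaurentSeries (ResidueField A)
local notation "GG" => modularFunctionFieldFullC (ResidueField A) M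

/-- Evaluation at `T`. -/
def evP : Polynomial (Wc A M w) →+* ↥(FixF A M w) := eval₂RingHom (Wc A M w).subtype (Tp S)

theorem evP_eq (P : Polynomial (Wc A M w)) : evP S P = P.eval₂ (Wc A M w).subtype (Tp S) := rfl

theorem evP_injective : Function.Injective (evP S) :=
  (injective_iff_map_eq_zero _).mpr fun P hP => Tp_transcendental S P hP

theorem exists_evP_div {a : ↥(FixF A M w)} (ha : a ∈ K0 S) :
    ∃ P Q : Polynomial (Wc A M w), Q ≠ 0 ∧ a * evP S Q = evP S P := by
  obtain ⟨y, hy, z, hz, rfl⟩ := Subfield.mem_closure_iff.mp ha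
  have hle : Subring.closure ((Wc A M w : Set ↥(FixF A M w)) ∪ {Tp S}) ≤ (evP S).range := by
    refine Subring.closure_le.mpr (Set.union_subset (fun x hx => ⟨C ⟨x, hx⟩, ?_⟩) ?_)
    · exact eval₂_C _ _
    · rintro x rfl
      exact ⟨X, eval₂_X _ _⟩
  obtain ⟨P, hP⟩ := hle hy
  obtain ⟨Q, hQ⟩ := hle hz
  by_cases hQ0 : Q = 0
  · refine ⟨0, 1, one_ne_zero, ?_⟩
    rw [← hQ, hQ0, map_zero, div_zero, zero_mul]
  · refine ⟨P, Q, hQ0, ?_⟩
    rw [← hQ, div_mul_cancel₀ _ fun e => hQ0 (evP_injective S (e.trans (map_zero _).symm)), ← hP]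

/-- The reduction of a polynomial in `T`. -/
abbrev redP (P : Polynomial (Wc A M w)) : Polynomial (ResidueField A) := P.map (resWc A M w)

include S in
theorem redP_ne_iff (P : Polynomial (Wc A M w)) :
    redP P ≠ 0 ↔ ∃ l, IsUnit (P.coeff l) := by
  have key : ∀ c : Wc A M w, resWc A M w c ≠ 0 ↔ IsUnit c := fun c => by
    obtain ⟨c, rfl⟩ := (eW A M w).surjective c
    rw [resWc_eW, MulEquiv.isUnit_map (eW A M w), Afix_isUnit S]
  constructor
  · intro h
    obtain ⟨l, hl⟩ : ∃ l, (redP P).coeff l ≠ 0 :=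
      ⟨_, Polynomial.leadingCoeff_ne_zero.mpr h⟩
    exact ⟨l, (key _).mp (by simpa [redP] using hl)⟩
  · rintro ⟨l, hl⟩ h
    exact (key _).mpr hl (by simpa [redP] using congrArg (fun p => Polynomial.coeff p l) h)

theorem evP_mem_red (i : Fin 3) (P : Polynomial (Wc A M w)) :
    evP S P ∈ (comps S i).V ∧
      (comps S i).redF (evP S P) = aeval (Tbar A M w) (redP P) := eval_mem_red S i P

theorem atLeast_nonprim {P : Polynomial (Wc A M w)} (h : redP P = 0) (i : Fin 3) :
    (comps S i).AtLeast ((comps S i).ord (w : ↥(FixF A M w))) (evP S P) := by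
  rw [evP_eq, eval₂_eq_sum_range]
  refine Comp.AtLeast.sum _ fun n _ => ?_
  have hn : ¬ IsUnit (P.coeff n) := fun hu => (redP_ne_iff S P).mpr ⟨n, hu⟩ h
  obtain ⟨d, hd⟩ := (Wc_maximal S _).mp hn
  obtain ⟨c, rfl⟩ := (eW A M w).surjective d
  have e : (Wc A M w).subtype (P.coeff n) = (w : ↥(FixF A M w)) * cW A M w c := by
    rw [hd, Subring.subtype_apply, MulMemClass.coe_mul, coe_eW]
    exact congrArg (· * cW A M w c) (map_natCast (Wc A M w).subtype w)
  rw [e, mul_assoc (w : ↥(FixF A M w))]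
  exact Comp.AtLeast.mul_mem (Or.inr le_rfl)
    (mul_mem (comps_rep_const S i c).1 (pow_mem (comps_Tp S i).1 _))

theorem ord_w_eq :
    ∀ i, (comps S i).ord (w : ↥(FixF A M w)) = ((![1, w - 1, 1] : Fin 3 → ℕ) i : ℤ) := by
  have hw : (w : ↥(FixF A M w)) ≠ 0 := fun e => by
    have := comp0_w S
    rw [e, show (comps S 0).ord 0 = 0 from dif_pos rfl] at this
    omega
  have h0 := comp0_w S
  have h1 : (comps S 1).ord (w : ↥(FixF A M w)) = ((w - 1 : ℕ) : ℤ) := by
    obtain ⟨v, hv, h⟩ := RepFamily.toComp_rep_ord (facts0 S) hw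
    have hG := (facts0 S).mem
    rw [show (RepFamily.toComp (facts0 S)).ord (w : ↥(FixF A M w)) = 1 from h0] at h
    have h' : (fam0 S).Rep (alphaF S (w : ↥(descent S).F₀)) 1 (((1 : ↥GG)) : kS) := fun u => by
      rw [map_natCast, fam0_pi, zpow_one, smul_eq_algebraMap_mul, map_natCast,
        ← map_natCast (algebraMap Qbar (LaurentSeries Qbar)), ← map_mul,
        inv_mul_cancel₀ (Nat.cast_ne_zero.mpr (NeZero.ne w)), map_one]
      exact SRep.one
    have h2 := rep1_alpha S h'
    rw [map_natCast, mul_one, mul_one] at h2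
    exact RepFamily.toComp_ord (facts1 S) h2 fun e => kapG_ne 1 (Subtype.ext e)
  have h2 : (comps S 2).ord (w : ↥(FixF A M w)) = 1 := by
    have := (comps_ord_swF S hw).1
    rw [map_natCast] at this
    omega
  intro i
  fin_cases i
  · simpa using h0
  · simpa using h1
  · simpa using h2

include S in
/-- A family in `Ḡ` independent over `k (T̄)`, of size `w ψ(M)`. -/
theorem exists_indep_Tbar : ∃ z : Fin w × Fin (dedekindPsi M) → ↥GG,
    ∀ c : Fin w × Fin (dedekindPsi M) → Polynomial (ResidueField A),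
      ∑ i, aeval (Tbar A M w) (c i) * z i = 0 → ∀ i, c i = 0 := by
  classical
  have := finiteDimensional_jC (ResidueField A) M S.natCast_ne_zero
  set j : ↥GG := jC (ResidueField A) M
  let y := Module.finBasisOfFinrankEq (IntermediateField.adjoin (ResidueField A) ({j} : Set ↥GG))
    ↥GG (finrank_jC (ResidueField A) M S.natCast_ne_zero)
  refine ⟨fun i => y i.2 * j ^ (i.1 : ℕ), fun c hc => ?_⟩
  have hw0 : 0 < w := NeZero.pos w
  let p : Fin (dedekindPsi M) → Polynomial (ResidueField A) := fun l =>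
    ∑ r : Fin w, (c (r, l)).comp (X ^ w) * X ^ (r : ℕ)
  have hT : ∀ q : Polynomial (ResidueField A),
      aeval (Tbar A M w) q = aeval j (q.comp (X ^ w)) := fun q => by
    rw [aeval_comp, map_pow, aeval_X, Tbar, piG_jbar]; rfl
  have hrel : ∑ l, (⟨aeval j (p l), by
      rw [IntermediateField.mem_adjoin_simple_iff]
      exact ⟨p l, 1, by simp⟩⟩ :
      IntermediateField.adjoin (ResidueField A) ({j} : Set ↥GG)) • y l = 0 := by
    rw [← hc, Fintype.sum_prod_type, Finset.sum_comm]
    refine Finset.sum_congr rfl fun l _ => ?_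
    rw [IntermediateField.smul_def, smul_eq_mul]
    simp only [p, map_sum, map_mul, map_pow, aeval_X, Finset.sum_mul, hT]
    exact Finset.sum_congr rfl fun r _ => by ring
  intro ⟨r, l⟩
  have hp : p l = 0 := transcendental_iff.mp (transcendental_jC (ResidueField A) M) _
    (congrArg Subtype.val (Fintype.linearIndependent_iff.mp y.linearIndependent _ hrel l))
  refine Polynomial.ext fun n => ?_
  have h := congrArg (fun q => Polynomial.coeff q (n * w + (r : ℕ))) hp
  simp only [p, finsetSum_coeff, coeff_zero] at h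
  rw [coeff_zero]
  refine Eq.trans (Finset.sum_eq_single r (fun s _ hs => ?_) (fun h' => absurd (Finset.mem_univ r) h')
    |>.trans ?_).symm h
  · rw [coeff_mul_X_pow']
    split_ifs with hle
    · rw [← expand_eq_comp_X_pow, coeff_expand hw0, if_neg]
      intro hd
      refine hs (Fin.ext ?_)
      have h1 := (Nat.modEq_iff_dvd' hle).mpr hd
      have := s.isLt
      have := r.isLt
      unfold Nat.ModEq at h1
      rw [Nat.mod_eq_of_lt ‹(s : ℕ) < w›, Nat.mul_comm, Nat.mul_add_mod,
        Nat.mod_eq_of_lt ‹(r : ℕ) < w›] at h1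
      omega
    · rfl
  · rw [coeff_mul_X_pow, ← expand_eq_comp_X_pow, coeff_expand_mul hw0]

theorem atLeast_mul_unit_cancel {F G : Type*} [Field F] [Field G] (C : Comp F G) {u S : F} {a : ℤ}
    (hu : u ≠ 0) (ha : C.ord u = a) (hS : C.Unit S) : ¬ C.AtLeast (a + 1) (u * S) := by
  rintro (h | h)
  · exact mul_ne_zero hu hS.1 h
  · rw [C.ord_mul _ _ hu hS.1, ha, hS.2] at h
    omega

/-- A basis integral at the components, independent modulo `w`. -/
theorem exists_family :
    ∃ (n : ℕ) (b : Fin n → ↥(FixF A M w)), Module.finrank ↥(K0 S) ↥(FixF A M w) ≤ n ∧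
      (∀ j i, b j ∈ (comps S i).V) ∧
      ∀ P : Fin n → Polynomial (Wc A M w), (∃ j, redP (P j) ≠ 0) →
        ∃ i, ¬ (comps S i).AtLeast ((comps S i).ord (w : ↥(FixF A M w))) (∑ j, evP S (P j) * b j) := by
  classical
  obtain ⟨z, hz⟩ := exists_indep_Tbar S
  set e : Fin 3 → ℕ := ![1, w - 1, 1] with he
  have hew : ∀ i, (comps S i).ord (w : ↥(FixF A M w)) = (e i : ℤ) := ord_w_eq S
  choose u hu0 hu using fun p : Σ i : Fin 3, Fin (e i) =>
    indep S fun j => if j = p.1 then ((p.2 : ℕ) : ℤ) else (e j : ℤ)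
  choose y hy using fun l => approx S fun _ => z l
  let J := (Σ i : Fin 3, Fin (e i)) × (Fin w × Fin (dedekindPsi M))
  let σ : Fin (Fintype.card J) ≃ J := (Fintype.equivFin J).symm
  refine ⟨Fintype.card J, fun j => u (σ j).1 * y (σ j).2, ?_, fun j i => ?_, fun P hP => ?_⟩
  · have h1 := finrank_K0_le S
    rw [show Module.finrank _ ↥(modularFunctionFieldBar (M * w * w)) = _ from
      finrank_adjoin_Tp S] at h1
    refine h1.trans (le_of_eq ?_)
    have := (Fact.out : w.Prime).two_le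
    simp only [J, Fintype.card_prod, Fintype.card_sigma, Fintype.card_fin, Fin.sum_univ_three, e,
      Matrix.cons_val_zero, Matrix.cons_val_one, Matrix.cons_val]
    rw [show 1 + (w - 1) + 1 = w + 1 by omega]
    ring
  · refine mul_mem (((comps S i).mem_iff _ (hu0 _)).mpr ?_) (hy _ i).1
    rw [hu]
    split_ifs <;> positivity
  obtain ⟨j₁, hj₁⟩ := hP
  set P' : J → Polynomial (Wc A M w) := fun x => P (σ.symm x) with hP'
  have hsum : ∑ j, evP S (P j) * (u (σ j).1 * y (σ j).2) =
      ∑ p : Σ i : Fin 3, Fin (e i), u p * ∑ l, evP S (P' (p, l)) * y l := by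
    rw [← σ.symm.sum_comp, Fintype.sum_prod_type]
    refine Finset.sum_congr rfl fun p _ => ?_
    rw [Finset.mul_sum]
    exact Finset.sum_congr rfl fun l _ => by simp [hP']; ring
  set i := (σ j₁).1.1
  obtain ⟨a₀, ha₀, hmin⟩ : ∃ a : Fin (e i), (∃ l, redP (P' (⟨i, a⟩, l)) ≠ 0) ∧
      ∀ a' : Fin (e i), (∃ l, redP (P' (⟨i, a'⟩, l)) ≠ 0) → a ≤ a' := by
    have hex : (Finset.univ.filter fun a : Fin (e i) =>
        ∃ l, redP (P' (⟨i, a⟩, l)) ≠ 0).Nonempty :=
      ⟨(σ j₁).1.2, by
        simp only [Finset.mem_filter, Finset.mem_univ, true_and]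
        exact ⟨(σ j₁).2, by simpa [hP', i] using hj₁⟩⟩
    obtain ⟨a, ha, hm⟩ := Finset.exists_min_image _ id hex
    exact ⟨a, (Finset.mem_filter.mp ha).2, fun a' h' => hm a' (Finset.mem_filter.mpr ⟨Finset.mem_univ _, h'⟩)⟩
  refine ⟨i, fun hcon => ?_⟩
  rw [hew] at hcon
  set p₀ : Σ i : Fin 3, Fin (e i) := ⟨i, a₀⟩
  have hmemS : ∀ p : Σ i : Fin 3, Fin (e i), ∑ l, evP S (P' (p, l)) * y l ∈ (comps S i).V :=
    fun p => sum_mem fun l _ => mul_mem (evP_mem_red S i _).1 (hy l i).1
  have hred : ∀ p : Σ i : Fin 3, Fin (e i), (comps S i).redF (∑ l, evP S (P' (p, l)) * y l) =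
      ∑ l, aeval (Tbar A M w) (redP (P' (p, l))) * z l := by
    intro p
    have : ∀ s : Finset (Fin w × Fin (dedekindPsi M)),
        (comps S i).redF (∑ l ∈ s, evP S (P' (p, l)) * y l) =
          ∑ l ∈ s, aeval (Tbar A M w) (redP (P' (p, l))) * z l := fun s => by
      induction s using Finset.induction with
      | empty => simpa using (Comp.redF_eq_zero (zero_mem _)).mpr (Or.inl rfl)
      | insert a t hat ih =>
        rw [Finset.sum_insert hat, Finset.sum_insert hat, Comp.redF_add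
          (mul_mem (evP_mem_red S i _).1 (hy a i).1)
          (sum_mem fun l _ => mul_mem (evP_mem_red S i _).1 (hy l i).1), ih,
          Comp.redF_mul (evP_mem_red S i _).1 (hy a i).1, (hy a i).2, (evP_mem_red S i _).2]
    exact this _
  have hS0 : (comps S i).Unit (∑ l, evP S (P' (p₀, l)) * y l) := by
    refine Comp.unit_of_redF_ne (hmemS p₀) fun h => ?_
    obtain ⟨l, hl⟩ := ha₀
    exact hl (hz _ ((hred p₀).symm.trans h) l)
  have hrest : (comps S i).AtLeast ((a₀ : ℕ) + 1)
      (∑ p ∈ Finset.univ.erase p₀, u p * ∑ l, evP S (P' (p, l)) * y l) := by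
    refine Comp.AtLeast.sum _ fun p hp => ?_
    obtain ⟨i', a⟩ := p
    have hm : (comps S i).AtLeast (if i = i' then ((a : ℕ) : ℤ) else (e i : ℤ)) (u ⟨i', a⟩) :=
      Or.inr (hu _ i).ge
    by_cases hi : i' = i
    · subst hi
      rw [if_pos rfl] at hm
      rcases lt_trichotomy a a₀ with hlt | heq | hgt
      · have hzero : (comps S i).redF (∑ l, evP S (P' (⟨i, a⟩, l)) * y l) = 0 := by
          rw [hred]
          refine Finset.sum_eq_zero fun l _ => ?_
          have : redP (P' (⟨i, a⟩, l)) = 0 := by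
            by_contra hne
            exact absurd (hmin a ⟨l, hne⟩) (not_le.mpr hlt)
          rw [this, map_zero, zero_mul]
        have h1 : ∀ l, (comps S i).AtLeast (e i) (evP S (P' (⟨i, a⟩, l)) * y l) := fun l => by
          have h2 : (comps S i).AtLeast (e i) (evP S (P' (⟨i, a⟩, l))) := by
            rw [← hew]
            refine atLeast_nonprim S ?_ i
            by_contra hne
            exact absurd (hmin a ⟨l, hne⟩) (not_le.mpr hlt)
          exact h2.mul_mem (hy l i).1
        have h3 := hm.mul (Comp.AtLeast.sum Finset.univ fun l _ => h1 l)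
        exact h3.mono (by have := a₀.isLt; omega)
      · exact absurd (by rw [heq]) (Finset.mem_erase.mp hp).1
      · exact (hm.mul_mem (hmemS _)).mono (by
          have : (a₀ : ℕ) < (a : ℕ) := hgt
          omega)
    · rw [if_neg (Ne.symm hi)] at hm
      exact (hm.mul_mem (hmemS _)).mono (by have := a₀.isLt; omega)
  refine atLeast_mul_unit_cancel (comps S i) (hu0 p₀) (a := ((a₀ : ℕ) : ℤ))
    (by rw [hu]; exact if_pos rfl) hS0 ?_
  have hx := (hcon.mono (m' := ((a₀ : ℕ) : ℤ) + 1) (by have := a₀.isLt; omega)).sub hrest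
  rwa [hsum, ← Finset.add_sum_erase _ _ (Finset.mem_univ p₀), add_sub_cancel_right] at hx

include S in
/-- A common power of `w`. -/
theorem exists_common {J : Type*} [Fintype J] (P : J → Polynomial (Wc A M w))
    (hP : ∃ j, P j ≠ 0) : ∃ (n : ℕ) (Q : J → Polynomial (Wc A M w)),
      (∀ j, P j = C ((w : Wc A M w) ^ n) * Q j) ∧ ∃ j, redP (Q j) ≠ 0 := by
  classical
  choose n Q hQ hPQ using fun j : {j // P j ≠ 0} => exists_primitive S j.2
  obtain ⟨j₀, hj₀⟩ := hP
  obtain ⟨j₁, -, hmin⟩ := Finset.exists_min_image (Finset.univ : Finset {j // P j ≠ 0}) n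
    ⟨⟨j₀, hj₀⟩, Finset.mem_univ _⟩
  refine ⟨n j₁, fun j => if h : P j ≠ 0 then C ((w : Wc A M w) ^ (n ⟨j, h⟩ - n j₁)) * Q ⟨j, h⟩
    else 0, fun j => ?_, j₁.1, ?_⟩
  · by_cases h : P j ≠ 0
    · simp only [dif_pos h]
      rw [← mul_assoc, ← C_mul, ← pow_add, Nat.add_sub_cancel' (hmin _ (Finset.mem_univ _))]
      exact hPQ ⟨j, h⟩
    · simp only [dif_neg h, mul_zero]; exact not_not.mp h
  · simp only [dif_pos j₁.2, Nat.sub_self, pow_zero, map_one, one_mul, Subtype.coe_eta]
    exact (redP_ne_iff S _).mpr (hQ j₁)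

theorem evP_C (c : Wc A M w) : evP S (C c) = (c : ↥(FixF A M w)) := eval₂_C _ _

include S in
theorem w_ne_fix : (w : ↥(FixF A M w)) ≠ 0 := fun e => by
  have := comps_w S 0
  rw [e, show (comps S 0).ord 0 = 0 from dif_pos rfl] at this
  exact lt_irrefl _ this

theorem evP_ne {P : Polynomial (Wc A M w)} (hP : P ≠ 0) : evP S P ≠ 0 := fun e =>
  hP (evP_injective S (e.trans (map_zero (evP S)).symm))

theorem evP_C_pow_mul (m : ℕ) (P : Polynomial (Wc A M w)) :
    evP S (C ((w : Wc A M w) ^ m) * P) = (w : ↥(FixF A M w)) ^ m * evP S P := by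
  have e : evP S (C ((w : Wc A M w) ^ m)) = (w : ↥(FixF A M w)) ^ m := by
    rw [evP_C, SubmonoidClass.coe_pow]
    exact congrArg (· ^ m) (map_natCast (Wc A M w).subtype w)
  rw [map_mul, e]

theorem indep_of_not_atLeast {n : ℕ} (b : Fin n → ↥(FixF A M w))
    (hb : ∀ P : Fin n → Polynomial (Wc A M w), (∃ j, redP (P j) ≠ 0) →
      ∃ i, ¬ (comps S i).AtLeast ((comps S i).ord (w : ↥(FixF A M w))) (∑ j, evP S (P j) * b j)) :
    LinearIndependent ↥(K0 S) b := by
  classical
  rw [Fintype.linearIndependent_iff]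
  intro g hg
  by_contra! hne
  choose N D hD hND using fun j => exists_evP_div S (g j).2
  set R : Fin n → Polynomial (Wc A M w) := fun j => N j * ∏ l ∈ Finset.univ.erase j, D l with hR
  have hrel : ∑ j, evP S (R j) * b j = 0 := by
    refine Eq.trans ?_ (mul_zero (evP S (∏ l, D l)))
    rw [← hg, Finset.mul_sum]
    refine Finset.sum_congr rfl fun j _ => ?_
    simp only [hR]
    rw [map_mul, ← hND, ← Finset.mul_prod_erase _ D (Finset.mem_univ j), map_mul,
      Subfield.smul_def, smul_eq_mul]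
    ring
  obtain ⟨j, hj⟩ := hne
  have hN : N j ≠ 0 := fun e => by
    have h1 := hND j
    rw [e, map_zero, mul_eq_zero] at h1
    exact hj (Subtype.ext (h1.resolve_right (evP_ne S (hD j))))
  obtain ⟨m, Q, hQ, hQne⟩ := exists_common S R
    ⟨j, mul_ne_zero hN (Finset.prod_ne_zero_iff.mpr fun l _ => hD l)⟩
  have hsum : (w : ↥(FixF A M w)) ^ m * ∑ j, evP S (Q j) * b j = 0 := by
    rw [← hrel, Finset.mul_sum]
    refine Finset.sum_congr rfl fun l _ => ?_
    rw [hQ l, evP_C_pow_mul, mul_assoc ((w : ↥(FixF A M w)) ^ m)]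
  obtain ⟨i, hi⟩ := hb Q hQne
  exact hi (Or.inl ((mul_eq_zero.mp hsum).resolve_left (pow_ne_zero _ (w_ne_fix S))))

theorem exists_coord_prim {n : ℕ} (b : Fin n → ↥(FixF A M w))
    (hb : ∀ P : Fin n → Polynomial (Wc A M w), (∃ j, redP (P j) ≠ 0) →
      ∃ i, ¬ (comps S i).AtLeast ((comps S i).ord (w : ↥(FixF A M w))) (∑ j, evP S (P j) * b j))
    (hspan : Submodule.span ↥(K0 S) (Set.range b) = ⊤) {x : ↥(FixF A M w)}
    (hx : ∀ i, x ∈ (comps S i).V) :
    ∃ (D : Polynomial (Wc A M w)) (P : Fin n → Polynomial (Wc A M w)),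
      (∃ l, IsUnit (D.coeff l)) ∧ evP S D * x = ∑ j, evP S (P j) * b j := by
  classical
  obtain ⟨g, hg⟩ := (Submodule.mem_span_range_iff_exists_fun _).mp
    (hspan ▸ (Submodule.mem_top : x ∈ ⊤))
  choose N D hD hND using fun j => exists_evP_div S (g j).2
  set R : Option (Fin n) → Polynomial (Wc A M w) :=
    fun o => o.elim (∏ l, D l) fun j => N j * ∏ l ∈ Finset.univ.erase j, D l with hR
  obtain ⟨m, Q, hQ, hQne⟩ := exists_common S R
    ⟨none, Finset.prod_ne_zero_iff.mpr fun l _ => hD l⟩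
  have h0 : evP S (R none) * x = ∑ j, evP S (R (some j)) * b j := by
    simp only [hR, Option.elim_none, Option.elim_some]
    rw [← hg, Finset.mul_sum]
    refine Finset.sum_congr rfl fun j _ => ?_
    rw [map_mul, ← hND, ← Finset.mul_prod_erase _ D (Finset.mem_univ j), map_mul,
      Subfield.smul_def, smul_eq_mul]
    ring
  have hrel : evP S (Q none) * x = ∑ j, evP S (Q (some j)) * b j := by
    refine mul_left_cancel₀ (pow_ne_zero m (w_ne_fix S)) ?_
    rw [← mul_assoc ((w : ↥(FixF A M w)) ^ m), ← evP_C_pow_mul, ← hQ, h0, Finset.mul_sum]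
    refine Finset.sum_congr rfl fun j _ => ?_
    rw [hQ (some j), evP_C_pow_mul, mul_assoc ((w : ↥(FixF A M w)) ^ m)]
  refine ⟨Q none, fun j => Q (some j), ?_, hrel⟩
  by_contra hn'
  obtain ⟨o, ho⟩ := hQne
  rcases o with _ | j
  · exact hn' ((redP_ne_iff S _).mp ho)
  obtain ⟨i, hi⟩ := hb (fun j => Q (some j)) ⟨j, ho⟩
  refine hi (hrel ▸ Comp.AtLeast.mul_mem (atLeast_nonprim S ?_ i) (hx i))
  by_contra hne
  exact hn' ((redP_ne_iff S _).mp hne)

/-- **Every extension of the Gauss valuation dominates a component.** -/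
theorem ext_gauss (V : ValuationSubring ↥(FixF A M w)) (hW : ∀ x ∈ Wc A M w, x ∈ V)
    (hT : Tp S ∈ V) (hw : (w : ↥(FixF A M w)) ∈ V.nonunits)
    (hP : ∀ P : Polynomial (Wc A M w), (∃ l, IsUnit (P.coeff l)) →
      (P.eval₂ (Wc A M w).subtype (Tp S))⁻¹ ∈ V) :
    ∃ i, (comps S i).V ≤ V := by
  classical
  have := finite_K0 S
  obtain ⟨n, b, hn, hbB, hb⟩ := exists_family S
  have hind := indep_of_not_atLeast S b hb
  have hspan : Submodule.span ↥(K0 S) (Set.range b) = ⊤ :=
    hind.span_eq_top_of_card_eq_finrank' (by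
      have := hind.fintype_card_le_finrank
      simp only [Fintype.card_fin] at this ⊢
      omega)
  have hcoord : ∀ x, (∀ i, x ∈ (comps S i).V) → ∃ c : Fin n → ↥(FixF A M w),
      (∀ j, c j ∈ V) ∧ x = ∑ j, c j * b j := by
    intro x hx
    obtain ⟨D, P, hprim, hrel⟩ := exists_coord_prim S b hb hspan hx
    have hne : evP S D ≠ 0 := (gauss_Tp S 0 _ hprim).1
    refine ⟨fun j => (evP S D)⁻¹ * evP S (P j), fun j => mul_mem (hP _ hprim) ?_, ?_⟩
    · rw [evP_eq, eval₂_eq_sum_range]
      exact sum_mem fun l _ => mul_mem (hW _ (SetLike.coe_mem _)) (pow_mem hT _)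
    · simp only [mul_assoc ((evP S D)⁻¹), ← Finset.mul_sum, ← hrel, inv_mul_cancel_left₀ hne]
  -- so they lie in `V`
  have hBV : ∀ x, (∀ i, x ∈ (comps S i).V) → x ∈ V := by
    intro x hx
    obtain ⟨c, hc, rfl⟩ := hcoord x hx
    refine sum_mem fun j _ => mul_mem (hc j) ?_
    have hb0 : ∀ j, b j ≠ 0 := hind.ne_zero
    obtain ⟨j₀, -, hmax⟩ := Finset.exists_max_image Finset.univ (fun j => V.valuation (b j))
      ⟨j, Finset.mem_univ j⟩
    have hdiv : ∀ l, b l / b j₀ ∈ V := fun l => by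
      rw [← V.valuation_le_one_iff, map_div₀]
      exact div_le_one_of_le₀ (hmax l (Finset.mem_univ _)) zero_le
    obtain ⟨c', hc', e⟩ := hcoord (b j₀ * b j₀) fun i => mul_mem (hbB _ i) (hbB _ i)
    have hj₀ : b j₀ ∈ V := by
      have : b j₀ = ∑ l, c' l * (b l / b j₀) := by
        simp only [← mul_div_assoc, ← Finset.sum_div, ← e]
        rw [mul_div_assoc, div_self (hb0 j₀), mul_one]
      rw [this]
      exact sum_mem fun l _ => mul_mem (hc' l) (hdiv l)
    rw [← div_mul_cancel₀ (b j) (hb0 j₀)]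
    exact mul_mem (hdiv j) hj₀
  -- one of the approximate idempotents is a unit
  choose ε hε using fun i : Fin 3 => approx S fun j => if j = i then 1 else 0
  set d : ↥(FixF A M w) := ε 0 + ε 1 + ε 2 - 1 with hd
  have hd1 : ∀ j, (comps S j).AtLeast 1 d := fun j => by
    have h01 := add_mem (hε 0 j).1 (hε 1 j).1
    refine (Comp.redF_eq_zero (sub_mem (add_mem h01 (hε 2 j).1) (one_mem _))).mp ?_
    rw [Comp.redF_sub (add_mem h01 (hε 2 j).1) (one_mem _), Comp.redF_add h01 (hε 2 j).1,
      Comp.redF_add (hε 0 j).1 (hε 1 j).1, (hε 0 j).2, (hε 1 j).2, (hε 2 j).2, Comp.redF_one]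
    fin_cases j <;> simp
  have hdn : d ∈ V.nonunits := by
    have h1 : d ^ w / (w : ↥(FixF A M w)) ∈ V := hBV _ fun i => by
      rcases eq_or_ne d 0 with h0 | h0
      · rw [h0, zero_pow (NeZero.ne w), zero_div]; exact zero_mem _
      refine ((comps S i).mem_iff _ (div_ne_zero (pow_ne_zero _ h0) (w_ne_fix S))).mpr ?_
      rw [(comps S i).ord_div (pow_ne_zero _ h0) (w_ne_fix S), (comps S i).ord_pow h0, ord_w_eq S]
      have h2 := (hd1 i).resolve_left h0
      have h3 : (![1, w - 1, 1] : Fin 3 → ℕ) i ≤ w := by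
        have := (Fact.out : w.Prime).two_le
        fin_cases i <;> simp <;> omega
      have h4 : (((![1, w - 1, 1] : Fin 3 → ℕ) i : ℕ) : ℤ) ≤ (w : ℤ) := by exact_mod_cast h3
      nlinarith
    rw [ValuationSubring.mem_nonunits_iff] at hw ⊢
    have h5 : V.valuation (d ^ w) < 1 := by
      rw [show d ^ w = d ^ w / (w : ↥(FixF A M w)) * w from
        (div_mul_cancel₀ _ (w_ne_fix S)).symm, map_mul]
      exact lt_of_le_of_lt (mul_le_of_le_one_left' ((V.valuation_le_one_iff _).mpr h1)) hw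
    rw [map_pow] at h5
    by_contra h6
    exact (not_lt.mpr (one_le_pow₀ (not_lt.mp h6))) h5
  have hεV : ∀ i, ε i ∈ V := fun i => hBV _ fun j => (hε i j).1
  obtain ⟨i, hi⟩ : ∃ i, ε i ∉ V.nonunits := by
    by_contra! h
    have h1 : (1 : ↥(FixF A M w)) ∈ V.nonunits := by
      rw [show (1 : ↥(FixF A M w)) = ε 0 + ε 1 + ε 2 - d by rw [hd]; ring]
      simp only [ValuationSubring.mem_nonunits_iff] at h hdn ⊢
      exact (Valuation.map_sub _ _ _).trans_lt (max_lt ((Valuation.map_add _ _ _).trans_lt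
        (max_lt ((Valuation.map_add _ _ _).trans_lt (max_lt (h 0) (h 1))) (h 2))) hdn)
    rw [ValuationSubring.mem_nonunits_iff, map_one] at h1
    exact lt_irrefl _ h1
  have hεinv : (ε i)⁻¹ ∈ V := by
    by_contra h
    exact hi (by simpa using V.inv_mem_nonunits_iff.mpr (Or.inr h))
  have hε0 : ε i ≠ 0 := fun h => hi (h ▸ V.nonunits.zero_mem)
  refine ⟨i, fun x hx => ?_⟩
  rcases eq_or_ne x 0 with rfl | hx0
  · exact zero_mem V
  set N : ℕ := ∑ j, (-(comps S j).ord x).toNat
  have h := hBV (x * ε i ^ N) fun j => by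
    rcases eq_or_ne j i with rfl | hji
    · exact mul_mem hx (pow_mem (hε j j).1 _)
    · have h1 : 1 ≤ (comps S j).ord (ε i) :=
        ((Comp.redF_eq_zero (hε i j).1).mp (by rw [(hε i j).2, if_neg hji])).resolve_left hε0
      refine ((comps S j).mem_iff _ (mul_ne_zero hx0 (pow_ne_zero _ hε0))).mpr ?_
      rw [(comps S j).ord_mul _ _ hx0 (pow_ne_zero _ hε0), (comps S j).ord_pow hε0]
      have h2 : (-(comps S j).ord x).toNat ≤ N :=
        Finset.single_le_sum (f := fun j => (-(comps S j).ord x).toNat) (fun _ _ => Nat.zero_le _)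
          (Finset.mem_univ j)
      have h3 : ((-(comps S j).ord x).toNat : ℤ) ≤ (N : ℤ) := by exact_mod_cast h2
      have h4 := Int.self_le_toNat (-(comps S j).ord x)
      nlinarith
  rw [← mul_inv_cancel_right₀ (pow_ne_zero N hε0) x, ← inv_pow]
  exact mul_mem h (pow_mem hεinv _)

end Fermat.Agent.SquareOld.Geom
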