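import Fermat.Agent.SquareOld.Geom.Chart
import Fermat.Agent.LevelP.Inst.LocalRing

/-!
# The charts and the lattices of level `M w`

Lattice elements pull back into the charts, norms of chart elements are lattice elements, and the
elements of level `M w` in the first chart are lattice elements.
-/

set_option autoImplicit false
set_option linter.unusedSectionVars false
set_option linter.unusedVariables false
set_option synthInstance.maxHeartbeats 400000

noncomputable section

open IsLocalRing ModularCurve AlgebraicCurve Fermat.Agent.Reduction Fermat.Agent.SemistableRed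
  Fermat.Agent.FunctionFieldRR

namespace Fermat.Agent.SquareOld.Geom

open LevelP (descent)

local notation "Qbar" => AlgebraicClosure ℚ

variable {A : ValuationSubring (AlgebraicClosure ℚ)} {M w : ℕ} [NeZero M] [NeZero w]
  [Fact w.Prime] [CharP (ResidueField A) w] [IsAlgClosed (ResidueField A)] (S : Setting A M w)

local notation "GG" => modularFunctionFieldFullC (ResidueField A) M
local notation "kS" => LaurentSeries (ResidueField A)
local notation "EB" => modularFunctionFieldBar (M * w)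
local notation "FB" => modularFunctionFieldBar (M * w * w)
local notation "πF" => piG (ResidueField A) M w

theorem low_mem_iff {j : Fin 2} {e : ↥(descent S).F₀} :
    e ∈ (low S j).V ↔ S.splitModel.Int j (e : ↥EB) := by
  constructor
  · intro h
    have h' := RepFamily.toComp_rep (lfacts S j) h ()
    rw [zpow_zero, inv_one, one_smul, lfam_e] at h'
    exact ⟨_, h'⟩
  · rintro ⟨v, hv⟩
    exact ⟨v, fun u => by rwa [zpow_zero, inv_one, one_smul, lfam_e]⟩

theorem low_redF {j : Fin 2} {e : ↥(descent S).F₀} (h : S.splitModel.Int j (e : ↥EB)) :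
    (low S j).redF e = S.splitModel.red j (e : ↥EB) := by
  refine Subtype.ext (RepFamily.toComp_redF (lfacts S j) fun u => ?_)
  rw [zpow_zero, inv_one, one_smul, lfam_e]
  exact S.srep_red h

theorem comps_alpha0 {e : ↥(descent S).F₀} (h : S.splitModel.Int 0 (e : ↥EB)) :
    (alphaF S e ∈ (comps S 0).V ∧
      (comps S 0).redF (alphaF S e) = S.splitModel.red 0 (e : ↥EB)) ∧
    (alphaF S e ∈ (comps S 1).V ∧
      (comps S 1).redF (alphaF S e) = S.splitModel.red 0 (e : ↥EB)) := by
  have h0 := rep0_alpha_of_srep S (a := e) (S.srep_red h)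
  have h1 := rep1_alpha S (v := S.gauss.red 0 (e : ↥EB)) (m := 0) h0
  rw [kapG, zpow_zero, map_one, one_mul, mul_zero] at h1
  exact ⟨⟨RepFamily.toComp_mem _ h0, Subtype.ext (RepFamily.toComp_redF (facts0 S) h0)⟩,
    RepFamily.toComp_mem _ h1, Subtype.ext (RepFamily.toComp_redF (facts1 S) h1)⟩

theorem comps_alpha2 {e : ↥(descent S).F₀} (h : S.splitModel.Int 1 (e : ↥EB)) :
    alphaF S e ∈ (comps S 2).V ∧
      (comps S 2).redF (alphaF S e) = πF (S.splitModel.red 1 (e : ↥EB)) := by
  have h2 := rep2_alpha S (a := e) (v := S.gauss.red 1 (e : ↥EB)) (S.srep_red h)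
  exact ⟨RepFamily.toComp_mem _ h2, Subtype.ext (RepFamily.toComp_redF (facts2 S) h2)⟩

theorem alphaF_mem_comps {e : ↥(descent S).F₀} (h : S.splitModel.Int2 (e : ↥EB)) (i : Fin 3) :
    alphaF S e ∈ (comps S i).V := by
  fin_cases i
  exacts [(comps_alpha0 S (h 0)).1.1, (comps_alpha0 S (h 0)).2.1, (comps_alpha2 S (h 1)).1]

theorem ord_jqF_iff (P : Place Qbar ↥EB) : S.splitModel.H P = 0 ↔ 0 ≤ P.ord S.jqF := by
  have h1 := S.ord_jF_neg_iff P
  refine ⟨fun h => ((S.polesH_eq_zero_iff P).mp h).2, fun h => (S.polesH_eq_zero_iff P).mpr ⟨?_, h⟩⟩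
  by_contra h2
  exact absurd (h1.mp (not_le.mp h2)) (not_lt.mpr h)

/-- A place over which a function of level `M w` is pulled back. -/
theorem restrict_cases (P : Place Qbar ↥FB) :
    (∀ a : ↥EB, 0 ≤ P.ord (heckeAlphaBar Qbar (M * w) w a)) ∨
      ∃ P₀ : Place Qbar ↥EB, ∀ a, 0 ≤ P.ord (heckeAlphaBar Qbar (M * w) w a) ↔ 0 ≤ P₀.ord a := by
  obtain ⟨V, hV⟩ : ∃ V : ValuationSubring ↥EB, ∀ a, a ∈ V ↔
      heckeAlphaBar Qbar (M * w) w a ∈ P.toValuationSubring :=
    ⟨P.toValuationSubring.comap (heckeAlphaBar Qbar (M * w) w).toRingHom,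
      fun a => ValuationSubring.mem_comap⟩
  rcases eq_top_or_place V (fun c => (hV _).mpr (by
    rw [AlgHom.commutes]; exact P.algebraMap_mem' c)) with rfl | ⟨P₀, rfl⟩
  · exact Or.inl fun a => (ord_nonneg_iff P _).mpr ((hV a).mp (ValuationSubring.mem_top _))
  · exact Or.inr ⟨P₀, fun a => by rw [ord_nonneg_iff, ord_nonneg_iff]; exact (hV a).symm⟩

theorem alpha_regular {e : ↥EB} {b : ↥EB}
    (h : ∀ P₀ : Place Qbar ↥EB, 0 ≤ P₀.ord b → 0 ≤ P₀.ord e) (P : Place Qbar ↥FB)
    (hP : 0 ≤ P.ord (heckeAlphaBar Qbar (M * w) w b)) :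
    0 ≤ P.ord (heckeAlphaBar Qbar (M * w) w e) := by
  rcases restrict_cases P with h' | ⟨P₀, h'⟩
  · exact h' e
  · exact (h' e).mpr (h P₀ ((h' b).mp hP))

/-- The lattice elements lie in the first chart. -/
theorem inLat_mem_R {m : ℕ} {e : ↥(descent S).F₀} (he : (descent S).InLat m (e : ↥EB)) :
    alphaF S e ∈ (chart S).R false := by
  refine mem_R_of_places S false (alphaF_mem_comps S he.2.1) fun P hP => ?_
  refine alpha_regular (b := S.jqF) (fun P₀ h0 => ?_) P hP
  rcases mem_rrs_iff.mp he.2.2 with h | h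
  · show 0 ≤ P₀.ord (e : ↥EB)
    rw [h, P₀.ord_zero]
  · have := h P₀
    rw [Finsupp.smul_apply, (ord_jqF_iff S P₀).mpr h0, smul_zero, neg_zero] at this
    exact this

/-- A level bounding the poles. -/
theorem exists_level {e : ↥EB} (h : ∀ P : Place Qbar ↥EB, S.splitModel.H P = 0 → 0 ≤ P.ord e) :
    ∃ m : ℕ, e ∈ riemannRochSpace ((m : ℤ) • S.splitModel.H) := by
  have := isFunctionField_level (M * w)
  set D := polarDivisor (K := Qbar) e
  refine ⟨(∑ P ∈ D.support, D P).toNat, mem_rrs_iff.mpr (Or.inr fun P => ?_)⟩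
  rw [Finsupp.smul_apply, smul_eq_mul]
  have hH := S.splitModel.H_nonneg P
  rcases hH.eq_or_lt with h0 | hpos
  · rw [← h0, mul_zero, neg_zero]; exact h P h0.symm
  have hD : ∀ Q, 0 ≤ D Q := fun Q => by rw [polarDivisor_apply]; omega
  have h1 : D P ≤ ∑ Q ∈ D.support, D Q := by
    by_cases hP : P ∈ D.support
    · exact Finset.single_le_sum (fun Q _ => hD Q) hP
    · rw [Finsupp.notMem_support_iff.mp hP]; exact Finset.sum_nonneg fun Q _ => hD Q
  have h2 : D P = max (-P.ord e) 0 := polarDivisor_apply _ _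
  have h3 : (∑ Q ∈ D.support, D Q) ≤ ((∑ Q ∈ D.support, D Q).toNat : ℤ) := Int.self_le_toNat _
  have h4 : ((∑ Q ∈ D.support, D Q).toNat : ℤ) ≤
      ((∑ Q ∈ D.support, D Q).toNat : ℤ) * S.splitModel.H P :=
    le_mul_of_one_le_right (by positivity) hpos
  omega

theorem nmA_int {x : ↥(FixF A M w)} (hx : ∀ i, x ∈ (comps S i).V) :
    S.splitModel.Int2 ((nm S 0 x : ↥(descent S).F₀) : ↥EB) := by
  intro j
  rcases eq_or_ne (nm S 0 x) 0 with h | h
  · rw [h, ZeroMemClass.coe_zero]; exact S.splitModel.int_zero j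
  have hx0 : x ≠ 0 := fun e => h (by
    refine Subtype.ext ?_
    show normAlong (heckeAlphaBar Qbar (M * w) w) ((x : ↥(FixF A M w)) : ↥FB) = 0
    rw [e, ZeroMemClass.coe_zero]
    let := algebraAlong (heckeAlphaBar Qbar (M * w) w)
    have : Module.Finite ↥EB ↥FB := Module.finite_of_finrank_pos (by
      rw [show Module.finrank ↥EB ↥FB = w from finrankAlong_alpha_eq (M := M) S.prime]
      exact NeZero.pos w)
    exact Algebra.norm_zero)
  rw [← low_mem_iff S]
  obtain ⟨-, h0, h1, -⟩ := ord_norm S hx0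
  have hge : ∀ i, 0 ≤ (comps S i).ord x := fun i => ((comps S i).mem_iff x hx0).mp (hx i)
  refine ((low S j).mem_iff _ h).mpr ?_
  obtain rfl | rfl : j = 0 ∨ j = 1 := by omega
  · exact h0.symm ▸ add_nonneg (hge 0) (hge 1)
  · exact h1.symm ▸ mul_nonneg (by positivity) (hge 2)

set_option maxHeartbeats 400000 in
/-- Norms of elements of the first chart are lattice elements. -/
theorem exists_inLat_nm {x : ↥(FixF A M w)} (hx : x ∈ (chart S).R false) :
    ∃ m, (descent S).InLat m ((nm S 0 x : ↥(descent S).F₀) : ↥EB) := by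
  have := isFunctionField_level (M * w)
  obtain ⟨m, hm⟩ := exists_level S (e := ((nm S 0 x : ↥(descent S).F₀) : ↥EB)) fun P hP => by
    rw [ord_jqF_iff] at hP
    rw [ord_nonneg_iff] at hP ⊢
    let := algebraAlong (heckeAlphaBar Qbar (M * w) w)
    let O : Subring ↥EB := P.toValuationSubring.toSubring
    have hint : IsIntegral O ((x : ↥(FixF A M w)) : ↥FB) := by
      have h := Chart.isIntegral_closure
        (s := (heckeAlphaBar Qbar (M * w) w) '' (O : Set ↥EB))
        (x := ((x : ↥(FixF A M w)) : ↥FB)) fun V hV => by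
        rcases eq_top_or_place V (fun c => by
          have := hV ⟨_, P.algebraMap_mem' c, rfl⟩
          rwa [AlgHom.commutes] at this) with rfl | ⟨P', rfl⟩
        · exact ValuationSubring.mem_top _
        · exact (ord_nonneg_iff P' _).mp (ord_nonneg_of_mem_R S hx P'
            ((ord_nonneg_iff P' _).mpr (hV ⟨_, hP, rfl⟩)))
      obtain ⟨d, c, hc, hrel⟩ := Chart.exists_relation h
      have hle : Subring.closure ((heckeAlphaBar Qbar (M * w) w) '' (O : Set ↥EB)) ≤
          O.map (heckeAlphaBar Qbar (M * w) w).toRingHom := Subring.closure_le.mpr fun y hy => hy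
      choose c' hc' hcc using fun i : Fin d => hle (hc i i.2)
      refine ⟨Polynomial.X ^ d + ∑ i : Fin d, Polynomial.C (⟨c' i, hc' i⟩ : O) * Polynomial.X ^ (i : ℕ),
        Polynomial.monic_X_pow_add (Polynomial.degree_sum_fin_lt fun i => (⟨c' i, hc' i⟩ : O)), ?_⟩
      rw [Polynomial.eval₂_add, Polynomial.eval₂_pow, Polynomial.eval₂_X, Polynomial.eval₂_finsetSum,
        ← hrel, Finset.sum_range]
      refine congrArg _ (Finset.sum_congr rfl fun i _ => ?_)
      rw [Polynomial.eval₂_mul, Polynomial.eval₂_C, Polynomial.eval₂_pow, Polynomial.eval₂_X]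
      exact congrArg (· * _) (hcc i)
    have h' : IsIntegral O (Algebra.norm ↥EB ((x : ↥(FixF A M w)) : ↥FB)) :=
      Algebra.isIntegral_norm ↥EB hint
    obtain ⟨p, hp, hpx⟩ := h'
    refine mem_of_monic_relation P.toValuationSubring (d := p.natDegree)
      (fun i => ((p.coeff i : O) : ↥EB)) (fun i _ => (p.coeff i).2) ?_
    rw [hp.as_sum, Polynomial.eval₂_add, Polynomial.eval₂_pow, Polynomial.eval₂_X,
      Polynomial.eval₂_finsetSum] at hpx
    refine Eq.trans ?_ hpx
    refine congrArg _ (Finset.sum_congr rfl fun i _ => ?_)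
    rw [Polynomial.eval₂_mul, Polynomial.eval₂_C, Polynomial.eval₂_pow, Polynomial.eval₂_X]
    rfl
  exact ⟨m, (nm S 0 x).2, nmA_int S fun i => (chart S).R_le_comp false i hx, hm⟩

end Fermat.Agent.SquareOld.Geom
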