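import Fermat.Agent.SquareOld.Geom.SwapR
import Fermat.Agent.SquareOld.Geom.Branch
import Fermat.Agent.SquareOld.Geom.LowR
import Fermat.Agent.SemistableRed.GaloisCompat

/-!
# A root of the norm of a local unit takes one value at a pair

The root, pulled back along `α`, lies in the local ring, since the norm of a chart element is a
chart element and the local ring is closed under roots; so its values at the branches agree.
-/

set_option autoImplicit false
set_option linter.unusedSectionVars false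
set_option linter.unusedVariables false

noncomputable section

open IsLocalRing ModularCurve AlgebraicCurve Fermat.Agent.Reduction Fermat.Agent.SemistableRed
  Fermat.Agent.FunctionFieldRR

namespace Fermat.Agent.SquareOld.Geom

open LevelP (descent)

local notation "Qbar" => AlgebraicClosure ℚ

section Value

variable {k G : Type*} [Field k] [Field G] [Algebra k G]

/-- `a` takes the value `c` at `O`. -/
def Val (O : ValuationSubring G) (a : G) (c : k) : Prop :=
  a - algebraMap k G c ∈ O.nonunits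

variable {O : ValuationSubring G}

theorem nonunits_iff {a : G} : a ∈ O.nonunits ↔ ∃ h : a ∈ O, (⟨a, h⟩ : O) ∈ maximalIdeal O :=
  ValuationSubring.mem_nonunits_iff_exists_mem_maximalIdeal

theorem Val.mem (hk : ∀ c, algebraMap k G c ∈ O) {a : G} {c : k} (h : Val O a c) : a ∈ O := by
  simpa using add_mem (O.nonunits_subset h) (hk c)

theorem Val.self (c : k) : Val O (algebraMap k G c) c := by
  rw [Val, sub_self]; exact O.nonunits.zero_mem

theorem Val.mul (hk : ∀ c, algebraMap k G c ∈ O) {a a' : G} {c c' : k} (h : Val O a c)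
    (h' : Val O a' c') : Val O (a * a') (c * c') := by
  obtain ⟨h1, m1⟩ := nonunits_iff.mp h
  obtain ⟨h2, m2⟩ := nonunits_iff.mp h'
  refine nonunits_iff.mpr ?_
  have e : a * a' - algebraMap k G (c * c') =
      a * (a' - algebraMap k G c') + algebraMap k G c' * (a - algebraMap k G c) := by
    rw [map_mul]; ring
  rw [e]
  exact ⟨add_mem (mul_mem (h.mem hk) h2) (mul_mem (hk c') h1),
    Ideal.add_mem _ (Ideal.mul_mem_left _ ⟨a, h.mem hk⟩ m2) (Ideal.mul_mem_left _ ⟨_, hk c'⟩ m1)⟩

theorem Val.pow (hk : ∀ c, algebraMap k G c ∈ O) {a : G} {c : k} (h : Val O a c) :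
    ∀ m : ℕ, Val O (a ^ m) (c ^ m)
  | 0 => by simpa using Val.self (O := O) (1 : k)
  | m + 1 => by rw [pow_succ, pow_succ]; exact (Val.pow hk h m).mul hk h

theorem Val.zero_iff {a : G} : Val O a (0 : k) ↔ a ∈ O.nonunits := by rw [Val, map_zero, sub_zero]

theorem const_not_nonunit (hk : ∀ c, algebraMap k G c ∈ O) {c : k} (hc : c ≠ 0) :
    algebraMap k G c ∉ O.nonunits := fun h => by
  rw [ValuationSubring.mem_nonunits_iff_or, ← map_inv₀] at h
  rcases h with h | h
  · exact hc ((map_eq_zero _).mp h)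
  · exact h (hk c⁻¹)

theorem Val.unique (hk : ∀ c, algebraMap k G c ∈ O) {a : G} {c c' : k} (h : Val O a c)
    (h' : Val O a c') : c = c' := by
  by_contra hne
  obtain ⟨h1, m1⟩ := nonunits_iff.mp h
  obtain ⟨h2, m2⟩ := nonunits_iff.mp h'
  refine const_not_nonunit hk (sub_ne_zero.mpr (Ne.symm hne)) (nonunits_iff.mpr ?_)
  rw [show algebraMap k G (c' - c) = (a - algebraMap k G c) - (a - algebraMap k G c') by
    rw [map_sub]; ring]
  exact ⟨sub_mem h1 h2, Ideal.sub_mem _ m1 m2⟩

theorem Val.not_nonunit (hk : ∀ c, algebraMap k G c ∈ O) {a : G} {c : k} (h : Val O a c)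
    (hc : c ≠ 0) : a ∉ O.nonunits := fun ha => hc (h.unique hk (Val.zero_iff.mpr ha))

end Value

/-- A norm of an element integral over a valuation ring below lies in it. -/
theorem norm_mem_valuation {L E₀ E F : Type*} [Field L] [Field E₀] [Field E] [Field F]
    [Algebra L E] [Algebra L F] (φ : E →ₐ[L] F) (ι : E₀ →+* E) (hι : Function.Injective ι)
    (O : ValuationSubring E₀) (z : E₀) {x : F} (hz : ι z = normAlong φ x)
    (h : ∀ V : ValuationSubring F, (∀ y ∈ O, φ (ι y) ∈ V) → x ∈ V) : z ∈ O := by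
  let := algebraAlong φ
  let R : Subring E := O.toSubring.map ι
  have hint : IsIntegral R x := by
    obtain ⟨d, c, hc, hrel⟩ := Chart.exists_relation (Chart.isIntegral_closure
      (s := φ '' (R : Set E)) fun V hV => h V fun y hy => hV ⟨_, ⟨y, hy, rfl⟩, rfl⟩)
    have hle : Subring.closure (φ '' (R : Set E)) ≤ R.map φ.toRingHom :=
      Subring.closure_le.mpr fun y hy => hy
    choose c' hc' hcc using fun i : Fin d => hle (hc i i.2)
    refine ⟨Polynomial.X ^ d + ∑ i : Fin d, Polynomial.C (⟨c' i, hc' i⟩ : R) * Polynomial.X ^ (i : ℕ),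
      Polynomial.monic_X_pow_add (Polynomial.degree_sum_fin_lt fun i => (⟨c' i, hc' i⟩ : R)), ?_⟩
    rw [Polynomial.eval₂_add, Polynomial.eval₂_pow, Polynomial.eval₂_X, Polynomial.eval₂_finsetSum,
      ← hrel, Finset.sum_range]
    refine congrArg _ (Finset.sum_congr rfl fun i _ => ?_)
    rw [Polynomial.eval₂_mul, Polynomial.eval₂_C, Polynomial.eval₂_pow, Polynomial.eval₂_X]
    exact congrArg (· * _) (hcc i)
  obtain ⟨p, hp, hpx⟩ := (Algebra.isIntegral_norm E hint : IsIntegral R (Algebra.norm E x))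
  choose c hc hcc using fun i : ℕ => (p.coeff i).2
  refine mem_of_monic_relation O (d := p.natDegree) c (fun i _ => hc i) (hι ?_)
  rw [map_add, map_pow, map_sum, map_zero, hz]
  rw [hp.as_sum, Polynomial.eval₂_add, Polynomial.eval₂_pow, Polynomial.eval₂_X,
    Polynomial.eval₂_finsetSum] at hpx
  refine Eq.trans ?_ hpx
  refine congrArg _ (Finset.sum_congr rfl fun i _ => ?_)
  rw [map_mul, map_pow, hz, Polynomial.eval₂_mul, Polynomial.eval₂_C, Polynomial.eval₂_pow,
    Polynomial.eval₂_X]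
  exact congrArg (· * _) (hcc i)

variable {A : ValuationSubring (AlgebraicClosure ℚ)} {M w : ℕ} [NeZero M] [NeZero w]
  [Fact w.Prime] [CharP (ResidueField A) w] [IsAlgClosed (ResidueField A)] (S : Setting A M w)

local notation "kk" => ResidueField A
local notation "GG" => modularFunctionFieldFullC (ResidueField A) M
local notation "EB" => modularFunctionFieldBar (M * w)
local notation "FB" => modularFunctionFieldBar (M * w * w)
local notation "Ser" => LaurentSeries (AlgebraicClosure ℚ)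

/-- The parameter of a chart at level `M w`. -/
def parLow (b : Bool) : ↥(descent S).F₀ :=
  if b then (⟨S.jqF, jqF_mem S⟩ : ↥(descent S).F₀)⁻¹ else ⟨S.jqF, jqF_mem S⟩

theorem alphaF_parLow (b : Bool) : alphaF S (parLow S b) = (chart S).par b := by
  cases b
  · rfl
  · show alphaF S (_⁻¹) = (Tp S)⁻¹
    rw [map_inv₀]; rfl

theorem mem_alpha_closure {b : Bool} {x : ↥(FixF A M w)} (hx : x ∈ (chart S).R b)
    (O : Subring ↥(descent S).F₀) (hW : ∀ a, lowC S a ∈ O) (hp : parLow S b ∈ O)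
    (V : ValuationSubring ↥FB)
    (hV : ∀ y ∈ O, heckeAlphaBar Qbar (M * w) w (y : ↥EB) ∈ V) :
    ((x : ↥(FixF A M w)) : ↥FB) ∈ V := by
  have h1 := (chart S).mem_R.mp hx (V.comap (FixF A M w).subtype)
  refine ValuationSubring.mem_comap.mp (h1 (fun y hy => ?_) ?_)
  · obtain ⟨a, ha⟩ := hy
    rw [ValuationSubring.mem_comap, ← ha, ← alphaF_lowC S]
    exact hV _ (hW a)
  · rw [ValuationSubring.mem_comap, ← alphaF_parLow]
    exact hV _ hp

/-- Norms of chart elements are chart elements. -/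
theorem alpha_nm_mem_R {b : Bool} {x : ↥(FixF A M w)} (hx : x ∈ (chart S).R b) :
    alphaF S (nm S 0 x) ∈ (chart S).R b := by
  refine (chart S).mem_R.mpr fun V hW hpar => ?_
  have h0 : ∀ a, lowC S a ∈ V.comap (alphaF S) := fun a => by
    rw [ValuationSubring.mem_comap, alphaF_lowC]
    exact hW _ ⟨a, rfl⟩
  have h1 : parLow S b ∈ V.comap (alphaF S) := by
    rw [ValuationSubring.mem_comap, alphaF_parLow]; exact hpar
  have h2 := norm_mem_valuation (heckeAlphaBar Qbar (M * w) w) (descent S).F₀.subtype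
    Subtype.val_injective (V.comap (alphaF S)) (nm S 0 x) rfl
    (mem_alpha_closure S hx (V.comap (alphaF S)).toSubring h0 h1)
  exact ValuationSubring.mem_comap.mp h2

theorem alpha_red0 {e : ↥(descent S).F₀} (h : e ∈ (low S 0).V) :
    alphaF S e ∈ (comps S 0).V ∧ (comps S 0).redF (alphaF S e) = (low S 0).redF e := by
  have hi := (low_mem_iff S).mp h
  exact ⟨(comps_alpha0 S hi).1.1, by rw [(comps_alpha0 S hi).1.2, low_redF S hi]⟩

theorem alpha_red2 {e : ↥(descent S).F₀} (h : e ∈ (low S 1).V) :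
    alphaF S e ∈ (comps S 2).V ∧
      (comps S 2).redF (alphaF S e) = piG kk M w ((low S 1).redF e) := by
  have hi := (low_mem_iff S).mp h
  exact ⟨(comps_alpha2 S hi).1, by rw [(comps_alpha2 S hi).2, low_redF S hi]⟩

variable {b : Bool} {Q : Ideal ((chart S).R b)}

/-- Values of a local function at two branches agree. -/
theorem value_eq [Q.IsPrime] {z : ↥(FixF A M w)} (hz : z ∈ Chart.localAt b Q) {i j : Fin 3}
    {O O' : ValuationSubring ↥GG} (hi : (chart S).Centred b Q i O)
    (hj : (chart S).Centred b Q j O') {c c' : kk} (h : Val O ((comps S i).redF z) c)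
    (h' : Val O' ((comps S j).redF z) c') : c = c' := by
  obtain ⟨r, rfl⟩ := (chart S).resW_surjective c
  have hr : ((r : ↥(FixF A M w))) ∈ Chart.localAt b Q :=
    Chart.mem_localAt ⟨_, (chart S).W_le_R b r.2⟩
  let u : Chart.localAt b Q := ⟨z - (r : ↥(FixF A M w)), sub_mem hz hr⟩
  have hred : ∀ {l : Fin 3} {O : ValuationSubring ↥GG}, (chart S).Centred b Q l O →
      (comps S l).redF (u : ↥(FixF A M w)) =
        (comps S l).redF z - algebraMap kk ↥GG ((chart S).resW r) := fun {l O} hl => by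
    show (comps S l).redF (z - _) = _
    refine (Comp.redF_sub (Chart.red_localAt_mem hl hz).1 ((chart S).W_le l _ r.2)).trans ?_
    exact congrArg _ ((chart S).red_W l r)
  have hu : ¬ IsUnit u := (Chart.red_nonunit_iff hi u).mpr (by
    show (comps S i).redF (u : ↥(FixF A M w)) ∈ _
    rw [hred hi]; exact h)
  have hu' := (Chart.red_nonunit_iff hj u).mp hu
  change (comps S j).redF (u : ↥(FixF A M w)) ∈ O'.nonunits at hu'
  rw [hred hj] at hu'
  exact Val.unique hj.1 hu' h'


/-- The case of the norm along `α`. -/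
theorem glue_zero {O : Fin 3 → ValuationSubring ↥GG} (hQ : (chart S).ClosedPoint b Q) (hP : (chart S).IsPair b Q O)
    (hO : ∀ i, O i = O 0) {n : ℕ} (hn : (n : kk) ≠ 0) {ε f : ↥(FixF A M w)} {c : Fin 3 → kk}
    (hε : (chart S).LocalUnit b Q ε)
    (hf : ∀ i, (comps S i).Unit f ∧ c i ≠ 0 ∧ (chart S).HasValue i (O i) f (c i))
    {y : ↥(descent S).F₀} {ζ : Fin 2 → kk} (hy : y ^ n = nm S 0 ε)
    (hζ : ∀ j, (low S j).redF y = algebraMap kk ↥GG (ζ j) * (low S j).redF (nm S 0 f)) :
    ζ 0 * (c 0 * c 1 ^ (w - 1)) = ζ 1 * c 2 ^ w := by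
  have := hQ.1.isPrime
  have hn0 : 0 < n := Nat.pos_of_ne_zero fun e => hn (by rw [e, Nat.cast_zero])
  obtain ⟨cn, cd, hcn, hcd, he⟩ := hε
  have hk := (hP.1 0).1
  have hthr : ∀ i, (chart S).Through Q i := fun i => Chart.through_centred (hP.1 i)
  have hu : ∀ {x : (chart S).R b}, x ∉ Q → ∀ i, (comps S i).Unit (x : ↥(FixF A M w)) :=
    fun {x} hx i => Chart.unit_of_notMem (hthr i) hx
  have hεu : ∀ i, (comps S i).Unit ε := fun i => by
    have hd := hu hcd i
    refine ⟨fun e => (hu hcn i).1 (by rw [← he, e, zero_mul]), ?_⟩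
    have h1 := (hu hcn i).2
    rw [← he, (comps S i).ord_mul _ _ (fun e => (hu hcn i).1 (by rw [← he, e, zero_mul])) hd.1,
      hd.2, add_zero] at h1
    exact h1
  -- the root is a unit on both components
  have hy0 : y ≠ 0 := fun e => nm_ne S 0 (hεu 0).1 (by rw [← hy, e, zero_pow hn0.ne'])
  have hyu : ∀ j, y ∈ (low S j).V := fun j => by
    refine ((low S j).mem_iff y hy0).mpr (le_of_eq (Eq.symm ?_))
    obtain ⟨-, h0, h1, -⟩ := ord_norm S (hεu 0).1
    have h2 := (low S j).ord_pow hy0 n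
    rw [hy] at h2
    obtain rfl | rfl : j = 0 ∨ j = 1 := by omega
    · rw [h0, (hεu 0).2, (hεu 1).2, add_zero, eq_comm, mul_eq_zero] at h2
      exact h2.resolve_left (by exact_mod_cast hn0.ne')
    · rw [h1, (hεu 2).2, mul_zero, eq_comm, mul_eq_zero] at h2
      exact h2.resolve_left (by exact_mod_cast hn0.ne')
  -- the norm of the denominator is a unit at the point
  have hcdV : ∀ i, (cd : ↥(FixF A M w)) ∈ (comps S i).V := fun i => (hu hcd i).mem
  let N : (chart S).R b → (chart S).R b := fun x => ⟨_, alpha_nm_mem_R S x.2⟩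
  have hNd : N cd ∉ Q := fun hmem => by
    have h1 := ((hP.1 0).2.2.2 (N cd)).mp hmem
    replace h1 : ((comps S 0).redF (alphaF S (nm S 0 (cd : ↥(FixF A M w)))) : ↥GG) ∈
        ValuationSubring.nonunits (O 0) := h1
    have hV : (nm S 0 (cd : ↥(FixF A M w))) ∈ (low S 0).V :=
      (low_mem_iff S).mpr (nmA_int S hcdV 0)
    rw [(alpha_red0 S hV).2, (red_norm S (hu hcd)).1] at h1
    have hval : ∀ i, ∃ e : kk, e ≠ 0 ∧ Val (O 0) ((comps S i).redF (cd : ↥(FixF A M w))) e := by
      intro i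
      obtain ⟨e, he'⟩ := res S hQ (hP.1 i) (x := (comps S i).redF (cd : ↥(FixF A M w)))
        ((hP.1 i).2.2.1 cd)
      refine ⟨e, fun h0 => hcd (((hP.1 i).2.2.2 cd).mpr ?_), hO i ▸ he'⟩
      exact Val.zero_iff.mp (h0 ▸ he')
    obtain ⟨e0, he0, hv0⟩ := hval 0
    obtain ⟨e1, he1, hv1⟩ := hval 1
    exact (hv0.mul hk (hv1.pow hk (w - 1))).not_nonunit hk (mul_ne_zero he0 (pow_ne_zero _ he1)) h1
  -- the root is local
  have hz : alphaF S y ∈ Chart.localAt b Q := by
    have e1 : alphaF S y ^ n * (N cd : ↥(FixF A M w)) = N cn := by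
      show alphaF S y ^ n * alphaF S (nm S 0 (cd : ↥(FixF A M w))) =
        alphaF S (nm S 0 (cn : ↥(FixF A M w)))
      rw [← map_pow, hy, ← map_mul, ← map_mul (nm S 0), he]
    set v := alphaF S y * (N cd : ↥(FixF A M w)) with hv
    have hrel : v ^ n ∈ (chart S).R b := by
      rw [hv, mul_pow, show (N cd : ↥(FixF A M w)) ^ n =
        (N cd : ↥(FixF A M w)) * (N cd : ↥(FixF A M w)) ^ (n - 1) by
          rw [← pow_succ', Nat.sub_add_cancel hn0], ← mul_assoc, e1]
      exact mul_mem (N cn).2 (pow_mem (N cd).2 _)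
    have hvR : v ∈ (chart S).R b := by
      refine (chart S).R_closed b (d := n) (fun i => if i = 0 then -v ^ n else 0) (fun i _ => ?_) ?_
      · show (if i = 0 then -v ^ n else 0) ∈ (chart S).R b
        split_ifs
        exacts [neg_mem hrel, zero_mem _]
      · rw [Finset.sum_eq_single 0 (fun i _ hi => by rw [if_neg hi, zero_mul])
          (fun h => absurd (Finset.mem_range.mpr hn0) h)]
        simp
    exact ⟨⟨v, hvR⟩, N cd, hNd, rfl⟩
  -- its two values
  have hfv : ∀ i, Val (O 0) ((comps S i).redF f) (c i) := fun i => hO i ▸ (hf i).2.2.2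
  have hr := red_norm S fun i => (hf i).1
  have v0 : Val (O 0) ((comps S 0).redF (alphaF S y)) (ζ 0 * (c 0 * c 1 ^ (w - 1))) := by
    rw [(alpha_red0 S (hyu 0)).2, hζ, hr.1]
    exact (Val.self _).mul hk ((hfv 0).mul hk ((hfv 1).pow hk _))
  have v2 : Val (O 0) ((comps S 2).redF (alphaF S y)) (ζ 1 * c 2 ^ w) := by
    rw [(alpha_red2 S (hyu 1)).2, hζ, map_mul, AlgHom.commutes, hr.2.1]
    exact (Val.self _).mul hk ((hfv 2).pow hk _)
  exact value_eq S hz (hP.1 0) (hO 2 ▸ hP.1 2) v0 v2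

theorem w_mem_F0 (y : ↥(descent S).F₀) : S.w (y : ↥EB) ∈ (descent S).F₀ := by
  rintro _ ⟨σ, hσ, rfl⟩
  refine (S.side 0).injective ?_
  show S.side 0 (arithmeticGalois (modularFunctionFieldFull (M * w)) σ • S.w (y : ↥EB)) = _
  rw [S.side_galois, S.side_w, ← S.side_galois]
  exact congrArg _ (y.2 _ ⟨σ, hσ, rfl⟩)

/-- `w` on the functions of level `M w`. -/
def swLow (y : ↥(descent S).F₀) : ↥(descent S).F₀ := ⟨S.w (y : ↥EB), w_mem_F0 S y⟩

theorem lrep_swLow {j : Fin 2} {y : ↥(descent S).F₀} {m : ℤ}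
    {v : LaurentSeries (ResidueField A)} :
    (lfam S j).Rep (swLow S y) m v ↔ (lfam S (1 - j)).Rep y m v := by
  rw [lrep_iff, lrep_iff]
  show (famS S).Rep (S.side j (S.w (y : ↥EB))) m v ↔ _
  rw [S.side_w]

theorem redF_swLow (y : ↥(descent S).F₀) (j : Fin 2) :
    (low S j).redF (swLow S y) = (low S (1 - j)).redF y := by
  classical
  by_cases h : y ∈ (low S (1 - j)).V
  · exact Subtype.ext (RepFamily.toComp_redF (lfacts S j)
      ((lrep_swLow S).mpr (RepFamily.toComp_rep (lfacts S (1 - j)) h)))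
  · rw [Comp.redF, Comp.redF, dif_neg h, dif_neg]
    exact fun h' => h (RepFamily.toComp_mem _
      ((lrep_swLow S).mp (RepFamily.toComp_rep (lfacts S j) h')))

theorem swLow_nmB (x : ↥(FixF A M w)) : swLow S (nm S 1 x) = nm S 0 (swF S x) := by
  refine Subtype.ext ((S.side 0).injective ?_)
  show S.side 0 (S.w ((nmB S x : ↥(descent S).F₀) : ↥EB)) = _
  rw [S.side_w, side_nmB]
  rfl

/-- **Glue at a pair.** -/
theorem glue_of_eq {O : Fin 3 → ValuationSubring ↥GG} (hQ : (chart S).ClosedPoint b Q) (hP : (chart S).IsPair b Q O)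
    (hO : ∀ i, O i = O 0) {n : ℕ} (hn : (n : kk) ≠ 0) (ε f : ↥(FixF A M w)) (c : Fin 3 → kk)
    (hε : (chart S).LocalUnit b Q ε)
    (hf : ∀ i, (comps S i).Unit f ∧ c i ≠ 0 ∧ (chart S).HasValue i (O i) f (c i))
    (t : Fin 2) (y : ↥(descent S).F₀) (ζ : Fin 2 → kk) (hy : y ^ n = nm S t ε)
    (hζ : ∀ j, (low S j).redF y = algebraMap kk ↥GG (ζ j) * (low S j).redF (nm S t f)) :
    (t = 0 → ζ 0 * (c 0 * c 1 ^ (w - 1)) = ζ 1 * c 2 ^ w) ∧
      (t = 1 → ζ 0 * c 0 ^ w = ζ 1 * (c 2 * c 1 ^ (w - 1))) := by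
  refine ⟨fun ht => by subst ht; exact glue_zero S hQ hP hO hn hε hf hy hζ, fun ht => ?_⟩
  subst ht
  have hsQ : swQ S Q = Q := swQ_eq S (hP.1 1)
  have hε' : (chart S).LocalUnit b Q (swF S ε) := by
    obtain ⟨p, q, hp, hq, e⟩ := hε
    exact ⟨swR S b p, swR S b q, fun h => hp (by rw [← hsQ, mem_swQ]; exact h),
      fun h => hq (by rw [← hsQ, mem_swQ]; exact h),
      by rw [coe_swR, coe_swR, ← e, map_mul]⟩
  have hf' : ∀ i, (comps S i).Unit (swF S f) ∧ c (swI i) ≠ 0 ∧
      (chart S).HasValue i (O i) (swF S f) (c (swI i)) := fun i => by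
    obtain ⟨hu, hc, hV, hv⟩ := hf (swI i)
    have hm : swF S f ∈ (comps S i).V := (swF_mem_comps_iff S).mpr hu.mem
    refine ⟨Comp.unit_of_redF_ne hm ?_, hc, hm, ?_⟩
    · rw [redF_swF]; exact hu.redF_ne
    · show Val (O i) ((comps S i).redF (swF S f)) (c (swI i))
      rw [redF_swF, hO i, ← hO (swI i)]
      exact hv
  have h := glue_zero S hQ hP hO hn (c := fun i => c (swI i)) (ζ := fun j => ζ (1 - j)) hε' hf'
    (y := swLow S y) (by
      rw [← swLow_nmB]
      refine Subtype.ext ?_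
      show S.w (y : ↥EB) ^ n = S.w ((nm S 1 ε : ↥(descent S).F₀) : ↥EB)
      rw [← map_pow, ← SubmonoidClass.coe_pow, hy])
    fun j => by
      rw [← swLow_nmB, redF_swLow, redF_swLow]
      exact hζ (1 - j)
  simpa [swI] using h.symm

end Fermat.Agent.SquareOld.Geom
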