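import Fermat.Agent.SquareOld.Geom.Units
import Fermat.Agent.LevelP.Inst.PairRing

/-!
# The branches through a closed point

Away from the glued pairs a closed point carries one branch; at a pair it carries one branch on
each component, all at the same place.
-/

set_option autoImplicit false
set_option linter.unusedSectionVars false
set_option linter.unusedVariables false

noncomputable section

open IsLocalRing ModularCurve AlgebraicCurve Fermat.Agent.Reduction Fermat.Agent.SemistableRed
  Fermat.Agent.FunctionFieldRR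

namespace Fermat.Agent.SquareOld.Geom

open LevelP (descent)
open LevelP.Descent (pairPoints)

local notation "Qbar" => AlgebraicClosure ℚ

variable {A : ValuationSubring (AlgebraicClosure ℚ)} {M w : ℕ} [NeZero M] [NeZero w]
  [Fact w.Prime] [CharP (ResidueField A) w] [IsAlgClosed (ResidueField A)] (S : Setting A M w)

local notation "GG" => modularFunctionFieldFullC (ResidueField A) M
local notation "EB" => modularFunctionFieldBar (M * w)

variable [IsFunctionField (AlgebraicClosure ℚ) ↥(modularFunctionFieldBar (M * w))]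
  [IsFunctionField (ResidueField A) ↥(modularFunctionFieldFullC (ResidueField A) M)]
  [CharP ↥(modularFunctionFieldFullC (ResidueField A) M) w]
variable {b : Bool} {Q : Ideal ((chart S).R b)}

/-- Reductions at a branch detect membership in the maximal ideal. -/
theorem vanish_iff {i : Fin 3} {P : Place (ResidueField A) ↥GG}
    (hO : (chart S).Centred b Q i P.toValuationSubring) (y : (chart S).R b) :
    y ∈ Q ↔ VanishesTo P 1 ((comps S i).redF (y : ↥(FixF A M w))) :=
  (hO.2.2.2 y).trans (mem_nonunits_iff_vanishes P)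

/-- Branches through one point are cusps together. -/
theorem polesC_iff {i i' : Fin 3} {P P' : Place (ResidueField A) ↥GG}
    (hO : (chart S).Centred b Q i P.toValuationSubring)
    (hO' : (chart S).Centred b Q i' P'.toValuationSubring) :
    S.polesC P = 0 → S.polesC P' = 0 := by
  intro hC
  have hw : (1 : ℤ) ≤ w := by exact_mod_cast S.prime.one_le
  have hT := ord_Tbar_of_centred S hO
  have hT' := ord_Tbar_of_centred S hO'
  cases b
  · exact (polesC_eq_of S P').1 hT'
  simp only [if_true] at hT hT'
  refine (polesC_eq_of S P').1 ?_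
  by_contra hneg
  have h0 : P.ord (Tbar A M w) = 0 := by
    by_contra hne
    have := (polesC_eq_of S P).2 (by omega)
    rw [hC, mul_zero] at this
    have hne' : P.ord (Tbar A M w) < 0 := by omega
    nlinarith
  have key : ∀ {j : Fin 3} {R : Place (ResidueField A) ↥GG},
      (chart S).Centred true Q j R.toValuationSubring →
      ((⟨_, (chart S).par_mem_R true⟩ : (chart S).R true) ∈ Q ↔ R.ord (Tbar A M w) < 0) := by
    intro j R hR
    rw [vanish_iff S hR, par_red, if_pos rfl, VanishesTo, R.ord_inv]
    have hne : (Tbar A M w)⁻¹ ≠ 0 := inv_ne_zero (by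
      rw [Tbar_eq]; exact pow_ne_zero _ (jbar_ne (A := A) (M := M)))
    rw [or_iff_right hne]
    omega
  have := (key hO).mp ((key hO').mpr (not_le.mp hneg))
  omega

/-- A denominator exact at all branches through the point. -/
theorem exists_den {i : Fin 3} {P : Place (ResidueField A) ↥GG}
    (hO : (chart S).Centred b Q i P.toValuationSubring) (m : ℕ) :
    ∃ d : ↥EB, (∀ j, S.splitModel.red j d ≠ 0) ∧ (descent S).InLat m d ∧
      ∀ (i' : Fin 3) (P' : Place (ResidueField A) ↥GG),
        (chart S).Centred b Q i' P'.toValuationSubring → (descent S).Exact 0 P' m d := by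
  rcases (S.polesC_nonneg P).eq_or_lt with hC | hC
  · refine ⟨1, fun j => by rw [S.splitModel.red_one]; exact one_ne_zero,
      (descent S).one_inLat.mono (Nat.zero_le m), fun i' P' hO' => ?_⟩
    refine ⟨(descent S).one_inLat.mono (Nat.zero_le m),
      by rw [S.splitModel.red_one]; exact one_ne_zero, ?_⟩
    rw [S.splitModel.red_one, P'.ord_one]
    show 0 = -((m : ℤ) * S.polesC P')
    rw [polesC_iff S hO hO' hC.symm, mul_zero, neg_zero]
  · have hlat : (descent S).InLat m ((descent S).T ^ m) := by
      simpa using (descent S).inLat_T.pow m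
    refine ⟨(descent S).T ^ m, fun j => ?_, hlat, fun i' P' hO' => ?_⟩
    · rw [S.splitModel.red_pow ((descent S).inLat_T.2.1 j), (descent S).red_T]
      exact pow_ne_zero _ S.splitModel.Tbar_ne
    · refine (descent S).exact_T_pow ?_ m
      refine (S.polesC_nonneg P').lt_of_ne fun h => ?_
      have := polesC_iff S hO' hO h.symm
      omega

/-- A function of level `M w` vanishing at a prescribed place, a unit at the branch. -/
theorem exists_sep_quot [Q.IsPrime] {i : Fin 3} (hi : i ≠ 2) {P : Place (ResidueField A) ↥GG}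
    (hP : P ∉ pairPoints S.splitModel 0) (hO : (chart S).Centred b Q i P.toValuationSubring)
    (s : Finset (Place (ResidueField A) ↥GG)) (hs : P ∉ s) :
    ∃ u : Chart.localAt b Q, IsUnit u ∧
      (∀ (i' : Fin 3) (P' : Place (ResidueField A) ↥GG), i' ≠ 2 → P' ∈ s →
        (chart S).Centred b Q i' P'.toValuationSubring →
        VanishesTo P' 1 ((comps S i').redF (u : ↥(FixF A M w)))) ∧
      (comps S 2).redF (u : ↥(FixF A M w)) = 0 := by
  obtain ⟨m₀, h⟩ := (descent S).exists_sep (i := 0) hP s hs fun _ => 1
  obtain ⟨b', -, hbs, -, e, he, heb, he1⟩ := h m₀ le_rfl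
  obtain ⟨d, hd0, hdl, hd⟩ := exists_den S hO m₀
  set g : ↥(descent S).F₀ := ⟨e, he.1.1⟩ * ⟨d, hdl.1⟩⁻¹
  have hdne : d ≠ 0 := S.splitModel.ne_zero_of_red_ne (hd0 0)
  have hge : (g : ↥EB) * d = e := by
    simp only [g]; push_cast; rw [mul_assoc, inv_mul_cancel₀ hdne, mul_one]
  have hmem : ∀ {i' : Fin 3} {P' : Place (ResidueField A) ↥GG},
      (chart S).Centred b Q i' P'.toValuationSubring → g ∈ (descent S).localRing 0 P' :=
    fun {i' P'} hO' => ⟨m₀, e, d, he.1, hd i' P' hO', hge⟩
  obtain ⟨h0i, h0r⟩ := LevelP.Descent.red_quotient (j := 0) he.1 hdl (hd0 0) hge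
  obtain ⟨h1i, h1r⟩ := LevelP.Descent.red_quotient (j := 1) he.1 hdl (hd0 1) hge
  have hval : ∀ {i' : Fin 3} {P' : Place (ResidueField A) ↥GG}, i' ≠ 2 →
      (chart S).Centred b Q i' P'.toValuationSubring →
      P'.ord (S.splitModel.red 0 d) = -((m₀ : ℤ) * S.polesC P') ∧
        (comps S i').redF (alphaF S g) = b' / S.splitModel.red 0 d := fun {i' P'} hi' hO' =>
    ⟨(hd i' P' hO').2.2, by rw [(comps_alpha_of_ne_two S hi' h0i).2, h0r, heb]⟩
  refine ⟨⟨_, alpha_localRing_le S hi hO (hmem hO)⟩, ?_, fun i' P' hi' hs' hO' => ?_, ?_⟩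
  · by_contra hu
    obtain ⟨hdP, hr⟩ := hval hi hO
    have h1 := (mem_nonunits_iff_vanishes P).mp ((Chart.red_nonunit_iff hO _).mp hu)
    change VanishesTo P 1 ((comps S i).redF (alphaF S g)) at h1
    have hbne : b' ≠ 0 := heb ▸ he.2.1
    rw [hr] at h1
    rcases h1 with h1 | h1
    · exact div_ne_zero hbne (hd0 0) h1
    · rw [ord_div P hbne (hd0 0), hdP, ← heb, he.2.2] at h1
      change 1 ≤ -((m₀ : ℤ) * S.polesC P) - _ at h1
      omega
  · obtain ⟨hdP, hr⟩ := hval hi' hO'
    show VanishesTo P' 1 ((comps S i').redF (alphaF S g))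
    rw [hr]
    rcases eq_or_ne b' 0 with hb0 | hb0
    · exact Or.inl (by rw [hb0, zero_div])
    refine Or.inr ?_
    have := hbs P' hs'
    rw [ord_div P' hb0 (hd0 0), hdP]
    change ((1 : ℕ) : ℤ) - (m₀ : ℤ) * S.polesC P' ≤ _ at this
    omega
  · show (comps S 2).redF (alphaF S g) = 0
    rw [(comps_alpha2 S h1i).2, h1r, he1 1 (by decide), zero_div, map_zero]

/-- Away from the pairs there is no branch on the last component. -/
theorem no_comp_two [Q.IsPrime] {i : Fin 3} (hi : i ≠ 2) {P : Place (ResidueField A) ↥GG}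
    (hP : P ∉ pairPoints S.splitModel 0) (hO : (chart S).Centred b Q i P.toValuationSubring)
    {O' : ValuationSubring ↥GG} : ¬ (chart S).Centred b Q 2 O' := by
  intro hO'
  obtain ⟨u, hu, -, h2⟩ := exists_sep_quot S hi hP hO ∅ (Finset.notMem_empty _)
  refine (Chart.red_nonunit_iff hO' u).mpr ?_ hu
  show (comps S 2).redF _ ∈ O'.nonunits
  rw [h2]
  exact O'.nonunits.zero_mem

theorem points_smooth_aux (hQ : (chart S).ClosedPoint b Q) {i : Fin 3} (hi : i ≠ 2)
    {P : Place (ResidueField A) ↥GG} (hP : P ∉ pairPoints S.splitModel 0)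
    (hO : (chart S).Centred b Q i P.toValuationSubring) (i' : Fin 3) (O' : ValuationSubring ↥GG)
    (hO' : (chart S).Centred b Q i' O') : i' = i ∧ O' = P.toValuationSubring := by
  have := hQ.1
  have hi' : i' ≠ 2 := fun e => no_comp_two S hi hP hO (e ▸ hO')
  obtain ⟨P', rfl⟩ := branch_place S hQ hO'
  have hPP : P' = P := by
    by_contra hne
    obtain ⟨u, hu, hv, -⟩ := exists_sep_quot S hi hP hO {P'} (by simpa using Ne.symm hne)
    exact (Chart.red_nonunit_iff hO' u).mpr ((mem_nonunits_iff_vanishes P').mpr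
      (hv i' P' hi' (Finset.mem_singleton_self _) hO')) hu
  subst hPP
  refine ⟨?_, rfl⟩
  by_contra hne
  have h01 : (chart S).Centred b Q 0 P'.toValuationSubring ∧
      (chart S).Centred b Q 1 P'.toValuationSubring := by
    fin_cases i <;> fin_cases i' <;> first
      | exact ⟨hO, hO'⟩
      | exact ⟨hO', hO⟩
      | exact absurd rfl hne
      | exact absurd rfl hi
      | exact absurd rfl hi'
  have h2 := centred_swQ S h01.1
  rw [swQ_eq S h01.2] at h2
  exact no_comp_two S (i := 0) (by decide) hP h01.1 h2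

/-- **One branch away from the pairs.** -/
theorem points_smooth (hQ : (chart S).ClosedPoint b Q) {i : Fin 3}
    {P : Place (ResidueField A) ↥GG} (hP : P ∉ pairPoints S.splitModel 0)
    (hO : (chart S).Centred b Q i P.toValuationSubring) (i' : Fin 3) (O' : ValuationSubring ↥GG)
    (hO' : (chart S).Centred b Q i' O') : i' = i ∧ O' = P.toValuationSubring := by
  by_cases hi : i = 2
  · subst hi
    have h := points_smooth_aux S (closedPoint_swQ S hQ) (i := swI 2) (by decide) hP
      (centred_swQ S hO) (swI i') O' (centred_swQ S hO')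
    exact ⟨by rw [← swI_swI i', h.1, swI_swI], h.2⟩
  · exact points_smooth_aux S hQ hi hP hO i' O' hO'

/-- The values at a pair of a member of the affine chart agree along the three components. -/
theorem value_agree {x : Place (ResidueField A) ↥GG × Place (ResidueField A) ↥GG}
    (hx : x ∈ S.splitModel.pairs) {y : ↥(FixF A M w)} (hy : y ∈ (chart S).R false) (i : Fin 3) :
    residueConst x.1 ((comps S i).redF y) = residueConst x.1 ((comps S 0).redF y) := by
  have hp := S.splitModel.mem_pairs.mp hx
  have hC : S.polesC x.1 = 0 := hp.1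
  have hw := S.prime.two_le
  have hTb : Tbar A M w ∈ x.1.toValuationSubring := by
    rw [← ord_nonneg_iff]
    by_contra hn
    have := (polesC_eq_of S x.1).2 (not_le.mp hn)
    rw [hC, mul_zero] at this
    have hlt : x.1.ord (Tbar A M w) < 0 := not_le.mp hn
    nlinarith [show (2 : ℤ) ≤ w by exact_mod_cast hw]
  have hreg : ∀ {z : ↥(FixF A M w)}, z ∈ (chart S).R false → ∀ j,
      VanishesTo x.1 0 ((comps S j).redF z) := fun {z} hz j =>
    (vanishesTo_zero_iff _).mpr (Chart.red_R_mem (X := chart S) (b := false)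
      x.1.algebraMap_mem' (by
        show (comps S j).redF ((chart S).par false) ∈ _
        rw [par_red]
        exact hTb) hz)
  set a : Fin 3 → ResidueField A := fun j => residueConst x.1 ((comps S j).redF y)
  have key : ∀ c : ResidueField A, (∀ j, a j ≠ c) →
      (a 0 - c) * (a 1 - c) ^ (w - 1) = (a 2 - c) ^ w := by
    intro c hc
    obtain ⟨cA, hcA⟩ := resWc_surjective S c
    set z : ↥(FixF A M w) := y - (cA : ↥(FixF A M w))
    have hcR : (cA : ↥(FixF A M w)) ∈ (chart S).R false := (chart S).W_le_R false cA.2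
    have hzR : z ∈ (chart S).R false := sub_mem hy hcR
    have hz : ∀ j, residueConst x.1 ((comps S j).redF z) = a j - c := fun j => by
      show residueConst x.1 (((chart S).comp j).redF (y - (cA : ↥(FixF A M w)))) = a j - c
      rw [Comp.redF_sub ((chart S).R_le_comp false j hy) ((chart S).R_le_comp false j hcR),
        (chart S).red_W j cA, show (chart S).resW cA = c from hcA]
      refine residueConst_eq _ ?_
      have h1 := residueConst_spec x.1 ((vanishesTo_zero_iff _).mp (hreg hy j))
      rwa [map_sub, sub_sub_sub_cancel_right]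
    have hu : ∀ j, (comps S j).Unit z := fun j =>
      Comp.unit_of_redF_ne ((chart S).R_le_comp false j hzR) fun e => hc j (by
        have := hz j
        rw [e, residueConst_zero] at this
        exact sub_eq_zero.mp this.symm)
    obtain ⟨m, hm⟩ := exists_inLat_nm S hzR
    obtain ⟨r1, r2, -, -⟩ := red_norm S hu
    rw [low_redF S (hm.2.1 0)] at r1
    rw [low_redF S (hm.2.1 1)] at r2
    have hve := hm.value_eq hx 1
    rw [LevelP.branch_one] at hve
    set v := S.splitModel.red 1 ((nm S 0 z : ↥(descent S).F₀) : ↥EB)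
    have hgr := hp.2.2 _ (S.splitModel.reach_graph
      (S.splitModel.bound m _ hm.2.1 hm.2.2 1) 1)
    simp only [SplitModel.ev, Fin.zero_eq_one_iff, OfNat.ofNat_ne_one, if_false, if_true] at hgr
    change residueConst x.1 (piG (ResidueField A) M w v) = residueConst x.2 v at hgr
    rw [hve, r1, r2, residueConst_pow (hreg hzR 2), residueConst_mul (hreg hzR 0)
      (by simpa using SemistableRed.VanishesTo.pow' (hreg hzR 1) (w - 1)),
      residueConst_pow (hreg hzR 1), hz, hz, hz] at hgr
    exact hgr.symm
  have hpoly : (Polynomial.C (a 0) - Polynomial.X) * (Polynomial.C (a 1) - Polynomial.X) ^ (w - 1) =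
      (Polynomial.C (a 2) - Polynomial.X) ^ w := by
    refine Polynomial.eq_of_infinite_eval_eq _ _ (Set.Infinite.mono (fun c hc => ?_)
      (Set.Finite.infinite_compl (Set.finite_range a)))
    show Polynomial.eval c _ = Polynomial.eval c _
    simp only [Polynomial.eval_mul, Polynomial.eval_pow, Polynomial.eval_sub, Polynomial.eval_C,
      Polynomial.eval_X]
    exact key c fun j e => hc ⟨j, e⟩
  have he : ∀ c, (a 0 - c) * (a 1 - c) ^ (w - 1) = (a 2 - c) ^ w := fun c => by
    simpa using congrArg (Polynomial.eval c) hpoly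
  have h02 : a 2 = a 0 := by
    have h := he (a 0)
    rw [sub_self, zero_mul] at h
    exact sub_eq_zero.mp ((pow_eq_zero_iff (NeZero.ne w)).mp h.symm)
  have h12 : a 1 = a 0 := by
    have h := he (a 1)
    rw [sub_self, zero_pow (by omega), mul_zero] at h
    exact ((sub_eq_zero.mp ((pow_eq_zero_iff (NeZero.ne w)).mp h.symm)).symm).trans h02
  fin_cases i
  exacts [rfl, h12, h02]

theorem Tbar_value {i : Fin 3} {P : Place (ResidueField A) ↥GG}
    (hO : (chart S).Centred b Q i P.toValuationSubring) (hC : S.polesC P = 0) :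
    VanishesTo P 0 (Tbar A M w) ∧
      (b = true → residueConst P (Tbar A M w) ≠ 0) := by
  have hT := ord_Tbar_of_centred S hO
  have hw : (1 : ℤ) ≤ w := by exact_mod_cast S.prime.one_le
  have h0 : 0 ≤ P.ord (Tbar A M w) := by
    by_contra hn
    have := (polesC_eq_of S P).2 (not_le.mp hn)
    rw [hC, mul_zero] at this
    have hlt : P.ord (Tbar A M w) < 0 := not_le.mp hn
    nlinarith
  refine ⟨Or.inr h0, fun hb h => ?_⟩
  subst hb
  simp only [if_true] at hT
  have := (SemistableRed.vanishesTo_one_iff (Or.inr h0)).mpr h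
  rcases this with h' | h'
  · rw [Tbar_eq] at h'
    exact pow_ne_zero w (jbar_ne (A := A) (M := M)) h'
  · omega

/-- At a pair the three components share their branch. -/
theorem centred_pair {x : Place (ResidueField A) ↥GG × Place (ResidueField A) ↥GG}
    (hx : x ∈ S.splitModel.pairs) {i : Fin 3}
    (hO : (chart S).Centred b Q i x.1.toValuationSubring) (k : Fin 3) :
    (chart S).Centred b Q k x.1.toValuationSubring := by
  have hC : S.polesC x.1 = 0 := (S.splitModel.mem_pairs.mp hx).1
  obtain ⟨hT, hT0⟩ := Tbar_value S hO hC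
  have hregk : ∀ (j : Fin 3) (y : (chart S).R b),
      (comps S j).redF (y : ↥(FixF A M w)) ∈ x.1.toValuationSubring := fun j y =>
    Chart.red_R_mem (X := chart S) x.1.algebraMap_mem' (by
      have h := hO.2.2.1 ⟨_, (chart S).par_mem_R b⟩
      change (comps S i).redF ((chart S).par b) ∈ _ at h
      show (comps S j).redF ((chart S).par b) ∈ _
      rwa [par_red] at h ⊢) y.2
  refine ⟨x.1.algebraMap_mem', fun y => (chart S).R_le_comp b k y.2, hregk k, fun y => ?_⟩
  have hv : ∀ j, VanishesTo x.1 0 ((comps S j).redF (y : ↥(FixF A M w))) :=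
    fun j => (vanishesTo_zero_iff _).mpr (hregk j y)
  have hagree : ∀ j, residueConst x.1 ((comps S j).redF (y : ↥(FixF A M w))) =
      residueConst x.1 ((comps S 0).redF (y : ↥(FixF A M w))) := by
    intro j
    rcases Bool.eq_false_or_eq_true b with hb | hb
    rotate_left
    · subst hb; exact value_agree S hx y.2 j
    · subst hb
      obtain ⟨K, hK⟩ := exists_T_pow_mul_mem S y.2
      have h := value_agree S hx hK j
      have hTK : ∀ l, residueConst x.1 ((comps S l).redF ((y : ↥(FixF A M w)) * Tp S ^ K)) =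
          residueConst x.1 ((comps S l).redF (y : ↥(FixF A M w))) *
            residueConst x.1 (Tbar A M w) ^ K := fun l => by
        have hyV : (y : ↥(FixF A M w)) ∈ (comps S l).V := (chart S).R_le_comp true l y.2
        rw [Comp.redF_mul hyV (pow_mem (comps_Tp S l).1 K),
          Comp.redF_pow (comps_Tp S l).1, (comps_Tp S l).2,
          residueConst_mul (hv l) (by simpa using SemistableRed.VanishesTo.pow' hT K), residueConst_pow hT]
      rw [hTK, hTK] at h
      exact mul_right_cancel₀ (pow_ne_zero _ (hT0 rfl)) h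
  rw [vanish_iff S hO, mem_nonunits_iff_vanishes]
  show VanishesTo x.1 1 ((comps S i).redF _) ↔ VanishesTo x.1 1 ((comps S k).redF _)
  rw [SemistableRed.vanishesTo_one_iff (hv i), SemistableRed.vanishesTo_one_iff (hv k),
    hagree i, hagree k]

/-- Different pairs give different points. -/
theorem pair_unique [Q.IsPrime] {x x' : Place (ResidueField A) ↥GG × Place (ResidueField A) ↥GG}
    (hx : x ∈ S.splitModel.pairs) (hx' : x' ∈ S.splitModel.pairs)
    (hO : (chart S).Centred b Q 0 x.1.toValuationSubring)
    (hO' : (chart S).Centred b Q 0 x'.1.toValuationSubring) : x.1 = x'.1 := by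
  classical
  by_contra hne
  have hC := (S.splitModel.mem_pairs.mp hx).1
  have hC' := (S.splitModel.mem_pairs.mp hx').1
  obtain ⟨z, hz, hv⟩ := S.splitModel.exists_values {x.1, x'.1} (by simp [hC, hC']) _ le_rfl
    fun p => if (p : Place (ResidueField A) ↥GG) = x.1 then 0 else 1
  obtain ⟨m, hm⟩ := S.splitModel.reach_graph hz 0
  have hm' := S.splitModel.imgSpace_mono
    (S.splitModel.Hspace_mono (le_max_left m S.splitModel.baseLevel)) hm
  obtain ⟨f, hf, hfr⟩ := (descent S).exists_inLat_glue (le_max_right m S.splitModel.baseLevel)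
    (S.splitModel.imgSpace_le_glueSpace _ hm')
  have hf0 : S.splitModel.red 0 f = z := by simpa [SplitModel.red2] using congrFun hfr 0
  obtain ⟨u, hu, hue⟩ := alpha_unit S (i := 0) (by decide) hO' hC' (e := ⟨f, hf.1⟩) hf (by
    rw [hf0, SemistableRed.vanishesTo_one_iff]
    · rw [hv ⟨x'.1, by simp⟩, if_neg (Ne.symm hne)]; exact one_ne_zero
    · show z = 0 ∨ 0 ≤ x'.1.ord z
      simpa [hC', hf0] using (S.splitModel.mem_pairSpace.mp
        ((S.splitModel.imgSpace_le_glueSpace _ hm').1) 0 |> mem_rrs_iff.mp).imp id fun h => h x'.1)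
  refine (Chart.red_nonunit_iff hO u).mpr ?_ hu
  rw [mem_nonunits_iff_vanishes]
  show VanishesTo x.1 1 ((comps S 0).redF (u : ↥(FixF A M w)))
  rw [hue, (comps_alpha_of_ne_two S (i := 0) (by decide) (e := ⟨f, hf.1⟩) (hf.2.1 0)).2, hf0,
    SemistableRed.vanishesTo_one_iff]
  · rw [hv ⟨x.1, by simp⟩, if_pos rfl]
  · exact (mem_rrs_iff.mp hz).imp id fun h => by simpa [hC] using h x.1

/-- **Three branches at a pair.** -/
theorem points_pair (hQ : (chart S).ClosedPoint b Q)
    {x : Place (ResidueField A) ↥GG × Place (ResidueField A) ↥GG}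
    (hx : x ∈ S.splitModel.pairs) {i : Fin 3}
    (hO : (chart S).Centred b Q i x.1.toValuationSubring) :
    (chart S).IsPair b Q fun _ => x.1.toValuationSubring := by
  classical
  have := hQ.1
  refine ⟨centred_pair S hx hO, fun k O' hO' => ?_⟩
  obtain ⟨P', rfl⟩ := branch_place S hQ hO'
  show P'.toValuationSubring = x.1.toValuationSubring
  by_cases hP' : P' ∈ pairPoints S.splitModel 0
  · obtain ⟨x', hx', rfl⟩ := Finset.mem_image.mp (show P' ∈ _ from hP')
    simp only [if_true] at hO' ⊢
    rw [pair_unique S hx hx' (centred_pair S hx hO 0) (centred_pair S hx' hO' 0)]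
  · exact (points_smooth S hQ hP' hO' i _ hO).2.symm

/-- **A closed point has one branch, or is a pair.** -/
theorem points (b : Bool) (Q : Ideal ((chart S).R b)) (hQ : (chart S).ClosedPoint b Q) :
    (∀ i i' O O', (chart S).Centred b Q i O → (chart S).Centred b Q i' O' → i = i' ∧ O = O') ∨
      ∃ O, (chart S).IsPair b Q O := by
  classical
  have := hQ.1
  obtain ⟨i, hi⟩ := Chart.exists_through hQ
  obtain ⟨O, hO⟩ := Chart.exists_branch hQ hi
  obtain ⟨P, rfl⟩ := branch_place S hQ hO
  by_cases hP : P ∈ pairPoints S.splitModel 0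
  · obtain ⟨x, hx, rfl⟩ := Finset.mem_image.mp (show P ∈ _ from hP)
    simp only [if_true] at hO
    exact Or.inr ⟨_, points_pair S hQ hx hO⟩
  · refine Or.inl fun k k' O₁ O₂ h₁ h₂ => ?_
    obtain ⟨e₁, e₁'⟩ := points_smooth S hQ hP hO k O₁ h₁
    obtain ⟨e₂, e₂'⟩ := points_smooth S hQ hP hO k' O₂ h₂
    exact ⟨e₁.trans e₂.symm, e₁'.trans e₂'.symm⟩

end Fermat.Agent.SquareOld.Geom
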