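import Fermat.Agent.SquareOld.Geom.SwapR
import Fermat.Agent.SquareOld.Geom.LowR

/-!
# The coordinate `j` on the three components
-/

set_option autoImplicit false
set_option linter.unusedSectionVars false
set_option linter.unusedVariables false

noncomputable section

open IsLocalRing ModularCurve AlgebraicCurve Fermat.Agent.Reduction Fermat.Agent.SemistableRed

namespace Fermat.Agent.SquareOld.Geom

open LevelP (descent)

variable {A : ValuationSubring (AlgebraicClosure ℚ)} {M w : ℕ} [NeZero M] [NeZero w]
  [Fact w.Prime] [CharP (ResidueField A) w] [IsAlgClosed (ResidueField A)] (S : Setting A M w)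

local notation "GG" => modularFunctionFieldFullC (ResidueField A) M
local notation "kS" => LaurentSeries (ResidueField A)

theorem jF_mem : S.jF ∈ (descent S).F₀ := by
  rintro _ ⟨σ, -, rfl⟩
  exact (S.galois_jF σ).1

/-- `j`. -/
def jP : ↥(FixF A M w) := alphaF S ⟨S.jF, jF_mem S⟩

/-- The values of `j` on the three components. -/
theorem comps_jP (i : Fin 3) :
    jP S ∈ (comps S i).V ∧
      (comps S i).redF (jP S) =
        ![jbar (ResidueField A) M, jbar (ResidueField A) M,
          piG (ResidueField A) M w (piG (ResidueField A) M w (jbar (ResidueField A) M))] i := by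
  have h0 : (fam0 S).Rep (jP S) 0 (jbar (ResidueField A) M : kS) :=
    rep0_alpha_of_srep S (S.srep_jF 0)
  have h1 := rep1_alpha S (v := jbar (ResidueField A) M) (m := 0) h0
  rw [kapG, zpow_zero, map_one, one_mul, mul_zero] at h1
  have h2 : (fam2 S).Rep (jP S) 0
      ((piG (ResidueField A) M w (piG (ResidueField A) M w (jbar (ResidueField A) M)) : ↥GG) :
        kS) := rep2_alpha S (S.srep_jF 1)
  exact rep_comps S h0 h1 h2 i

end Fermat.Agent.SquareOld.Geom
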