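import Fermat.Agent.SquareOld.Kernel
import Fermat.Agent.SquareOld.Geom.JP
import Fermat.Agent.SquareOld.Geom.Branch
import Fermat.Agent.LevelP.Inst.LocalRing

/-!
# The local ring at a point on one component

On an outer component `w` generates the kernel of the reduction. On the middle one it is generated
by an element of order one whose `(w - 1)`-th power over `w` reduces to a unit at the place.
-/

set_option autoImplicit false
set_option linter.unusedSectionVars false
set_option linter.unusedVariables false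

noncomputable section

open IsLocalRing ModularCurve AlgebraicCurve Fermat.Agent.Reduction Fermat.Agent.SemistableRed
  Fermat.Agent.FunctionFieldRR

namespace Fermat.Agent.SquareOld.Geom

open LevelP (descent theta)
open Fermat.Agent.Congruence (twist twist_coeff)

local notation "Qbar" => AlgebraicClosure ℚ

variable {A : ValuationSubring (AlgebraicClosure ℚ)} {M w : ℕ} [NeZero M] [NeZero w]
  [Fact w.Prime] [CharP (ResidueField A) w] [IsAlgClosed (ResidueField A)] (S : Setting A M w)

local notation "GG" => modularFunctionFieldFullC (ResidueField A) M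
local notation "kS" => LaurentSeries (ResidueField A)
local notation "EB" => modularFunctionFieldBar (M * w)
local notation "FB" => modularFunctionFieldBar (M * w * w)

/-- The variation of a function of level `M w` under the involution. -/
def varF (f : ↥(descent S).F₀) : ↥(FixF A M w) := swF S (alphaF S f) - alphaF S f

/-- Along the middle component the variation has order one and reduces to the derivative. -/
theorem rep1_varF {f : ↥(descent S).F₀} (hf : S.splitModel.Int 0 (f : ↥EB)) :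
    (fam1 S).Rep (varF S f) 1 (theta ((S.splitModel.red 0 (f : ↥EB) : ↥GG) : kS)) := by
  intro t
  have hlt := t.1.isLt
  have ht0 : (t.1 : ℕ) ≠ 0 := fun e => t.2 (e ▸ dvd_zero w)
  have hd' : ¬ w ∣ w - (t.1 : ℕ) := Nat.not_dvd_of_pos_of_lt (by omega) (by omega)
  have h0 := S.srep_red hf
  rw [S.side_zero] at h0
  rw [fam1_e, fam1_pi, zpow_one]
  have e : mid S.prime S.not_dvd t.1 t.2 ((varF S f : ↥(FixF A M w)) : ↥FB) =
      twist (zeta w ^ (t.1 : ℕ)) ((f : ↥EB) : LaurentSeries Qbar) -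
        ((f : ↥EB) : LaurentSeries Qbar) := by
    show mid S.prime S.not_dvd t.1 t.2 (sw S.prime S.not_dvd
      (heckeAlphaBar Qbar (M * w) w (f : ↥EB)) - heckeAlphaBar Qbar (M * w) w (f : ↥EB)) = _
    rw [map_sub, mid_sw S.prime S.not_dvd t.2 hd' (by
      rw [show (t.1 : ℕ) + (w - (t.1 : ℕ)) = w by omega]), mid_alpha, mid_alpha]
  rw [e]
  exact SRep_twist_sub h0 t.2

theorem rep1_w : (fam1 S).Rep (w : ↥(FixF A M w)) ((w - 1 : ℕ) : ℤ)
    (((kapG A M w 1 : ↥GG)) : kS) := by
  have h : (fam0 S).Rep (alphaF S (w : ↥(descent S).F₀)) 1 (((1 : ↥GG)) : kS) := fun u => by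
    rw [map_natCast, map_natCast, fam0_pi, zpow_one, smul_eq_algebraMap_mul,
      ← map_natCast (algebraMap Qbar (LaurentSeries Qbar)), ← map_mul,
      inv_mul_cancel₀ (Nat.cast_ne_zero.mpr (NeZero.ne w)), map_one]
    exact SRep.one
  have h1 := rep1_alpha S h
  rwa [mul_one, mul_one, map_natCast] at h1

/-- The power of an element of order one over `w`. -/
theorem rep1_pow_div {s : ↥(FixF A M w)} {v : kS} (h : (fam1 S).Rep s 1 v) :
    (fam1 S).Rep (s ^ (w - 1) * (w : ↥(FixF A M w))⁻¹) 0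
      (v ^ (w - 1) * ((kapG A M w 1 : ↥GG) : kS)⁻¹) := by
  have h1 := (h.pow (w - 1)).mul
    ((rep1_w S).inv (fun e => kapG_ne 1 (Subtype.ext e)))
  rwa [mul_one, add_neg_cancel] at h1

theorem exists_pow_mem {s : ↥(FixF A M w)} {v : kS} (h : (fam1 S).Rep s 1 v) :
    ∃ g : ↥GG, (g : kS) = v ^ (w - 1) := by
  have h1 := (facts1 S).mem _ _ (rep1_pow_div S h)
  refine ⟨⟨_, mul_mem h1 (SetLike.coe_mem (kapG A M w 1))⟩, ?_⟩
  show v ^ (w - 1) * ((kapG A M w 1 : ↥GG) : kS)⁻¹ * ((kapG A M w 1 : ↥GG) : kS) = _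
  rw [mul_assoc, inv_mul_cancel₀ (fun e => kapG_ne 1 (Subtype.ext e)), mul_one]

variable [IsFunctionField (ResidueField A) ↥(modularFunctionFieldFullC (ResidueField A) M)]
  [IsFunctionField (AlgebraicClosure ℚ) ↥(modularFunctionFieldBar (M * w))]
  [CharP ↥(modularFunctionFieldFullC (ResidueField A) M) w]

include S in
/-- Quotients of derivatives are residues. -/
theorem theta_div_mem (z z' : ↥GG) (h : theta (z' : kS) ≠ 0) :
    theta (z : kS) / theta (z' : kS) ∈ GG := by
  obtain ⟨f, hf⟩ := exists_alpha_red S ![z, 0]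
  obtain ⟨f', hf'⟩ := exists_alpha_red S ![z', 0]
  have key : ∀ (a : ↥(descent S).F₀) (y : ↥GG),
      SRep (S.side 0 (a : ↥EB)) (y : kS) → (fam1 S).Rep (varF S a) 1 (theta (y : kS)) := by
    intro a y ha
    have hi : S.splitModel.Int 0 (a : ↥EB) := ⟨y, ha⟩
    have := rep1_varF S hi
    rwa [show ((S.splitModel.red 0 (a : ↥EB) : ↥GG) : kS) = (y : kS) from
      (S.srep_red hi).unique ha] at this
  have h1 := (key f z (hf 0)).mul ((key f' z' (hf' 0)).inv h)
  rw [add_neg_cancel] at h1
  exact (facts1 S).mem _ _ h1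

variable {b : Bool} {Q : Ideal ((chart S).R b)} [Q.IsPrime]
  {P : Place (ResidueField A) ↥(modularFunctionFieldFullC (ResidueField A) M)}

theorem through_eq (hQ : (chart S).ClosedPoint b Q) {i : Fin 3}
    (huniq : ∀ i' O', (chart S).Centred b Q i' O' → i' = i) {j : Fin 3}
    (hj : (chart S).Through Q j) : j = i := by
  obtain ⟨O, hO⟩ := Chart.exists_branch hQ hj
  exact huniq j O hO

theorem red_surj_branch (hP : P ∉ LevelP.Descent.pairPoints S.splitModel 0) {i : Fin 3}
    (hi : i ≠ 2) (hα : ∀ f ∈ (descent S).localRing 0 P, alphaF S f ∈ Chart.localAt b Q)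
    {z : ↥GG} (hz : z ∈ P.toValuationSubring) :
    ∃ x ∈ Chart.localAt b Q, ((chart S).comp i).redF x = z := by
  obtain ⟨f, hf, hfz⟩ := (descent S).localRing_surj hP ((vanishesTo_zero_iff P).mpr hz)
  have hint : S.splitModel.Int 0 (f : ↥EB) := LevelP.Descent.localRing_le hf
  refine ⟨_, hα f hf, ?_⟩
  rw [(descent S).glueData_redF hint] at hfz
  rw [← hfz]
  obtain rfl | rfl : i = 0 ∨ i = 1 := by omega
  · exact (comps_alpha0 S hint).1.2
  · exact (comps_alpha0 S hint).2.2

/-- **A point on the first component only.** -/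
theorem ufd_outer (hQ : (chart S).ClosedPoint b Q)
    (hP : P ∉ LevelP.Descent.pairPoints S.splitModel 0)
    (hO : (chart S).Centred b Q 0 P.toValuationSubring)
    (huniq : ∀ i' O', (chart S).Centred b Q i' O' → i' = (0 : Fin 3))
    (hα : ∀ f ∈ (descent S).localRing 0 P, alphaF S f ∈ Chart.localAt b Q) :
    UniqueFactorizationMonoid (Chart.localAt b Q) := by
  have := P.isPrincipalIdealRing'
  refine Chart.ufd_of_branch hQ hO (N := 1)
    (s := ⟨_, Chart.mem_localAt ⟨_, (chart S).natCast_mem_R b (chart S).w⟩⟩) (t := 1)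
    (by simp) ?_ (fun j hj hjt => absurd (through_eq S hQ huniq hjt) hj)
    (fun z hz => red_surj_branch S hP (by decide) hα hz)
  exact comp0_w S

/-- A regular element of the middle component has a regular power over `w`. -/
theorem pow_div_mem (hQ : (chart S).ClosedPoint b Q)
    (huniq : ∀ i' O', (chart S).Centred b Q i' O' → i' = (1 : Fin 3)) {s : ↥(FixF A M w)}
    (hs : s ∈ Chart.localAt b Q) {v : kS} (h : (fam1 S).Rep s 1 v) :
    s ^ (w - 1) * (w : ↥(FixF A M w))⁻¹ ∈ Chart.localAt b Q := by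
  refine Chart.mem_localAt_of hQ 1 ?_ fun j hj => ?_
  · have e : ((chart S).w : ↥(FixF A M w)) ^ 1 * (s ^ (w - 1) * (w : ↥(FixF A M w))⁻¹) =
        s ^ (w - 1) := by
      rw [chart_w, pow_one]
      exact (mul_left_comm _ _ _).trans
        ((congrArg (s ^ (w - 1) * ·) (mul_inv_cancel₀ (w_ne_fix S))).trans (mul_one _))
    rw [e]
    exact pow_mem hs _
  · rw [through_eq S hQ huniq hj]
    exact RepFamily.toComp_mem (facts1 S) (rep1_pow_div S h)

/-- **A point on the middle component only.** -/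
theorem ufd_middle (hQ : (chart S).ClosedPoint b Q)
    (hP : P ∉ LevelP.Descent.pairPoints S.splitModel 0)
    (hO : (chart S).Centred b Q 1 P.toValuationSubring)
    (huniq : ∀ i' O', (chart S).Centred b Q i' O' → i' = (1 : Fin 3))
    (hα : ∀ f ∈ (descent S).localRing 0 P, alphaF S f ∈ Chart.localAt b Q)
    {s : ↥(FixF A M w)} (hs : s ∈ Chart.localAt b Q) {v : kS} (h : (fam1 S).Rep s 1 v)
    (hv : ∀ g : ↥GG, (g : kS) = v ^ (w - 1) → g ≠ 0 ∧ P.ord g = 0) :
    UniqueFactorizationMonoid (Chart.localAt b Q) := by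
  have hw2 := (Fact.out : w.Prime).two_le
  obtain ⟨g, hg⟩ := exists_pow_mem S h
  obtain ⟨hg0, hgP⟩ := hv g hg
  have hv0 : v ≠ 0 := fun e => hg0 (Subtype.ext (by rw [hg, e, zero_pow (by omega)]; rfl))
  set u : Chart.localAt b Q := ⟨_, pow_div_mem S hQ huniq hs h⟩ with hu
  have hred : (comps S 1).redF (u : ↥(FixF A M w)) = g * (kapG A M w 1)⁻¹ := Subtype.ext
    ((RepFamily.toComp_redF (facts1 S) (rep1_pow_div S h)).trans (by rw [← hg]; rfl))
  have hordP : P.ord ((comps S 1).redF (u : ↥(FixF A M w))) = 0 := by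
    rw [hred, P.ord_mul hg0 (inv_ne_zero (kapG_ne 1)), hgP, P.ord_inv, kapG, ord_algebraMap]
    ring
  have huu : IsUnit u := by
    by_contra hn
    have h1 := (mem_nonunits_iff_vanishes P).mp ((Chart.red_nonunit_iff hO u).mp hn)
    rcases h1 with h1 | h1
    · exact mul_ne_zero hg0 (inv_ne_zero (kapG_ne 1)) (hred.symm.trans h1)
    · have h2 : ((chart S).comp 1).redF (u : ↥(FixF A M w)) =
          (comps S 1).redF (u : ↥(FixF A M w)) := rfl
      rw [h2, hordP] at h1
      omega
  obtain ⟨v', hv'⟩ := huu.exists_right_inv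
  have := P.isPrincipalIdealRing'
  refine Chart.ufd_of_branch hQ hO (N := 1) (s := ⟨s, hs⟩)
    (t := ⟨s, hs⟩ ^ (w - 2) * v') ?_ (RepFamily.toComp_ord (facts1 S) h hv0)
    (fun j hj hjt => absurd (through_eq S hQ huniq hjt) hj)
    (fun z hz => red_surj_branch S hP (by decide) hα hz)
  have e : (u : ↥(FixF A M w)) * (v' : ↥(FixF A M w)) = 1 := congrArg Subtype.val hv'
  have e2 : s ^ (w - 1) = (w : ↥(FixF A M w)) * (u : ↥(FixF A M w)) :=
    ((mul_left_comm _ _ _).trans
        ((congrArg (s ^ (w - 1) * ·) (mul_inv_cancel₀ (w_ne_fix S))).trans (mul_one _))).symm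
  show s * (((⟨s, hs⟩ : Chart.localAt b Q) ^ (w - 2) * v' : Chart.localAt b Q) : ↥(FixF A M w)) =
    (((chart S).w : ℕ) : ↥(FixF A M w)) ^ 1
  rw [chart_w, pow_one, MulMemClass.coe_mul, SubmonoidClass.coe_pow]
  show s * (s ^ (w - 2) * (v' : ↥(FixF A M w))) = _
  calc s * (s ^ (w - 2) * (v' : ↥(FixF A M w))) = s ^ (w - 1) * (v' : ↥(FixF A M w)) := by
        rw [show w - 1 = (w - 2) + 1 by omega, pow_succ', ← mul_assoc]
    _ = (w : ↥(FixF A M w)) * ((u : ↥(FixF A M w)) * (v' : ↥(FixF A M w))) := by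
        rw [e2]; ring
    _ = _ := (congrArg ((w : ↥(FixF A M w)) * ·) e).trans (mul_one _)

theorem swF_mem_middle (hO : (chart S).Centred b Q 1 P.toValuationSubring) {x : ↥(FixF A M w)}
    (hx : x ∈ Chart.localAt b Q) : swF S x ∈ Chart.localAt b Q := by
  obtain ⟨c, d, hd, e⟩ := hx
  refine ⟨swR S b c, swR S b d, fun h => hd ?_, ?_⟩
  · have h' : d ∈ swQ S Q := (mem_swQ S).mpr h
    rwa [swQ_eq S hO] at h'
  · rw [coe_swR, coe_swR, ← e, map_mul]

theorem varF_mem (hO : (chart S).Centred b Q 1 P.toValuationSubring) {f : ↥(descent S).F₀}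
    (hf : alphaF S f ∈ Chart.localAt b Q) : varF S f ∈ Chart.localAt b Q :=
  sub_mem (swF_mem_middle S hO hf) hf

/-- Powers of derivatives of regular functions are regular. -/
theorem theta_pow_regular (hQ : (chart S).ClosedPoint b Q)
    (hP : P ∉ LevelP.Descent.pairPoints S.splitModel 0)
    (hO : (chart S).Centred b Q 1 P.toValuationSubring)
    (huniq : ∀ i' O', (chart S).Centred b Q i' O' → i' = (1 : Fin 3))
    (hα : ∀ f ∈ (descent S).localRing 0 P, alphaF S f ∈ Chart.localAt b Q)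
    (z : ↥GG) (hz : 0 ≤ P.ord z) :
    ∃ h : ↥GG, (h : kS) = theta (z : kS) ^ (w - 1) ∧ 0 ≤ P.ord h := by
  obtain ⟨f, hf, hfz⟩ := (descent S).localRing_surj hP (z := z) (Or.inr hz)
  have hint : S.splitModel.Int 0 (f : ↥EB) := LevelP.Descent.localRing_le hf
  rw [(descent S).glueData_redF hint] at hfz
  have h1 := rep1_varF S hint
  rw [hfz] at h1
  have hm := pow_div_mem S hQ huniq (varF_mem S hO (hα f hf)) h1
  have hreg : ((comps S 1).redF (varF S f ^ (w - 1) * (w : ↥(FixF A M w))⁻¹)) ∈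
      P.toValuationSubring := (Chart.red_localAt_mem hO hm).2
  refine ⟨(comps S 1).redF (varF S f ^ (w - 1) * (w : ↥(FixF A M w))⁻¹) * kapG A M w 1, ?_, ?_⟩
  · rw [MulMemClass.coe_mul, show ((comps S 1).redF _ : kS) = _ from
      RepFamily.toComp_redF (facts1 S) (rep1_pow_div S h1), mul_assoc,
      inv_mul_cancel₀ (fun e => kapG_ne 1 (Subtype.ext e)), mul_one]
  · exact (ord_nonneg_iff P _).mpr (mul_mem hreg (P.algebraMap_mem' _))

end Fermat.Agent.SquareOld.Geom
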