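import Fermat.Agent.SquareOld.Geom.Pair
import Fermat.Agent.SquareOld.Geom.Smooth
import Fermat.Agent.SquareOld.Geom.Points

/-!
# Local roots at the closed points of level `M w²`

Each closed point of the closed fibre is a pair or lies on one component at a place outside the
pairs; in each case its local ring is factorial.
-/

set_option autoImplicit false
set_option linter.unusedSectionVars false
set_option linter.unusedVariables false

noncomputable section

open IsLocalRing ModularCurve AlgebraicCurve Fermat.Agent.Reduction Fermat.Agent.SemistableRed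
  Fermat.Agent.FunctionFieldRR

namespace Fermat.Agent.SquareOld.Geom

open LevelP (descent theta)

local notation "Qbar" => AlgebraicClosure ℚ

variable {A : ValuationSubring (AlgebraicClosure ℚ)} {M w : ℕ} [NeZero M] [NeZero w]
  [Fact w.Prime] [CharP (ResidueField A) w] [IsAlgClosed (ResidueField A)] (S : Setting A M w)

local notation "GG" => modularFunctionFieldFullC (ResidueField A) M
local notation "kS" => LaurentSeries (ResidueField A)
local notation "EB" => modularFunctionFieldBar (M * w)

variable [IsFunctionField (AlgebraicClosure ℚ) ↥(modularFunctionFieldBar (M * w))]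
  [IsFunctionField (ResidueField A) ↥(modularFunctionFieldFullC (ResidueField A) M)]
  [CharP ↥(modularFunctionFieldFullC (ResidueField A) M) w]

/-- The facts about level `M w` and `Ḡ` that make the level `M w²` model regular. -/
structure RegularInputs : Prop where
  pair_params : ∀ (x : Place (ResidueField A) ↥GG × Place (ResidueField A) ↥GG)
    (hx : x ∈ S.splitModel.pairs), ∃ a ∈ (descent S).pairRing hx,
      ∃ a' ∈ (descent S).pairRing hx, a * a' = (w : ↥(descent S).F₀) ∧
        x.1.ord ((descent S).glueData.redF 0 a) = 1 ∧ (descent S).glueData.redF 1 a = 0 ∧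
        x.2.ord ((descent S).glueData.redF 1 a') = 1
  theta_unif : ∀ P : Place (ResidueField A) ↥GG, S.splitModel.C P = 0 →
    P ∉ LevelP.Descent.pairPoints S.splitModel 0 →
    (∀ z z' : ↥GG, theta (z' : kS) ≠ 0 → theta (z : kS) / theta (z' : kS) ∈ GG) →
    (∀ z : ↥GG, 0 ≤ P.ord z → ∃ h : ↥GG, (h : kS) = theta (z : kS) ^ (w - 1) ∧ 0 ≤ P.ord h) →
    ∀ g h : ↥GG, P.ord g = 1 → (h : kS) = theta (g : kS) ^ (w - 1) → h ≠ 0 ∧ P.ord h = 0
  theta_cusp : ∀ P : Place (ResidueField A) ↥GG, 0 < S.splitModel.C P → ∀ h : ↥GG,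
    (h : kS) = (theta (jqModC (ResidueField A)) / jqModC (ResidueField A)) ^ (w - 1) →
    h ≠ 0 ∧ P.ord h = 0

variable {b : Bool} {Q : Ideal ((chart S).R b)} [Q.IsPrime]
  {P : Place (ResidueField A) ↥(modularFunctionFieldFullC (ResidueField A) M)}

/-- A point on the middle component outside the pairs. -/
theorem ufd_middle_place (H : RegularInputs S) (hQ : (chart S).ClosedPoint b Q)
    (hP : P ∉ LevelP.Descent.pairPoints S.splitModel 0)
    (hO : (chart S).Centred b Q 1 P.toValuationSubring) :
    UniqueFactorizationMonoid (Chart.localAt b Q) := by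
  have huniq : ∀ i' O', (chart S).Centred b Q i' O' → i' = (1 : Fin 3) :=
    fun i' O' h => (points_smooth S hQ hP hO i' O' h).1
  have hα : ∀ f ∈ (descent S).localRing 0 P, alphaF S f ∈ Chart.localAt b Q :=
    fun f hf => alpha_localRing_le S (by decide) hO hf
  rcases (S.splitModel.C_nonneg P).eq_or_lt with hC | hC
  · -- an affine place
    obtain ⟨g, hg0, hg⟩ := exists_ord_eq_one P
    obtain ⟨f, hf, hfz⟩ := (descent S).localRing_surj hP (z := g) (Or.inr (by omega))
    have hint : S.splitModel.Int 0 (f : ↥EB) := LevelP.Descent.localRing_le hf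
    rw [(descent S).glueData_redF hint] at hfz
    have h1 := rep1_varF S hint
    rw [hfz] at h1
    exact ufd_middle S hQ hP hO huniq hα (varF_mem S hO (hα f hf)) h1
      fun h hh => H.theta_unif P hC.symm hP (theta_div_mem S)
        (theta_pow_regular S hQ hP hO huniq hα) g h hg hh
  · -- a cusp
    obtain ⟨u, -, hu⟩ := cusp_unit S hO hC
    obtain ⟨hm, hr⟩ := comps_jP S 1
    have h0 := RepFamily.toComp_rep (facts1 S) hm
    rw [show ((RepFamily.toComp (facts1 S)).redF (jP S) : ↥GG) = jbar (ResidueField A) M from hr]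
      at h0
    have hj : ((jbar (ResidueField A) M : ↥GG) : kS) ≠ 0 :=
      fun e => jbar_ne (A := A) (M := M) (Subtype.ext e)
    have h1 := rep1_varF S (f := jE S) (int_jF S 0)
    rw [show S.splitModel.red 0 ((jE S : ↥(descent S).F₀) : ↥EB) = jbar (ResidueField A) M from
      red0_jF S] at h1
    have h2 := h1.mul (h0.inv hj)
    rw [neg_zero, add_zero, ← div_eq_mul_inv] at h2
    have hs : varF S (jE S) * (jP S)⁻¹ ∈ Chart.localAt b Q := by
      have e : varF S (jE S) * (jP S)⁻¹ = (u : ↥(FixF A M w)) - 1 := by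
        rw [hu]
        exact ((sub_div _ _ _).trans (congrArg _ (div_self (h0.ne_zero hj)))).symm.trans
          (div_eq_mul_inv _ _) |>.symm
      rw [e]
      exact sub_mem u.2 (one_mem _)
    exact ufd_middle S hQ hP hO huniq hα hs h2 fun h hh => H.theta_cusp P hC h hh

/-- **The local rings are factorial.** -/
theorem ufd_localAt (H : RegularInputs S) (hQ : (chart S).ClosedPoint b Q) :
    UniqueFactorizationMonoid (Chart.localAt b Q) := by
  classical
  obtain ⟨i, hi⟩ := Chart.exists_through hQ
  obtain ⟨O, hO⟩ := Chart.exists_branch hQ hi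
  obtain ⟨P, rfl⟩ := branch_place S hQ hO
  by_cases hP : P ∈ LevelP.Descent.pairPoints S.splitModel 0
  · obtain ⟨x, hx, rfl⟩ := Finset.mem_image.mp hP
    rw [if_pos rfl] at hO
    have hO' : ∀ j, (chart S).Centred b Q j x.1.toValuationSubring :=
      (points_pair S hQ hx hO).1
    refine ufd_pair S hQ hx hO' (fun m e he hne => ?_) (H.pair_params x hx)
    refine alpha_unit S (i := 0) (by decide) (hO' 0) (S.splitModel.mem_pairs.mp hx).1 he ?_
    have hreg := he.regular hx 0
    rw [LevelP.branch_zero] at hreg
    exact fun h => hne ((vanishesTo_one_iff hreg).mp h)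
  obtain rfl | rfl | rfl : i = 0 ∨ i = 1 ∨ i = 2 := by omega
  · exact ufd_outer S hQ hP hO (fun i' O' h => (points_smooth S hQ hP hO i' O' h).1)
      fun f hf => alpha_localRing_le S (by decide) hO hf
  · exact ufd_middle_place S H hQ hP hO
  · have hQ' := closedPoint_swQ S hQ
    have : (swQ S Q).IsPrime := hQ'.1.isPrime
    have hO' : (chart S).Centred b (swQ S Q) 0 P.toValuationSubring := centred_swQ S hO
    have := ufd_outer S hQ' hP hO' (fun i' O' h => (points_smooth S hQ' hP hO' i' O' h).1)
      fun f hf => alpha_localRing_le S (by decide) hO' hf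
    exact (swLocal S Q).toMulEquiv.uniqueFactorizationMonoid inferInstance

omit [Q.IsPrime] in
/-- **Local roots**, the field `loc`. -/
theorem loc (H : RegularInputs S) (hQ : (chart S).ClosedPoint b Q) (n : ℕ)
    (hn : (n : ResidueField A) ≠ 0) (u : ↥(FixF A M w)) (hu : u ≠ 0)
    (hH : (chart S).HorizPow n u) (hdiv : ∀ i, (n : ℤ) ∣ (comps S i).ord u) :
    ∃ h, h ≠ 0 ∧ (chart S).LocalUnit b Q (h ^ n * u ^ 1) := by
  have := hQ.1.isPrime
  have := ufd_localAt S H hQ
  exact Chart.loc_of_ufd hQ (fun i O hO => branch_ne_top S hQ hO) hn hu hH hdiv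

end Fermat.Agent.SquareOld.Geom
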