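import Fermat.Agent.SquareOld.Geom.Assemble
import Fermat.Agent.SquareOld.Geom.Glue
import Fermat.Agent.SquareOld.Geom.Loc

/-!
# The level data from the inputs of regularity
-/

set_option autoImplicit false
set_option linter.unusedSectionVars false

noncomputable section

open IsLocalRing ModularCurve AlgebraicCurve Fermat.Agent.Reduction Fermat.Agent.SemistableRed
  Fermat.Agent.FunctionFieldRR

namespace Fermat.Agent.SquareOld.Geom

open LevelP (descent)

local notation "Qbar" => AlgebraicClosure ℚ

variable {A : ValuationSubring (AlgebraicClosure ℚ)} {M w : ℕ} [NeZero M] [NeZero w]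
  [Fact w.Prime] [CharP (ResidueField A) w] [IsAlgClosed (ResidueField A)] (S : Setting A M w)

local notation "GG" => modularFunctionFieldFullC (ResidueField A) M

variable [IsFunctionField (AlgebraicClosure ℚ) ↥(modularFunctionFieldBar (M * w))]
  [IsFunctionField (ResidueField A) ↥(modularFunctionFieldFullC (ResidueField A) M)]
  [CharP ↥(modularFunctionFieldFullC (ResidueField A) M) w]

/-- At a pair the three branches are at one place. -/
theorem isPair_eq {b : Bool} {Q : Ideal ((chart S).R b)} (hQ : (chart S).ClosedPoint b Q)
    {O : Fin 3 → ValuationSubring ↥(modularFunctionFieldFullC (ResidueField A) M)}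
    (hP : (chart S).IsPair b Q O) (i : Fin 3) : O i = O 0 := by
  classical
  obtain ⟨P, hPe⟩ := branch_place S hQ (hP.1 0)
  have h0 := hP.1 0
  rw [← hPe] at h0
  by_cases hmem : P ∈ LevelP.Descent.pairPoints S.splitModel 0
  · obtain ⟨x, hx, rfl⟩ := Finset.mem_image.mp hmem
    rw [if_pos rfl] at h0
    have hpair := points_pair S hQ hx h0
    exact (hpair.2 i _ (hP.1 i)).trans (hpair.2 0 _ (hP.1 0)).symm
  · exact absurd (points_smooth S hQ hmem h0 1 _ (hP.1 1)).1 (by decide)

/-- The local fields. -/
theorem localFields (H : RegularInputs S) : LocalFields S where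
  loc b Q hQ n hn u hu hH hdiv := loc S H hQ n hn u hu hH hdiv
  points b Q hQ := points S b Q hQ
  glue b Q O hQ hP n hn ε f c hε hf t y ζ hy hζ :=
    glue_of_eq S hQ hP (isPair_eq S hQ hP) hn ε f c hε hf t y ζ hy hζ

/-- **The level data** from the inputs of regularity. -/
theorem hasLevelData_of_regular {M w : ℕ} [NeZero M] [NeZero w] [Fact w.Prime] (hwM : ¬ w ∣ M)
    (h : ∀ (A : ValuationSubring (AlgebraicClosure ℚ)) [CharP (ResidueField A) w]
      [IsAlgClosed (ResidueField A)] (S : Setting A M w)
      [IsFunctionField (AlgebraicClosure ℚ) ↥(modularFunctionFieldBar (M * w))]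
      [IsFunctionField (ResidueField A) ↥(modularFunctionFieldFullC (ResidueField A) M)]
      [CharP ↥(modularFunctionFieldFullC (ResidueField A) M) w], RegularInputs S) :
    HasLevelData M w :=
  hasLevelData_of_local hwM fun A _ _ S => by
    have := SemistableRed.isFunctionField_level (M * w)
    have := S.isFunctionField_C
    have : CharP ↥(modularFunctionFieldFullC (ResidueField A) M) w :=
      charP_of_injective_algebraMap (algebraMap (ResidueField A) _).injective w
    exact localFields S (h A S)

end Fermat.Agent.SquareOld.Geom
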