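import Fermat.Agent.SquareOld.Geom.Level
import Fermat.Agent.SemistableRed.Toric
import Fermat.Agent.LevelP.Theta

/-!
# Roots of unity at a place above `w` and reductions of twisted series

`(ζ ^ i - 1) / (ζ - 1)` reduces to `i`, so `(twist x - x) / (ζ - 1)` reduces to `q d/dq` of the
reduction of `x`, and `w / (ζ ^ t - 1) ^ (w - 1)` reduces to a nonzero constant independent of `t`.
-/

set_option autoImplicit false
set_option linter.unusedSectionVars false

noncomputable section

open IsLocalRing ModularCurve Fermat.Agent.Reduction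

namespace Fermat.Agent.SquareOld.Geom

open Fermat.Agent.Congruence Fermat.Agent.SemistableRed

local notation "Qbar" => AlgebraicClosure ℚ

variable {A : ValuationSubring (AlgebraicClosure ℚ)} {w : ℕ} [NeZero w]

theorem zeta_mem (A : ValuationSubring (AlgebraicClosure ℚ)) : (zeta w : Qbar) ∈ A := by
  have h1 : IsIntegral A (zeta w : Qbar) :=
    IsIntegral.of_pow (NeZero.pos w) (by rw [(zeta_prim w).pow_eq_one]; exact isIntegral_one)
  obtain ⟨a, ha⟩ := IsIntegrallyClosed.isIntegral_iff.mp h1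
  exact ha ▸ a.2

variable (A w) in
/-- The root of unity in `A`. -/
def zetaA : Aˣ :=
  (IsUnit.of_pow_eq_one (a := (⟨(zeta w : Qbar), zeta_mem A⟩ : A))
    (Subtype.ext (by simpa using (zeta_prim w).pow_eq_one)) (NeZero.ne w)).unit

theorem coe_zetaA : ((zetaA A w : A) : Qbar) = (zeta w : Qbar) := by
  simp [zetaA]

theorem map_zetaA : Units.map (A.subtype : A →* Qbar) (zetaA A w) = zeta w :=
  Units.ext (coe_zetaA (A := A) (w := w))

variable [Fact w.Prime] [CharP (ResidueField A) w]

theorem residue_zetaA : residue A (zetaA A w : A) = 1 := by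
  have h1 : (residue A (zetaA A w : A)) ^ w = 1 := by
    rw [← map_pow, show (zetaA A w : A) ^ w = 1 from
      Subtype.ext (by push_cast; rw [coe_zetaA]; exact (zeta_prim w).pow_eq_one), map_one]
  have h2 : (residue A (zetaA A w : A) - 1) ^ w = 0 := by rw [sub_pow_char, h1, one_pow, sub_self]
  simpa [sub_eq_zero] using pow_eq_zero_iff (NeZero.ne w) |>.mp h2

theorem residue_zetaA_pow (t : ℕ) : residue A ((zetaA A w ^ t : Aˣ) : A) = 1 := by
  rw [Units.val_pow_eq_pow_val, map_pow, residue_zetaA, one_pow]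

theorem SRep_twist {x : LaurentSeries Qbar} {v : LaurentSeries (ResidueField A)}
    (h : SRep x v) (t : ℕ) : SRep (twist (zeta w ^ t) x) v := by
  have := SemistableRed.SRep.twist (zetaA A w ^ t) (residue_zetaA_pow t) h
  rwa [map_pow, map_zetaA] at this

variable (w) in
/-- The uniformiser `ζ ^ t - 1`. -/
def pw (t : ℕ) : Qbar := (zeta w : Qbar) ^ t - 1

theorem pw_ne {t : ℕ} (ht : ¬ w ∣ t) : pw w t ≠ 0 := fun h =>
  ht ((zeta_prim w).pow_eq_one_iff_dvd t |>.mp (sub_eq_zero.mp h))

theorem pw_mem (t : ℕ) : pw w t ∈ A :=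
  sub_mem (pow_mem (zeta_mem A) t) (one_mem _)

theorem residue_pw (t : ℕ) : residue A ⟨pw w t, pw_mem t⟩ = 0 := by
  rw [show (⟨pw w t, pw_mem t⟩ : A) = (zetaA A w : A) ^ t - 1 from
      Subtype.ext (by push_cast; rw [coe_zetaA]; rfl),
    map_sub, map_pow, residue_zetaA, one_pow, map_one, sub_self]

/-- `(ζ ^ t) ^ i - 1` over `ζ ^ t - 1` reduces to `i`. -/
theorem residue_geom (t i : ℕ) :
    residue A (∑ l ∈ Finset.range i, ((zetaA A w ^ t : Aˣ) : A) ^ l) = i := by
  rw [map_sum]
  simp [residue_zetaA_pow, map_pow, -Units.val_pow_eq_pow_val]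

theorem geom_mul (t i : ℕ) :
    ((∑ l ∈ Finset.range i, ((zetaA A w ^ t : Aˣ) : A) ^ l : A) : Qbar) * pw w t =
      pw w (t * i) := by
  have := geom_sum_mul ((zeta w : Qbar) ^ t) i
  rw [← pow_mul] at this
  push_cast
  rw [coe_zetaA]
  exact this

theorem exists_pw_ratio {t s : ℕ} (ht : ¬ w ∣ t) :
    ∃ r : A, (r : Qbar) * pw w t = pw w s ∧
      residue A r * (t : ResidueField A) = (s : ResidueField A) := by
  obtain ⟨i, hi⟩ : ∃ i : ℕ, t * i ≡ s [MOD w] := by
    have hcop : t.Coprime w := ((Fact.out : w.Prime).coprime_iff_not_dvd.mpr ht).symm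
    obtain ⟨i, -, hi⟩ := Nat.exists_mul_mod_eq_one_of_coprime hcop (Fact.out : w.Prime).one_lt
    refine ⟨i * s, ?_⟩
    have : t * i ≡ 1 [MOD w] := by
      rw [Nat.ModEq, hi, Nat.one_mod_eq_one.mpr (Fact.out : w.Prime).ne_one]
    simpa [mul_assoc] using this.mul_right s
  refine ⟨∑ l ∈ Finset.range i, ((zetaA A w ^ t : Aˣ) : A) ^ l, ?_, ?_⟩
  · rw [geom_mul t i]
    simp only [pw]
    have h := (zeta_prim w).eq_orderOf
    have h' : zeta w ^ (t * i) = zeta w ^ s := pow_eq_pow_iff_modEq.mpr (by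
      rwa [← orderOf_units, ← h])
    have h'' := congrArg (fun u : Qbarˣ => (u : Qbar)) h'
    simp only [Units.val_pow_eq_pow_val] at h''
    rw [h'']
  · rw [residue_geom, ← Nat.cast_mul, mul_comm]
    exact (CharP.natCast_eq_natCast (ResidueField A) w).mpr hi

theorem prod_pw : ∏ i ∈ Finset.range (w - 1), -pw w (i + 1) = (w : Qbar) := by
  have hz := zeta_prim w
  have h1 := X_pow_sub_C_eq_prod hz (Fact.out : w.Prime).pos (one_pow w : (1 : Qbar) ^ w = 1)
  rw [map_one, ← geom_sum_mul (Polynomial.X : Polynomial Qbar) w,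
    show ∏ i ∈ Finset.range w, (Polynomial.X - Polynomial.C ((zeta w : Qbar) ^ i * 1)) =
      (∏ i ∈ Finset.range (w - 1), (Polynomial.X - Polynomial.C ((zeta w : Qbar) ^ (i + 1) * 1))) *
        (Polynomial.X - Polynomial.C ((zeta w : Qbar) ^ 0 * 1)) by
      rw [← Finset.prod_range_succ' (fun i => Polynomial.X - Polynomial.C
        ((zeta w : Qbar) ^ i * 1)), Nat.sub_add_cancel (Fact.out : w.Prime).pos],
    pow_zero, one_mul, map_one]
    at h1
  have h3 : ∑ i ∈ Finset.range w, (Polynomial.X : Polynomial Qbar) ^ i =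
      ∏ i ∈ Finset.range (w - 1), (Polynomial.X - Polynomial.C ((zeta w : Qbar) ^ (i + 1) * 1)) :=
    mul_right_cancel₀ (Polynomial.X_sub_C_ne_zero (1 : Qbar)) (by rw [map_one]; exact h1)
  have h2 := congrArg (Polynomial.eval 1) h3
  simp only [Polynomial.eval_finsetSum, Polynomial.eval_pow, Polynomial.eval_X, one_pow,
    Finset.sum_const, Finset.card_range, nsmul_eq_mul, mul_one, Polynomial.eval_prod,
    Polynomial.eval_sub, Polynomial.eval_C] at h2
  rw [h2]
  exact Finset.prod_congr rfl fun i _ => by simp [pw]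

variable (A w) in
/-- The residue of `w / (ζ ^ t - 1) ^ (w - 1)`. -/
def kappa : ResidueField A := ∏ i ∈ Finset.range (w - 1), (-((i + 1 : ℕ) : ResidueField A))

theorem kappa_ne : kappa A w ≠ 0 := by
  refine Finset.prod_ne_zero_iff.mpr fun i hi => neg_ne_zero.mpr ?_
  rw [Ne, CharP.cast_eq_zero_iff (ResidueField A) w]
  exact Nat.not_dvd_of_pos_of_lt (Nat.succ_pos i) (by rw [Finset.mem_range] at hi; omega)

theorem exists_w_ratio {t : ℕ} (ht : ¬ w ∣ t) :
    ∃ r : A, (r : Qbar) * pw w t ^ (w - 1) = (w : Qbar) ∧ residue A r = kappa A w := by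
  choose r hr hr' using fun i : ℕ => exists_pw_ratio (A := A) (w := w) (s := i + 1) ht
  refine ⟨∏ i ∈ Finset.range (w - 1), -r i, ?_, ?_⟩
  · rw [← prod_pw (w := w)]
    push_cast
    rw [show pw w t ^ (w - 1) = ∏ _i ∈ Finset.range (w - 1), pw w t by simp,
      ← Finset.prod_mul_distrib]
    exact Finset.prod_congr rfl fun i _ => by rw [neg_mul, hr]
  · have ht0 : (t : ResidueField A) ≠ 0 := by
      rwa [Ne, CharP.cast_eq_zero_iff (ResidueField A) w]
    have h1 : (t : ResidueField A) ^ (w - 1) = 1 := by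
      have hz : (t : ZMod w) ≠ 0 := by rwa [Ne, CharP.cast_eq_zero_iff (ZMod w) w]
      have := congrArg (ZMod.castHom dvd_rfl (ResidueField A)) (ZMod.pow_card_sub_one_eq_one hz)
      simpa using this
    rw [map_prod, kappa]
    refine mul_right_cancel₀ (pow_ne_zero (w - 1) ht0) ?_
    conv_rhs => rw [h1, mul_one]
    rw [show (t : ResidueField A) ^ (w - 1) = ∏ _i ∈ Finset.range (w - 1), (t : ResidueField A) by
      simp, ← Finset.prod_mul_distrib]
    refine Finset.prod_congr rfl fun i _ => ?_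
    rw [map_neg, neg_mul, hr' i]

section Theta

open LevelP (theta)

/-- `(twist - 1) / π` of an integral series. -/
theorem exists_twist_sub_series {t : ℕ} (P : LaurentSeries A) :
    ∃ z : LaurentSeries A,
      twist (zetaA A w ^ t) P - P = HahnSeries.single 0 (⟨pw w t, pw_mem t⟩ : A) * z ∧
        redS A z = theta (redS A P) := by
  let m : ℤ → ℕ := fun n => (n % (w : ℤ)).toNat
  let c : ℤ → A := fun n => ∑ l ∈ Finset.range (m n), ((zetaA A w ^ t : Aˣ) : A) ^ l
  let z : LaurentSeries A := ⟨fun n => c n * P.coeff n,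
    P.isPWO_support.mono fun n hn => right_ne_zero_of_mul hn⟩
  have hw0 : (w : ℤ) ≠ 0 := Int.natCast_ne_zero.mpr (NeZero.ne w)
  have hm : ∀ n : ℤ, ∃ d : ℤ, n = (m n : ℤ) + (w : ℤ) * d := fun n =>
    ⟨n / w, by rw [Int.toNat_of_nonneg (Int.emod_nonneg _ hw0), Int.emod_add_mul_ediv]⟩
  refine ⟨z, ?_, ?_⟩
  · ext1; funext n
    rw [HahnSeries.coeff_sub, twist_coeff, HahnSeries.coeff_single_mul, sub_zero]
    refine Subtype.ext ?_
    push_cast
    have h1 := geom_mul (A := A) (w := w) t (m n)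
    obtain ⟨d, hd⟩ := hm n
    have h2 : (((zetaA A w ^ t : Aˣ) ^ n : Aˣ) : Qbar) = (zeta w : Qbar) ^ (t * m n) := by
      have h3 : (zetaA A w ^ t : Aˣ) ^ n = (zetaA A w ^ t) ^ (m n) := by
        have hw1 : (zetaA A w : Aˣ) ^ w = 1 := Units.ext (Subtype.ext (by
          push_cast; rw [coe_zetaA]; exact (zeta_prim w).pow_eq_one))
        conv_lhs => rw [hd]
        rw [zpow_add, zpow_natCast, zpow_mul, zpow_natCast, ← pow_mul (zetaA A w) t w, pow_mul' _ t w,
          hw1, one_pow, one_zpow, mul_one]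
      rw [h3, ← pow_mul]
      push_cast
      rw [coe_zetaA]
    show _ = pw w t * ((c n * P.coeff n : A) : Qbar)
    push_cast at h1 ⊢
    rw [h2, show ((zeta w : Qbar) ^ (t * m n)) = 1 + pw w (t * m n) by simp [pw], ← h1]
    simp only [c]
    push_cast
    ring
  · ext n
    rw [LevelP.theta_coeff, redS, coeffMap_coeff, coeffMap_coeff]
    show residue A (c n * P.coeff n) = _
    rw [map_mul, residue_geom]
    congr 1
    obtain ⟨d, hd⟩ := hm n
    conv_rhs => rw [hd]
    rw [Int.cast_add, Int.cast_natCast, Int.cast_mul, Int.cast_natCast, CharP.cast_eq_zero (ResidueField A) w,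
      zero_mul, add_zero]

/-- `(twist x - x) / (ζ ^ t - 1)` reduces to `q d/dq` of the reduction of `x`. -/
theorem SRep_twist_sub {x : LaurentSeries Qbar} {v : LaurentSeries (ResidueField A)}
    (h : SRep x v) {t : ℕ} (ht : ¬ w ∣ t) :
    SRep ((pw w t)⁻¹ • (twist (zeta w ^ t) x - x)) (theta v) := by
  obtain ⟨P, Q, hP, hQ, rfl⟩ := h
  obtain ⟨zP, hzP, hzP'⟩ := exists_twist_sub_series (t := t) (w := w) P
  obtain ⟨zQ, hzQ, hzQ'⟩ := exists_twist_sub_series (t := t) (w := w) Q
  have hι : ∀ R : LaurentSeries A, ιS A (twist (zetaA A w ^ t) R) =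
      twist (zeta w ^ t) (ιS A R) := fun R => by
    rw [ιS, coeffMap_twist, map_pow, map_zetaA]
  have hr : ∀ R : LaurentSeries A, redS A (twist (zetaA A w ^ t) R) = redS A R := fun R => by
    rw [redS, coeffMap_twist, show Units.map (residue A : A →* ResidueField A) (zetaA A w ^ t) = 1
      from Units.ext (residue_zetaA_pow t), twist_one]
  refine ⟨zP * Q - P * zQ, twist (zetaA A w ^ t) Q * Q, ?_, ?_, ?_⟩
  · have hp := pw_ne ht
    rw [smul_eq_algebraMap_mul, algebraMap_laurentSeries_eq_single]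
    have e1 := congrArg (ιS A) hzP
    have e2 := congrArg (ιS A) hzQ
    rw [map_sub, map_mul, hι, ιS_single, ← hP, map_mul] at e1
    rw [map_sub, map_mul, hι, ιS_single] at e2
    rw [map_mul, map_sub, map_mul, map_mul, hι, ← hP]
    set c : LaurentSeries Qbar := HahnSeries.single 0 (pw w t) with hc
    have hcc : HahnSeries.single 0 (pw w t)⁻¹ * c = 1 := by
      rw [hc, HahnSeries.single_mul_single, zero_add, inv_mul_cancel₀ hp]
      rfl
    change _ = c * _ at e1
    change _ = c * _ at e2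
    calc _ = HahnSeries.single 0 (pw w t)⁻¹ * ((twist (zeta w ^ t) (ιS A Q) *
            twist (zeta w ^ t) x - ιS A Q * x) * ιS A Q -
          ιS A Q * x * (twist (zeta w ^ t) (ιS A Q) - ιS A Q)) := by ring
      _ = (HahnSeries.single 0 (pw w t)⁻¹ * c) *
            (ιS A zP * ιS A Q - ιS A Q * x * ιS A zQ) := by rw [e1, e2]; ring
      _ = _ := by rw [hcc, one_mul]
  · rw [map_mul, hr]; exact mul_ne_zero hQ hQ
  · have key : theta (redS A P) = theta (redS A P / redS A Q) * redS A Q +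
        redS A P / redS A Q * theta (redS A Q) := by
      rw [← LevelP.theta_mul, div_mul_cancel₀ _ hQ]
    rw [map_mul, map_sub, map_mul, map_mul, hr, hzP', hzQ', key]
    field_simp
    ring

end Theta

end Fermat.Agent.SquareOld.Geom
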