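import Fermat.Agent.SquareOld.Geom.Norms
import Fermat.Agent.SquareOld.Geom.Series
import Fermat.Agent.LevelP.Inst.Geometry
import Fermat.Agent.LevelP.Inst.Concrete

/-!
# A basis of level `M w²` over level `M w`, fixed by inertia

With `u = j(w² τ) - j(τ)` and `c = -h` the functions `u ^ i (c - u)`, `i < w - 1`, and `u ^ (w - 1)`
form a basis along `α`; a fixed function has fixed coordinates.
-/

set_option autoImplicit false
set_option linter.unusedSectionVars false

noncomputable section

open IsLocalRing ModularCurve AlgebraicCurve Fermat.Agent.Reduction Fermat.Agent.SemistableRed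

namespace Fermat.Agent.SquareOld.Geom

open Fermat.Agent.Congruence (twist twist_coeff)
open LevelP (InertiaFixedSeries inertiaFixedSeries_iff descent fixedSubfield inertiaAct mem_fixed_iff theta)

local notation "Qbar" => AlgebraicClosure ℚ
local notation "Ser" => LaurentSeries (AlgebraicClosure ℚ)

variable {A : ValuationSubring (AlgebraicClosure ℚ)} {M w : ℕ} [NeZero M] [NeZero w]
  [Fact w.Prime] [CharP (ResidueField A) w] [IsAlgClosed (ResidueField A)] (S : Setting A M w)

variable (A M w) in
/-- The functions of level `M w²` fixed by inertia. -/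
abbrev FixF : Subfield ↥(modularFunctionFieldBar (M * w * w)) :=
  fixedSubfield (inertiaAct A (M * w) w)

variable (M w) in
/-- `j(w² τ) - j(τ)`. -/
def uFun : ↥(modularFunctionFieldBar (M * w * w)) :=
  jAt _ (1 * w * w) (dvd_top2 (one_dvd M)) - jAt _ 1 (dvd_top0 (one_dvd M))

/-- `-h`. -/
def cFun : ↥(modularFunctionFieldBar (M * w * w)) :=
  -heckeAlphaBar Qbar (M * w) w S.hFun

/-- The basis. -/
def bFun (i : Fin w) : ↥(modularFunctionFieldBar (M * w * w)) :=
  if (i : ℕ) = w - 1 then uFun M w ^ (i : ℕ) else uFun M w ^ (i : ℕ) * (cFun S - uFun M w)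

theorem jSer_one : jSer 1 = jqModC Qbar := by
  rw [jSer_eq, X0Analytic.jL, qExpand_one_apply]
  exact Congruence.coeffEmb_jq _

theorem coe_uFun : (uFun M w : Ser) = jSer (1 * w * w) - jSer 1 := by
  rw [uFun, AddSubgroupClass.coe_sub, coe_jAt', coe_jAt']

theorem jSer_ww : jSer (1 * w * w) = qExpand Qbar w (qExpand Qbar w (jSer 1)) := by
  rw [jSer_mul, jSer_mul]

theorem mid_uFun {t : ℕ} (ht : ¬ w ∣ t) :
    mid S.prime S.not_dvd t ht (uFun M w) = twist (zeta w ^ t) (jSer 1) - jSer 1 := by
  obtain ⟨h0, -, h2⟩ := mid_gen S.prime S.not_dvd ht 1 (one_dvd M)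
  rw [uFun, map_sub, h0, h2]

theorem fixed_iff {f : ↥(modularFunctionFieldBar (M * w * w))} :
    f ∈ FixF A M w ↔ InertiaFixedSeries A (f : Ser) := mem_fixed_iff

theorem fixed_jAt (d : ℕ) (hd : d ∣ M * w * w) : jAt _ d hd ∈ FixF A M w := by
  have : NeZero d := ⟨fun h => NeZero.ne (M * w * w) (Nat.eq_zero_of_zero_dvd (h ▸ hd))⟩
  rw [fixed_iff, inertiaFixedSeries_iff]
  intro σ _
  rw [coe_jAt, X0Analytic.jL, coeffEmb, coeffMap_coeffMap]
  exact coeffMap_congr (RingHom.ext_rat _ _) _

theorem fixed_uFun : uFun M w ∈ FixF A M w := sub_mem (fixed_jAt _ _) (fixed_jAt _ _)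

/-- Fixed functions of level `M w`. -/
theorem fixed_alpha {x : ↥(modularFunctionFieldBar (M * w))} :
    heckeAlphaBar Qbar (M * w) w x ∈ FixF A M w ↔ x ∈ (descent S).F₀ := by
  rw [fixed_iff, coe_heckeAlphaBar]
  exact (LevelP.mem_fixed_iff (M := M) (q := w)).symm

include S in
theorem fixed_sw {f : ↥(modularFunctionFieldBar (M * w * w))} (hf : f ∈ FixF A M w) :
    sw S.prime S.not_dvd f ∈ FixF A M w := by
  rintro _ ⟨σ, hσ, rfl⟩
  show arithmeticGalois (modularFunctionFieldFull (M * w * w)) σ • sw S.prime S.not_dvd f = _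
  rw [← sw_galois]
  exact congrArg _ (hf _ ⟨σ, hσ, rfl⟩)

include S in
theorem hFun_mem_fixed : S.hFun ∈ (descent S).F₀ := by
  rintro _ ⟨σ, -, rfl⟩
  show arithmeticGalois (modularFunctionFieldFull (M * w)) σ • S.hFun = _
  rw [Setting.hFun, smul_sub, smul_pow', (S.galois_jF σ).1, (S.galois_jF σ).2]

theorem fixed_cFun : cFun S ∈ FixF A M w :=
  neg_mem ((fixed_alpha S).mpr (hFun_mem_fixed S))

theorem fixed_bFun (i : Fin w) : bFun S i ∈ FixF A M w := by
  unfold bFun
  split_ifs
  · exact pow_mem fixed_uFun _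
  · exact mul_mem (pow_mem fixed_uFun _) (sub_mem (fixed_cFun S) fixed_uFun)

theorem cFun_ne : cFun S ≠ 0 := by
  refine neg_ne_zero.mpr ((map_ne_zero _).mpr fun h => S.hb_ne (Subtype.ext ?_))
  have := S.srep_hFun 0
  rw [h, map_zero] at this
  exact this.unique SRep.zero

include S in
theorem uFun_notMem (x : ↥(modularFunctionFieldBar (M * w))) :
    heckeAlphaBar Qbar (M * w) w x ≠ uFun M w := by
  intro h
  have ht : ¬ w ∣ 1 := S.prime.not_dvd_one
  have h1 := congrArg (mid S.prime S.not_dvd 1 ht) h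
  rw [mid_alpha, mid_uFun S ht, ← coe_heckeAlphaBar (M * w) w x, h, coe_uFun, sub_left_inj] at h1
  have h2 := congrArg (fun z : Ser => z.coeff (-((1 : ℕ) : ℤ))) h1
  rw [twist_coeff, jSer_coeff_neg,
    jSer_coeff_of_not_dvd _ (by simpa using not_dvd_neg_one (n := 1 * w * w) (by nlinarith [S.prime.two_le]))] at h2
  exact Units.ne_zero _ ((mul_one _).symm.trans h2.symm)

set_option maxHeartbeats 1000000 in
theorem basis_facts :
    letI := algebraAlong (heckeAlphaBar Qbar (M * w) w)
    LinearIndependent ↥(modularFunctionFieldBar (M * w)) (bFun S) ∧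
      ⊤ ≤ Submodule.span ↥(modularFunctionFieldBar (M * w)) (Set.range (bFun S)) := by
  let := algebraAlong (heckeAlphaBar Qbar (M * w) w)
  set E := ↥(modularFunctionFieldBar (M * w))
  set U := ↥(modularFunctionFieldBar (M * w * w))
  have hdeg : Module.finrank E U = w := finrankAlong_alpha_eq (M := M) S.prime
  have : Module.Finite E U := Module.finite_of_finrank_pos (by rw [hdeg]; exact NeZero.pos w)
  set u : U := uFun M w
  have hint : IsIntegral E u := IsIntegral.of_finite E u
  have htop : IntermediateField.adjoin E ({u} : Set U) = ⊤ := by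
    have := IntermediateField.isSimpleOrder_of_finrank_prime (F := E) (E := U)
      (hdeg.symm ▸ S.prime)
    refine (eq_bot_or_eq_top _).resolve_left fun hb => ?_
    rw [IntermediateField.adjoin_simple_eq_bot_iff, IntermediateField.mem_bot] at hb
    obtain ⟨x, hx⟩ := hb
    exact uFun_notMem S x hx
  have hmin : (minpoly E u).natDegree = w := by
    rw [← IntermediateField.adjoin.finrank hint, htop, IntermediateField.finrank_top', hdeg]
  have hpow : ⊤ ≤ Submodule.span E (Set.range fun i : Fin w => u ^ (i : ℕ)) := by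
    have hA : Algebra.adjoin E ({u} : Set U) = ⊤ := by
      rw [← IntermediateField.adjoin_simple_toSubalgebra_of_isAlgebraic hint.isAlgebraic, htop,
        IntermediateField.top_toSubalgebra]
    intro x _
    have hx : x ∈ Algebra.adjoin E ({u} : Set U) := hA ▸ Algebra.mem_top
    rw [← Subalgebra.mem_toSubmodule,
      ← Submodule.span_range_natDegree_eq_adjoin (minpoly.monic hint) (minpoly.aeval E u)] at hx
    refine Submodule.span_mono ?_ hx
    intro y hy
    simp only [Finset.coe_image, Finset.coe_range, Set.mem_image, Set.mem_Iio, hmin] at hy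
    obtain ⟨i, hi, rfl⟩ := hy
    exact ⟨⟨i, hi⟩, rfl⟩
  have hspan : ⊤ ≤ Submodule.span E (Set.range (bFun S)) := by
    refine hpow.trans (Submodule.span_le.mpr (Set.range_subset_iff.mpr fun i => ?_))
    suffices h : ∀ n (hn : n < w), u ^ (w - 1 - n) ∈ Submodule.span E (Set.range (bFun S)) by
      have := h (w - 1 - (i : ℕ)) (by omega)
      rwa [show w - 1 - (w - 1 - (i : ℕ)) = (i : ℕ) by omega] at this
    intro n
    induction n with
    | zero =>
      intro _
      refine Submodule.subset_span ⟨⟨w - 1, by omega⟩, ?_⟩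
      simp [bFun, u]
    | succ n ih =>
      intro hn
      have hb : bFun S ⟨w - 1 - (n + 1), by omega⟩ ∈ Submodule.span E (Set.range (bFun S)) :=
        Submodule.subset_span ⟨_, rfl⟩
      rw [bFun, if_neg (by show w - 1 - (n + 1) ≠ w - 1; omega)] at hb
      have he : u ^ (w - 1 - (n + 1)) * (cFun S - u) + u ^ (w - 1 - n) =
          (-S.hFun : E) • u ^ (w - 1 - (n + 1)) := by
        rw [show w - 1 - n = w - 1 - (n + 1) + 1 by omega, pow_succ, Algebra.smul_def,
          show algebraMap E U (-S.hFun) = cFun S from map_neg (heckeAlphaBar Qbar (M * w) w) _]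
        ring
      have hne : (-S.hFun : E) ≠ 0 := fun h => cFun_ne S (by
        show -heckeAlphaBar Qbar (M * w) w S.hFun = 0
        rw [← map_neg, h, map_zero])
      exact (Submodule.smul_mem_iff _ hne).mp (he ▸ add_mem hb (ih (by omega)))
  exact ⟨linearIndependent_of_top_le_span_of_card_eq_finrank hspan
    (by rw [Fintype.card_fin, hdeg]), hspan⟩

/-- A fixed function has fixed coordinates. -/
theorem exists_coord (f : ↥(FixF A M w)) :
    ∃ a : Fin w → ↥(descent S).F₀,
      (f : ↥(modularFunctionFieldBar (M * w * w))) =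
        ∑ i, heckeAlphaBar Qbar (M * w) w (a i : ↥(modularFunctionFieldBar (M * w))) * bFun S i := by
  let := algebraAlong (heckeAlphaBar Qbar (M * w) w)
  obtain ⟨hli, hspan⟩ := basis_facts S
  obtain ⟨a, ha⟩ := (Submodule.mem_span_range_iff_exists_fun _).mp
    (hspan (Submodule.mem_top (x := (f : ↥(modularFunctionFieldBar (M * w * w))))))
  have hfix : ∀ i, a i ∈ (descent S).F₀ := by
    intro i
    rintro _ ⟨σ, hσ, rfl⟩
    set τ := arithmeticGalois (modularFunctionFieldFull (M * w)) σ
    set τ' := SemilinearAut.toRingAut (arithmeticGalois (modularFunctionFieldFull (M * w * w)) σ)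
    have hτ : τ' ∈ inertiaAct A (M * w) w := ⟨σ, hσ, rfl⟩
    show τ • a i = a i
    have h1 : ∑ j, (τ • a j - a j) • bFun S j = 0 := by
      simp only [sub_smul, Finset.sum_sub_distrib, ha, sub_eq_zero]
      conv_rhs => rw [← f.2 τ' hτ, ← ha, map_sum]
      refine Finset.sum_congr rfl fun j _ => ?_
      rw [Algebra.smul_def, Algebra.smul_def, map_mul, fixed_bFun S j τ' hτ]
      exact congrArg (· * _) (HeckeJ0.intertwines_heckeAlphaBar (M * w) w σ (a j)).symm
    exact sub_eq_zero.mp (Fintype.linearIndependent_iff.mp hli _ h1 i)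
  exact ⟨fun i => ⟨a i, hfix i⟩, ha.symm⟩

end Fermat.Agent.SquareOld.Geom
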