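import Fermat.Agent.SquareOld.Geom.Embed
import Fermat.Agent.SemistableRed.Sides

/-!
# The maps between levels `M w` and `M w²`

The involution `sw` exchanges the two degeneracy maps up to the Atkin–Lehner involution of level
`M w`; the middle expansions are the identity along `α` and a twisted involution along `β`.
-/

set_option autoImplicit false
set_option linter.unusedSectionVars false
set_option synthInstance.maxHeartbeats 400000

noncomputable section

open ModularCurve AlgebraicCurve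

namespace Fermat.Agent.SquareOld.Geom

open Fermat.Agent.X0Analytic Fermat.Agent.Congruence Fermat.Agent.SemistableRed

local notation "Qbar" => AlgebraicClosure ℚ
local notation "Ser" => LaurentSeries (AlgebraicClosure ℚ)

/-- `j (d τ)` in the function field of level `N`. -/
def jAt (N d : ℕ) [NeZero N] (hd : d ∣ N) : ↥(modularFunctionFieldBar N) :=
  algToField Qbar N (genDiv Qbar ⟨d, hd⟩)

theorem coe_jAt (N d : ℕ) [NeZero N] [NeZero d] (hd : d ∣ N) :
    (jAt N d hd : Ser) = jL Qbar d := rfl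

theorem jAt_congr {N d d' : ℕ} [NeZero N] (h : d = d') (hd : d ∣ N) (hd' : d' ∣ N) :
    jAt N d hd = jAt N d' hd' := by
  subst h; rfl

/-- `j(q ^ n)`, zero for `n = 0`. -/
def jSer (n : ℕ) : Ser := if h : n = 0 then 0 else haveI : NeZero n := ⟨h⟩; jL Qbar n

theorem jSer_eq (n : ℕ) [NeZero n] : jSer n = jL Qbar n := by rw [jSer, dif_neg (NeZero.ne n)]

theorem jSer_mul (d l : ℕ) [NeZero d] [NeZero l] : jSer (d * l) = qExpand Qbar l (jSer d) := by
  rw [jSer_eq, jSer_eq]; exact jL_mul d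

theorem exp_pow_eq_one (w : ℕ) [NeZero w] :
    Complex.exp (2 * Real.pi * Complex.I / w) ^ w = 1 :=
  (Complex.isPrimitiveRoot_exp w (NeZero.ne w)).pow_eq_one

theorem exists_zeta (w : ℕ) [NeZero w] : ∃ z : Qbarˣ, IsPrimitiveRoot (z : Qbar) w ∧
    qbarToComplex (z : Qbar) = Complex.exp (2 * Real.pi * Complex.I / w) := by
  obtain ⟨z₀, hz₀⟩ := HasEnoughRootsOfUnity.prim (M := Qbar) (n := w)
  obtain ⟨i, -, hi⟩ := (hz₀.map_of_injective qbarToComplex.injective).eq_pow_of_pow_eq_one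
    (exp_pow_eq_one w)
  have hp : IsPrimitiveRoot (z₀ ^ i) w :=
    IsPrimitiveRoot.of_map_of_injective (f := qbarToComplex)
      (by rw [map_pow, hi]; exact Complex.isPrimitiveRoot_exp w (NeZero.ne w))
      qbarToComplex.injective
  exact ⟨Units.mk0 _ (hp.ne_zero (NeZero.ne w)), by simpa using hp, by simpa using hi⟩

/-- The root of unity `exp (2 π i / w)`. -/
def zeta (w : ℕ) [NeZero w] : Qbarˣ := (exists_zeta w).choose

theorem zeta_prim (w : ℕ) [NeZero w] : IsPrimitiveRoot (zeta w : Qbar) w :=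
  (exists_zeta w).choose_spec.1

theorem zeta_complex (w : ℕ) [NeZero w] :
    qbarToComplex (zeta w : Qbar) = Complex.exp (2 * Real.pi * Complex.I / w) :=
  (exists_zeta w).choose_spec.2

theorem zeta_pow_self (w : ℕ) [NeZero w] : zeta w ^ w = 1 :=
  Units.ext (by simpa using (zeta_prim w).pow_eq_one)

theorem twist_twist {R : Type*} [CommRing R] (c c' : Rˣ) (x : LaurentSeries R) :
    twist c (twist c' x) = twist (c * c') x := by
  ext n
  simp [twist_coeff, mul_zpow, mul_assoc]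

variable {M w : ℕ} [NeZero M] [NeZero w]

theorem dvd_top0 {d : ℕ} (hd : d ∣ M) : d ∣ M * w * w := (hd.mul_right w).mul_right w

theorem dvd_top1 {d : ℕ} (hd : d ∣ M) : d * w ∣ M * w * w :=
  (Nat.mul_dvd_mul_right hd w).mul_right w

theorem dvd_top2 {d : ℕ} (hd : d ∣ M) : d * w * w ∣ M * w * w :=
  Nat.mul_dvd_mul_right (Nat.mul_dvd_mul_right hd w) w

theorem jAt_alpha (d : ℕ) (hd : d ∣ M * w) :
    heckeAlphaBar Qbar (M * w) w (jAt (M * w) d hd) = jAt (M * w * w) d (hd.mul_right w) := by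
  have : NeZero d := ⟨fun h => NeZero.ne (M * w) (Nat.eq_zero_of_zero_dvd (h ▸ hd))⟩
  exact Subtype.ext (by rw [coe_heckeAlphaBar, coe_jAt, coe_jAt])

theorem jAt_beta (d : ℕ) (hd : d ∣ M * w) :
    heckeBetaBar Qbar (M * w) w (jAt (M * w) d hd) =
      jAt (M * w * w) (d * w) (Nat.mul_dvd_mul_right hd w) := by
  have : NeZero d := ⟨fun h => NeZero.ne (M * w) (Nat.eq_zero_of_zero_dvd (h ▸ hd))⟩
  exact Subtype.ext (by rw [coe_heckeBetaBar, coe_jAt, coe_jAt]; exact (jL_mul d).symm)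

theorem hom_ext_top (hw : w.Prime) (hwM : ¬ w ∣ M) {K : Type*} [Field K]
    {f g : ↥(modularFunctionFieldBar (M * w * w)) →+* K}
    (hc : ∀ c, f (algebraMap Qbar _ c) = g (algebraMap Qbar _ c))
    (h : ∀ d (hd : d ∣ M), f (jAt _ d (dvd_top0 hd)) = g (jAt _ d (dvd_top0 hd)) ∧
      f (jAt _ (d * w) (dvd_top1 hd)) = g (jAt _ (d * w) (dvd_top1 hd)) ∧
      f (jAt _ (d * w * w) (dvd_top2 hd)) = g (jAt _ (d * w * w) (dvd_top2 hd))) : f = g := by
  refine X0Analytic.hom_ext hc fun d _ hd => ?_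
  obtain ⟨e, he, h' | h' | h'⟩ := dvd_cases hw hwM hd <;> subst h'
  exacts [(h _ he).1, (h _ he).2.1, (h _ he).2.2]

theorem hom_ext_low (hw : w.Prime) {K : Type*} [Field K]
    {f g : ↥(modularFunctionFieldBar (M * w)) →+* K}
    (hc : ∀ c, f (algebraMap Qbar _ c) = g (algebraMap Qbar _ c))
    (h : ∀ d (hd : d ∣ M), f (jAt _ d (hd.mul_right w)) = g (jAt _ d (hd.mul_right w)) ∧
      f (jAt _ (d * w) (Nat.mul_dvd_mul_right hd w)) =
        g (jAt _ (d * w) (Nat.mul_dvd_mul_right hd w))) : f = g := by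
  refine X0Analytic.hom_ext hc fun d _ hd => ?_
  obtain ⟨a, b, ha, hb, rfl⟩ := exists_dvd_and_dvd_of_dvd_mul hd
  rcases (Nat.dvd_prime hw).mp hb with h' | h' <;> subst h'
  · have e : a * 1 = a := mul_one a
    have h1 := (h a ha).1
    rw [← jAt_congr e hd (ha.mul_right w)] at h1
    exact h1
  · exact (h a ha).2

variable (hw : w.Prime) (hwM : ¬ w ∣ M)

include hw hwM in
theorem exists_swapHom : ∃ h : ↥(modularFunctionFieldBar (M * w * w)) →+* Ser,
    (∀ c, h (algebraMap Qbar _ c) = algebraMap Qbar Ser c) ∧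
      ∀ d (hd : d ∣ M), h (jAt _ d (dvd_top0 hd)) = jSer (d * w * w) ∧
        h (jAt _ (d * w) (dvd_top1 hd)) = jSer (d * w) ∧
        h (jAt _ (d * w * w) (dvd_top2 hd)) = jSer d := by
  obtain ⟨g, hg, hgd⟩ := exists_square_swap hw hwM
  let s : {d : ℕ // d ∣ M * w * w} → Ser := fun d =>
    if w * w ∣ (d : ℕ) then jSer ((d : ℕ) / (w * w))
    else if w ∣ (d : ℕ) then jSer d else jSer ((d : ℕ) * w * w)
  have hnd := fun (e : ℕ) (he : e ∣ M) => not_dvd_of_dvd hwM he
  have hs0 : ∀ e (he : e ∣ M), s ⟨e, dvd_top0 he⟩ = jSer (e * w * w) := fun e he => by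
    simp only [s]
    rw [if_neg fun h => hnd e he ((dvd_mul_right w w).trans h), if_neg (hnd e he)]
  have hs1 : ∀ e (he : e ∣ M), s ⟨e * w, dvd_top1 he⟩ = jSer (e * w) := fun e he => by
    simp only [s]
    rw [if_neg fun h => hnd e he (Nat.dvd_of_mul_dvd_mul_right hw.pos h), if_pos (dvd_mul_left w e)]
  have hs2 : ∀ e (he : e ∣ M), s ⟨e * w * w, dvd_top2 he⟩ = jSer e := fun e he => by
    simp only [s]
    rw [if_pos (by rw [mul_assoc]; exact dvd_mul_left _ _), mul_assoc,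
      Nat.mul_div_cancel _ (Nat.mul_pos hw.pos hw.pos)]
  obtain ⟨h, hc, hgen⟩ := exists_hom qbarToComplex g hg s fun ⟨d, hd⟩ => by
    obtain ⟨e, he, h' | h' | h'⟩ := dvd_cases hw hwM hd <;> subst h'
    · have : NeZero d := ⟨fun h => NeZero.ne M (Nat.eq_zero_of_zero_dvd (h ▸ he))⟩
      refine ⟨toPerOne _ ⟨scaledJ (d * w * w), scaledJ_mem (dvd_top2 he)⟩,
        fun τ => ((hgd d he τ).1).symm, ?_⟩
      rw [hs0 d he, ← ser_apply, jSer_eq, ser_scaledJ_eq qbarToComplex (dvd_top2 he)]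
    · have : NeZero e := ⟨fun h => NeZero.ne M (Nat.eq_zero_of_zero_dvd (h ▸ he))⟩
      refine ⟨toPerOne _ ⟨scaledJ (e * w), scaledJ_mem (dvd_top1 he)⟩,
        fun τ => ((hgd e he τ).2.1).symm, ?_⟩
      rw [hs1 e he, ← ser_apply, jSer_eq, ser_scaledJ_eq qbarToComplex (dvd_top1 he)]
    · have : NeZero e := ⟨fun h => NeZero.ne M (Nat.eq_zero_of_zero_dvd (h ▸ he))⟩
      refine ⟨toPerOne _ ⟨scaledJ e, scaledJ_mem (dvd_top0 (w := w) he)⟩,
        fun τ => ((hgd e he τ).2.2).symm, ?_⟩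
      rw [hs2 e he, ← ser_apply, jSer_eq, ser_scaledJ_eq qbarToComplex (dvd_top0 (w := w) he)]
  exact ⟨h, hc, fun d hd => ⟨(hgen _).trans (hs0 d hd), (hgen _).trans (hs1 d hd),
    (hgen _).trans (hs2 d hd)⟩⟩

include hw hwM in
theorem exists_midHom {t : ℕ} (ht : ¬ w ∣ t) :
    ∃ h : ↥(modularFunctionFieldBar (M * w * w)) →+* Ser,
      (∀ c, h (algebraMap Qbar _ c) = algebraMap Qbar Ser c) ∧
      ∀ d (hd : d ∣ M), h (jAt _ d (dvd_top0 hd)) = jSer d ∧
        h (jAt _ (d * w) (dvd_top1 hd)) = jSer (d * w) ∧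
        h (jAt _ (d * w * w) (dvd_top2 hd)) = twist (zeta w ^ t) (jSer d) := by
  obtain ⟨g, hg, hgd⟩ := exists_middle hw hwM ht
  let s : {d : ℕ // d ∣ M * w * w} → Ser := fun d =>
    if w * w ∣ (d : ℕ) then twist (zeta w ^ t) (jSer ((d : ℕ) / (w * w))) else jSer d
  have hnd := fun (e : ℕ) (he : e ∣ M) => not_dvd_of_dvd hwM he
  have hs0 : ∀ e (he : e ∣ M), s ⟨e, dvd_top0 he⟩ = jSer e := fun e he => by
    simp only [s]
    rw [if_neg fun h => hnd e he ((dvd_mul_right w w).trans h)]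
  have hs1 : ∀ e (he : e ∣ M), s ⟨e * w, dvd_top1 he⟩ = jSer (e * w) := fun e he => by
    simp only [s]
    rw [if_neg fun h => hnd e he (Nat.dvd_of_mul_dvd_mul_right hw.pos h)]
  have hs2 : ∀ e (he : e ∣ M), s ⟨e * w * w, dvd_top2 he⟩ = twist (zeta w ^ t) (jSer e) :=
    fun e he => by
    simp only [s]
    rw [if_pos (by rw [mul_assoc]; exact dvd_mul_left _ _), mul_assoc,
      Nat.mul_div_cancel _ (Nat.mul_pos hw.pos hw.pos)]
  obtain ⟨h, hc, hgen⟩ := exists_hom qbarToComplex g hg s fun ⟨d, hd⟩ => by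
    obtain ⟨e, he, h' | h' | h'⟩ := dvd_cases hw hwM hd <;> subst h'
    · have : NeZero d := ⟨fun h => NeZero.ne M (Nat.eq_zero_of_zero_dvd (h ▸ he))⟩
      refine ⟨toPerOne _ ⟨scaledJ d, scaledJ_mem (dvd_top0 (w := w) he)⟩,
        fun τ => ((hgd d he τ).1).symm, ?_⟩
      rw [hs0 d he, ← ser_apply, jSer_eq, ser_scaledJ_eq qbarToComplex (dvd_top0 (w := w) he)]
    · have : NeZero e := ⟨fun h => NeZero.ne M (Nat.eq_zero_of_zero_dvd (h ▸ he))⟩
      refine ⟨toPerOne _ ⟨scaledJ (e * w), scaledJ_mem (dvd_top1 he)⟩,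
        fun τ => ((hgd e he τ).2.1).symm, ?_⟩
      rw [hs1 e he, ← ser_apply, jSer_eq, ser_scaledJ_eq qbarToComplex (dvd_top1 he)]
    · have : NeZero e := ⟨fun h => NeZero.ne M (Nat.eq_zero_of_zero_dvd (h ▸ he))⟩
      obtain ⟨hf, hfs⟩ := qSer_subst (h' := 1) (M := 1)
        (toPerOne (M * w * w) ⟨scaledJ e, scaledJ_mem (dvd_top0 (w := w) he)⟩)
        (fun τ => upperGL w t w • τ) (UpperHalfPlane.mdifferentiable_smul (det_pos_upperGL w t w))
        (Complex.exp (2 * Real.pi * Complex.I * ((t : ℤ) : ℂ) / w)) (Complex.exp_ne_zero _)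
        (fun τ => qp_one_upperGL w t w 1 1 (by ring) τ)
      refine ⟨⟨_, hf⟩, fun τ => ((hgd e he τ).2.2).symm, ?_⟩
      rw [hs2 e he, hfs, qExpand_one_apply, ← ser_apply, jSer_eq,
        ser_scaledJ_eq qbarToComplex (dvd_top0 (w := w) he)]
      ext n
      rw [rot_coeff, coeffMap_coeff, coeffMap_coeff, twist_coeff, map_mul, Units.val_zpow_eq_zpow_val,
        map_zpow₀, Units.val_pow_eq_pow_val, map_pow, zeta_complex]
      congr 2
      rw [← Complex.exp_nat_mul]
      congr 1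
      push_cast
      ring
  exact ⟨h, hc, fun d hd => ⟨(hgen _).trans (hs0 d hd), (hgen _).trans (hs1 d hd),
    (hgen _).trans (hs2 d hd)⟩⟩

/-- The expansion after the involution. -/
def swapHom : ↥(modularFunctionFieldBar (M * w * w)) →+* Ser := (exists_swapHom hw hwM).choose

theorem swapHom_algebraMap (c : Qbar) :
    swapHom hw hwM (algebraMap Qbar _ c) = algebraMap Qbar Ser c :=
  (exists_swapHom hw hwM).choose_spec.1 c

theorem swapHom_mem (x : ↥(modularFunctionFieldBar (M * w * w))) :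
    swapHom hw hwM x ∈ modularFunctionFieldBar (M * w * w) := by
  obtain ⟨a, b, hb, hab⟩ := X0Analytic.exists_div Qbar (M * w * w) x
  have key : ∀ a : ↥(algGen Qbar (M * w * w)),
      swapHom hw hwM (algToField Qbar (M * w * w) a) ∈ modularFunctionFieldBar (M * w * w) := by
    intro a
    obtain ⟨p, rfl⟩ := genDiv_surjective (L := Qbar) a
    induction p using MvPolynomial.induction_on with
    | C c =>
      rw [MvPolynomial.aeval_C, AlgHom.commutes, swapHom_algebraMap]
      exact (modularFunctionFieldBar (M * w * w)).algebraMap_mem c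
    | add p r hp hr => rw [map_add, map_add, map_add]; exact add_mem hp hr
    | mul_X p i hp =>
      rw [map_mul, map_mul, map_mul, MvPolynomial.aeval_X]
      refine mul_mem hp ?_
      obtain ⟨d, hd⟩ := i
      obtain ⟨e, he, h' | h' | h'⟩ := dvd_cases hw hwM hd <;> subst h'
      · have : NeZero d := ⟨fun h => NeZero.ne M (Nat.eq_zero_of_zero_dvd (h ▸ he))⟩
        show swapHom hw hwM (jAt _ d hd) ∈ _
        rw [((exists_swapHom hw hwM).choose_spec.2 d he).1 |> (id : _ → swapHom hw hwM _ = _),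
          jSer_eq]
        exact (jAt _ (d * w * w) (dvd_top2 he)).2
      · have : NeZero e := ⟨fun h => NeZero.ne M (Nat.eq_zero_of_zero_dvd (h ▸ he))⟩
        show swapHom hw hwM (jAt _ (e * w) hd) ∈ _
        rw [((exists_swapHom hw hwM).choose_spec.2 e he).2.1 |> (id : _ → swapHom hw hwM _ = _),
          jSer_eq]
        exact (jAt _ (e * w) (dvd_top1 he)).2
      · have : NeZero e := ⟨fun h => NeZero.ne M (Nat.eq_zero_of_zero_dvd (h ▸ he))⟩
        show swapHom hw hwM (jAt _ (e * w * w) hd) ∈ _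
        rw [((exists_swapHom hw hwM).choose_spec.2 e he).2.2 |> (id : _ → swapHom hw hwM _ = _),
          jSer_eq]
        exact (jAt _ e (dvd_top0 he)).2
  have hb' : algToField Qbar (M * w * w) b ≠ 0 :=
    (map_ne_zero_iff _ (algToField_injective Qbar (M * w * w))).mpr hb
  have h1 := congrArg (swapHom hw hwM) hab
  rw [map_mul] at h1
  rw [eq_div_of_mul_eq ((map_ne_zero _).mpr hb') h1]
  exact div_mem (key a) (key b)

/-- The involution, as a ring endomorphism. -/
def swRing : ↥(modularFunctionFieldBar (M * w * w)) →+* ↥(modularFunctionFieldBar (M * w * w)) :=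
  (swapHom hw hwM).codRestrict _ (swapHom_mem hw hwM)

theorem swRing_algebraMap (c : Qbar) :
    swRing hw hwM (algebraMap Qbar _ c) = algebraMap Qbar _ c :=
  Subtype.ext (swapHom_algebraMap hw hwM c)

theorem swRing_gen (d : ℕ) (hd : d ∣ M) :
    swRing hw hwM (jAt _ d (dvd_top0 hd)) = jAt _ (d * w * w) (dvd_top2 hd) ∧
      swRing hw hwM (jAt _ (d * w) (dvd_top1 hd)) = jAt _ (d * w) (dvd_top1 hd) ∧
      swRing hw hwM (jAt _ (d * w * w) (dvd_top2 hd)) = jAt _ d (dvd_top0 hd) := by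
  have : NeZero d := ⟨fun h => NeZero.ne M (Nat.eq_zero_of_zero_dvd (h ▸ hd))⟩
  obtain ⟨h0, h1, h2⟩ := (exists_swapHom hw hwM).choose_spec.2 d hd
  refine ⟨Subtype.ext (h0.trans ?_), Subtype.ext (h1.trans ?_), Subtype.ext (h2.trans ?_)⟩ <;>
    rw [jSer_eq, coe_jAt]

theorem swRing_swRing (x : ↥(modularFunctionFieldBar (M * w * w))) :
    swRing hw hwM (swRing hw hwM x) = x := by
  refine RingHom.congr_fun (f := (swRing hw hwM).comp (swRing hw hwM)) (g := RingHom.id _)
    (hom_ext_top hw hwM (fun c => ?_) fun d hd => ?_) x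
  · simp [swRing_algebraMap]
  · obtain ⟨h0, h1, h2⟩ := swRing_gen hw hwM d hd
    simp [h0, h1, h2]

/-- The involution of the function field of level `M w²`. -/
def sw : ↥(modularFunctionFieldBar (M * w * w)) ≃ₐ[Qbar] ↥(modularFunctionFieldBar (M * w * w)) :=
  AlgEquiv.ofRingEquiv (f := RingEquiv.ofRingHom (swRing hw hwM) (swRing hw hwM)
    (RingHom.ext (swRing_swRing hw hwM)) (RingHom.ext (swRing_swRing hw hwM)))
    (swRing_algebraMap hw hwM)

theorem sw_sw (x : ↥(modularFunctionFieldBar (M * w * w))) : sw hw hwM (sw hw hwM x) = x :=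
  swRing_swRing hw hwM x

theorem wq_jAt (d : ℕ) (hd : d ∣ M) :
    wq hw hwM (jAt (M * w) d (hd.mul_right w)) = jAt _ (d * w) (Nat.mul_dvd_mul_right hd w) ∧
      wq hw hwM (jAt (M * w) (d * w) (Nat.mul_dvd_mul_right hd w)) =
        jAt _ d (hd.mul_right w) := by
  have : NeZero d := ⟨fun h => NeZero.ne M (Nat.eq_zero_of_zero_dvd (h ▸ hd))⟩
  constructor
  · show atkinLehner qbarToComplex hw hwM (algToField Qbar (M * w) (genAt Qbar M w (⟨d, hd⟩, false)))
      = _
    rw [atkinLehner_algToField, swapAlg_genAt]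
    rfl
  · show atkinLehner qbarToComplex hw hwM (algToField Qbar (M * w) (genAt Qbar M w (⟨d, hd⟩, true)))
      = _
    rw [atkinLehner_algToField, swapAlg_genAt]
    rfl

theorem sw_alpha (x : ↥(modularFunctionFieldBar (M * w))) :
    sw hw hwM (heckeAlphaBar Qbar (M * w) w x) = heckeBetaBar Qbar (M * w) w (wq hw hwM x) := by
  refine RingHom.congr_fun (f := (swRing hw hwM).comp (heckeAlphaBar Qbar (M * w) w).toRingHom)
    (g := (heckeBetaBar Qbar (M * w) w).toRingHom.comp (wq hw hwM).toAlgHom.toRingHom)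
    (hom_ext_low hw (fun c => ?_) fun d hd => ?_) x
  · simp [swRing_algebraMap]
  · obtain ⟨h0, h1, h2⟩ := swRing_gen hw hwM d hd
    obtain ⟨g0, g1⟩ := wq_jAt hw hwM d hd
    simp [jAt_alpha, jAt_beta, h0, h1, g0, g1]

theorem sw_beta (x : ↥(modularFunctionFieldBar (M * w))) :
    sw hw hwM (heckeBetaBar Qbar (M * w) w x) = heckeAlphaBar Qbar (M * w) w (wq hw hwM x) := by
  have h := sw_alpha hw hwM (wq hw hwM x)
  rw [wq_wq] at h
  rw [← h, sw_sw]

/-- The expansions along the middle component. -/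
def mid (t : ℕ) (ht : ¬ w ∣ t) : ↥(modularFunctionFieldBar (M * w * w)) →+* Ser :=
  (exists_midHom hw hwM ht).choose

variable {t t' : ℕ} (ht : ¬ w ∣ t) (ht' : ¬ w ∣ t')

theorem mid_algebraMap (c : Qbar) :
    mid hw hwM t ht (algebraMap Qbar _ c) = algebraMap Qbar Ser c :=
  (exists_midHom hw hwM ht).choose_spec.1 c

theorem mid_gen (d : ℕ) (hd : d ∣ M) :
    mid hw hwM t ht (jAt _ d (dvd_top0 hd)) = jSer d ∧
      mid hw hwM t ht (jAt _ (d * w) (dvd_top1 hd)) = jSer (d * w) ∧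
      mid hw hwM t ht (jAt _ (d * w * w) (dvd_top2 hd)) = twist (zeta w ^ t) (jSer d) :=
  (exists_midHom hw hwM ht).choose_spec.2 d hd

theorem twist_jSer_mul (t d : ℕ) [NeZero d] :
    twist (zeta w ^ t) (jSer (d * w)) = jSer (d * w) := by
  rw [jSer_mul, twist_qExpand_of_pow_eq_one]
  rw [← pow_mul, mul_comm, pow_mul, zeta_pow_self, one_pow]

theorem mid_alpha (x : ↥(modularFunctionFieldBar (M * w))) :
    mid hw hwM t ht (heckeAlphaBar Qbar (M * w) w x) = (x : Ser) := by
  refine RingHom.congr_fun (f := (mid hw hwM t ht).comp (heckeAlphaBar Qbar (M * w) w).toRingHom)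
    (g := (modularFunctionFieldBar (M * w)).val.toRingHom)
    (hom_ext_low hw (fun c => ?_) fun d hd => ?_) x
  · simp [mid_algebraMap]
  · have : NeZero d := ⟨fun h => NeZero.ne M (Nat.eq_zero_of_zero_dvd (h ▸ hd))⟩
    obtain ⟨h0, h1, h2⟩ := mid_gen hw hwM ht d hd
    simp [jAt_alpha, h0, h1, jSer_eq, coe_jAt]

theorem mid_sw (htt : w ∣ t + t') (x : ↥(modularFunctionFieldBar (M * w * w))) :
    mid hw hwM t ht (sw hw hwM x) = twist (zeta w ^ t) (mid hw hwM t' ht' x) := by
  refine RingHom.congr_fun (f := (mid hw hwM t ht).comp (swRing hw hwM))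
    (g := (twist (zeta w ^ t)).comp (mid hw hwM t' ht'))
    (hom_ext_top hw hwM (fun c => ?_) fun d hd => ?_) x
  · simp [mid_algebraMap, swRing_algebraMap, algebraMap_laurentSeries_eq_single, twist_single_zero]
  · have : NeZero d := ⟨fun h => NeZero.ne M (Nat.eq_zero_of_zero_dvd (h ▸ hd))⟩
    obtain ⟨h0, h1, h2⟩ := mid_gen hw hwM ht d hd
    obtain ⟨k0, k1, k2⟩ := mid_gen hw hwM ht' d hd
    obtain ⟨g0, g1, g2⟩ := swRing_gen hw hwM d hd
    have hpow : zeta w ^ t * zeta w ^ t' = 1 := by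
      obtain ⟨c, hc⟩ := htt
      rw [← pow_add, hc, pow_mul, zeta_pow_self, one_pow]
    simp [g0, g1, g2, h0, h1, h2, k0, k1, k2, twist_jSer_mul, twist_twist, hpow]

/-- The involution commutes with the action on coefficients. -/
theorem sw_galois (σ : Qbar ≃ₐ[ℚ] Qbar) (x : ↥(modularFunctionFieldBar (M * w * w))) :
    sw hw hwM (arithmeticGalois (modularFunctionFieldFull (M * w * w)) σ • x) =
      arithmeticGalois (modularFunctionFieldFull (M * w * w)) σ • sw hw hwM x := by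
  set τ := arithmeticGalois (modularFunctionFieldFull (M * w * w)) σ with hτ
  have hgen : ∀ (d : ℕ) (hd : d ∣ M * w * w), τ • jAt _ d hd = jAt _ d hd := fun d hd => by
    have : NeZero d := ⟨fun h => NeZero.ne (M * w * w) (Nat.eq_zero_of_zero_dvd (h ▸ hd))⟩
    refine Subtype.ext ?_
    rw [hτ, coe_arithmeticGalois_smul, coe_jAt, jL, coeffEmb, coeffMap_coeffMap]
    exact coeffMap_congr (RingHom.ext_rat _ _) _
  have hc : ∀ c, τ • algebraMap Qbar ↥(modularFunctionFieldBar (M * w * w)) c =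
      algebraMap Qbar _ (σ c) := fun c => SemilinearAut.commutes τ c
  refine RingHom.congr_fun
    (f := (swRing hw hwM).comp (SemilinearAut.toRingAut τ).toRingHom)
    (g := (SemilinearAut.toRingAut τ).toRingHom.comp (swRing hw hwM))
    (hom_ext_top hw hwM (fun c => ?_) fun d hd => ?_) x
  · show swRing hw hwM (τ • algebraMap Qbar _ c) = τ • swRing hw hwM (algebraMap Qbar _ c)
    rw [hc, swRing_algebraMap, swRing_algebraMap, hc]
  · obtain ⟨g0, g1, g2⟩ := swRing_gen hw hwM d hd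
    refine ⟨?_, ?_, ?_⟩
    · show swRing hw hwM (τ • _) = τ • swRing hw hwM _
      rw [hgen, g0, hgen]
    · show swRing hw hwM (τ • _) = τ • swRing hw hwM _
      rw [hgen, g1, hgen]
    · show swRing hw hwM (τ • _) = τ • swRing hw hwM _
      rw [hgen, g2, hgen]

end Fermat.Agent.SquareOld.Geom
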