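import Fermat.Agent.SquareOld.Geom.Const

/-!
# Simultaneous lifts, independent orders, and finiteness over the constants and `T`
-/

set_option autoImplicit false
set_option linter.unusedSectionVars false
set_option linter.unusedVariables false

noncomputable section

open IsLocalRing ModularCurve AlgebraicCurve Fermat.Agent.Reduction Fermat.Agent.SemistableRed

namespace Fermat.Agent.SquareOld.Geom

open LevelP (descent inertiaField InertiaFixedSeries inertiaFixedSeries_iff)

local notation "Qbar" => AlgebraicClosure ℚ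
local notation "Ser" => LaurentSeries (AlgebraicClosure ℚ)

variable {A : ValuationSubring (AlgebraicClosure ℚ)} {M w : ℕ} [NeZero M] [NeZero w]
  [Fact w.Prime] [CharP (ResidueField A) w] [IsAlgClosed (ResidueField A)] (S : Setting A M w)

local notation "kS" => LaurentSeries (ResidueField A)
local notation "GG" => modularFunctionFieldFullC (ResidueField A) M

theorem rep_comps {x : ↥(FixF A M w)} {v0 v1 v2 : ↥GG} (h0 : (fam0 S).Rep x 0 (v0 : kS))
    (h1 : (fam1 S).Rep x 0 (v1 : kS)) (h2 : (fam2 S).Rep x 0 (v2 : kS)) :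
    ∀ i, x ∈ (comps S i).V ∧ (comps S i).redF x = ![v0, v1, v2] i := by
  intro i
  fin_cases i
  · exact ⟨RepFamily.toComp_mem _ h0, Subtype.ext (RepFamily.toComp_redF (facts0 S) h0)⟩
  · exact ⟨RepFamily.toComp_mem _ h1, Subtype.ext (RepFamily.toComp_redF (facts1 S) h1)⟩
  · exact ⟨RepFamily.toComp_mem _ h2, Subtype.ext (RepFamily.toComp_redF (facts2 S) h2)⟩

theorem rep2_alpha {a : ↥(descent S).F₀} {v : ↥GG}
    (h : SRep (S.side 1 (a : ↥(modularFunctionFieldBar (M * w)))) (v : kS)) :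
    (fam2 S).Rep (alphaF S a) 0 ((piG (ResidueField A) M w v : ↥GG) : kS) := by
  refine (rep2_iff S).mpr fun u => ?_
  rw [zpow_zero, inv_one, one_smul, fam0_e, coe_piG]
  show SRep ((sw S.prime S.not_dvd (heckeAlphaBar Qbar (M * w) w _) :
    ↥(modularFunctionFieldBar (M * w * w))) : Ser) _
  rw [sw_alpha, coe_heckeBetaBar]
  rw [S.side_one] at h
  exact h.qExpand w

theorem swF_uF : swF S (uF S) = -uF S := by
  refine Subtype.ext ?_
  show sw S.prime S.not_dvd (uFun M w) = -uFun M w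
  obtain ⟨h0, -, h2⟩ := swRing_gen S.prime S.not_dvd 1 (one_dvd M)
  rw [uFun, map_sub, neg_sub]
  exact congrArg₂ (· - ·) h2 h0

theorem rep2_uF : (fam2 S).Rep (uF S) 0 ((S.hb : ↥GG) : kS) := by
  rw [rep2_iff, swF_uF]
  simpa using (rep0_uF S).neg

theorem rep2_dF : (fam2 S).Rep (dF S) 0 ((-S.hb : ↥GG) : kS) := by
  have hc : (fam2 S).Rep ⟨cFun S, fixed_cFun S⟩ 0 0 := by
    have h := rep2_alpha S (a := ⟨-S.hFun, neg_mem (hFun_mem_fixed S)⟩) (v := 0) (by
      show SRep (S.side 1 (-S.hFun)) _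
      rw [map_neg]
      simpa using (S.srep_hFun 1).neg)
    rw [map_zero, ZeroMemClass.coe_zero] at h
    rwa [show alphaF S ⟨-S.hFun, neg_mem (hFun_mem_fixed S)⟩ = ⟨cFun S, fixed_cFun S⟩ from
      Subtype.ext (map_neg (heckeAlphaBar Qbar (M * w) w) S.hFun)] at h
  simpa [dF] using hc.sub (rep2_uF S)

/-- Prescribed residues on the first two components and zero on the third. -/
theorem exists_red_two (z0 z1 : ↥GG) : ∃ x : ↥(FixF A M w),
    (fam0 S).Rep x 0 (z0 : kS) ∧ (fam1 S).Rep x 0 (z1 : kS) ∧ (fam2 S).Rep x 0 0 := by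
  have h2 := (Fact.out : w.Prime).two_le
  obtain ⟨a, ha⟩ := exists_alpha_red S ![z0 / (-S.hb) ^ (w - 1), 0]
  obtain ⟨b, hb⟩ := exists_alpha_red S ![z1 / (-S.hb), 0]
  refine ⟨alphaF S a * uF S ^ (w - 1) + alphaF S b * dF S, ?_, ?_, ?_⟩
  · have h := ((rep0_alpha_of_srep S (ha 0)).mul ((rep0_uF S).pow (w - 1))).add
      (by simpa using (rep0_alpha_of_srep S (hb 0)).mul (rep0_dF S) :
        (fam0 S).Rep (alphaF S b * dF S) (0 + (w - 1 : ℕ) * 0) 0)
    simp only [mul_zero, add_zero, ← SubmonoidClass.coe_pow, ← MulMemClass.coe_mul,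
      Matrix.cons_val_zero] at h
    rwa [div_mul_cancel₀ _ (pow_ne_zero _ (neg_ne_zero.mpr S.hb_ne))] at h
  · have h1 := (rep1_alpha S (rep0_alpha_of_srep S (ha 0))).mul ((rep1_uF S).pow (w - 1))
    have h1' := h1.mono (m' := 0) (by simp only [mul_zero, mul_one, zero_add]; omega)
    have h3 := (rep1_alpha S (rep0_alpha_of_srep S (hb 0))).mul (rep1_dF S)
    simp only [kapG, zpow_zero, map_one, one_mul, mul_zero, add_zero, ← MulMemClass.coe_mul,
      Matrix.cons_val_zero] at h3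
    rw [div_mul_cancel₀ _ (neg_ne_zero.mpr S.hb_ne)] at h3
    simpa using h1'.add h3
  · have h := ((rep2_alpha S (ha 1)).mul ((rep2_uF S).pow (w - 1))).add
      (by simpa using (rep2_alpha S (hb 1)).mul (rep2_dF S) :
        (fam2 S).Rep (alphaF S b * dF S) (0 + (w - 1 : ℕ) * 0) 0)
    simpa using h

/-- **Simultaneous lifts.** -/
theorem approx (z : Fin 3 → ↥GG) :
    ∃ f : ↥(FixF A M w), ∀ i, f ∈ (comps S i).V ∧ (comps S i).redF f = z i := by
  obtain ⟨x, hx0, hx1, hx2⟩ := exists_red_two S (z 0) (z 1)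
  obtain ⟨y, hy0, hy1, hy2⟩ := exists_red_two S (z 2) 0
  refine ⟨x + swF S y, ?_⟩
  have h0 := hx0.add (rep2_swF S hy2)
  have h1 := hx1.add (rep1_swF S hy1)
  have h2 := hx2.add (rep0_swF S hy0)
  rw [add_zero] at h0
  simp only [ZeroMemClass.coe_zero, mul_zero, add_zero] at h1
  rw [zero_add] at h2
  intro i
  have := rep_comps S h0 h1 h2 i
  fin_cases i <;> exact this

theorem ord_zpow {F G : Type*} [Field F] [Field G] (C : Comp F G) {x : F} (hx : x ≠ 0) (m : ℤ) :
    C.ord (x ^ m) = m * C.ord x := by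
  rcases m with n | n
  · rw [Int.ofNat_eq_natCast, zpow_natCast, C.ord_pow hx]
  · rw [zpow_negSucc, C.ord_inv (pow_ne_zero _ hx), C.ord_pow hx, Int.negSucc_eq]
    push_cast
    ring

theorem comp0_w : (comps S 0).ord (w : ↥(FixF A M w)) = 1 := by
  refine RepFamily.toComp_ord (facts0 S) (v := 1) (fun u => ?_) one_ne_zero
  rw [map_natCast, fam0_pi, zpow_one, smul_eq_algebraMap_mul, ← map_natCast (algebraMap Qbar Ser),
    ← map_mul, inv_mul_cancel₀ (Nat.cast_ne_zero.mpr (NeZero.ne w)), map_one]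
  exact SRep.one

theorem comp_uF : (comps S 0).ord (uF S) = 0 ∧ (comps S 1).ord (uF S) = 1 ∧
    (comps S 2).ord (uF S) = 0 :=
  ⟨RepFamily.toComp_ord (facts0 S) (rep0_uF S) (neg_hb_ne S),
    RepFamily.toComp_ord (facts1 S) (rep1_uF S) theta_jq_ne,
    RepFamily.toComp_ord (facts2 S) (rep2_uF S) fun e => S.hb_ne (Subtype.ext e)⟩

theorem comps_ord_swF {x : ↥(FixF A M w)} (hx : x ≠ 0) :
    (comps S 0).ord (swF S x) = (comps S 2).ord x ∧ (comps S 1).ord (swF S x) = (comps S 1).ord x ∧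
      (comps S 2).ord (swF S x) = (comps S 0).ord x := by
  obtain ⟨v0, hv0, h0⟩ := RepFamily.toComp_rep_ord (facts0 S) hx
  obtain ⟨v1, hv1, h1⟩ := RepFamily.toComp_rep_ord (facts1 S) hx
  obtain ⟨v2, hv2, h2⟩ := RepFamily.toComp_rep_ord (facts2 S) hx
  exact ⟨RepFamily.toComp_ord (facts0 S) (rep2_swF S h2) hv2,
    RepFamily.toComp_ord (facts1 S) (rep1_swF S h1)
      (mul_ne_zero ((map_ne_zero _).mpr (zpow_ne_zero _ (neg_ne_zero.mpr one_ne_zero))) hv1),
    RepFamily.toComp_ord (facts2 S) (rep0_swF S h0) hv0⟩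

theorem exists_ord_100 : ∃ e : ↥(FixF A M w), e ≠ 0 ∧ (comps S 0).ord e = 1 ∧
    (comps S 1).ord e = 0 ∧ (comps S 2).ord e = 0 := by
  obtain ⟨f, hf⟩ := approx S ![0, 1, 1]
  have hu : ∀ i : Fin 3, i ≠ 0 → (comps S i).Unit f := fun i hi =>
    Comp.unit_of_redF_ne (hf i).1 (by rw [(hf i).2]; fin_cases i <;> simp at hi ⊢)
  have h0 : (comps S 0).AtLeast 1 f := (Comp.redF_eq_zero (hf 0).1).mp (hf 0).2
  have hf0 : f ≠ 0 := (hu 1 (by decide)).1
  have h0' := h0.resolve_left hf0
  by_cases he : (comps S 0).ord f = 1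
  · exact ⟨f, hf0, he, (hu 1 (by decide)).2, (hu 2 (by decide)).2⟩
  have hw : ∀ i, (w : ↥(FixF A M w)) ∈ (comps S i).V ∧ (comps S i).redF (w : ↥(FixF A M w)) = 0 := by
    intro i
    obtain ⟨hm, hr⟩ := comps_rep_const S i (w : Afix A)
    rw [map_natCast] at hm hr
    exact ⟨hm, by rw [hr, resA_w S, map_zero]⟩
  have hg : ∀ i : Fin 3, i ≠ 0 → (comps S i).Unit (f + (w : ↥(FixF A M w))) := fun i hi =>
    Comp.unit_of_redF_ne (add_mem (hf i).1 (hw i).1) (by
      rw [Comp.redF_add (hf i).1 (hw i).1, (hw i).2, add_zero]; exact (hu i hi).redF_ne)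
  refine ⟨f + w, (hg 1 (by decide)).1, ?_, (hg 1 (by decide)).2, (hg 2 (by decide)).2⟩
  have hwne : (w : ↥(FixF A M w)) ≠ 0 := fun e => by
    have := comp0_w S; rw [e, show (comps S 0).ord 0 = 0 from dif_pos rfl] at this; omega
  have h1 : (comps S 0).AtLeast 1 (f + w) := h0.add (Or.inr (comp0_w S).ge)
  have h1' := h1.resolve_left (hg 1 (by decide)).1
  by_contra hne
  have h2 : (comps S 0).AtLeast 2 (f + w - f) :=
    Comp.AtLeast.sub (Or.inr (by omega)) (Or.inr (by omega))
  rw [add_sub_cancel_left] at h2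
  have := h2.resolve_left hwne
  rw [comp0_w] at this
  omega

/-- **Independent orders.** -/
theorem indep (d : Fin 3 → ℤ) :
    ∃ f : ↥(FixF A M w), f ≠ 0 ∧ ∀ i, (comps S i).ord f = d i := by
  obtain ⟨e, he, e0, e1, e2⟩ := exists_ord_100 S
  obtain ⟨u0, u1, u2⟩ := comp_uF S
  obtain ⟨s0, s1, s2⟩ := comps_ord_swF S he
  have hu : uF S ≠ 0 := (rep0_uF S).ne_zero (neg_hb_ne S)
  have hs : swF S e ≠ 0 := (map_ne_zero_iff _ (swF S).injective).mpr he
  refine ⟨e ^ d 0 * uF S ^ d 1 * swF S e ^ d 2, mul_ne_zero (mul_ne_zero (zpow_ne_zero _ he)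
    (zpow_ne_zero _ hu)) (zpow_ne_zero _ hs), fun i => ?_⟩
  rw [(comps S i).ord_mul _ _ (mul_ne_zero (zpow_ne_zero _ he) (zpow_ne_zero _ hu))
    (zpow_ne_zero _ hs), (comps S i).ord_mul _ _ (zpow_ne_zero _ he) (zpow_ne_zero _ hu),
    ord_zpow _ he, ord_zpow _ hu, ord_zpow _ hs]
  fin_cases i <;> simp_all

/-- The field of the constants and `T`. -/
abbrev K0 : Subfield ↥(FixF A M w) :=
  Subfield.closure ((Wc A M w : Set ↥(FixF A M w)) ∪ {Tp S})

theorem Tp_transcendental_bar :
    Transcendental Qbar ((Tp S : ↥(FixF A M w)) : ↥(modularFunctionFieldBar (M * w * w))) := by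
  refine fun halg => ?_
  obtain ⟨c, hc⟩ : ∃ c : Qbar, algebraMap Qbar _ c =
      ((Tp S : ↥(FixF A M w)) : ↥(modularFunctionFieldBar (M * w * w))) :=
    minpoly.mem_range_of_degree_eq_one Qbar _
      (IsAlgClosed.degree_eq_one_of_irreducible _ (minpoly.irreducible halg.isIntegral))
  have h := congrArg (fun z : ↥(modularFunctionFieldBar (M * w * w)) =>
    (z : Ser).coeff (-((1 * w : ℕ) : ℤ))) hc
  rw [coe_Tp, coe_jAt', jSer_coeff_neg,
    show ((algebraMap Qbar ↥(modularFunctionFieldBar (M * w * w)) c :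
      ↥(modularFunctionFieldBar (M * w * w))) : Ser) = algebraMap Qbar Ser c from rfl,
    algebraMap_laurentSeries_eq_single, HahnSeries.coeff_single_of_ne (by
      have := NeZero.pos w; omega)] at h
  exact zero_ne_one h

theorem fixedConst_mem_K0 {c : Qbar} (hc : ∀ σ ∈ A.inertiaSubgroupIn ℚ, σ c = c) :
    ∃ h : algebraMap Qbar ↥(modularFunctionFieldBar (M * w * w)) c ∈ FixF A M w,
      (⟨_, h⟩ : ↥(FixF A M w)) ∈ K0 S := by
  refine ⟨LevelP.const_mem_fixed_iff.mpr hc, ?_⟩
  rcases A.mem_or_inv_mem c with h | h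
  · exact Subfield.subset_closure (Or.inl ⟨⟨c, mem_Afix.mpr ⟨h, hc⟩⟩, rfl⟩)
  · have hm : cW A M w ⟨c⁻¹, mem_Afix.mpr ⟨h, fun σ hσ => by rw [map_inv₀, hc σ hσ]⟩⟩ ∈ K0 S :=
      Subfield.subset_closure (Or.inl ⟨_, rfl⟩)
    have := (K0 S).inv_mem hm
    convert this using 1
    refine Subtype.ext ?_
    show algebraMap Qbar _ c = ((algebraMap Qbar ↥(modularFunctionFieldBar (M * w * w))) c⁻¹)⁻¹
    rw [map_inv₀, inv_inv]

theorem eq_zero_of_poly_comb {J : Type*} (s : Finset J) (f : J → ↥(FixF A M w))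
    (hli : ∀ g : J → ↥(K0 S), ∑ i ∈ s, g i • f i = 0 → ∀ i ∈ s, g i = 0)
    (p : J → Polynomial Qbar)
    (h : ∑ i ∈ s, Polynomial.aeval
      ((Tp S : ↥(FixF A M w)) : ↥(modularFunctionFieldBar (M * w * w))) (p i) *
        (f i : ↥(modularFunctionFieldBar (M * w * w))) = 0) :
    ∀ i ∈ s, p i = 0 := by
  classical
  by_contra hne
  push Not at hne
  obtain ⟨i0, hi0, hp0⟩ := hne
  obtain ⟨k0, hk0⟩ : ∃ k, (p i0).coeff k ≠ 0 :=
    ⟨_, Polynomial.leadingCoeff_ne_zero.mpr hp0⟩
  obtain ⟨ψ, hψ⟩ : ∃ ψ : Qbar →ₗ[inertiaField A] inertiaField A, ψ ((p i0).coeff k0) ≠ 0 := by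
    by_contra! hh
    exact hk0 ((Module.forall_dual_apply_eq_zero_iff (inertiaField A) _).mp hh)
  set φ : Qbar →ₗ[inertiaField A] Qbar := (Algebra.linearMap (inertiaField A) Qbar).comp ψ
  have hφ : ∀ c, ∀ σ ∈ A.inertiaSubgroupIn ℚ, σ (φ c) = φ c :=
    fun c σ hσ => (ψ c).2 ⟨σ, hσ⟩
  set T : ↥(modularFunctionFieldBar (M * w * w)) :=
    ((Tp S : ↥(FixF A M w)) : ↥(modularFunctionFieldBar (M * w * w)))
  let L : Ser →+ Ser :=
    { toFun := fun z => z.map φ
      map_zero' := by ext n; simp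
      map_add' := fun a b => by ext n; simp }
  set q : J → Polynomial Qbar := fun i =>
    ∑ k ∈ (p i).support, Polynomial.monomial k (φ ((p i).coeff k))
  have hq : ∑ i ∈ s, Polynomial.aeval T (q i) *
      (f i : ↥(modularFunctionFieldBar (M * w * w))) = 0 := by
    refine Subtype.ext ?_
    have e := congrArg (fun z : ↥(modularFunctionFieldBar (M * w * w)) => L (z : Ser)) h
    simp only [ZeroMemClass.coe_zero, map_zero] at e
    rw [ZeroMemClass.coe_zero, ← e, AddSubmonoidClass.coe_finsetSum,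
      AddSubmonoidClass.coe_finsetSum, map_sum L]
    refine Finset.sum_congr rfl fun i _ => ?_
    simp only [q, map_sum, Polynomial.aeval_monomial, Finset.sum_mul]
    conv_rhs => rw [(p i).as_sum_support, map_sum, Finset.sum_mul, AddSubmonoidClass.coe_finsetSum,
      map_sum]
    rw [AddSubmonoidClass.coe_finsetSum]
    refine Finset.sum_congr rfl fun k _ => ?_
    have hfix : InertiaFixedSeries A
        ((T ^ k * (f i : ↥(modularFunctionFieldBar (M * w * w))) :
          ↥(modularFunctionFieldBar (M * w * w))) : Ser) :=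
      fixed_iff.mp (mul_mem (pow_mem (Tp S).2 k) (f i).2)
    rw [Polynomial.aeval_monomial,
      mul_assoc (algebraMap Qbar ↥(modularFunctionFieldBar (M * w * w)) (φ ((p i).coeff k))),
      mul_assoc (algebraMap Qbar ↥(modularFunctionFieldBar (M * w * w)) ((p i).coeff k))]
    show algebraMap Qbar Ser _ * _ = (algebraMap Qbar Ser _ * _ : Ser).map φ
    rw [mul_comm (algebraMap Qbar Ser ((p i).coeff k)), LevelP.map_mul_of_fixed φ hfix, mul_comm]
    congr 1
    rw [algebraMap_laurentSeries_eq_single, algebraMap_laurentSeries_eq_single]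
    ext n
    by_cases hn : n = 0 <;> simp [hn]
  have hqfix : ∀ i, ∃ h : Polynomial.aeval T (q i) ∈ FixF A M w,
      (⟨_, h⟩ : ↥(FixF A M w)) ∈ K0 S := by
    intro i
    have hT : (Tp S) ∈ K0 S := Subfield.subset_closure (Or.inr rfl)
    have hmem : Polynomial.aeval T (q i) ∈ (K0 S).map (FixF A M w).subtype := by
      simp only [q, map_sum, Polynomial.aeval_monomial]
      refine sum_mem fun k _ => mul_mem ?_ (pow_mem (show T ∈ (K0 S).map _ from ⟨Tp S, hT, rfl⟩) k)
      obtain ⟨hc, hc'⟩ := fixedConst_mem_K0 (w := w) (M := M) S (hφ ((p i).coeff k))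
      exact ⟨⟨_, hc⟩, hc', rfl⟩
    obtain ⟨x, hx, hxe⟩ := hmem
    exact ⟨hxe ▸ x.2, by
      rw [show (⟨_, hxe ▸ x.2⟩ : ↥(FixF A M w)) = x from Subtype.ext hxe.symm]; exact hx⟩
  choose hqf hqK using hqfix
  have h0 := hli (fun i => ⟨_, hqK i⟩) (by
    refine Subtype.ext ?_
    rw [ZeroMemClass.coe_zero, ← hq, AddSubmonoidClass.coe_finsetSum]
    exact Finset.sum_congr rfl fun i _ => rfl) i0 hi0
  have h1 : Polynomial.aeval T (q i0) = 0 :=
    congrArg (fun z : ↥(K0 S) => ((z : ↥(FixF A M w)) : ↥(modularFunctionFieldBar (M * w * w)))) h0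
  have h2 := congrArg (fun r => Polynomial.coeff r k0)
    (transcendental_iff.mp (Tp_transcendental_bar S) _ h1)
  simp only [q, Polynomial.finsetSum_coeff, Polynomial.coeff_monomial, Finset.sum_ite_eq',
    Polynomial.coeff_zero] at h2
  rw [if_pos (Polynomial.mem_support_iff.mpr hk0)] at h2
  exact hψ (Subtype.ext (by simpa [φ] using h2))

/-- Elements independent over the constants and `T` are independent over `ℚ̄ (T)`. -/
theorem linearIndependent_adjoin {J : Type*} {f : J → ↥(FixF A M w)}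
    (hf : LinearIndependent ↥(K0 S) f) :
    LinearIndependent (IntermediateField.adjoin Qbar
      ({((Tp S : ↥(FixF A M w)) : ↥(modularFunctionFieldBar (M * w * w)))} :
        Set ↥(modularFunctionFieldBar (M * w * w))))
      (fun i => ((f i : ↥(FixF A M w)) : ↥(modularFunctionFieldBar (M * w * w)))) := by
  classical
  set T : ↥(modularFunctionFieldBar (M * w * w)) :=
    ((Tp S : ↥(FixF A M w)) : ↥(modularFunctionFieldBar (M * w * w)))
  rw [linearIndependent_iff']
  intro s g hg i hi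
  have hmem : ∀ i, ∃ r d : Polynomial Qbar, Polynomial.aeval T d ≠ 0 ∧
      ((g i : ↥(modularFunctionFieldBar (M * w * w)))) * Polynomial.aeval T d =
        Polynomial.aeval T r := by
    intro i
    obtain ⟨r, d, hrd⟩ := (IntermediateField.mem_adjoin_simple_iff Qbar _).mp (g i).2
    by_cases hd : Polynomial.aeval T d = 0
    · refine ⟨0, 1, by simp, ?_⟩
      rw [hrd, hd, div_zero, zero_mul, map_zero]
    · exact ⟨r, d, hd, by rw [hrd, div_mul_cancel₀ _ hd]⟩
  choose r d hd hrd using hmem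
  have hp := eq_zero_of_poly_comb S s f
    (fun g hg => linearIndependent_iff'.mp hf s g hg)
    (fun i => r i * ∏ j ∈ s.erase i, d j) (by
      refine Eq.trans ?_ (mul_zero (∏ j ∈ s, Polynomial.aeval T (d j)))
      rw [← hg, Finset.mul_sum]
      refine Finset.sum_congr rfl fun j hj => ?_
      rw [map_mul, map_prod, ← hrd, ← Finset.mul_prod_erase _ _ hj, IntermediateField.smul_def,
        smul_eq_mul]
      ring) i hi
  have hr : r i = 0 := (mul_eq_zero.mp hp).resolve_right (Finset.prod_ne_zero_iff.mpr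
    fun j _ e => hd j (by rw [e, map_zero]))
  have := hrd i
  rw [hr, map_zero, mul_eq_zero] at this
  exact Subtype.ext (this.resolve_right (hd i))

/-- **Finiteness over the constants and `T`.** -/
theorem finite_K0 : Module.Finite ↥(K0 S) ↥(FixF A M w) := by
  have := isFunctionField_level (M * w * w)
  have := FunctionFieldRR.finiteDimensional_adjoin (Tp_transcendental_bar S)
  let b := Module.Free.chooseBasis ↥(K0 S) ↥(FixF A M w)
  have : Finite (Module.Free.ChooseBasisIndex ↥(K0 S) ↥(FixF A M w)) :=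
    (linearIndependent_adjoin S b.linearIndependent).finite
  exact Module.Finite.of_basis b

/-- The degree over the constants and `T` is at most that over `ℚ̄ (T)`. -/
theorem finrank_K0_le : Module.finrank ↥(K0 S) ↥(FixF A M w) ≤
    Module.finrank (IntermediateField.adjoin Qbar
      ({((Tp S : ↥(FixF A M w)) : ↥(modularFunctionFieldBar (M * w * w)))} :
        Set ↥(modularFunctionFieldBar (M * w * w)))) ↥(modularFunctionFieldBar (M * w * w)) := by
  have := isFunctionField_level (M * w * w)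
  have := FunctionFieldRR.finiteDimensional_adjoin (Tp_transcendental_bar S)
  have := finite_K0 S
  exact (Fintype.card_fin _).ge.trans
    (linearIndependent_adjoin S (Module.finBasis ↥(K0 S) ↥(FixF A M w)).linearIndependent
      |>.fintype_card_le_finrank)

end Fermat.Agent.SquareOld.Geom
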