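import Fermat.Agent.SquareOld.Geom.Comps

/-!
# The two norms on fixed functions, and how they act on orders and residues
-/

set_option autoImplicit false
set_option linter.unusedSectionVars false
set_option linter.unusedVariables false
set_option synthInstance.maxHeartbeats 400000

noncomputable section

open IsLocalRing ModularCurve AlgebraicCurve Fermat.Agent.Reduction Fermat.Agent.SemistableRed

namespace Fermat.Agent.SquareOld.Geom

open Fermat.Agent.Congruence (twist twist_coeff)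
open LevelP (descent)

local notation "Qbar" => AlgebraicClosure ℚ
local notation "Ser" => LaurentSeries (AlgebraicClosure ℚ)

variable {A : ValuationSubring (AlgebraicClosure ℚ)} {M w : ℕ} [NeZero M] [NeZero w]
  [Fact w.Prime] [CharP (ResidueField A) w] [IsAlgClosed (ResidueField A)] (S : Setting A M w)

local notation "kS" => LaurentSeries (ResidueField A)
local notation "GG" => modularFunctionFieldFullC (ResidueField A) M

/-- The expansions of level `M w` on fixed functions. -/
def lfam (j : Fin 2) : RepFamily A ↥(descent S).F₀ Unit where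
  e _ := (S.side j).toRingHom.comp (descent S).F₀.subtype
  π := (fam0 S).π
  π_ne := (fam0 S).π_ne
  π_mem := (fam0 S).π_mem
  π_res := (fam0 S).π_res

/-- Series themselves, with the uniformiser `w`. -/
def famS : RepFamily A Ser Unit where
  e _ := RingHom.id _
  π := (fam0 S).π
  π_ne := (fam0 S).π_ne
  π_mem := (fam0 S).π_mem
  π_res := (fam0 S).π_res

theorem lfam_e (j : Fin 2) (u : Unit) (a : ↥(descent S).F₀) :
    (lfam S j).e u a = S.side j (a : ↥(modularFunctionFieldBar (M * w))) := rfl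

theorem lrep_iff {j : Fin 2} {a : ↥(descent S).F₀} {m : ℤ} {v : kS} :
    (lfam S j).Rep a m v ↔
      (famS S).Rep (S.side j (a : ↥(modularFunctionFieldBar (M * w)))) m v := Iff.rfl

theorem lfacts (j : Fin 2) : (lfam S j).Facts GG where
  exists_rep f hf := by
    obtain ⟨m, hm, hm0⟩ := LevelP.exists_fixed_normalise S j (LevelP.mem_fixed_iff.mp f.2)
      fun e => hf (Subtype.ext e)
    refine ⟨-m, _, fun e => hm0 (Subtype.ext e), fun u => ?_⟩
    have h := S.srep_red hm
    rw [S.side_smul] at h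
    rw [lfam_e, show (lfam S j).π u = (w : Qbar) from rfl, zpow_neg, inv_inv]
    exact h
  mem f v h := by
    have := h ()
    rw [zpow_zero, inv_one, one_smul, lfam_e] at this
    exact S.srep_mem this
  exists_one := ⟨(w : ↥(descent S).F₀), 1, one_ne_zero, fun u => by
    rw [map_natCast, show (lfam S j).π u = (w : Qbar) from rfl, zpow_one, smul_eq_algebraMap_mul,
      ← map_natCast (algebraMap Qbar Ser), ← map_mul,
      inv_mul_cancel₀ (Nat.cast_ne_zero.mpr (NeZero.ne w)), map_one]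
    exact SRep.one⟩
  lift z := by
    obtain ⟨a, ha⟩ := exists_alpha_red S ![z, z]
    refine ⟨a, fun u => ?_⟩
    rw [zpow_zero, inv_one, one_smul, lfam_e]
    have := ha j
    fin_cases j <;> exact this

/-- The two components of level `M w`. -/
def low (j : Fin 2) : Comp ↥(descent S).F₀ ↥GG := RepFamily.toComp (lfacts S j)

theorem normAlong_fixed {x : ↥(modularFunctionFieldBar (M * w * w))} (hx : x ∈ FixF A M w) :
    normAlong (heckeAlphaBar Qbar (M * w) w) x ∈ (descent S).F₀ ∧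
      normAlong (heckeBetaBar Qbar (M * w) w) x ∈ (descent S).F₀ := by
  have h : ∀ σ ∈ A.inertiaSubgroupIn ℚ,
      arithmeticGalois (modularFunctionFieldFull (M * w * w)) σ • x = x :=
    fun σ hσ => hx _ ⟨σ, hσ, rfl⟩
  constructor <;> rintro _ ⟨σ, hσ, rfl⟩
  · exact (normAlong_galois_alpha' (M := M) (w := w) σ x).symm.trans (congrArg _ (h σ hσ))
  · exact (normAlong_galois_beta' (M := M) (w := w) σ x).symm.trans (congrArg _ (h σ hσ))

/-- The norm along `α` on fixed functions. -/
def nmA : ↥(FixF A M w) →* ↥(descent S).F₀ where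
  toFun x := ⟨normAlong (heckeAlphaBar Qbar (M * w) w) x, (normAlong_fixed S x.2).1⟩
  map_one' := Subtype.ext (by
    let := algebraAlong (heckeAlphaBar Qbar (M * w) w)
    exact (Algebra.norm ↥(modularFunctionFieldBar (M * w))).map_one)
  map_mul' x y := Subtype.ext (by
    let := algebraAlong (heckeAlphaBar Qbar (M * w) w)
    exact (Algebra.norm ↥(modularFunctionFieldBar (M * w))).map_mul _ _)

/-- The norm along `β` on fixed functions. -/
def nmB : ↥(FixF A M w) →* ↥(descent S).F₀ where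
  toFun x := ⟨normAlong (heckeBetaBar Qbar (M * w) w) x, (normAlong_fixed S x.2).2⟩
  map_one' := Subtype.ext (by
    let := algebraAlong (heckeBetaBar Qbar (M * w) w)
    exact (Algebra.norm ↥(modularFunctionFieldBar (M * w))).map_one)
  map_mul' x y := Subtype.ext (by
    let := algebraAlong (heckeBetaBar Qbar (M * w) w)
    exact (Algebra.norm ↥(modularFunctionFieldBar (M * w))).map_mul _ _)

/-- Both norms. -/
def nm : Fin 2 → ↥(FixF A M w) →* ↥(descent S).F₀ := ![nmA S, nmB S]

theorem normAlong_ne {φ : ↥(modularFunctionFieldBar (M * w)) →ₐ[Qbar]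
    ↥(modularFunctionFieldBar (M * w * w))} (hd : finrankAlong Qbar φ = w)
    {x : ↥(modularFunctionFieldBar (M * w * w))} (hx : x ≠ 0) : normAlong φ x ≠ 0 := by
  let := algebraAlong φ
  have : Module.Finite ↥(modularFunctionFieldBar (M * w)) ↥(modularFunctionFieldBar (M * w * w)) :=
    Module.finite_of_finrank_pos (by rw [show Module.finrank _ _ = w from hd]; exact NeZero.pos w)
  exact Algebra.norm_ne_zero_iff.mpr hx

theorem normAlong_algebraMap {φ : ↥(modularFunctionFieldBar (M * w)) →ₐ[Qbar]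
    ↥(modularFunctionFieldBar (M * w * w))} (hd : finrankAlong Qbar φ = w)
    (a : ↥(modularFunctionFieldBar (M * w))) : normAlong φ (φ a) = a ^ w := by
  let := algebraAlong φ
  show Algebra.norm _ (algebraMap _ _ a) = _
  rw [Algebra.norm_algebraMap, show Module.finrank _ _ = w from hd]

theorem nm_ne (t : Fin 2) {x : ↥(FixF A M w)} (hx : x ≠ 0) : nm S t x ≠ 0 := by
  have hx' : (x : ↥(modularFunctionFieldBar (M * w * w))) ≠ 0 := fun e => hx (Subtype.ext e)
  intro e
  have := congrArg Subtype.val e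
  fin_cases t
  · exact normAlong_ne (finrankAlong_alpha_eq (M := M) S.prime) hx' this
  · exact normAlong_ne (finrankAlong_beta_eq S.prime S.not_dvd) hx' this

theorem nm_w (t : Fin 2) :
    nm S t (w : ↥(FixF A M w)) = (w : ↥(descent S).F₀) ^ w := by
  refine Subtype.ext ?_
  fin_cases t
  · show normAlong (heckeAlphaBar Qbar (M * w) w) ((w : ↥(FixF A M w)) :
      ↥(modularFunctionFieldBar (M * w * w))) = _
    have := normAlong_algebraMap (finrankAlong_alpha_eq (M := M) S.prime)
      (w : ↥(modularFunctionFieldBar (M * w)))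
    rw [map_natCast] at this
    simpa using this
  · show normAlong (heckeBetaBar Qbar (M * w) w) ((w : ↥(FixF A M w)) :
      ↥(modularFunctionFieldBar (M * w * w))) = _
    have := normAlong_algebraMap (finrankAlong_beta_eq S.prime S.not_dvd)
      (w : ↥(modularFunctionFieldBar (M * w)))
    rw [map_natCast] at this
    simpa using this

/-- The norms are exchanged by the involutions. -/
theorem side_nmB (j : Fin 2) (x : ↥(FixF A M w)) :
    S.side j ((nmB S x : ↥(descent S).F₀) : ↥(modularFunctionFieldBar (M * w))) =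
      S.side (1 - j) ((nmA S (swF S x) : ↥(descent S).F₀) :
        ↥(modularFunctionFieldBar (M * w))) := by
  show S.side j (normAlong (heckeBetaBar Qbar (M * w) w) _) = _
  rw [normBeta_eq S.prime S.not_dvd]
  exact S.side_w j _

theorem twist_smul (c : Qbarˣ) (a : Qbar) (X : Ser) : twist c (a • X) = a • twist c X := by
  rw [smul_eq_algebraMap_mul, smul_eq_algebraMap_mul, map_mul, algebraMap_laurentSeries_eq_single,
    Congruence.twist_single_zero]

theorem prod_midIdx_pw :
    ∏ t : MidIdx w, pw w t.1 = ((-1 : Qbar) ^ (w - 1)) * (w : Qbar) := by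
  classical
  have e : ∏ t : MidIdx w, pw w t.1 = ∏ i ∈ Finset.range (w - 1), pw w (i + 1) := by
    refine Finset.prod_bij (fun t _ => (t.1 : ℕ) - 1) (fun t _ => ?_) (fun t _ t' _ h => ?_)
      (fun i hi => ?_) (fun t _ => ?_)
    · have := t.1.isLt
      have : (t.1 : ℕ) ≠ 0 := fun e => t.2 (e ▸ dvd_zero w)
      rw [Finset.mem_range]; omega
    · have : (t.1 : ℕ) ≠ 0 := fun e => t.2 (e ▸ dvd_zero w)
      have : (t'.1 : ℕ) ≠ 0 := fun e => t'.2 (e ▸ dvd_zero w)
      exact Subtype.ext (Fin.ext (by omega))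
    · rw [Finset.mem_range] at hi
      exact ⟨⟨⟨i + 1, by omega⟩, Nat.not_dvd_of_pos_of_lt i.succ_pos (by
        show i + 1 < w; omega)⟩, Finset.mem_univ _, rfl⟩
    · have : (t.1 : ℕ) ≠ 0 := fun e => t.2 (e ▸ dvd_zero w)
      congr 1; omega
  have h := prod_pw (w := w)
  rw [Finset.prod_neg, Finset.card_range] at h
  rw [e, ← h, ← mul_assoc, ← mul_pow, neg_mul_neg, one_mul, one_pow, one_mul]

theorem srep_prod {J : Type*} (s : Finset J) {f : J → Ser} {g : J → kS}
    (h : ∀ j ∈ s, SRep (f j) (g j)) : SRep (∏ j ∈ s, f j) (∏ j ∈ s, g j) := by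
  classical
  induction s using Finset.induction with
  | empty => simpa using SRep.one (A := A)
  | insert j t hj ih =>
    rw [Finset.prod_insert hj, Finset.prod_insert hj]
    exact (h j (Finset.mem_insert_self j t)).mul (ih fun a ha => h a (Finset.mem_insert_of_mem ha))

variable (A w) in
/-- The sign `(-1) ^ ((w - 1) m)`. -/
def sgnN (m : ℤ) : ResidueField A := (((-1 : ResidueField A) ^ (w - 1)) ^ m)⁻¹

theorem prod_smul_series {J : Type*} (s : Finset J) (a : J → Qbar) (X : J → Ser) :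
    ∏ j ∈ s, a j • X j = (∏ j ∈ s, a j) • ∏ j ∈ s, X j := by
  simp only [smul_eq_algebraMap_mul]
  rw [Finset.prod_mul_distrib, ← map_prod]

/-- The norm along `α` at the first component. -/
theorem rep_nmA_zero {x : ↥(FixF A M w)} {m0 m1 : ℤ} {v0 v1 : kS}
    (h0 : (fam0 S).Rep x m0 v0) (h1 : (fam1 S).Rep x m1 v1) :
    (lfam S 0).Rep (nmA S x) (m0 + m1)
      (algebraMap (ResidueField A) kS (sgnN A w m1)⁻¹ * (v0 * v1 ^ (w - 1))) := by
  intro u
  have hp := (h0 u).mul (srep_prod (Finset.univ : Finset (MidIdx w)) fun t _ => h1 t)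
  rw [prod_smul_series, RepFamily.smul_mul_smul', Finset.prod_const,
    show (Finset.univ : Finset (MidIdx w)).card = w - 1 from
      Finset.card_univ.trans (card_midIdx S.prime)] at hp
  simp only [fam0_e, fam1_e, fam0_pi, fam1_pi] at hp
  rw [Finset.prod_inv_distrib, Finset.prod_zpow, prod_midIdx_pw,
    ← coe_normAlpha S.prime S.not_dvd] at hp
  rw [lfam_e, S.side_zero]
  show SRep (((w : Qbar) ^ (m0 + m1))⁻¹ • _) _
  set r : A := (-1 : A) ^ (w - 1)
  have hr : (r : Qbar) = (-1 : Qbar) ^ (w - 1) := by simp [r]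
  have hr' : residue A r = (-1 : ResidueField A) ^ (w - 1) := by simp [r]
  have hc := srep_zpow_const (A := A) (r := r) (by
    rw [hr']; exact pow_ne_zero _ (neg_ne_zero.mpr one_ne_zero)) m1
  have h := hc.mul hp
  rw [hr', sgnN, inv_inv] at *
  rw [smul_eq_algebraMap_mul, ← mul_assoc, ← map_mul] at h
  rw [smul_eq_algebraMap_mul]
  rwa [show (r : Qbar) ^ m1 *
      (((w : Qbar) ^ m0)⁻¹ * (((-1 : Qbar) ^ (w - 1) * (w : Qbar)) ^ m1)⁻¹) =
      ((w : Qbar) ^ (m0 + m1))⁻¹ by
    rw [hr, mul_zpow, zpow_add₀ (Nat.cast_ne_zero.mpr (NeZero.ne w) : (w : Qbar) ≠ 0)]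
    have : ((-1 : Qbar) ^ (w - 1)) ^ m1 ≠ 0 :=
      zpow_ne_zero _ (pow_ne_zero _ (neg_ne_zero.mpr one_ne_zero))
    field_simp] at h

theorem rep_prod_twist {X : Ser} {m : ℤ} {v : kS} (h : (famS S).Rep X m v) :
    (famS S).Rep (∏ b : Fin w, twist (zeta w ^ (b : ℕ)) X) ((w : ℤ) * m) (v ^ w) := by
  intro u
  have hp := srep_prod (Finset.univ : Finset (Fin w)) (g := fun _ => v)
    (f := fun b => ((w : Qbar) ^ m)⁻¹ • twist (zeta w ^ (b : ℕ)) X) fun b _ => by
      rw [← twist_smul]; exact SRep_twist (h u) b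
  rw [prod_smul_series, Finset.prod_const, Finset.prod_const, Finset.card_univ,
    Fintype.card_fin] at hp
  show SRep (((w : Qbar) ^ ((w : ℤ) * m))⁻¹ • _) _
  rwa [mul_comm, zpow_mul, zpow_natCast, ← inv_pow]

theorem rep_qExpand {X : Ser} {m : ℤ} {v : kS} (h : (famS S).Rep X m v) :
    (famS S).Rep (qExpand Qbar w X) m (qExpand (ResidueField A) w v) := by
  intro u
  have := (h u).qExpand w
  rw [smul_eq_algebraMap_mul, map_mul, algebraMap_laurentSeries_eq_single, qExpand_single,
    mul_zero, ← algebraMap_laurentSeries_eq_single, ← smul_eq_algebraMap_mul] at this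
  exact this

theorem famS_rep0 {x : ↥(FixF A M w)} {m : ℤ} {v : kS} (h : (fam0 S).Rep x m v) :
    (famS S).Rep ((x : ↥(modularFunctionFieldBar (M * w * w))) : Ser) m v := h

/-- The norm along `α` at the second component. -/
theorem rep_nmA_one {x : ↥(FixF A M w)} {m2 : ℤ} {v2 : kS} (h : (fam2 S).Rep x m2 v2)
    (hv : v2 ≠ 0) :
    ∃ u : kS, u ≠ 0 ∧ (lfam S 1).Rep (nmA S x) ((w : ℤ) * m2) u ∧
      qExpand (ResidueField A) w u = v2 ^ w := by
  have hx : x ≠ 0 := h.ne_zero hv
  obtain ⟨μ, u, hu, hμ⟩ := (lfacts S 1).exists_rep (nmA S x) (nm_ne S 0 hx)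
  have h1 := rep_qExpand S ((lrep_iff S).mp hμ)
  have h2 := rep_prod_twist S (famS_rep0 S ((rep2_iff S).mp h))
  have e : qExpand Qbar w (S.side 1 ((nmA S x : ↥(descent S).F₀) :
      ↥(modularFunctionFieldBar (M * w)))) =
      ∏ b : Fin w, twist (zeta w ^ (b : ℕ))
        (((swF S x : ↥(FixF A M w)) : ↥(modularFunctionFieldBar (M * w * w))) : Ser) := by
    have e0 := side_nmB S 0 (swF S x)
    rw [swF_swF] at e0
    rw [show (1 : Fin 2) - 0 = 1 from rfl] at e0
    rw [← e0, S.side_zero]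
    exact qExpand_normBeta S.prime S.not_dvd _
  rw [e] at h1
  have hu' : qExpand (ResidueField A) w u ≠ 0 :=
    (map_ne_zero_iff _ (qExpand_injective (R := ResidueField A) w)).mpr hu
  have hm := h1.order_unique hu' h2 (pow_ne_zero _ hv)
  subst hm
  exact ⟨u, hu, hμ, h1.unique h2⟩

/-- The middle component under the involution. -/
theorem rep1_swF {x : ↥(FixF A M w)} {m : ℤ} {v : kS} (h : (fam1 S).Rep x m v) :
    (fam1 S).Rep (swF S x) m
      (algebraMap (ResidueField A) kS ((-1 : ResidueField A) ^ m) * v) := by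
  intro t
  have hlt := t.1.isLt
  have ht0 : (t.1 : ℕ) ≠ 0 := fun e => t.2 (e ▸ dvd_zero w)
  have hd' : ¬ w ∣ w - (t.1 : ℕ) := Nat.not_dvd_of_pos_of_lt (by omega) (by omega)
  set t' : MidIdx w := ⟨⟨w - (t.1 : ℕ), by omega⟩, hd'⟩
  have h' := h t'
  rw [fam1_e, fam1_pi] at h'
  rw [fam1_e, fam1_pi]
  show SRep ((pw w t.1 ^ m)⁻¹ • mid S.prime S.not_dvd t.1 t.2 (sw S.prime S.not_dvd _)) _
  rw [mid_sw S.prime S.not_dvd t.2 hd' (by
    rw [show (t.1 : ℕ) + (w - (t.1 : ℕ)) = w by omega])]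
  obtain ⟨r, hr, hrk⟩ := exists_pw_ratio (A := A) (w := w) (s := w - (t.1 : ℕ)) t.2
  have hr' : residue A r = -1 := by
    have ht' : ((t.1 : ℕ) : ResidueField A) ≠ 0 := by
      rw [Ne, CharP.cast_eq_zero_iff (ResidueField A) w]; exact t.2
    rw [Nat.cast_sub hlt.le, CharP.cast_eq_zero (ResidueField A) w, zero_sub] at hrk
    exact mul_right_cancel₀ ht' (by rw [hrk, neg_one_mul])
  have hc := srep_zpow_const (A := A) (r := r) (by rw [hr']; exact neg_ne_zero.mpr one_ne_zero) m
  have h2 := SRep_twist h' t.1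
  rw [twist_smul] at h2
  have h3 := hc.mul h2
  rw [hr', smul_eq_algebraMap_mul, ← mul_assoc, ← map_mul] at h3
  rw [smul_eq_algebraMap_mul]
  have hr0 : (r : Qbar) ≠ 0 := fun e => by
    rw [show r = 0 from Subtype.ext e, map_zero] at hr'
    exact one_ne_zero (neg_eq_zero.mp hr'.symm)
  have hc' : (r : Qbar) ^ m * (pw w (t'.1 : ℕ) ^ m)⁻¹ = (pw w t.1 ^ m)⁻¹ := by
    show (r : Qbar) ^ m * (pw w (w - (t.1 : ℕ)) ^ m)⁻¹ = _
    rw [← hr, mul_zpow, mul_inv, ← mul_assoc, mul_inv_cancel₀ (zpow_ne_zero _ hr0), one_mul]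
  rw [← hc']
  exact h3

theorem rep0_swF {x : ↥(FixF A M w)} {m : ℤ} {v : kS} (h : (fam0 S).Rep x m v) :
    (fam2 S).Rep (swF S x) m v := (rep2_iff S).mpr (by rwa [swF_swF])

theorem rep2_swF {x : ↥(FixF A M w)} {m : ℤ} {v : kS} (h : (fam2 S).Rep x m v) :
    (fam0 S).Rep (swF S x) m v := (rep2_iff S).mp h

theorem lrep_nmB {j : Fin 2} {x : ↥(FixF A M w)} {m : ℤ} {v : kS} :
    (lfam S j).Rep (nmB S x) m v ↔ (lfam S (1 - j)).Rep (nmA S (swF S x)) m v := by
  rw [lrep_iff, lrep_iff, side_nmB]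

theorem ord_norm {x : ↥(FixF A M w)} (hx : x ≠ 0) :
    (∀ t, nm S t x ≠ 0) ∧
    (low S 0).ord (nm S 0 x) = (comps S 0).ord x + (comps S 1).ord x ∧
    (low S 1).ord (nm S 0 x) = w * (comps S 2).ord x ∧
    (low S 0).ord (nm S 1 x) = w * (comps S 0).ord x ∧
    (low S 1).ord (nm S 1 x) = (comps S 2).ord x + (comps S 1).ord x := by
  obtain ⟨v0, hv0, h0⟩ := RepFamily.toComp_rep_ord (facts0 S) hx
  obtain ⟨v1, hv1, h1⟩ := RepFamily.toComp_rep_ord (facts1 S) hx
  obtain ⟨v2, hv2, h2⟩ := RepFamily.toComp_rep_ord (facts2 S) hx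
  have hne : ∀ (m : ℤ) (a b : kS), a ≠ 0 → b ≠ 0 →
      algebraMap (ResidueField A) kS (sgnN A w m)⁻¹ * (a * b ^ (w - 1)) ≠ 0 := fun m a b ha hb =>
    mul_ne_zero ((map_ne_zero _).mpr (inv_ne_zero (inv_ne_zero (zpow_ne_zero _
      (pow_ne_zero _ (neg_ne_zero.mpr one_ne_zero))))))
      (mul_ne_zero ha (pow_ne_zero _ hb))
  obtain ⟨u, hu, hu1, -⟩ := rep_nmA_one S h2 hv2
  obtain ⟨u', hu', hu1', -⟩ := rep_nmA_one S (rep0_swF S h0) hv0
  have hc : algebraMap (ResidueField A) kS ((-1 : ResidueField A) ^ ((comps S 1).ord x)) * v1 ≠ 0 :=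
    mul_ne_zero ((map_ne_zero _).mpr (zpow_ne_zero _ (neg_ne_zero.mpr one_ne_zero))) hv1
  refine ⟨fun t => nm_ne S t hx, RepFamily.toComp_ord _ (rep_nmA_zero S h0 h1) (hne _ _ _ hv0 hv1),
    RepFamily.toComp_ord _ hu1 hu, ?_, ?_⟩
  · exact RepFamily.toComp_ord _ (show (lfam S 0).Rep (nmB S x) _ u' from (lrep_nmB S).mpr hu1') hu'
  · refine RepFamily.toComp_ord _ (show (lfam S 1).Rep (nmB S x) _ _ from (lrep_nmB S).mpr
      (rep_nmA_zero S (rep2_swF S h2) (rep1_swF S h1))) (hne _ _ _ hv2 hc)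

/-- The reductions of the two norms of a function that is a unit at the three components. -/
theorem red_norm {x : ↥(FixF A M w)} (hx : ∀ i, (comps S i).Unit x) :
    (low S 0).redF (nm S 0 x) = (comps S 0).redF x * (comps S 1).redF x ^ (w - 1) ∧
    piG (ResidueField A) M w ((low S 1).redF (nm S 0 x)) = (comps S 2).redF x ^ w ∧
    piG (ResidueField A) M w ((low S 0).redF (nm S 1 x)) = (comps S 0).redF x ^ w ∧
    (low S 1).redF (nm S 1 x) = (comps S 2).redF x * (comps S 1).redF x ^ (w - 1) := by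
  have h0 := RepFamily.toComp_rep (facts0 S) (hx 0).mem
  have h1 := RepFamily.toComp_rep (facts1 S) (hx 1).mem
  have h2 := RepFamily.toComp_rep (facts2 S) (hx 2).mem
  have hv0 : ((RepFamily.toComp (facts0 S)).redF x : kS) ≠ 0 := fun e =>
    (hx 0).redF_ne (Subtype.ext e)
  have hv2 : ((RepFamily.toComp (facts2 S)).redF x : kS) ≠ 0 := fun e =>
    (hx 2).redF_ne (Subtype.ext e)
  have hA := rep_nmA_zero S h0 h1
  have hB := rep_nmA_zero S (rep2_swF S h2) (rep1_swF S h1)
  replace hB := (lrep_nmB S (j := 1)).mpr hB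
  simp only [sgnN, zpow_zero, inv_one, map_one, one_mul, add_zero] at hA hB
  obtain ⟨u, -, hu, hue⟩ := rep_nmA_one S h2 hv2
  obtain ⟨u', -, hu', hue'⟩ := rep_nmA_one S (rep0_swF S h0) hv0
  rw [mul_zero] at hu hu'
  refine ⟨Subtype.ext ?_, Subtype.ext ?_, Subtype.ext ?_, Subtype.ext ?_⟩
  · exact RepFamily.toComp_redF (lfacts S 0) hA
  · rw [coe_piG, SubmonoidClass.coe_pow]
    exact (congrArg _ (RepFamily.toComp_redF (lfacts S 1) hu)).trans hue
  · rw [coe_piG, SubmonoidClass.coe_pow]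
    exact (congrArg _ (RepFamily.toComp_redF (lfacts S 0) ((lrep_nmB S).mpr hu'))).trans hue'
  · exact RepFamily.toComp_redF (lfacts S 1) hB

end Fermat.Agent.SquareOld.Geom
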