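import Fermat.Agent.SquareOld.Geom.Chart

/-!
# The involution and the charts

The involution fixes constants and parameter, so preserves both charts; it exchanges the outer
components and keeps the residue along the middle one.
-/

set_option autoImplicit false
set_option linter.unusedSectionVars false
set_option linter.unusedVariables false

noncomputable section

open IsLocalRing ModularCurve AlgebraicCurve Fermat.Agent.Reduction Fermat.Agent.SemistableRed

namespace Fermat.Agent.SquareOld.Geom

open LevelP (descent)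

local notation "Qbar" => AlgebraicClosure ℚ

variable {A : ValuationSubring (AlgebraicClosure ℚ)} {M w : ℕ} [NeZero M] [NeZero w]
  [Fact w.Prime] [CharP (ResidueField A) w] [IsAlgClosed (ResidueField A)] (S : Setting A M w)

local notation "GG" => modularFunctionFieldFullC (ResidueField A) M

/-- The components under the involution. -/
def swI : Fin 3 → Fin 3 := ![2, 1, 0]

theorem swI_swI (i : Fin 3) : swI (swI i) = i := by fin_cases i <;> rfl

theorem swF_const {x : ↥(FixF A M w)} (hx : x ∈ Wc A M w) : swF S x = x := by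
  obtain ⟨c, rfl⟩ := hx
  exact Subtype.ext ((sw S.prime S.not_dvd).commutes _)

theorem comps_swF_aux {x : ↥(FixF A M w)} {i : Fin 3} (hx : x ∈ (comps S i).V) :
    swF S x ∈ (comps S (swI i)).V ∧
      (comps S (swI i)).redF (swF S x) = (comps S i).redF x := by
  fin_cases i
  · have h := rep0_swF S (RepFamily.toComp_rep (facts0 S) hx)
    exact ⟨RepFamily.toComp_mem _ h, Subtype.ext (RepFamily.toComp_redF (facts2 S) h)⟩
  · have h := rep1_swF S (RepFamily.toComp_rep (facts1 S) hx)
    rw [zpow_zero, map_one, one_mul] at h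
    exact ⟨RepFamily.toComp_mem _ h, Subtype.ext (RepFamily.toComp_redF (facts1 S) h)⟩
  · have h := rep2_swF S (RepFamily.toComp_rep (facts2 S) hx)
    exact ⟨RepFamily.toComp_mem _ h, Subtype.ext (RepFamily.toComp_redF (facts0 S) h)⟩

theorem swF_mem_comps_iff {x : ↥(FixF A M w)} {i : Fin 3} :
    swF S x ∈ (comps S i).V ↔ x ∈ (comps S (swI i)).V := by
  refine ⟨fun h => ?_, fun h => ?_⟩
  · have := (comps_swF_aux S h).1
    rwa [swF_swF] at this
  · have := (comps_swF_aux S h).1
    rwa [swI_swI] at this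

theorem redF_swF (x : ↥(FixF A M w)) (i : Fin 3) :
    (comps S i).redF (swF S x) = (comps S (swI i)).redF x := by
  classical
  by_cases h : x ∈ (comps S (swI i)).V
  · have := (comps_swF_aux S h).2
    rwa [swI_swI] at this
  · rw [Comp.redF, dif_neg fun h' => h ((swF_mem_comps_iff S).mp h'), Comp.redF, dif_neg h]

theorem swF_mem_R {b : Bool} {x : ↥(FixF A M w)} (hx : x ∈ (chart S).R b) :
    swF S x ∈ (chart S).R b := by
  rw [Chart.mem_R] at hx ⊢
  intro V hW hpar
  refine hx (V.comap (swF S).toRingHom) (fun y hy => ?_) ?_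
  · show swF S y ∈ V
    rw [swF_const S hy]; exact hW y hy
  · show swF S ((chart S).par b) ∈ V
    cases b
    · show swF S (Tp S) ∈ V
      rw [swF_Tp]; exact hpar
    · show swF S (Tp S)⁻¹ ∈ V
      rw [map_inv₀, swF_Tp]; exact hpar

/-- The involution of a chart. -/
def swR (b : Bool) : (chart S).R b ≃+* (chart S).R b where
  toFun x := ⟨swF S x, swF_mem_R S x.2⟩
  invFun x := ⟨swF S x, swF_mem_R S x.2⟩
  left_inv x := Subtype.ext (swF_swF S _)
  right_inv x := Subtype.ext (swF_swF S _)
  map_mul' x y := Subtype.ext (map_mul (swF S) _ _)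
  map_add' x y := Subtype.ext (map_add (swF S) _ _)

theorem coe_swR {b : Bool} (x : (chart S).R b) : (swR S b x : ↥(FixF A M w)) = swF S x := rfl

theorem swR_swR {b : Bool} (x : (chart S).R b) : swR S b (swR S b x) = x :=
  Subtype.ext (swF_swF S _)

/-- The image of a point under the involution. -/
def swQ {b : Bool} (Q : Ideal ((chart S).R b)) : Ideal ((chart S).R b) := Q.comap (swR S b)

theorem mem_swQ {b : Bool} {Q : Ideal ((chart S).R b)} {x : (chart S).R b} :
    x ∈ swQ S Q ↔ swR S b x ∈ Q := Iff.rfl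

theorem swQ_swQ {b : Bool} (Q : Ideal ((chart S).R b)) : swQ S (swQ S Q) = Q := by
  ext x
  rw [mem_swQ, mem_swQ, swR_swR]

theorem closedPoint_swQ {b : Bool} {Q : Ideal ((chart S).R b)}
    (hQ : (chart S).ClosedPoint b Q) : (chart S).ClosedPoint b (swQ S Q) := by
  have := hQ.1
  refine ⟨Ideal.comap_isMaximal_of_surjective _ (swR S b).surjective,
    ⟨_, Chart.natCast_mem_R (chart S) b _⟩, ?_, rfl⟩
  rw [mem_swQ]
  obtain ⟨x, hx, e⟩ := hQ.2
  convert hx using 1
  refine Subtype.ext ?_
  rw [coe_swR, e]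
  exact map_natCast (swF S) _

theorem centred_swQ {b : Bool} {Q : Ideal ((chart S).R b)} {i : Fin 3} {O : ValuationSubring ↥GG}
    (h : (chart S).Centred b Q i O) : (chart S).Centred b (swQ S Q) (swI i) O := by
  obtain ⟨hk, hV, hO, hQ⟩ := h
  refine ⟨hk, fun x => ?_, fun x => ?_, fun x => ?_⟩
  · exact (swF_mem_comps_iff S).mp (hV (swR S b x))
  · show (comps S (swI i)).redF _ ∈ O
    rw [← redF_swF]
    exact hO (swR S b x)
  · rw [mem_swQ, hQ]
    show (comps S i).redF (swF S x) ∈ O.nonunits ↔ _
    rw [redF_swF]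
    exact Iff.rfl

/-- A branch on the middle component is kept. -/
theorem swQ_eq {b : Bool} {Q : Ideal ((chart S).R b)} {O : ValuationSubring ↥GG}
    (h : (chart S).Centred b Q 1 O) : swQ S Q = Q := by
  ext x
  rw [(centred_swQ S h).2.2.2 x, h.2.2.2 x]
  exact Iff.rfl

theorem swF_mem_localAt {b : Bool} {Q : Ideal ((chart S).R b)} [Q.IsPrime] [(swQ S Q).IsPrime]
    {x : ↥(FixF A M w)} (hx : x ∈ Chart.localAt b Q) : swF S x ∈ Chart.localAt b (swQ S Q) := by
  obtain ⟨c, d, hd, e⟩ := hx
  refine ⟨swR S b c, swR S b d, fun h => hd ?_, ?_⟩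
  · rwa [mem_swQ, swR_swR] at h
  · rw [coe_swR, coe_swR, ← e, map_mul]

/-- The local rings at exchanged points. -/
def swLocal {b : Bool} (Q : Ideal ((chart S).R b)) [Q.IsPrime] [(swQ S Q).IsPrime] :
    Chart.localAt b (swQ S Q) ≃+* Chart.localAt b Q where
  toFun x := ⟨swF S x, by
    have : (swQ S (swQ S Q)).IsPrime := by rw [swQ_swQ]; infer_instance
    have := swF_mem_localAt S x.2
    simpa only [swQ_swQ] using this⟩
  invFun x := ⟨swF S x, swF_mem_localAt S x.2⟩
  left_inv x := Subtype.ext (swF_swF S _)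
  right_inv x := Subtype.ext (swF_swF S _)
  map_mul' x y := Subtype.ext (map_mul (swF S) _ _)
  map_add' x y := Subtype.ext (map_add (swF S) _ _)

end Fermat.Agent.SquareOld.Geom
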