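import Fermat.Agent.SquareOld.Kernel
import Fermat.Agent.SquareOld.Geom.SwapR
import Fermat.Agent.SquareOld.Geom.LowR
import Fermat.Agent.LevelP.Inst.PairRing

/-!
# The local ring at a pair

At a pair the local ring contains the pull back along `α` of the pair ring of level `M w`; with
`a b = w` the parameters there, the involution of `a` has order one at the first component, is a
unit at the two others, and the reduction at the first component is onto the ring of the branch.
-/

set_option autoImplicit false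
set_option linter.unusedSectionVars false
set_option linter.unusedVariables false

noncomputable section

open IsLocalRing ModularCurve AlgebraicCurve Fermat.Agent.Reduction Fermat.Agent.SemistableRed
  Fermat.Agent.FunctionFieldRR

namespace Fermat.Agent.SquareOld.Geom

open LevelP (descent)

local notation "Qbar" => AlgebraicClosure ℚ

variable {A : ValuationSubring (AlgebraicClosure ℚ)} {M w : ℕ} [NeZero M] [NeZero w]
  [Fact w.Prime] [CharP (ResidueField A) w] [IsAlgClosed (ResidueField A)] (S : Setting A M w)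

local notation "GG" => modularFunctionFieldFullC (ResidueField A) M
local notation "EB" => modularFunctionFieldBar (M * w)
local notation "πF" => piG (ResidueField A) M w

variable [IsFunctionField (ResidueField A) ↥(modularFunctionFieldFullC (ResidueField A) M)]
  [IsFunctionField (AlgebraicClosure ℚ) ↥(modularFunctionFieldBar (M * w))]
  [CharP ↥(modularFunctionFieldFullC (ResidueField A) M) w]

/-- Lattice elements of level `M w` with a value at a pair are units there. -/
def PairUnits {b : Bool} (Q : Ideal ((chart S).R b)) [Q.IsPrime]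
    (x : Place (ResidueField A) ↥GG × Place (ResidueField A) ↥GG) : Prop :=
  ∀ (m : ℕ) (e : ↥(descent S).F₀), (descent S).InLat m (e : ↥EB) →
    residueConst x.1 (S.splitModel.red 0 (e : ↥EB)) ≠ 0 →
    ∃ u : Chart.localAt b Q, IsUnit u ∧ (u : ↥(FixF A M w)) = alphaF S e

variable {b : Bool} {Q : Ideal ((chart S).R b)} [Q.IsPrime]
  {x : Place (ResidueField A) ↥(modularFunctionFieldFullC (ResidueField A) M) ×
    Place (ResidueField A) ↥(modularFunctionFieldFullC (ResidueField A) M)}

theorem alphaF_inLat_mem (hx : x ∈ S.splitModel.pairs) (hu : PairUnits S Q x) {m : ℕ}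
    {e : ↥(descent S).F₀} (he : (descent S).InLat m (e : ↥EB)) :
    alphaF S e ∈ Chart.localAt b Q := by
  by_cases h : residueConst x.1 (S.splitModel.red 0 (e : ↥EB)) = 0
  · have he1 : (descent S).InLat m ((e + 1 : ↥(descent S).F₀) : ↥EB) := by
      have := he.add ((descent S).one_inLat.mono (Nat.zero_le m))
      simpa using this
    obtain ⟨u, -, hu'⟩ := hu m (e + 1) he1 (by
      have hreg := he.regular hx 0
      rw [LevelP.branch_zero] at hreg
      rw [show ((e + 1 : ↥(descent S).F₀) : ↥EB) = (e : ↥EB) + 1 from rfl,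
        S.splitModel.red_add 0 _ _ (he.2.1 0) (S.splitModel.int_one 0), S.splitModel.red_one,
        residueConst_add hreg (Or.inr (by simp)), h, residueConst_one, zero_add]
      exact one_ne_zero)
    have h2 : alphaF S e = (u : ↥(FixF A M w)) - 1 := by
      rw [hu', map_add, map_one, add_sub_cancel_right]
    rw [h2]
    exact sub_mem u.2 (one_mem _)
  · obtain ⟨u, -, hu'⟩ := hu m e he h
    exact hu' ▸ u.2

theorem alphaF_pairRing_mem (hx : x ∈ S.splitModel.pairs) (hu : PairUnits S Q x)
    {f : ↥(descent S).F₀} (hf : f ∈ (descent S).pairRing hx) :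
    alphaF S f ∈ Chart.localAt b Q := by
  obtain ⟨m, num, den, hn, hd, hd0, h⟩ := hf
  obtain ⟨u, huu, hu'⟩ := hu m ⟨den, hd.1⟩ hd hd0
  obtain ⟨v, hv⟩ := huu.exists_right_inv
  have e : alphaF S f * (u : ↥(FixF A M w)) = alphaF S ⟨num, hn.1⟩ := by
    rw [hu', ← map_mul]
    exact congrArg _ (Subtype.ext h)
  have hv' : (u : ↥(FixF A M w)) * (v : ↥(FixF A M w)) = 1 := congrArg Subtype.val hv
  rw [show alphaF S f = alphaF S ⟨num, hn.1⟩ * (v : ↥(FixF A M w)) from
    ((congrArg (alphaF S f * ·) hv').trans (mul_one _)).symm.trans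
      ((mul_assoc _ _ _).symm.trans (congrArg (· * (v : ↥(FixF A M w))) e))]
  exact mul_mem (alphaF_inLat_mem S hx hu (e := ⟨num, hn.1⟩) hn) v.2

/-- **The local ring at a pair is factorial.** -/
theorem ufd_pair (hQ : (chart S).ClosedPoint b Q) (hx : x ∈ S.splitModel.pairs)
    (hO : ∀ i, (chart S).Centred b Q i x.1.toValuationSubring) (hu : PairUnits S Q x)
    (hab : ∃ a ∈ (descent S).pairRing hx, ∃ a' ∈ (descent S).pairRing hx,
      a * a' = (w : ↥(descent S).F₀) ∧ x.1.ord ((descent S).glueData.redF 0 a) = 1 ∧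
      (descent S).glueData.redF 1 a = 0 ∧ x.2.ord ((descent S).glueData.redF 1 a') = 1) :
    UniqueFactorizationMonoid (Chart.localAt b Q) := by
  obtain ⟨a, ha, a', ha', haa, h0a, h1a, h1a'⟩ := hab
  have hsw : swQ S Q = Q := swQ_eq S (hO 1)
  have : (swQ S Q).IsPrime := hsw.symm ▸ ‹Q.IsPrime›
  have hmem : ∀ f ∈ (descent S).pairRing hx, swF S (alphaF S f) ∈ Chart.localAt b Q := by
    intro f hf
    have h : swF S (alphaF S f) ∈ Chart.localAt b (swQ S Q) :=
      swF_mem_localAt S (alphaF_pairRing_mem S hx hu hf)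
    obtain ⟨c, d, hd, e⟩ := h
    exact ⟨c, d, fun h => hd (hsw.symm ▸ h), e⟩
  have hint : ∀ f ∈ (descent S).pairRing hx, ∀ i, S.splitModel.Int i (f : ↥EB) :=
    fun f hf i => LevelP.Descent.pairRing_le hx i hf
  have hr : ∀ f ∈ (descent S).pairRing hx, ∀ i,
      (descent S).glueData.redF i f = S.splitModel.red i (f : ↥EB) :=
    fun f hf i => (descent S).glueData_redF (hint f hf i)
  rw [hr a ha] at h0a h1a
  rw [hr a' ha'] at h1a'
  have hne : ∀ {P : Place (ResidueField A) ↥GG} {z : ↥GG}, P.ord z = 1 → z ≠ 0 := by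
    rintro P z hz rfl
    rw [P.ord_zero] at hz
    omega
  set s : Chart.localAt b Q := ⟨_, hmem a ha⟩
  set t : Chart.localAt b Q := ⟨_, hmem a' ha'⟩
  have hst : (s : ↥(FixF A M w)) * (t : ↥(FixF A M w)) =
      (((chart S).w : ℕ) : ↥(FixF A M w)) ^ 1 := by
    show swF S (alphaF S a) * swF S (alphaF S a') = _
    rw [← map_mul, ← map_mul, haa, map_natCast, map_natCast, pow_one, chart_w]
  have hs : (s : ↥(FixF A M w)) ≠ 0 := left_ne_zero_of_mul (hst.trans_ne
    (pow_ne_zero 1 (chart S).w_ne))
  have ht : (t : ↥(FixF A M w)) ≠ 0 := right_ne_zero_of_mul (hst.trans_ne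
    (pow_ne_zero 1 (chart S).w_ne))
  have hunit : ∀ {i : Fin 3} {f : ↥(FixF A M w)}, f ∈ (comps S i).V →
      (comps S i).redF f ≠ 0 → (comps S i).ord f = 0 := fun hf hne =>
    (Comp.unit_of_redF_ne hf hne).2
  have hsj : ∀ j : Fin 3, j ≠ 0 → (comps S j).ord (s : ↥(FixF A M w)) = 0 := by
    intro j hj
    have hred : (comps S j).redF (s : ↥(FixF A M w)) = S.splitModel.red 0 (a : ↥EB) := by
      show (comps S j).redF (swF S (alphaF S a)) = _
      rw [redF_swF]
      obtain rfl | rfl : j = 1 ∨ j = 2 := by omega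
      · exact (comps_alpha0 S (hint a ha 0)).2.2
      · exact (comps_alpha0 S (hint a ha 0)).1.2
    refine hunit (Chart.localAt_le (X := chart S) (Chart.through_centred (hO j)) s.2) ?_
    rw [hred]; exact hne h0a
  have hs0 : (comps S 0).ord (s : ↥(FixF A M w)) = 1 := by
    have hV := Chart.localAt_le (X := chart S) (Chart.through_centred (hO 0)) s.2
    have h1 : (comps S 0).redF (s : ↥(FixF A M w)) = 0 := by
      show (comps S 0).redF (swF S (alphaF S a)) = _
      rw [redF_swF, show swI 0 = (2 : Fin 3) from rfl, (comps_alpha2 S (hint a ha 1)).2, h1a,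
        map_zero]
    have h2 : (comps S 0).ord (t : ↥(FixF A M w)) = 0 := by
      refine hunit (Chart.localAt_le (X := chart S) (Chart.through_centred (hO 0)) t.2) ?_
      show (comps S 0).redF (swF S (alphaF S a')) ≠ 0
      rw [redF_swF, show swI 0 = (2 : Fin 3) from rfl, (comps_alpha2 S (hint a' ha' 1)).2]
      exact (map_ne_zero _).mpr (hne h1a')
    have h3 := congrArg (comps S 0).ord hst
    rw [(comps S 0).ord_mul _ _ hs ht, h2, add_zero, pow_one, chart_w, comp0_w S] at h3
    exact h3
  have := x.1.isPrincipalIdealRing'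
  refine Chart.ufd_of_branch hQ (hO 0) hst hs0 (fun j hj _ => hsj j hj) fun z hz => ?_
  obtain ⟨f, hf, hf0, -⟩ := (descent S).pairRing_surj hx
    (z := z) (z' := algebraMap (ResidueField A) ↥GG (residueConst x.1 z))
    ((vanishesTo_zero_iff x.1).mpr hz) (vanishesTo_algebraMap _)
    (residueConst_algebraMap _).symm
  refine ⟨_, alphaF_pairRing_mem S hx hu hf, ?_⟩
  show (comps S 0).redF (alphaF S f) = z
  rw [(comps_alpha0 S (hint f hf 0)).1.2, ← hr f hf 0, hf0]

end Fermat.Agent.SquareOld.Geom
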