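import Fermat.Agent.X0Analytic.Forms
import Fermat.Agent.LevelP.Theta
import Fermat.Agent.XHLite.Glue.UnitSeries
import Fermat.Agent.Congruence.Norm

/-!
# `(θ j) ^ 6 = j ^ 4 (j - 1728) ^ 3 Δ` on `q`-series
-/

set_option autoImplicit false

noncomputable section

open UpperHalfPlane Filter Topology Function ModularCurve
open scoped Manifold Derivative

namespace Fermat.Agent.SquareOld.Geom

open Fermat.Agent.X0Analytic (qp qp_ne_zero norm_qp_lt_one hpos qp_mdiff isPer_qp_pow jFun jFun_mdiff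
  jFun_isPer jFun_mem jFun_mul_qp_isBounded qSer qSer_eq qSer_coeff qSer_coeff_of_lt qSer_jFun jqC
  thetaJ thetaJ_mdiff thetaJ_isPer thetaJ_mul_qp_isBounded thetaPer normalizedDeriv_jFun discriminant_mem
  qSer_E4 E4_mem qSer_discriminant)

local notation "Δ₁" => ModularForm.discriminant

theorem thetaJ_mem_one : thetaJ ∈ X0Analytic.perMero 1 :=
  ⟨thetaJ_mdiff, thetaJ_isPer, 1, thetaJ_mul_qp_isBounded⟩

/-- The series of the derivative of `j`. -/
theorem qSer_thetaJ : qSer 1 ⟨thetaJ, thetaJ_mem_one⟩ = LevelP.theta jqC := by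
  set g : ℍ → ℂ := jFun * qp 1 ^ 1 with hg
  have hgm : MDiff g := by
    rw [hg, pow_one]
    exact jFun_mdiff.mul (qp_mdiff 1)
  have hgp : X0Analytic.IsPer 1 g := jFun_isPer.mul (isPer_qp_pow 1 1)
  set F : ℂ → ℂ := cuspFunction ((1 : ℕ) : ℝ) g with hF
  have hd : DifferentiableOn ℂ F (Metric.ball 0 1) :=
    differentiableOn_cuspFunction_ball (hpos 1) hgp.periodic_comp_ofComplex hgm
      jFun_mul_qp_isBounded
  set a : ℕ → ℂ := fun n => (qExpansion ((1 : ℕ) : ℝ) g).coeff n with ha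
  have hD : ∀ τ : ℍ, thetaJ τ * qp 1 τ = deriv F (qp 1 τ) * qp 1 τ - g τ := by
    intro τ
    have hFd : DifferentiableAt ℂ F (qp 1 τ) := hd.differentiableAt
      (Metric.isOpen_ball.mem_nhds (by simpa using norm_qp_lt_one 1 τ))
    have hq : HasDerivAt (Periodic.qParam ((1 : ℕ) : ℝ)) (2 * Real.pi * Complex.I * qp 1 τ)
        (τ : ℂ) := by
      have := (((hasDerivAt_id (τ : ℂ)).const_mul (2 * (Real.pi : ℂ) * Complex.I)).div_const
        (((1 : ℕ) : ℝ) : ℂ)).cexp
      convert this using 1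
      all_goals first
        | rfl
        | simp [Periodic.qParam, qp, mul_comm]
    have hcomp := (hFd.hasDerivAt.comp (τ : ℂ) hq).div hq (qp_ne_zero 1 τ)
    have hev : (jFun ∘ ofComplex) =ᶠ[𝓝 (τ : ℂ)]
        ((F ∘ Periodic.qParam ((1 : ℕ) : ℝ)) / Periodic.qParam ((1 : ℕ) : ℝ)) := by
      filter_upwards [isOpen_upperHalfPlaneSet.mem_nhds τ.im_pos] with z hz
      have h := eq_cuspFunction (h := ((1 : ℕ) : ℝ)) (f := g) ⟨z, hz⟩ (hpos 1).ne'
        hgp.periodic_comp_ofComplex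
      simp only [Pi.div_apply, Function.comp_apply, ofComplex_apply_of_im_pos hz]
      rw [eq_div_iff (Periodic.qParam_ne_zero _)]
      refine Eq.trans ?_ h.symm
      rw [hg, Pi.mul_apply, pow_one]
      rfl
    have hg' : g τ = F (qp 1 τ) :=
      (eq_cuspFunction (h := ((1 : ℕ) : ℝ)) (f := g) τ (hpos 1).ne'
        hgp.periodic_comp_ofComplex).symm
    have hd := (hcomp.congr_of_eventuallyEq hev).deriv
    rw [← normalizedDeriv_jFun, Derivative.normalizedDerivOfComplex, hd, hg']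
    change _ * ((_ * (2 * (Real.pi : ℂ) * Complex.I * qp 1 τ) * qp 1 τ -
      F (qp 1 τ) * (2 * (Real.pi : ℂ) * Complex.I * qp 1 τ)) / qp 1 τ ^ 2) * qp 1 τ = _
    have := qp_ne_zero 1 τ
    field_simp [Real.pi_ne_zero, Complex.I_ne_zero]
  have hser : ∀ τ : ℍ, HasSum (fun n : ℕ => ((n : ℂ) - 1) * a n • qp 1 τ ^ n)
      ((thetaJ * qp 1 ^ 1) τ) := by
    intro τ
    rw [Pi.mul_apply, pow_one, hD]
    have h0 := X0Analytic.hasSum_series (h := 1) jFun_mdiff jFun_isPer jFun_mul_qp_isBounded τ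
    have h1 := (Complex.hasSum_taylorSeries_on_ball (hd.deriv Metric.isOpen_ball)
      (show qp 1 τ ∈ Metric.ball (0 : ℂ) 1 by simpa using norm_qp_lt_one 1 τ)).mul_right (qp 1 τ)
    have h2 : HasSum (fun n : ℕ => (n : ℂ) * a n * qp 1 τ ^ n) (deriv F (qp 1 τ) * qp 1 τ) := by
      rw [← hasSum_nat_add_iff' 1]
      simp only [Finset.range_one, Finset.sum_singleton, Nat.cast_zero, zero_mul, sub_zero]
      refine h1.congr_fun fun n => ?_
      simp only [ha, UpperHalfPlane.qExpansion_coeff, sub_zero, smul_eq_mul, ← hF]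
      rw [← iteratedDeriv_succ', Nat.factorial_succ, pow_succ]
      push_cast
      have : (n : ℂ) + 1 ≠ 0 := Nat.cast_add_one_ne_zero n
      field_simp
    refine (h2.sub h0).congr_fun fun n => ?_
    simp only [ha, smul_eq_mul, hg]
    ring
  have hcoef := X0Analytic.qExpansion_coeff_eq_of_hasSum (h := 1)
    (thetaJ_mdiff.mul ((X0Analytic.mem_holFun).mp (pow_mem (X0Analytic.mem_holFun.mpr (qp_mdiff 1)) 1)))
    (thetaJ_isPer.mul (isPer_qp_pow 1 1)) (c := fun n : ℕ => ((n : ℂ) - 1) * a n) (fun τ => by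
      simpa [smul_eq_mul, mul_assoc] using hser τ)
  ext n
  rw [LevelP.theta_coeff, ← qSer_jFun]
  rcases lt_or_ge n (-1) with hn | hn
  · rw [qSer_coeff_of_lt (m := 1) ⟨thetaJ, thetaJ_mem_one⟩ thetaJ_mul_qp_isBounded (by simpa using hn),
      qSer_coeff_of_lt (m := 1) ⟨jFun, jFun_mem⟩ jFun_mul_qp_isBounded (by simpa using hn), mul_zero]
  · obtain ⟨m, rfl⟩ : ∃ m : ℕ, n = (m : ℤ) - (1 : ℕ) := ⟨(n + 1).toNat, by omega⟩
    rw [qSer_coeff (m := 1) ⟨thetaJ, thetaJ_mem_one⟩ thetaJ_mul_qp_isBounded,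
      qSer_coeff (m := 1) ⟨jFun, jFun_mem⟩ jFun_mul_qp_isBounded, hcoef]
    simp only [ha, hg, Int.cast_sub, Int.cast_natCast, Nat.cast_one, Int.cast_one]

theorem thetaJ_identity_complex :
    LevelP.theta jqC ^ 6 = jqC ^ 4 * (jqC - 1728) ^ 3 * qSer 1 ⟨Δ₁, discriminant_mem⟩ := by
  rw [← qSer_thetaJ, ← qSer_jFun, ← map_ofNat (qSer 1) 1728, ← map_sub, ← map_pow, ← map_pow,
    ← map_pow, ← map_mul, ← map_mul]
  congr 1
  refine Subtype.ext (funext fun τ => ?_)
  show thetaJ τ ^ 6 = jFun τ ^ 4 * (jFun τ - 1728) ^ 3 * Δ₁ τ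
  have h := ModularForm.discriminant_eq_E₄_cube_sub_E₆_sq τ
  have hΔ := ModularForm.discriminant_ne_zero τ
  have e : ModularForm.E₆ τ ^ 2 = ModularForm.E₄ τ ^ 3 - 1728 * Δ₁ τ := by rw [h]; ring
  simp only [thetaJ, jFun]
  field_simp
  rw [show ModularForm.E₄ τ ^ 3 - Δ₁ τ * 1728 = ModularForm.E₆ τ ^ 2 by rw [e]; ring]
  ring

/-- **The identity over `ℤ`.** -/
theorem thetaJ_identity :
    LevelP.theta (jqModC ℤ) ^ 6 =
      jqModC ℤ ^ 4 * (jqModC ℤ - 1728) ^ 3 * (XHLite.deltaUnit : LaurentSeries ℤ) := by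
  refine X0Analytic.coeffMap_injective (f := Int.castRingHom ℂ) Int.cast_injective ?_
  have hj : jqC = jqModC ℂ := Congruence.coeffEmb_jq ℂ
  have hd : coeffMap (Int.castRingHom ℂ) (XHLite.deltaUnit : LaurentSeries ℤ) =
      qSer 1 ⟨Δ₁, discriminant_mem⟩ := by
    rw [XHLite.coe_deltaUnit, map_mul, coeffMap_single, map_one,
      X0Analytic.coeffMap_ofPowerSeries, qSer_discriminant]
  simp only [map_pow, map_mul, map_sub, map_ofNat, ← LevelP.theta_coeffMap, coeffMap_jqModC, hd]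
  rw [← hj]
  exact thetaJ_identity_complex

/-- The identity over any ring. -/
theorem thetaJ_identity_ring (R : Type*) [CommRing R] :
    LevelP.theta (jqModC R) ^ 6 = jqModC R ^ 4 * (jqModC R - 1728) ^ 3 *
      coeffMap (Int.castRingHom R) (XHLite.deltaUnit : LaurentSeries ℤ) := by
  have h := congrArg (coeffMap (Int.castRingHom R)) thetaJ_identity
  simpa only [map_pow, map_mul, map_sub, map_ofNat, ← LevelP.theta_coeffMap, coeffMap_jqModC]
    using h

/-- Where `240 = 0` the series of `j` is the inverse of that of `Δ`. -/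
theorem jq_mul_delta (R : Type*) [CommRing R] (h : (240 : R) = 0) :
    jqModC R * coeffMap (Int.castRingHom R) (XHLite.deltaUnit : LaurentSeries ℤ) = 1 := by
  have he : eisenstein4.map (Int.castRingHom R) = 1 := by
    ext n
    rw [PowerSeries.coeff_map, eisenstein4, PowerSeries.coeff_mk, PowerSeries.coeff_one]
    split_ifs with hn
    · exact map_one _
    · rw [map_mul, map_ofNat, h, zero_mul]
  rw [jqModC, jNum, XHLite.coe_deltaUnit]
  simp only [map_mul, map_pow, coeffMap_single, map_one, X0Analytic.coeffMap_ofPowerSeries, he,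
    one_pow, one_mul]
  rw [mul_mul_mul_comm, HahnSeries.single_mul_single, ← map_mul, ← map_mul,
    mul_comm dedekindEtaUnitInv, dedekindEtaUnit_mul_inv, map_one, map_one]
  simp

end Fermat.Agent.SquareOld.Geom

end
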