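import Fermat.Agent.SquareOld.Geom.JP
import Fermat.Agent.SquareOld.Geom.Branch

/-!
# Level `M w` in the local rings of level `M w²`

Quotients of lattice elements with exact denominators pull back into the local rings at branches
on the first two components: after multiplying by a power of `T⁻¹`, and at the cusps by a power of
a function killing the poles away from the branch.
-/

set_option autoImplicit false
set_option linter.unusedSectionVars false
set_option linter.unusedVariables false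
set_option synthInstance.maxHeartbeats 400000

noncomputable section

open IsLocalRing ModularCurve AlgebraicCurve Fermat.Agent.Reduction Fermat.Agent.SemistableRed
  Fermat.Agent.FunctionFieldRR

namespace Fermat.Agent.SquareOld.Geom

open LevelP (descent)

local notation "Qbar" => AlgebraicClosure ℚ

variable {A : ValuationSubring (AlgebraicClosure ℚ)} {M w : ℕ} [NeZero M] [NeZero w]
  [Fact w.Prime] [CharP (ResidueField A) w] [IsAlgClosed (ResidueField A)] (S : Setting A M w)

local notation "GG" => modularFunctionFieldFullC (ResidueField A) M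
local notation "EB" => modularFunctionFieldBar (M * w)
local notation "FB" => modularFunctionFieldBar (M * w * w)
local notation "jb" => jbar (ResidueField A) M

/-! ### `j` and `j_w` as lattice elements -/

/-- `j` at level `M w`, fixed. -/
def jE : ↥(descent S).F₀ := ⟨S.jF, jF_mem S⟩

/-- `j_w` at level `M w`, fixed. -/
def jqE : ↥(descent S).F₀ := ⟨S.jqF, jqF_mem S⟩

theorem alphaF_jE : alphaF S (jE S) = jP S := rfl

theorem alphaF_jqE : alphaF S (jqE S) = Tp S := rfl

theorem int_jF (j : Fin 2) : S.splitModel.Int j S.jF := (S.red_eq (S.srep_jF j)).1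

theorem int_jqF (j : Fin 2) : S.splitModel.Int j S.jqF := (S.red_eq (S.srep_jqF j)).1

theorem red0_jF : S.splitModel.red 0 S.jF = jb := (S.red_eq (S.srep_jF 0)).2

theorem red0_jqF : S.splitModel.red 0 S.jqF = jb ^ w :=
  (S.red_eq (S.srep_jqF 0)).2.trans (piG_jbar (ResidueField A) M w)

theorem jbar_ne : jb ≠ 0 := fun h =>
  (transcendental_jC (ResidueField A) M) (by
    rw [show jC (ResidueField A) M = 0 from h]; exact isAlgebraic_zero)

theorem Tbar_eq : Tbar A M w = jb ^ w := piG_jbar (ResidueField A) M w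

theorem inLat_jF : (descent S).InLat 1 S.jF := by
  refine ⟨jF_mem S, int_jF S, mem_rrs_iff.mpr (Or.inr fun P => ?_)⟩
  rw [Finsupp.smul_apply, Nat.cast_one, one_smul]
  show -S.polesH P ≤ _
  rw [S.polesH_apply]; omega

theorem inLat_jj : (descent S).InLat 1 (S.jF * S.jqF) := by
  refine ⟨mul_mem (jF_mem S) (jqF_mem S),
    fun j => S.splitModel.int_mul j _ _ (int_jF S j) (int_jqF S j), mem_rrs_iff.mpr ?_⟩
  rcases eq_or_ne (S.jF * S.jqF) 0 with h | h
  · exact Or.inl h
  refine Or.inr fun P => ?_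
  obtain ⟨h1, h2⟩ := mul_ne_zero_iff.mp h
  rw [Finsupp.smul_apply, Nat.cast_one, one_smul, P.ord_mul h1 h2]
  show -S.polesH P ≤ _
  rw [S.polesH_apply]; omega

theorem jqF_ne : S.jqF ≠ 0 := fun h => by
  have := red0_jqF S
  rw [h, S.splitModel.red_zero] at this
  exact pow_ne_zero w (jbar_ne (A := A) (M := M)) this.symm

/-- The pole orders of `j` and `j_w` differ at most by the factor `w`. -/
theorem ord_poles_le {P : Place Qbar ↥EB} (h : P.ord S.jqF < 0) :
    P.ord S.jF < 0 ∧ (w : ℤ) * P.ord S.jF ≤ P.ord S.jqF ∧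
      (w : ℤ) * P.ord S.jqF ≤ P.ord S.jF := by
  have h1 : P.ord S.jF < 0 := (S.ord_jF_neg_iff P).mpr h
  have hw : (1 : ℤ) ≤ (w : ℤ) * w := by
    exact_mod_cast Nat.one_le_iff_ne_zero.mpr (mul_ne_zero (NeZero.ne w) (NeZero.ne w))
  refine ⟨h1, ?_⟩
  rcases SemistableRed.ord_jBar_cases S.prime P h1 with e | e
  · change P.ord S.jqF = (w : ℤ) * P.ord S.jF at e
    refine ⟨e.ge, ?_⟩
    rw [e, ← mul_assoc]; nlinarith
  · change P.ord S.jF = (w : ℤ) * P.ord S.jqF at e
    refine ⟨?_, e.ge⟩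
    rw [e, ← mul_assoc]; nlinarith

/-! ### Membership in the chart at infinity -/

/-- Elements of level `M w` regular where `1/j_w` is lie in the chart at infinity. -/
theorem mem_R_true_of_level {e : ↥(descent S).F₀} (hc : ∀ i, alphaF S e ∈ (comps S i).V)
    (h : ∀ P₀ : Place Qbar ↥EB, P₀.ord S.jqF ≤ 0 → 0 ≤ P₀.ord (e : ↥EB)) :
    alphaF S e ∈ (chart S).R true := by
  refine mem_R_of_places S true hc fun P hP => ?_
  refine alpha_regular (b := S.jqF⁻¹) (fun P₀ h0 => h P₀ ?_) P ?_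
  · rw [P₀.ord_inv] at h0; omega
  · rw [map_inv₀]
    exact hP

theorem comps_div_T {e : ↥(descent S).F₀} (h : ∀ i, alphaF S e ∈ (comps S i).V) (N : ℕ)
    (i : Fin 3) : alphaF S (e * (jqE S ^ N)⁻¹) ∈ (comps S i).V := by
  rw [map_mul, map_inv₀, map_pow, alphaF_jqE]
  exact mul_mem (h i) ((Chart.T_unit (chart S) i).pow N).inv.mem

theorem ord_div_T (P₀ : Place Qbar ↥EB) {e : ↥EB} (he : e ≠ 0) (N : ℕ) :
    P₀.ord (e * (S.jqF ^ N)⁻¹) = P₀.ord e - N * P₀.ord S.jqF := by
  rw [P₀.ord_mul he (inv_ne_zero (pow_ne_zero _ (jqF_ne S))), P₀.ord_inv, ord_pow, sub_eq_add_neg]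

theorem coe_div_T (e : ↥(descent S).F₀) (N : ℕ) :
    ((e * (jqE S ^ N)⁻¹ : ↥(descent S).F₀) : ↥EB) = (e : ↥EB) * (S.jqF ^ N)⁻¹ := by
  push_cast
  rfl

theorem bound_of_inLat {m : ℕ} {e : ↥EB} (he : (descent S).InLat m e) (h0 : e ≠ 0)
    (P₀ : Place Qbar ↥EB) :
    -((m : ℤ) * (max (-P₀.ord S.jF) 0 + max (-P₀.ord S.jqF) 0)) ≤ P₀.ord e := by
  have := (mem_rrs_iff.mp he.2.2).resolve_left h0 P₀
  rw [Finsupp.smul_apply, smul_eq_mul] at this
  rw [← S.polesH_apply]
  exact this

/-- Lattice elements over a high power of `T` lie in the chart at infinity. -/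
theorem inLat_div_T_mem {m : ℕ} {e : ↥(descent S).F₀} (he : (descent S).InLat m (e : ↥EB)) {N : ℕ}
    (hN : (w + 1) * m ≤ N) : alphaF S (e * (jqE S ^ N)⁻¹) ∈ (chart S).R true := by
  refine mem_R_true_of_level S (comps_div_T S (alphaF_mem_comps S he.2.1) N) fun P₀ h0 => ?_
  rw [coe_div_T]
  rcases eq_or_ne (e : ↥EB) 0 with h | h
  · rw [h, zero_mul, P₀.ord_zero]
  rw [ord_div_T S P₀ h]
  have h1 := bound_of_inLat S he h P₀
  rcases h0.lt_or_eq with hlt | heq
  · obtain ⟨h2, h3', h3⟩ := ord_poles_le S hlt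
    rw [max_eq_left (by omega), max_eq_left (by omega)] at h1
    have hN' : ((w : ℤ) + 1) * m ≤ N := by exact_mod_cast hN
    nlinarith [mul_nonneg (sub_nonneg.mpr hN') (show (0 : ℤ) ≤ -P₀.ord S.jqF by omega),
      mul_nonneg (show (0 : ℤ) ≤ m by positivity) (sub_nonneg.mpr h3)]
  · have h2 : 0 ≤ P₀.ord S.jF := by
      by_contra hn
      have := (S.ord_jF_neg_iff P₀).mp (not_le.mp hn)
      omega
    rw [max_eq_right (by omega), max_eq_right (by omega)] at h1
    rw [heq]; simpa using h1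

/-- Elements of the chart at infinity times a power of `T` lie in the other chart. -/
theorem exists_T_pow_mul_mem {y : ↥(FixF A M w)} (hy : y ∈ (chart S).R true) :
    ∃ K : ℕ, y * Tp S ^ K ∈ (chart S).R false := by
  classical
  have := SemistableRed.isFunctionField_level (M * w * w)
  set D := polarDivisor (K := Qbar) (y : ↥FB)
  refine ⟨(∑ P ∈ D.support, D P).toNat, mem_R_of_places S false (fun i => ?_) fun P hP => ?_⟩
  · exact mul_mem ((chart S).R_le_comp true i hy) (pow_mem (comps_Tp S i).1 _)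
  set K := (∑ P ∈ D.support, D P).toNat with hK
  rcases eq_or_ne ((y : ↥(FixF A M w)) : ↥FB) 0 with h | h
  · push_cast; rw [h, zero_mul, P.ord_zero]
  change 0 ≤ P.ord ((Tp S : ↥(FixF A M w)) : ↥FB) at hP
  have hT : ((Tp S : ↥(FixF A M w)) : ↥FB) ≠ 0 := fun e =>
    (chart S).T_ne (Subtype.ext e)
  push_cast
  rw [P.ord_mul h (pow_ne_zero _ hT), ord_pow]
  rcases hP.eq_or_lt with h0 | hpos
  · have := ord_nonneg_of_mem_R S hy P (by
      show 0 ≤ P.ord (((Tp S)⁻¹ : ↥(FixF A M w)) : ↥FB)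
      push_cast; rw [P.ord_inv]; omega)
    rw [← h0]; omega
  have hD : ∀ Q, 0 ≤ D Q := fun Q => by rw [polarDivisor_apply]; omega
  have h1 : D P ≤ ∑ Q ∈ D.support, D Q := by
    by_cases hmem : P ∈ D.support
    · exact Finset.single_le_sum (fun Q _ => hD Q) hmem
    · rw [Finsupp.notMem_support_iff.mp hmem]; exact Finset.sum_nonneg fun Q _ => hD Q
  have h2 : D P = max (-P.ord ((y : ↥(FixF A M w)) : ↥FB)) 0 := polarDivisor_apply _ _
  have h3 := Int.self_le_toNat (∑ Q ∈ D.support, D Q)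
  rw [← hK] at h3
  have h4 : (K : ℤ) * 1 ≤ (K : ℤ) * P.ord ((Tp S : ↥(FixF A M w)) : ↥FB) :=
    mul_le_mul_of_nonneg_left hpos (by positivity)
  omega

/-! ### A function killing the zeros of `j` -/

/-- A member of `W[j_w]`, sent by the involution to a constant where `j` vanishes. -/
theorem exists_value {z : ↥(FixF A M w)}
    (hz : z ∈ Subring.closure ((Wc A M w : Set ↥(FixF A M w)) ∪ {Tp S})) :
    ∃ (e : ↥(descent S).F₀) (q : Afix A), alphaF S e = z ∧ ∀ P₀ : Place Qbar ↥EB,
      0 < P₀.ord S.jF → VanishesTo P₀ 1 (S.w (e : ↥EB) - algebraMap Qbar ↥EB (q : Qbar)) := by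
  have hreg : ∀ {x : ↥EB} {q : Qbar} {P₀ : Place Qbar ↥EB},
      VanishesTo P₀ 1 (x - algebraMap Qbar ↥EB q) → VanishesTo P₀ 0 x := fun {x q P₀} h => by
    simpa using (h.mono zero_le_one).add (vanishesTo_algebraMap q)
  induction hz using Subring.closure_induction with
  | mem y hy =>
    rcases hy with hy | rfl
    · obtain ⟨c, rfl⟩ := hy
      refine ⟨lowC S c, c, alphaF_lowC S c, fun P₀ _ => Or.inl ?_⟩
      show S.w (algebraMap Qbar ↥EB (c : Qbar)) - _ = 0
      rw [AlgEquiv.commutes, sub_self]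
    · refine ⟨jqE S, 0, alphaF_jqE S, fun P₀ h => Or.inr ?_⟩
      show 1 ≤ P₀.ord (S.w S.jqF - algebraMap Qbar _ ((0 : Afix A) : Qbar))
      rw [S.w_jqF, ZeroMemClass.coe_zero, map_zero, sub_zero]
      omega
  | zero => exact ⟨0, 0, map_zero _, fun P₀ _ => Or.inl (by simp)⟩
  | one => exact ⟨1, 1, map_one _, fun P₀ _ => Or.inl (by simp)⟩
  | add x y _ _ hx hy =>
    obtain ⟨e, q, he, h⟩ := hx
    obtain ⟨e', q', he', h'⟩ := hy
    refine ⟨e + e', q + q', by rw [map_add, he, he'], fun P₀ hP => ?_⟩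
    have := (h P₀ hP).add (h' P₀ hP)
    rwa [AddMemClass.coe_add, AddMemClass.coe_add, map_add, map_add, add_sub_add_comm]
  | neg x _ hx =>
    obtain ⟨e, q, he, h⟩ := hx
    refine ⟨-e, -q, by rw [map_neg, he], fun P₀ hP => ?_⟩
    have := (h P₀ hP).neg
    rwa [NegMemClass.coe_neg, NegMemClass.coe_neg, map_neg, map_neg, sub_neg_eq_add, neg_add_eq_sub, ← neg_sub]
  | mul x y _ _ hx hy =>
    obtain ⟨e, q, he, h⟩ := hx
    obtain ⟨e', q', he', h'⟩ := hy
    refine ⟨e * e', q * q', by rw [map_mul, he, he'], fun P₀ hP => ?_⟩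
    have := ((h P₀ hP).mul (hreg (h' P₀ hP))).add
      ((vanishesTo_algebraMap (P := P₀) (q : Qbar)).mul (h' P₀ hP))
    rw [MulMemClass.coe_mul, MulMemClass.coe_mul, map_mul, map_mul, show S.w (e : ↥EB) * S.w (e' : ↥EB) -
      algebraMap Qbar ↥EB (q : Qbar) * algebraMap Qbar ↥EB (q' : Qbar) =
        (S.w (e : ↥EB) - algebraMap Qbar _ (q : Qbar)) * S.w (e' : ↥EB) +
          algebraMap Qbar _ (q : Qbar) * (S.w (e' : ↥EB) - algebraMap Qbar _ (q' : Qbar)) by ring]
    simpa using this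

/-- Congruent to one at the poles of `Tbar` along the first two components. -/
def NearOne (x : ↥(FixF A M w)) : Prop :=
  ∀ i : Fin 3, i ≠ 2 → ∀ P : Place (ResidueField A) ↥GG, P.ord (Tbar A M w) < 0 →
    VanishesTo P 1 ((comps S i).redF x - 1)

/-- A function killing the zeros of `j` away from the zeros of `j_w`. -/
theorem exists_killer : ∃ c : ↥(descent S).F₀, alphaF S c ∈ (chart S).R true ∧
    NearOne S (alphaF S c) ∧
    (∀ P₀ : Place Qbar ↥EB, P₀.ord S.jqF ≤ 0 → 0 ≤ P₀.ord (c : ↥EB)) ∧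
    ∀ P₀ : Place Qbar ↥EB, 0 < P₀.ord S.jF → P₀.ord S.jqF = 0 → VanishesTo P₀ 1 (c : ↥EB) := by
  classical
  have hint : jP S ∈ (chart S).R false := inLat_mem_R S (e := jE S) (inLat_jF S)
  obtain ⟨d, z, hz, hrel⟩ := Chart.exists_relation (Chart.isIntegral_closure
    (s := ((Wc A M w : Set ↥(FixF A M w)) ∪ {Tp S})) fun V hV =>
      (chart S).mem_R.mp hint V (fun y hy => hV (Or.inl hy)) (hV (Or.inr rfl)))
  choose e q he hq using fun i : Fin d => exists_value S (hz i i.2)
  set t : Fin d → ↥(descent S).F₀ := fun i => lowC S (q i) * (jqE S)⁻¹ ^ (d - i) with ht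
  refine ⟨1 + ∑ i, t i, ?_, ?_, ?_, ?_⟩
  · rw [map_add, map_one, map_sum]
    refine add_mem (one_mem _) (sum_mem fun i _ => ?_)
    rw [ht, map_mul, alphaF_lowC, map_pow, map_inv₀, alphaF_jqE]
    exact mul_mem ((chart S).W_le_R true ⟨q i, rfl⟩) (pow_mem ((chart S).par_mem_R true) _)
  · intro j hj P hP
    have key : ∀ i : Fin d, alphaF S (t i) ∈ (comps S j).V ∧
        VanishesTo P 1 ((comps S j).redF (alphaF S (t i))) := fun i => by
      obtain ⟨hm, hr⟩ := comps_rep_const S j (q i)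
      have hu : (comps S j).Unit (Tp S) := Chart.T_unit (chart S) j
      rw [ht, map_mul, alphaF_lowC, map_pow, map_inv₀, alphaF_jqE]
      refine ⟨mul_mem hm (pow_mem hu.inv.mem _), ?_⟩
      rw [Comp.redF_mul hm (pow_mem hu.inv.mem _), Comp.redF_pow hu.inv.mem, hr, hu.redF_inv,
        (comps_Tp S j).2]
      have h1 : VanishesTo P 1 ((Tbar A M w)⁻¹ ^ (d - (i : ℕ))) := Or.inr (by
        rw [ord_pow, P.ord_inv]
        have h2 : (1 : ℤ) ≤ ((d - (i : ℕ) : ℕ) : ℤ) := by have := i.2; omega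
        nlinarith)
      simpa using (vanishesTo_algebraMap (P := P) _).mul h1
    rw [map_add, map_one, map_sum,
      Comp.redF_add (one_mem _) (sum_mem fun i _ => (key i).1), Comp.redF_one, add_sub_cancel_left]
    exact (Finset.sum_induction (fun i => alphaF S (t i))
      (fun x => x ∈ (comps S j).V ∧ VanishesTo P 1 ((comps S j).redF x))
      (fun a b ha hb => ⟨add_mem ha.1 hb.1, by
        rw [Comp.redF_add ha.1 hb.1]; exact ha.2.add hb.2⟩)
      ⟨zero_mem _, by rw [(Comp.redF_eq_zero (zero_mem _)).mpr (Or.inl rfl)]; exact VanishesTo.zero⟩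
      fun i _ => key i).2
  · intro P₀ h0
    have hinv : (S.jqF)⁻¹ ∈ P₀.toValuationSubring :=
      (ord_nonneg_iff P₀ _).mp (by rw [P₀.ord_inv]; omega)
    rw [ord_nonneg_iff]
    push_cast
    refine add_mem (one_mem _) (sum_mem fun i _ => ?_)
    rw [ht]; push_cast
    exact mul_mem (P₀.algebraMap_mem' _) (pow_mem hinv _)
  · intro P₀ hF hq0
    -- the relation after the involution
    have hE : (S.jF) ^ d + ∑ i : Fin d, (e i : ↥EB) * S.jF ^ (i : ℕ) = 0 := by
      have h0 : (jE S ^ d + ∑ i : Fin d, e i * jE S ^ (i : ℕ) : ↥(descent S).F₀) = 0 := by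
        refine (alphaF S).injective ?_
        rw [map_zero, map_add, map_pow, map_sum, alphaF_jE, ← hrel, Finset.sum_range]
        exact congrArg _ (Finset.sum_congr rfl fun i _ => by
          rw [map_mul, map_pow, he, alphaF_jE])
      have := congrArg Subtype.val h0
      push_cast at this
      exact this
    have hW := congrArg S.w hE
    rw [map_zero, map_add, map_pow, map_sum, S.w_jF] at hW
    simp only [map_mul, map_pow, S.w_jF] at hW
    have hreg : VanishesTo P₀ 0 S.jqF := Or.inr hq0.ge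
    have hsum : VanishesTo P₀ 1
        (∑ i : Fin d, (S.w (e i : ↥EB) - algebraMap Qbar _ (q i : Qbar)) * S.jqF ^ (i : ℕ)) :=
      VanishesTo.sum _ _ fun i _ => by
        simpa using (hq i P₀ hF).mul
          (Or.inr (by rw [ord_pow, hq0, mul_zero]) : VanishesTo P₀ 0 (S.jqF ^ (i : ℕ)))
    have hP : VanishesTo P₀ 1
        (S.jqF ^ d + ∑ i : Fin d, algebraMap Qbar ↥EB (q i : Qbar) * S.jqF ^ (i : ℕ)) := by
      have := hsum.neg
      rw [← sub_eq_zero] at hW
      convert this using 1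
      rw [← sub_eq_zero, ← hW]
      simp only [sub_mul, Finset.sum_sub_distrib]
      ring
    have hinv : VanishesTo P₀ 0 ((S.jqF)⁻¹ ^ d) :=
      Or.inr (by rw [ord_pow, P₀.ord_inv, hq0]; simp)
    have := hinv.mul hP
    rw [zero_add] at this
    convert this using 1
    push_cast
    rw [mul_add, ← mul_pow, inv_mul_cancel₀ (jqF_ne S), one_pow, Finset.mul_sum]
    refine congrArg _ (Finset.sum_congr rfl fun i _ => ?_)
    rw [ht]; push_cast
    rw [mul_left_comm]
    refine congrArg _ ?_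
    show ((S.jqF)⁻¹) ^ (d - (i : ℕ)) = _
    rw [pow_sub₀ _ (inv_ne_zero (jqF_ne S)) i.2.le, inv_pow S.jqF (i : ℕ), inv_inv]

/-- A function of value one at the cusps of the component of `∞`, small at the others. -/
theorem exists_rho : ∃ r : ↥(descent S).F₀, alphaF S r ∈ (chart S).R true ∧
    NearOne S (alphaF S r) ∧ ∀ P₀ : Place Qbar ↥EB,
      (P₀.ord S.jqF < 0 → P₀.ord S.jqF - w * P₀.ord S.jF ≤ P₀.ord (r : ↥EB) ∨ (r : ↥EB) = 0) ∧
        (P₀.ord S.jqF ≤ 0 → 0 ≤ P₀.ord (r : ↥EB)) := by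
  classical
  have := SemistableRed.isFunctionField_level (M * w)
  obtain ⟨c, hcR, hc1, hcreg, hckill⟩ := exists_killer S
  set D := polarDivisor (K := Qbar) (S.jF)⁻¹
  set n : ℕ := (∑ P ∈ D.support, D P).toNat with hn
  set K : ℕ := w * n with hK
  set e : ↥(descent S).F₀ := jqE S * (jE S ^ w)⁻¹ with he
  have hjF : S.jF ≠ 0 := S.jF_ne
  have hord : ∀ P₀ : Place Qbar ↥EB, (e : ↥EB) ≠ 0 ∧
      P₀.ord (e : ↥EB) = P₀.ord S.jqF - w * P₀.ord S.jF := fun P₀ => by
    have e1 : (e : ↥EB) = S.jqF * (S.jF ^ w)⁻¹ := by rw [he]; push_cast; rfl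
    refine ⟨e1 ▸ mul_ne_zero (jqF_ne S) (inv_ne_zero (pow_ne_zero _ hjF)), ?_⟩
    rw [e1, P₀.ord_mul (jqF_ne S) (inv_ne_zero (pow_ne_zero _ hjF)), P₀.ord_inv, ord_pow,
      sub_eq_add_neg]
  have hfirst : ∀ i, alphaF S e ∈ (comps S i).V ∧
      (i ≠ 2 → (comps S i).redF (alphaF S e) = 1) := fun i => by
    obtain ⟨hm, hr⟩ := comps_jP S i
    have hu : (comps S i).Unit (jP S) := Comp.unit_of_redF_ne hm (by
      rw [hr]
      have hb := jbar_ne (A := A) (M := M)
      fin_cases i
      · exact hb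
      · exact hb
      · exact (map_ne_zero _).mpr ((map_ne_zero _).mpr hb))
    rw [he, map_mul, map_inv₀, map_pow, alphaF_jqE, alphaF_jE]
    refine ⟨mul_mem (comps_Tp S i).1 (hu.pow w).inv.mem, fun hi => ?_⟩
    rw [Comp.redF_mul (comps_Tp S i).1 (hu.pow w).inv.mem, (hu.pow w).redF_inv, Comp.redF_pow hm,
      hr, (comps_Tp S i).2, Tbar_eq]
    have hb := pow_ne_zero w (jbar_ne (A := A) (M := M))
    fin_cases i
    · exact mul_inv_cancel₀ hb
    · exact mul_inv_cancel₀ hb
    · exact absurd rfl hi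
  have hreg : ∀ P₀ : Place Qbar ↥EB, P₀.ord S.jqF ≤ 0 →
      0 ≤ P₀.ord ((e * c ^ K : ↥(descent S).F₀) : ↥EB) := fun P₀ h0 => by
    obtain ⟨hne, ho⟩ := hord P₀
    push_cast
    rcases eq_or_ne ((c : ↥EB) ^ K) 0 with h | h
    · rw [h, mul_zero, P₀.ord_zero]
    rw [P₀.ord_mul hne h, ord_pow, ho]
    have hc0 := hcreg P₀ h0
    rcases h0.lt_or_eq with hlt | heq
    · obtain ⟨-, h3, -⟩ := ord_poles_le S hlt
      nlinarith
    rw [heq]
    rcases le_or_gt (P₀.ord S.jF) 0 with hF | hF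
    · nlinarith
    have hcK : (c : ↥EB) ≠ 0 := by
      rcases eq_or_ne K 0 with hK0 | hK0
      · exfalso
        have hD : 1 ≤ D P₀ := by rw [polarDivisor_apply, P₀.ord_inv]; omega
        have hD0 : ∀ Q, 0 ≤ D Q := fun Q => by rw [polarDivisor_apply]; omega
        have hsum : D P₀ ≤ ∑ Q ∈ D.support, D Q :=
          Finset.single_le_sum (fun Q _ => hD0 Q) (Finsupp.mem_support_iff.mpr (by omega))
        have := Int.self_le_toNat (∑ Q ∈ D.support, D Q)
        rw [← hn] at this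
        have hn0 : n = 0 := (Nat.mul_eq_zero.mp (hK ▸ hK0)).resolve_left S.prime.ne_zero
        omega
      · exact fun e0 => h (by rw [e0, zero_pow hK0])
    have h1 := (hckill P₀ hF heq).resolve_left hcK
    have hD : P₀.ord S.jF ≤ (n : ℤ) := by
      have hD0 : ∀ Q, 0 ≤ D Q := fun Q => by rw [polarDivisor_apply]; omega
      have h2 : D P₀ = P₀.ord S.jF := by rw [polarDivisor_apply, P₀.ord_inv]; omega
      have hsum : D P₀ ≤ ∑ Q ∈ D.support, D Q :=
        Finset.single_le_sum (fun Q _ => hD0 Q) (Finsupp.mem_support_iff.mpr (by omega))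
      have := Int.self_le_toNat (∑ Q ∈ D.support, D Q)
      rw [← hn] at this
      omega
    have hK' : (K : ℤ) = w * n := by rw [hK]; push_cast; rfl
    nlinarith
  refine ⟨e * c ^ K, mem_R_true_of_level S (fun i => ?_) hreg, fun i hi P hP => ?_,
    fun P₀ => ⟨fun h0 => ?_, hreg P₀⟩⟩
  · rw [map_mul, map_pow]
    exact mul_mem (hfirst i).1 (pow_mem ((chart S).R_le_comp true i hcR) _)
  · have hcV : alphaF S c ∈ (comps S i).V := (chart S).R_le_comp true i hcR
    rw [map_mul, map_pow, Comp.redF_mul (hfirst i).1 (pow_mem hcV _), (hfirst i).2 hi, one_mul,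
      Comp.redF_pow hcV]
    have h1 := hc1 i hi P hP
    have hreg' : VanishesTo P 0 ((comps S i).redF (alphaF S c)) := by
      simpa using (h1.mono zero_le_one).add (vanishesTo_algebraMap (1 : ResidueField A))
    induction K with
    | zero => simp [VanishesTo.zero]
    | succ k ih =>
      rw [pow_succ, show (comps S i).redF (alphaF S c) ^ k * (comps S i).redF (alphaF S c) - 1 =
        ((comps S i).redF (alphaF S c) ^ k - 1) * (comps S i).redF (alphaF S c) +
          ((comps S i).redF (alphaF S c) - 1) by ring]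
      simpa using (ih.mul hreg').add (by simpa using h1)
  · obtain ⟨hne, ho⟩ := hord P₀
    push_cast
    rcases eq_or_ne ((c : ↥EB) ^ K) 0 with h | h
    · exact Or.inr (by rw [h, mul_zero])
    refine Or.inl ?_
    rw [P₀.ord_mul hne h, ord_pow, ho]
    nlinarith [hcreg P₀ h0.le]

/-! ### Branches on the first two components -/

theorem ord_Tbar_of_centred {b : Bool} {Q : Ideal ((chart S).R b)} {i : Fin 3}
    {P : Place (ResidueField A) ↥GG} (hO : (chart S).Centred b Q i P.toValuationSubring) :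
    0 ≤ (if b then -P.ord (Tbar A M w) else P.ord (Tbar A M w)) := by
  have h := hO.2.2.1 ⟨_, (chart S).par_mem_R b⟩
  change (comps S i).redF ((chart S).par b) ∈ P.toValuationSubring at h
  rw [par_red, ← ord_nonneg_iff] at h
  cases b
  · exact h
  · rw [if_pos rfl, P.ord_inv] at h
    exact h

theorem polesC_eq_of (P : Place (ResidueField A) ↥GG) :
    (0 ≤ P.ord (Tbar A M w) → S.polesC P = 0) ∧
      (P.ord (Tbar A M w) < 0 →
        (w : ℤ) * S.polesC P = -((w : ℤ) + 1) * P.ord (Tbar A M w)) := by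
  have hw : (1 : ℤ) ≤ w := by exact_mod_cast S.prime.one_le
  rw [Tbar_eq, ord_pow, S.polesC_apply]
  refine ⟨fun h => ?_, fun h => ?_⟩
  · have : 0 ≤ P.ord jb := by
      by_contra hn
      nlinarith [not_le.mp hn]
    rw [max_eq_right (by omega), mul_zero]
  · have : P.ord jb < 0 := by
      by_contra hn
      nlinarith [not_lt.mp hn]
    rw [max_eq_left (by omega)]
    push_cast; ring

/-- A common multiplier turning lattice elements into chart elements, a unit at the branch. -/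
theorem exists_scale {b : Bool} {Q : Ideal ((chart S).R b)} {i : Fin 3} (hi : i ≠ 2)
    {P : Place (ResidueField A) ↥GG} (hO : (chart S).Centred b Q i P.toValuationSubring) (m : ℕ) :
    ∃ s : ↥(FixF A M w), s ∈ (comps S i).V ∧
      (∀ g : ↥(descent S).F₀, (descent S).InLat (w * m) (g : ↥EB) →
        alphaF S g * s ∈ (chart S).R b) ∧
      (comps S i).redF s ≠ 0 ∧
        P.ord ((comps S i).redF s) = (w : ℤ) * m * S.polesC P := by
  have hT := ord_Tbar_of_centred S hO
  obtain ⟨hC0, hCpos⟩ := polesC_eq_of S P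
  have hu : (comps S i).Unit (Tp S) := Chart.T_unit (chart S) i
  cases b
  · refine ⟨1, one_mem _, fun g hg => by rw [mul_one]; exact inLat_mem_R S hg, ?_, ?_⟩
    · rw [Comp.redF_one]; exact one_ne_zero
    · rw [Comp.redF_one, P.ord_one, hC0 hT, mul_zero]
  simp only [if_true] at hT
  rcases (show P.ord (Tbar A M w) ≤ 0 by omega).lt_or_eq with hneg | hzero
  · obtain ⟨r, hrR, hr1, hr⟩ := exists_rho S
    set N : ℕ := (w + 1) * m with hN
    have hrV : alphaF S r ∈ (comps S i).V := (chart S).R_le_comp true i hrR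
    have h1 := hr1 i hi P hneg
    have hr0 : (comps S i).redF (alphaF S r) ≠ 0 ∧
        P.ord ((comps S i).redF (alphaF S r)) = 0 := by
      have := ord_eq_of_vanishesTo_sub (P := P) (f := (1 : ↥GG)) one_ne_zero
        (g := (comps S i).redF (alphaF S r)) (by rwa [P.ord_one, zero_add])
      rwa [P.ord_one] at this
    refine ⟨alphaF S (r ^ m * (jqE S ^ N)⁻¹), ?_, fun g hg => ?_, ?_, ?_⟩
    · rw [map_mul, map_pow, map_inv₀, map_pow, alphaF_jqE]
      exact mul_mem (pow_mem hrV _) (hu.pow N).inv.mem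
    · rw [← map_mul, ← mul_assoc]
      refine mem_R_true_of_level S (comps_div_T S (fun j => ?_) N) fun P₀ h0 => ?_
      · rw [map_mul, map_pow]
        exact mul_mem (alphaF_mem_comps S hg.2.1 j) (pow_mem ((chart S).R_le_comp true j hrR) _)
      rw [coe_div_T]
      rcases eq_or_ne ((g * r ^ m : ↥(descent S).F₀) : ↥EB) 0 with h | h
      · rw [h, zero_mul, P₀.ord_zero]
      rw [ord_div_T S P₀ h]
      push_cast at h ⊢
      obtain ⟨hg0, hrm⟩ := mul_ne_zero_iff.mp h
      rw [P₀.ord_mul hg0 hrm, ord_pow]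
      have hb := bound_of_inLat S hg hg0 P₀
      push_cast at hb
      have hrr := (hr P₀).2 h0
      rw [hN]; push_cast
      rcases h0.lt_or_eq with hlt | heq
      · obtain ⟨h2, h3, h3'⟩ := ord_poles_le S hlt
        rw [max_eq_left (by omega), max_eq_left (by omega)] at hb
        rcases (hr P₀).1 hlt with h4 | h4
        · nlinarith
        · rcases Nat.eq_zero_or_pos m with rfl | hm
          · simp at hb ⊢; omega
          · exact absurd (zero_pow (M₀ := ↥EB) hm.ne') (by rw [h4] at hrm; exact fun e => hrm e)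
      · have h2 : 0 ≤ P₀.ord S.jF := by
          by_contra hn
          have := (S.ord_jF_neg_iff P₀).mp (not_le.mp hn)
          omega
        rw [max_eq_right (by omega), max_eq_right (by omega)] at hb
        rw [heq]
        nlinarith
    · rw [map_mul, map_pow, map_inv₀, map_pow, alphaF_jqE,
        Comp.redF_mul (pow_mem hrV _) (hu.pow N).inv.mem, Comp.redF_pow hrV, (hu.pow N).redF_inv,
        Comp.redF_pow hu.mem]
      exact mul_ne_zero (pow_ne_zero _ hr0.1) (inv_ne_zero (pow_ne_zero _ hu.redF_ne))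
    · rw [map_mul, map_pow, map_inv₀, map_pow, alphaF_jqE,
        Comp.redF_mul (pow_mem hrV _) (hu.pow N).inv.mem, Comp.redF_pow hrV, (hu.pow N).redF_inv,
        Comp.redF_pow hu.mem, P.ord_mul (pow_ne_zero _ hr0.1)
          (inv_ne_zero (pow_ne_zero _ hu.redF_ne)), ord_pow, hr0.2, P.ord_inv, ord_pow,
        (comps_Tp S i).2, hN]
      push_cast
      have := hCpos hneg
      linear_combination (-(m : ℤ)) * this
  · set N : ℕ := (w + 1) * (w * m) with hN
    refine ⟨alphaF S (jqE S ^ N)⁻¹, ?_, fun g hg => ?_, ?_, ?_⟩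
    · rw [map_inv₀, map_pow, alphaF_jqE]; exact (hu.pow N).inv.mem
    · rw [← map_mul]; exact inLat_div_T_mem S hg le_rfl
    · rw [map_inv₀, map_pow, alphaF_jqE, (hu.pow N).redF_inv]
      exact inv_ne_zero (hu.pow N).redF_ne
    · rw [map_inv₀, map_pow, alphaF_jqE, (hu.pow N).redF_inv, Comp.redF_pow hu.mem, P.ord_inv,
        ord_pow, (comps_Tp S i).2, hzero, mul_zero, neg_zero, hC0 hzero.ge, mul_zero]

theorem comps_alpha_of_ne_two {i : Fin 3} (hi : i ≠ 2) {e : ↥(descent S).F₀}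
    (h : S.splitModel.Int 0 (e : ↥EB)) :
    alphaF S e ∈ (comps S i).V ∧
      (comps S i).redF (alphaF S e) = S.splitModel.red 0 (e : ↥EB) := by
  fin_cases i
  · exact (comps_alpha0 S h).1
  · exact (comps_alpha0 S h).2
  · exact absurd rfl hi

/-- **Level `M w` in the local rings.** -/
theorem alpha_localRing_le [IsFunctionField Qbar ↥EB]
    [IsFunctionField (ResidueField A) ↥GG] [CharP ↥GG w]
    {b : Bool} {Q : Ideal ((chart S).R b)} [Q.IsPrime] {i : Fin 3} (hi : i ≠ 2)
    {P : Place (ResidueField A) ↥GG} (hO : (chart S).Centred b Q i P.toValuationSubring)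
    {f : ↥(descent S).F₀} (hf : f ∈ (descent S).localRing 0 P) :
    alphaF S f ∈ Chart.localAt b Q := by
  obtain ⟨m, num, den, hn, hd, he⟩ := hf
  obtain ⟨s, hsV, hs, hs0, hsord⟩ := exists_scale S hi hO m
  have hw1 : w - 1 + 1 = w := Nat.sub_add_cancel S.prime.one_le
  set n₁ : ↥(descent S).F₀ := ⟨num, hn.1⟩ * ⟨den, hd.1.1⟩ ^ (w - 1)
  set d₁ : ↥(descent S).F₀ := ⟨den, hd.1.1⟩ ^ w
  have hd1 : (descent S).InLat (w * m) (d₁ : ↥EB) := by simpa [d₁] using hd.1.pow w
  have hn1 : (descent S).InLat (w * m) (n₁ : ↥EB) := by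
    have := hn.mul (hd.1.pow (w - 1))
    rw [show m + (w - 1) * m = (w - 1 + 1) * m by ring, hw1] at this
    simpa [n₁] using this
  refine ⟨⟨_, hs n₁ hn1⟩, ⟨_, hs d₁ hd1⟩, fun hQ => ?_, ?_⟩
  · obtain ⟨hV, hr⟩ := comps_alpha_of_ne_two S hi (hd1.2.1 0)
    have hpow : S.splitModel.red 0 (d₁ : ↥EB) = S.splitModel.red 0 den ^ w := by
      simpa [d₁] using S.splitModel.red_pow (hd.1.2.1 0) w
    have h1 := (mem_nonunits_iff_vanishes P).mp ((hO.2.2.2 _).mp hQ)
    change VanishesTo P 1 ((comps S i).redF (alphaF S d₁ * s)) at h1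
    rw [Comp.redF_mul hV hsV, hr, hpow] at h1
    have hne := hd.2.1
    rcases h1 with h1 | h1
    · exact mul_ne_zero (pow_ne_zero _ hne) hs0 h1
    · rw [P.ord_mul (pow_ne_zero _ hne) hs0, ord_pow, hd.2.2, hsord] at h1
      change 1 ≤ (w : ℤ) * -((m : ℤ) * S.polesC P) + _ at h1
      linarith
  · show alphaF S f * (alphaF S d₁ * s) = alphaF S n₁ * s
    rw [← mul_assoc, ← map_mul]
    refine congrArg (fun z => alphaF S z * s) (Subtype.ext ?_)
    show (f : ↥EB) * ((d₁ : ↥EB)) = (n₁ : ↥EB)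
    simp only [n₁, d₁]
    push_cast
    rw [← he, mul_assoc, ← pow_succ', hw1]

/-- Lattice elements with nonzero value at an affine branch are units. -/
theorem alpha_unit [IsFunctionField Qbar ↥EB]
    [IsFunctionField (ResidueField A) ↥GG] [CharP ↥GG w]
    {b : Bool} {Q : Ideal ((chart S).R b)} [Q.IsPrime] {i : Fin 3} (hi : i ≠ 2)
    {P : Place (ResidueField A) ↥GG} (hO : (chart S).Centred b Q i P.toValuationSubring)
    (hC : S.polesC P = 0) {m : ℕ} {e : ↥(descent S).F₀} (he : (descent S).InLat m (e : ↥EB))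
    (h0 : ¬ VanishesTo P 1 (S.splitModel.red 0 (e : ↥EB))) :
    ∃ u : Chart.localAt b Q, IsUnit u ∧ (u : ↥(FixF A M w)) = alphaF S e := by
  have hmem : e ∈ (descent S).localRing 0 P :=
    ⟨m, e, 1, he, ⟨(descent S).one_inLat.mono (Nat.zero_le m),
      by rw [S.splitModel.red_one]; exact one_ne_zero, by
        rw [S.splitModel.red_one, P.ord_one]
        show 0 = -((m : ℤ) * S.polesC P)
        rw [hC, mul_zero, neg_zero]⟩, mul_one _⟩
  refine ⟨⟨_, alpha_localRing_le S hi hO hmem⟩, ?_, rfl⟩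
  by_contra hu
  refine h0 ?_
  have h1 := (mem_nonunits_iff_vanishes P).mp ((Chart.red_nonunit_iff hO _).mp hu)
  change VanishesTo P 1 ((comps S i).redF (alphaF S e)) at h1
  rwa [(comps_alpha_of_ne_two S hi (he.2.1 0)).2] at h1

theorem mem_localAt_of_pow {b : Bool} {Q : Ideal ((chart S).R b)} [Q.IsPrime]
    {x : ↥(FixF A M w)} {n : ℕ} (hn : 0 < n) (h : x ^ n ∈ Chart.localAt b Q) :
    x ∈ Chart.localAt b Q := by
  obtain ⟨c, d, hd, e⟩ := h
  have hxd : x * (d : ↥(FixF A M w)) ∈ (chart S).R b := by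
    rw [Chart.mem_R]
    intro V hW hpar
    have hp : (x * (d : ↥(FixF A M w))) ^ n ∈ V := by
      obtain ⟨n, rfl⟩ := Nat.exists_eq_succ_of_ne_zero hn.ne'
      rw [mul_pow, show x ^ (n + 1) * (d : ↥(FixF A M w)) ^ (n + 1) =
        (x ^ (n + 1) * (d : ↥(FixF A M w))) * (d : ↥(FixF A M w)) ^ n by ring, e]
      exact mul_mem ((chart S).mem_R.mp c.2 V hW hpar)
        (pow_mem ((chart S).mem_R.mp d.2 V hW hpar) n)
    rw [← V.valuation_le_one_iff] at hp ⊢
    rw [map_pow] at hp
    exact (pow_le_one_iff hn.ne').mp hp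
  exact ⟨⟨_, hxd⟩, d, hd, rfl⟩

set_option maxHeartbeats 400000 in
/-- **At a cusp of the middle component `j(w² τ) / j(τ)` is a unit.** -/
theorem cusp_unit [IsFunctionField Qbar ↥EB]
    [IsFunctionField (ResidueField A) ↥GG] [CharP ↥GG w]
    {b : Bool} {Q : Ideal ((chart S).R b)} [Q.IsPrime] {P : Place (ResidueField A) ↥GG}
    (hO : (chart S).Centred b Q 1 P.toValuationSubring) (hC : 0 < S.polesC P) :
    ∃ u : Chart.localAt b Q, IsUnit u ∧
      (u : ↥(FixF A M w)) = swF S (jP S) / jP S := by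
  have hj := S.ord_jbar_neg hC
  set den : ↥(descent S).F₀ := (jE S * jqE S) ^ w
  set num : ↥(descent S).F₀ := jqE S ^ (w + 1)
  set f : ↥(descent S).F₀ := jqE S * (jE S ^ w)⁻¹ with hf
  have hjE : (jE S : ↥EB) ≠ 0 := S.jF_ne
  have hn : (descent S).InLat w (num : ↥EB) := by
    refine ⟨num.2, fun j => ?_, mem_rrs_iff.mpr (Or.inr fun P₀ => ?_)⟩
    · simp only [num]; push_cast; exact S.splitModel.int_pow (int_jqF S j) _
    rw [Finsupp.smul_apply, smul_eq_mul]
    simp only [num]; push_cast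
    rw [ord_pow]
    show -((w : ℤ) * S.polesH P₀) ≤ ((w + 1 : ℕ) : ℤ) * P₀.ord S.jqF
    rw [S.polesH_apply]
    push_cast
    rcases lt_or_ge (P₀.ord S.jqF) 0 with h | h
    · obtain ⟨h2, h3, h3'⟩ := ord_poles_le S h
      rw [max_eq_left (by omega), max_eq_left (by omega)]
      nlinarith
    · rw [max_eq_right (a := -P₀.ord S.jqF) (by omega)]
      nlinarith [le_max_right (-P₀.ord S.jF) 0]
  have hd : (descent S).Exact 0 P w (den : ↥EB) := by
    have h1 := (inLat_jj S).pow w
    rw [mul_one] at h1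
    have h2 : S.splitModel.red 0 (den : ↥EB) = (jb * jb ^ w) ^ w := by
      simp only [den]; push_cast
      show S.splitModel.red 0 ((S.jF * S.jqF) ^ w) = _
      rw [S.splitModel.red_pow ((inLat_jj S).2.1 0), S.splitModel.red_mul 0 _ _ (int_jF S 0)
        (int_jqF S 0), red0_jF, red0_jqF]
    have hb := jbar_ne (A := A) (M := M)
    refine ⟨by simp only [den]; push_cast; exact h1,
      h2 ▸ pow_ne_zero _ (mul_ne_zero hb (pow_ne_zero _ hb)), ?_⟩
    rw [h2, ord_pow, P.ord_mul hb (pow_ne_zero _ hb), ord_pow]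
    show _ = -((w : ℤ) * S.polesC P)
    rw [S.polesC_apply, max_eq_left (by omega)]
    push_cast; ring
  have hmem : f ∈ (descent S).localRing 0 P := by
    refine ⟨w, num, den, hn, hd, congrArg Subtype.val (show f * den = num from ?_)⟩
    simp only [f, den, num]
    rw [mul_pow, mul_assoc, inv_mul_cancel_left₀ (pow_ne_zero _ fun e =>
      hjE (congrArg Subtype.val e)), pow_succ']
  have hi : (1 : Fin 3) ≠ 2 := by decide
  set v : Chart.localAt b Q := ⟨_, alpha_localRing_le S hi hO hmem⟩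
  have hv : (v : ↥(FixF A M w)) = Tp S * (jP S ^ w)⁻¹ := by
    show alphaF S f = _
    rw [hf, map_mul, map_inv₀, map_pow, alphaF_jqE, alphaF_jE]
  obtain ⟨hjV, hjr⟩ := comps_jP S 1
  have hju : (comps S 1).Unit (jP S) :=
    Comp.unit_of_redF_ne hjV (hjr ▸ jbar_ne (A := A) (M := M))
  have hvu : IsUnit v := by
    by_contra hnu
    have h1 := (mem_nonunits_iff_vanishes P).mp ((Chart.red_nonunit_iff hO v).mp hnu)
    change VanishesTo P 1 ((comps S 1).redF (v : ↥(FixF A M w))) at h1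
    rw [hv, Comp.redF_mul (comps_Tp S 1).1 (hju.pow w).inv.mem, (hju.pow w).redF_inv,
      Comp.redF_pow hjV, hjr, (comps_Tp S 1).2, Tbar_eq,
      show ![jb, jb, piG (ResidueField A) M w (piG (ResidueField A) M w jb)] 1 = jb from rfl,
      mul_inv_cancel₀ (pow_ne_zero _ (jbar_ne (A := A) (M := M)))] at h1
    exact not_vanishesTo_one h1
  obtain ⟨v', hv'⟩ := hvu.exists_right_inv
  have hsw : ∀ {x : ↥(FixF A M w)}, x ∈ Chart.localAt b Q → swF S x ∈ Chart.localAt b Q := by
    intro x hx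
    obtain ⟨c, d, hd, e⟩ := hx
    refine ⟨swR S b c, swR S b d, fun h => hd ?_, ?_⟩
    · rwa [← mem_swQ, swQ_eq S hO] at h
    · rw [coe_swR, coe_swR, ← e, map_mul]
  set r : ↥(FixF A M w) := swF S (jP S) / jP S with hr
  have hT : Tp S ≠ 0 := (chart S).T_ne
  have hj0 : jP S ≠ 0 := hju.1
  have hsj0 : swF S (jP S) ≠ 0 := (map_ne_zero_iff _ (swF S).injective).mpr hj0
  have e1 : (v : ↥(FixF A M w)) * (v' : ↥(FixF A M w)) = 1 := congrArg Subtype.val hv'
  have hp : r ^ w ∈ Chart.localAt b Q := by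
    have := mul_mem v.2 (hsw v'.2)
    convert this using 1
    have e2 := congrArg (swF S) e1
    rw [map_mul, map_one, hv, map_mul, map_inv₀, map_pow, swF_Tp] at e2
    rw [hv, hr, div_pow]
    field_simp at e2 ⊢
    linear_combination -e2
  have hq : r⁻¹ ^ w ∈ Chart.localAt b Q := by
    have := mul_mem (hsw v.2) v'.2
    convert this using 1
    rw [hv] at e1
    rw [hv, map_mul, map_inv₀, map_pow, swF_Tp, hr, inv_div, div_pow]
    field_simp at e1 ⊢
    linear_combination -e1
  refine ⟨⟨r, mem_localAt_of_pow S (NeZero.pos w) hp⟩, IsUnit.of_mul_eq_one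
    ⟨r⁻¹, mem_localAt_of_pow S (NeZero.pos w) hq⟩ (Subtype.ext ?_), rfl⟩
  show r * r⁻¹ = 1
  exact mul_inv_cancel₀ (div_ne_zero hsj0 hj0)

end Fermat.Agent.SquareOld.Geom
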